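import Mathlib

/-!
# S18, Mathlib-only linear algebra pieces  (LA1 = corank/det, LA2 = echelon bases over a valuation ring)
-/

set_option autoImplicit false

namespace Fermat.Agent.S18

open Polynomial Matrix

theorem la_rank_add_le {k : Type*} [Field k] {m n : Type*} [Fintype m] [Fintype n]
    (A B : Matrix m n k) : (A + B).rank ≤ A.rank + B.rank := by
  unfold Matrix.rank
  rw [Matrix.mulVecLin_add]
  calc Module.finrank k (LinearMap.range (A.mulVecLin + B.mulVecLin))
      ≤ Module.finrank k (LinearMap.range A.mulVecLin ⊔ LinearMap.range B.mulVecLin :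
          Submodule k (m → k)) := by
        apply Submodule.finrank_mono
        rintro _ ⟨x, rfl⟩
        exact Submodule.add_mem_sup ⟨x, rfl⟩ ⟨x, rfl⟩
    _ ≤ _ := Submodule.finrank_add_le_finrank_add_finrank _ _

theorem la_rank_updateRow_le {k : Type*} [Field k] {n : ℕ} (A : Matrix (Fin n) (Fin n) k)
    (i : Fin n) (u : Fin n → k) : (A.updateRow i u).rank ≤ A.rank + 1 := by
  have h : A.updateRow i u = A + Matrix.vecMulVec (Pi.single i 1) (u - A i) := by
    ext a b
    by_cases ha : a = i
    · subst ha
      simp [Matrix.vecMulVec_apply]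
    · simp [Matrix.vecMulVec_apply, Matrix.updateRow_ne ha, Pi.single_eq_of_ne ha]
  rw [h]
  exact (la_rank_add_le _ _).trans (Nat.add_le_add_left (Matrix.rank_vecMulVec_le _ _) _)

/-- **LA1 (corank-det lemma).** If the specialisation `M(c)` of a square polynomial matrix has
corank `≥ r`, then `(X - c)^r ∣ det M`.
Proof: multiply by a constant invertible matrix `P` such that `P * M(c)` has `r` zero rows; these rows
of `P * M` are divisible by `X - c`. -/
theorem pow_dvd_det_of_rank_add_le {k : Type*} [Field k] {n : ℕ}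
    (M : Matrix (Fin n) (Fin n) k[X]) (c : k) (r : ℕ)
    (h : (M.map (Polynomial.eval c)).rank + r ≤ n) : (X - C c) ^ r ∣ M.det := by
  induction r generalizing M with
  | zero => simp
  | succ r ih =>
    have hdet : (M.map (Polynomial.eval c)).det = 0 := by
      by_contra hne
      have hu : IsUnit (M.map (Polynomial.eval c)) :=
        (Matrix.isUnit_iff_isUnit_det _).2 (isUnit_iff_ne_zero.2 hne)
      have := Matrix.rank_of_isUnit _ hu
      rw [Fintype.card_fin] at this
      omega
    obtain ⟨v, hv0, hv⟩ := Matrix.exists_vecMul_eq_zero_iff.2 hdet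
    obtain ⟨i₀, hi₀⟩ := Function.ne_iff.1 hv0
    set row : Fin n → k[X] := ∑ i, (C (v i)) • M i with hrow
    have hroot : ∀ j, (X - C c) ∣ row j := by
      intro j
      rw [Polynomial.dvd_iff_isRoot, Polynomial.IsRoot.def, hrow]
      have := congrFun hv j
      simp only [Matrix.vecMul, dotProduct, Matrix.map_apply, Pi.zero_apply] at this
      simp only [Finset.sum_apply, Pi.smul_apply, smul_eq_mul, Polynomial.eval_finsetSum,
        Polynomial.eval_mul, Polynomial.eval_C]
      exact this
    choose row' hrow' using hroot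
    have h1 : (M.updateRow i₀ row).det = C (v i₀) * M.det := by
      rw [hrow, Matrix.det_updateRow_sum, smul_eq_mul]
    have h2 : row = (X - C c) • row' := by
      ext1 j
      rw [Pi.smul_apply, smul_eq_mul, hrow' j]
    rw [h2, Matrix.det_updateRow_smul] at h1
    have h3 : ((M.updateRow i₀ row').map (Polynomial.eval c)).rank + r ≤ n := by
      rw [Matrix.map_updateRow]
      have := la_rank_updateRow_le (M.map (Polynomial.eval c)) i₀ (Polynomial.eval c ∘ row')
      omega
    obtain ⟨q, hq⟩ := ih _ h3
    have hunit : C (v i₀)⁻¹ * C (v i₀) = (1 : k[X]) := by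
      rw [← C_mul, inv_mul_cancel₀ hi₀, C_1]
    refine ⟨C (v i₀)⁻¹ * q, ?_⟩
    calc M.det = C (v i₀)⁻¹ * (C (v i₀) * M.det) := by rw [← mul_assoc, hunit, one_mul]
      _ = _ := by rw [← h1, hq]; ring

/-- **LA2 (echelon basis over a valuation ring).** Every subspace `W` of `K^ι` has a basis `w` with
entries in `A` which is in reduced echelon form w.r.t. suitable pivots `σ`.
Proof: induction on `dim W`: scale a nonzero vector by its coordinate of maximal valuation, this is the
pivot; `W = K w ⊕ (W ∩ {pivot coordinate = 0})`; afterwards clear the new pivots from `w`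
(or: choose a maximal minor of maximal valuation + Cramer). -/
theorem exists_echelon_basis {K : Type*} [Field K] (A : ValuationSubring K)
    {ι : Type*} [Fintype ι] [DecidableEq ι] (W : Submodule K (ι → K)) :
    ∃ (d : ℕ) (w : Fin d → ι → K) (σ : Fin d → ι),
      (∀ i i', w i (σ i') = if i = i' then 1 else 0) ∧ (∀ i j, w i j ∈ A) ∧
      Submodule.span K (Set.range w) = W := by
  induction hn : Module.finrank K W using Nat.strong_induction_on generalizing W with
  | _ n ih =>
    by_cases hW : W = ⊥
    · refine ⟨0, Fin.elim0, Fin.elim0, fun i => i.elim0, fun i => i.elim0, ?_⟩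
      rw [hW, Submodule.span_eq_bot]
      rintro _ ⟨i, -⟩
      exact i.elim0
    · obtain ⟨u, huW, hu0⟩ := Submodule.exists_mem_ne_zero_of_ne_bot hW
      obtain ⟨j₁, hj₁⟩ := Function.ne_iff.1 hu0
      obtain ⟨j₀, -, hj₀⟩ := Finset.exists_max_image Finset.univ (fun j => A.valuation (u j))
        ⟨j₁, Finset.mem_univ _⟩
      have huj₀ : u j₀ ≠ 0 := by
        intro h
        have h1 := hj₀ j₁ (Finset.mem_univ _)
        simp only [h, map_zero, le_zero_iff, map_eq_zero] at h1
        exact hj₁ h1
      set w₀ : ι → K := (u j₀)⁻¹ • u with hw₀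
      have hw₀W : w₀ ∈ W := W.smul_mem _ huW
      have hw₀A : ∀ j, w₀ j ∈ A := by
        intro j
        rw [← A.valuation_le_one_iff, hw₀, Pi.smul_apply, smul_eq_mul, map_mul, map_inv₀]
        have hpos : A.valuation (u j₀) ≠ 0 := by simpa using huj₀
        rw [inv_mul_le_iff₀ (zero_lt_iff.2 hpos), mul_one]
        exact hj₀ j (Finset.mem_univ _)
      have hw₀j : w₀ j₀ = 1 := by
        rw [hw₀, Pi.smul_apply, smul_eq_mul, inv_mul_cancel₀ huj₀]
      set W' : Submodule K (ι → K) := W ⊓ LinearMap.ker (LinearMap.proj (R := K) (φ := fun _ => K) j₀)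
        with hW'
      have hmem' : ∀ x, x ∈ W' ↔ x ∈ W ∧ x j₀ = 0 := by
        intro x
        rw [hW', Submodule.mem_inf, LinearMap.mem_ker, LinearMap.proj_apply]
      have hlt : W' < W := by
        refine lt_of_le_of_ne inf_le_left fun h => ?_
        have := (hmem' w₀).1 (h ▸ hw₀W)
        rw [hw₀j] at this
        exact one_ne_zero this.2
      have hfr : Module.finrank K W' < n := hn ▸ Submodule.finrank_lt_finrank_of_lt hlt
      obtain ⟨d, w', σ', hech, hA', hspan⟩ := ih _ hfr W' rfl
      have hw'W : ∀ i, w' i ∈ W' := fun i => hspan ▸ Submodule.subset_span ⟨i, rfl⟩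
      set w₁ : ι → K := w₀ - ∑ i, w₀ (σ' i) • w' i with hw₁
      have hw₁j : w₁ j₀ = 1 := by
        rw [hw₁, Pi.sub_apply, Finset.sum_apply, hw₀j]
        simp only [Pi.smul_apply, smul_eq_mul, ((hmem' _).1 (hw'W _)).2, mul_zero,
          Finset.sum_const_zero, sub_zero]
      have hw₁σ : ∀ i, w₁ (σ' i) = 0 := by
        intro i
        rw [hw₁, Pi.sub_apply, Finset.sum_apply]
        simp only [Pi.smul_apply, smul_eq_mul, hech, mul_ite, mul_one, mul_zero,
          Finset.sum_ite_eq', Finset.mem_univ, if_true, sub_self]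
      have hw₁A : ∀ j, w₁ j ∈ A := by
        intro j
        rw [hw₁, Pi.sub_apply, Finset.sum_apply]
        refine A.sub_mem (hw₀A j) (A.toSubring.sum_mem fun i _ => ?_)
        rw [Pi.smul_apply, smul_eq_mul]
        exact A.mul_mem _ _ (hw₀A _) (hA' i j)
      have hw₁W : w₁ ∈ W := by
        rw [hw₁]
        refine W.sub_mem hw₀W (W.sum_mem fun i _ => W.smul_mem _ ?_)
        exact ((hmem' _).1 (hw'W i)).1
      refine ⟨d + 1, Fin.cons w₁ w', Fin.cons j₀ σ', ?_, ?_, ?_⟩
      · intro i i'
        refine Fin.cases ?_ (fun i => ?_) i <;> refine Fin.cases ?_ (fun i' => ?_) i'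
        · simp [hw₁j]
        · simp only [Fin.cons_zero, Fin.cons_succ, hw₁σ]
          rw [if_neg (Fin.succ_ne_zero i').symm]
        · simp only [Fin.cons_zero, Fin.cons_succ, ((hmem' _).1 (hw'W _)).2]
          rw [if_neg (Fin.succ_ne_zero i)]
        · simp only [Fin.cons_succ, hech, Fin.succ_inj]
      · intro i j
        refine Fin.cases ?_ (fun i => ?_) i
        · simpa using hw₁A j
        · simpa using hA' i j
      · rw [Fin.range_cons, Submodule.span_insert, hspan]
        apply le_antisymm
        · exact sup_le ((Submodule.span_singleton_le_iff_mem _ _).2 hw₁W) hlt.le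
        · intro x hx
          have h1 : x - x j₀ • w₁ ∈ W' := by
            rw [hmem']
            refine ⟨W.sub_mem hx (W.smul_mem _ hw₁W), ?_⟩
            rw [Pi.sub_apply, Pi.smul_apply, smul_eq_mul, hw₁j, mul_one, sub_self]
          have h2 : x = x j₀ • w₁ + (x - x j₀ • w₁) := by abel
          rw [h2]
          exact Submodule.add_mem_sup (Submodule.smul_mem _ _ (Submodule.mem_span_singleton_self _)) h1

end Fermat.Agent.S18
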