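import Fermat.Agent.S18.Basic
import Fermat.Agent.S18.LinAlg

/-!
# S18, pieces OF (orthonormal frames), DR (dimension of reductions), IR (reduction of integral elements)
-/

set_option autoImplicit false

namespace Fermat.Agent.S18

open Polynomial IntermediateField Fermat.Agent.S24

variable {K F k Fb : Type*} [Field K] [Field F] [Algebra K F] [Field k] [Field Fb] [Algebra k Fb]
variable (S : RedSetting K F k Fb)

namespace RedSetting

/-- a nonzero finite family of polynomials has a constant multiple with coefficients in `A` and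
nonzero reduction. -/
theorem exists_scale_polys {ι : Type*} [Fintype ι] (p : ι → K[X]) (hp : p ≠ 0) :
    ∃ c : K, c ≠ 0 ∧ (∀ i n, (C c * p i).coeff n ∈ S.A) ∧ (fun i => S.rp (C c * p i)) ≠ 0 := by
  have ha : (fun j : (i : ι) × Fin ((p i).natDegree + 1) => (p j.1).coeff j.2) ≠ 0 := by
    intro h
    apply hp
    funext i
    have h1 := congrFun h ⟨i, ⟨(p i).natDegree, Nat.lt_succ_self _⟩⟩
    exact leadingCoeff_eq_zero.mp h1
  obtain ⟨c, hc, h1, j, hj⟩ := S.exists_scale_family _ ha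
  refine ⟨c, hc, fun i n => ?_, fun h0 => ?_⟩
  · rw [coeff_C_mul]
    by_cases hn : n < (p i).natDegree + 1
    · exact h1 ⟨i, ⟨n, hn⟩⟩
    · rw [coeff_eq_zero_of_natDegree_lt (by omega), mul_zero]
      exact zero_mem _
  · apply hj
    have h2 := congrArg (fun q => q.coeff (j.2 : ℕ)) (congrFun h0 j.1)
    simpa only [coeff_rp, coeff_C_mul, Pi.zero_apply, coeff_zero] using h2

theorem rd_sum_aeval {x : F} (hx : x ∈ S.V) {ι : Type*} [Fintype ι] (e : ι → F)
    (he : ∀ i, e i ∈ S.V) (p : ι → K[X]) (hp : ∀ i n, (p i).coeff n ∈ S.A) :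
    ∑ i, aeval x (p i) * e i ∈ S.V ∧
    S.rd (∑ i, aeval x (p i) * e i) = ∑ i, aeval (S.rd x) (S.rp (p i)) * S.rd (e i) := by
  have hmem : ∀ i ∈ Finset.univ, aeval x (p i) * e i ∈ S.V :=
    fun i _ => mul_mem (S.aeval_mem hx (hp i)) (he i)
  refine ⟨sum_mem hmem, ?_⟩
  rw [S.rd_sum _ _ hmem]
  refine Finset.sum_congr rfl fun i _ => ?_
  rw [S.rd_mul (S.aeval_mem hx (hp i)) (he i), S.rd_aeval hx (hp i)]

theorem sum_aeval_C_mul {x : F} {ι : Type*} [Fintype ι] (e : ι → F) (p : ι → K[X]) (r : K[X]) :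
    ∑ i, aeval x (r * p i) * e i = aeval x r * ∑ i, aeval x (p i) * e i := by
  rw [Finset.mul_sum]
  refine Finset.sum_congr rfl fun i _ => ?_
  rw [map_mul, mul_assoc]

theorem coeff_mem_of_sum_mem {x : F} (hx : x ∈ S.V) {ι : Type*} [Fintype ι] (e : ι → F)
    (he : ∀ i, e i ∈ S.V) (hind : PolyIndep k (S.rd x) (fun i => S.rd (e i)))
    (p : ι → K[X]) (h : ∑ i, aeval x (p i) * e i ∈ S.V) : ∀ i n, (p i).coeff n ∈ S.A := by
  by_cases hp : p = 0
  · intro i n
    rw [hp, Pi.zero_apply, coeff_zero]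
    exact zero_mem _
  obtain ⟨c, hc, h1, h2⟩ := S.exists_scale_polys p hp
  have h3 := (S.rd_sum_aeval hx e he (fun i => C c * p i) h1).2
  by_cases hinv : c⁻¹ ∈ S.A
  · intro i n
    have h4 : (p i).coeff n = c⁻¹ * (C c * p i).coeff n := by
      rw [coeff_C_mul, inv_mul_cancel_left₀ hc]
    rw [h4]
    exact mul_mem hinv (h1 i n)
  · exfalso
    have hcA : c ∈ S.A := by
      have := S.A.mem_or_inv_mem c
      tauto
    apply h2
    apply hind
    rw [← h3, sum_aeval_C_mul, aeval_C, S.rd_mul (S.map_mem _ hcA) h, S.rd_algebraMap hcA,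
      (S.rc_eq_zero_iff hcA).mpr (Or.inr hinv), map_zero, zero_mul]

theorem polyIndep_of_rd {x : F} (hx : x ∈ S.V) {ι : Type*} [Fintype ι] (e : ι → F)
    (he : ∀ i, e i ∈ S.V) (hind : PolyIndep k (S.rd x) (fun i => S.rd (e i))) :
    PolyIndep K x e := by
  intro p h0
  by_contra hp
  obtain ⟨c, hc, h1, h2⟩ := S.exists_scale_polys p hp
  have h3 := (S.rd_sum_aeval hx e he (fun i => C c * p i) h1).2
  apply h2
  apply hind
  rw [← h3, sum_aeval_C_mul, h0, mul_zero, S.rd_zero]

/-- common denominators in `K(x)`. -/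
theorem _root_.Fermat.Agent.S18.exists_common_denom_adjoin {E L : Type*} [Field E] [Field L]
    [Algebra E L] {y : L} (hy : Transcendental E y) {ι : Type*} [Fintype ι] (c : ι → E⟮y⟯) :
    ∃ (q : E[X]) (p : ι → E[X]), q ≠ 0 ∧ ∀ i, aeval y q * (c i : L) = aeval y (p i) := by
  classical
  have h1 : ∀ i, ∃ r s : E[X], s ≠ 0 ∧ aeval y s * (c i : L) = aeval y r := by
    intro i
    obtain ⟨r, s, hrs⟩ := (mem_adjoin_simple_iff E (c i : L)).mp (c i).2
    by_cases hs : s = 0
    · refine ⟨0, 1, one_ne_zero, ?_⟩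
      rw [hrs, hs, map_zero, div_zero, mul_zero]
    · refine ⟨r, s, hs, ?_⟩
      have hs' : aeval y s ≠ 0 := fun h => hs ((transcendental_iff.mp hy) s h)
      rw [hrs, mul_div_cancel₀ _ hs']
  choose r s hs hrs using h1
  refine ⟨∏ i, s i, fun i => r i * ∏ j ∈ Finset.univ.erase i, s j,
    Finset.prod_ne_zero_iff.mpr fun i _ => hs i, fun i => ?_⟩
  rw [← Finset.mul_prod_erase Finset.univ s (Finset.mem_univ i), map_mul, map_mul, ← hrs i]
  ring

theorem _root_.Fermat.Agent.S18.linearIndependent_of_polyIndep {E L : Type*} [Field E] [Field L]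
    [Algebra E L] {y : L} (hy : Transcendental E y) {ι : Type*} [Fintype ι] (e : ι → L)
    (hind : PolyIndep E y e) : LinearIndependent E⟮y⟯ e := by
  rw [Fintype.linearIndependent_iff]
  intro g hg i
  obtain ⟨q, p, hq, hp⟩ := exists_common_denom_adjoin hy g
  have h1 : ∑ i, aeval y (p i) * e i = 0 := by
    have h2 : ∑ i, aeval y (p i) * e i = aeval y q * ∑ i, g i • e i := by
      rw [Finset.mul_sum]
      refine Finset.sum_congr rfl fun i _ => ?_
      rw [← hp i, mul_assoc]
      rfl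
    rw [h2, hg, mul_zero]
  have h3 := congrFun (hind p h1) i
  have h4 := hp i
  rw [h3, Pi.zero_apply, map_zero] at h4
  have hq' : aeval y q ≠ 0 := fun h => hq ((transcendental_iff.mp hy) q h)
  have h5 : (g i : L) = 0 := (mul_eq_zero.mp h4).resolve_left hq'
  exact Subtype.ext h5

theorem exists_mul_eq_sum {x : F} (hx : S.Coord x) (e : Fin (Module.finrank K⟮x⟯ F) → F)
    (he : ∀ i, e i ∈ S.V) (hind : PolyIndep k (S.rd x) (fun i => S.rd (e i))) (f : F) :
    ∃ (q : K[X]) (p : Fin (Module.finrank K⟮x⟯ F) → K[X]), q ≠ 0 ∧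
      aeval x q * f = ∑ i, aeval x (p i) * e i := by
  have htr : Transcendental K x := S.transcendental_of_rd hx.mem hx.trans
  have hli : LinearIndependent K⟮x⟯ e :=
    linearIndependent_of_polyIndep htr e (S.polyIndep_of_rd hx.mem e he hind)
  have := hx.fin
  have hspan : Submodule.span K⟮x⟯ (Set.range e) = ⊤ :=
    hli.span_eq_top_of_card_eq_finrank' (by rw [Fintype.card_fin])
  have hf : f ∈ Submodule.span K⟮x⟯ (Set.range e) := by rw [hspan]; trivial
  obtain ⟨c, hc⟩ := (Submodule.mem_span_range_iff_exists_fun _).mp hf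
  obtain ⟨q, p, hq, hp⟩ := exists_common_denom_adjoin htr c
  refine ⟨q, p, hq, ?_⟩
  rw [← hc, Finset.mul_sum]
  refine Finset.sum_congr rfl fun i _ => ?_
  rw [← hp i, mul_assoc]
  rfl

theorem exists_frame {x : F} (hx : S.Coord x) :
    ∃ e : Fin (Module.finrank K⟮x⟯ F) → F, (∀ i, e i ∈ S.V) ∧
      PolyIndep k (S.rd x) (fun i => S.rd (e i)) := by
  have := hx.finb
  let b := Module.finBasisOfFinrankEq k⟮S.rd x⟯ Fb hx.finrank_eq.symm
  choose g hgV hg using S.exists_rd_eq
  refine ⟨fun i => g (b i), fun i => hgV _, ?_⟩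
  intro p h0
  simp only [hg] at h0
  have h1 : ∑ i, (⟨aeval (S.rd x) (p i), by
      rw [mem_adjoin_simple_iff]
      exact ⟨p i, 1, by simp⟩⟩ : k⟮S.rd x⟯) • b i = 0 := h0
  have h2 := (Fintype.linearIndependent_iff.mp b.linearIndependent) _ h1
  funext i
  have h3 := congrArg Subtype.val (h2 i)
  exact (transcendental_iff.mp hx.trans) _ h3

theorem _root_.Fermat.Agent.S18.mem_polyRing_iff {E L : Type*} [Field E] [Field L] [Algebra E L]
    {y z : L} : z ∈ polyRing E y ↔ ∃ r : E[X], aeval y r = z := by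
  change z ∈ Algebra.adjoin E {y} ↔ _
  rw [Algebra.adjoin_singleton_eq_range_aeval]
  rfl

/-- a common normalised denominator for a finite set of elements of `F` w.r.t. a frame. -/
theorem exists_common_denom {x : F} (hx : S.Coord x) (e : Fin (Module.finrank K⟮x⟯ F) → F)
    (he : ∀ i, e i ∈ S.V) (hind : PolyIndep k (S.rd x) (fun i => S.rd (e i))) (G : Finset F) :
    ∃ q : K[X], (∀ n, q.coeff n ∈ S.A) ∧ S.rp q ≠ 0 ∧
      ∀ g ∈ G, ∃ p : Fin (Module.finrank K⟮x⟯ F) → K[X],
        aeval x q * g = ∑ i, aeval x (p i) * e i := by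
  classical
  have h1 : ∃ q : K[X], q ≠ 0 ∧ ∀ g ∈ G, ∃ p : Fin (Module.finrank K⟮x⟯ F) → K[X],
      aeval x q * g = ∑ i, aeval x (p i) * e i := by
    induction G using Finset.induction_on with
    | empty => exact ⟨1, one_ne_zero, by simp⟩
    | insert a G ha ih =>
      obtain ⟨q, hq, h⟩ := ih
      obtain ⟨q', p', hq', h'⟩ := S.exists_mul_eq_sum hx e he hind a
      refine ⟨q * q', mul_ne_zero hq hq', fun g hg => ?_⟩
      rcases Finset.mem_insert.mp hg with rfl | hg
      · exact ⟨fun i => q * p' i, by rw [sum_aeval_C_mul, ← h', map_mul, mul_assoc]⟩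
      · obtain ⟨p, hp⟩ := h g hg
        exact ⟨fun i => q' * p i, by rw [sum_aeval_C_mul, ← hp, map_mul]; ring⟩
  obtain ⟨q, hq, h⟩ := h1
  obtain ⟨c, hc, h2, h3⟩ := S.exists_scale_poly hq
  refine ⟨C c * q, h2, h3, fun g hg => ?_⟩
  obtain ⟨p, hp⟩ := h g hg
  exact ⟨fun i => C c * p i, by rw [sum_aeval_C_mul, ← hp, map_mul, mul_assoc]⟩

theorem rd_mem_intRing {x : F} (hx : S.Coord x) {h : F} (hV : h ∈ S.V) (hint : h ∈ intRing K x) :
    S.rd h ∈ intRing k (S.rd x) := by
  classical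
  obtain ⟨e, he, hind⟩ := S.exists_frame hx
  have hint' : IsIntegral (polyRing K x) h := hint
  obtain ⟨G, hG⟩ := hint'.fg_adjoin_singleton
  obtain ⟨q, hqA, hq0, hq⟩ := S.exists_common_denom hx e he hind G
  have hall : ∀ y ∈ Submodule.span (polyRing K x) (G : Set F),
      ∃ p : Fin (Module.finrank K⟮x⟯ F) → K[X], aeval x q * y = ∑ i, aeval x (p i) * e i := by
    intro y hy
    induction hy using Submodule.span_induction with
    | mem y hy => exact hq y hy
    | zero => exact ⟨0, by simp⟩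
    | add y z _ _ hy hz =>
      obtain ⟨p, hp⟩ := hy
      obtain ⟨p', hp'⟩ := hz
      exact ⟨p + p', by simp [mul_add, hp, hp', add_mul, Finset.sum_add_distrib]⟩
    | smul r y _ hy =>
      obtain ⟨p, hp⟩ := hy
      obtain ⟨r', hr'⟩ : ∃ r' : K[X], aeval x r' = (r : F) := by
        exact mem_polyRing_iff.mp r.2
      refine ⟨fun i => r' * p i, ?_⟩
      rw [sum_aeval_C_mul, ← hp, hr']
      change aeval x q * ((r : F) * y) = _
      ring
  have hpow : ∀ n : ℕ, ∃ p : Fin (Module.finrank K⟮x⟯ F) → K[X],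
      aeval x q * h ^ n = ∑ i, aeval x (p i) * e i := fun n => hall _ (by
    rw [hG, Subalgebra.mem_toSubmodule]
    exact pow_mem (Algebra.self_mem_adjoin_singleton _ _) n)
  have hqb : aeval (S.rd x) (S.rp q) ≠ 0 := fun h0 => hq0 (transcendental_iff.mp hx.trans _ h0)
  let M : Submodule (polyRing k (S.rd x)) Fb := Submodule.span _ (Set.range fun i => S.rd (e i))
  let N : Submodule (polyRing k (S.rd x)) Fb :=
    Submodule.span _ (Set.range fun n : ℕ => aeval (S.rd x) (S.rp q) * S.rd h ^ n)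
  have hNM : N ≤ M := by
    rw [Submodule.span_le]
    rintro _ ⟨n, rfl⟩
    obtain ⟨p, hp⟩ := hpow n
    have hmem : ∑ i, aeval x (p i) * e i ∈ S.V := by
      rw [← hp]
      exact mul_mem (S.aeval_mem hx.mem hqA) (pow_mem hV n)
    have hpA := S.coeff_mem_of_sum_mem hx.mem e he hind p hmem
    have h1 := (S.rd_sum_aeval hx.mem e he p hpA).2
    rw [← hp, S.rd_mul (S.aeval_mem hx.mem hqA) (pow_mem hV n), S.rd_aeval hx.mem hqA,
      S.rd_pow hV] at h1
    change aeval (S.rd x) (S.rp q) * S.rd h ^ n ∈ M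
    rw [h1]
    refine sum_mem fun i _ => ?_
    have h2 : aeval (S.rd x) (S.rp (p i)) ∈ polyRing k (S.rd x) := mem_polyRing_iff.mpr ⟨_, rfl⟩
    exact M.smul_mem ⟨_, h2⟩ (Submodule.subset_span ⟨i, rfl⟩)
  have hnoeth : IsNoetherianRing (polyRing k (S.rd x)) :=
    isNoetherianRing_of_fg (Subalgebra.fg_def.mpr ⟨{S.rd x}, Set.finite_singleton _, rfl⟩)
  have hNfg : N.FG := Submodule.FG.of_le (Submodule.fg_span (Set.finite_range _)) hNM
  refine isIntegral_of_smul_mem_submodule N ?_ hNfg (S.rd h) ?_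
  · intro hbot
    have h1 : aeval (S.rd x) (S.rp q) * S.rd h ^ 0 ∈ N := Submodule.subset_span ⟨0, rfl⟩
    rw [hbot, Submodule.mem_bot, pow_zero, mul_one] at h1
    exact hqb h1
  · intro y hy
    induction hy using Submodule.span_induction with
    | mem y hy =>
      obtain ⟨n, rfl⟩ := hy
      have h1 : S.rd h • (aeval (S.rd x) (S.rp q) * S.rd h ^ n) =
          aeval (S.rd x) (S.rp q) * S.rd h ^ (n + 1) := by
        rw [smul_eq_mul, pow_succ]; ring
      rw [h1]
      exact Submodule.subset_span ⟨n + 1, rfl⟩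
    | zero => rw [smul_zero]; exact zero_mem _
    | add y z _ _ hy hz => rw [smul_add]; exact add_mem hy hz
    | smul r y _ hy =>
      rw [smul_comm]
      exact N.smul_mem r hy

/-- the polynomial with prescribed coefficients in degrees `≤ D`. -/
noncomputable def _root_.Fermat.Agent.S18.drP {E : Type*} [Field E] {μ D : ℕ}
    (v : Fin μ × Fin (D + 1) → E) (i : Fin μ) : E[X] :=
  ∑ n : Fin (D + 1), monomial (n : ℕ) (v (i, n))

theorem _root_.Fermat.Agent.S18.coeff_drP {E : Type*} [Field E] {μ D : ℕ}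
    (v : Fin μ × Fin (D + 1) → E) (i : Fin μ) (m : ℕ) :
    (drP v i).coeff m = if h : m < D + 1 then v (i, ⟨m, h⟩) else 0 := by
  rw [drP, finsetSum_coeff]
  simp only [coeff_monomial]
  split_ifs with h
  · rw [Finset.sum_eq_single (⟨m, h⟩ : Fin (D + 1))]
    · simp
    · intro n _ hn
      rw [if_neg]
      intro h2
      exact hn (Fin.ext h2)
    · intro h2
      exact absurd (Finset.mem_univ _) h2
  · refine Finset.sum_eq_zero fun n _ => ?_
    rw [if_neg]
    intro h2
    exact h (h2 ▸ n.2)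

theorem _root_.Fermat.Agent.S18.drP_add {E : Type*} [Field E] {μ D : ℕ}
    (v v' : Fin μ × Fin (D + 1) → E) (i : Fin μ) : drP (v + v') i = drP v i + drP v' i := by
  simp [drP, Finset.sum_add_distrib]

theorem _root_.Fermat.Agent.S18.drP_smul {E : Type*} [Field E] {μ D : ℕ} (c : E)
    (v : Fin μ × Fin (D + 1) → E) (i : Fin μ) : drP (c • v) i = C c * drP v i := by
  simp [drP, Finset.mul_sum, C_mul_monomial]

theorem _root_.Fermat.Agent.S18.drP_coeff {E : Type*} [Field E] {μ D : ℕ}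
    (p : Fin μ → E[X]) (hp : ∀ i, (p i).natDegree ≤ D) (i : Fin μ) :
    drP (fun jn : Fin μ × Fin (D + 1) => (p jn.1).coeff jn.2) i = p i := by
  ext m
  rw [coeff_drP]
  split_ifs with h
  · rfl
  · rw [coeff_eq_zero_of_natDegree_lt (lt_of_le_of_lt (hp i) (by omega))]

theorem exists_orthobasis {x : F} (hx : S.Coord x) (W : Submodule K F) [FiniteDimensional K W] :
    ∃ w : Fin (Module.finrank K W) → F, (∀ i, w i ∈ W) ∧ (∀ i, w i ∈ S.V) ∧
      LinearIndependent k (fun i => S.rd (w i)) ∧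
      ∀ h ∈ W, h ∈ S.V → ∃ c : Fin (Module.finrank K W) → K, (∀ i, c i ∈ S.A) ∧
        h = ∑ i, c i • w i := by
  classical
  obtain ⟨e, he, hind⟩ := S.exists_frame hx
  have hindK := S.polyIndep_of_rd hx.mem e he hind
  let b := Module.finBasis K W
  obtain ⟨q, hqA, hq0, hq⟩ := S.exists_common_denom hx e he hind
    (Finset.univ.image (fun j => (b j : F)))
  have hqb : aeval (S.rd x) (S.rp q) ≠ 0 := fun h0 => hq0 (transcendental_iff.mp hx.trans _ h0)
  have hqV : aeval x q ∈ S.V := S.aeval_mem hx.mem hqA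
  have hqrd : S.rd (aeval x q) ≠ 0 := by rw [S.rd_aeval hx.mem hqA]; exact hqb
  have hq0' : aeval x q ≠ 0 := by
    intro h0
    rw [h0, S.rd_zero] at hqrd
    exact hqrd rfl
  have hqinv : (aeval x q)⁻¹ ∈ S.V := S.inv_mem_of_rd_ne_zero hqrd
  choose pb hpb using (fun j => hq (b j) (Finset.mem_image_of_mem _ (Finset.mem_univ j)))
  obtain ⟨D, hD⟩ : ∃ D : ℕ, ∀ j i, (pb j i).natDegree ≤ D :=
    ⟨Finset.univ.sup (fun ji : Fin (Module.finrank K W) × Fin (Module.finrank K⟮x⟯ F) =>
      (pb ji.1 ji.2).natDegree), fun j i => Finset.le_sup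
        (f := fun ji : Fin (Module.finrank K W) × Fin (Module.finrank K⟮x⟯ F) =>
          (pb ji.1 ji.2).natDegree) (Finset.mem_univ (j, i))⟩
  have hW : ∀ h ∈ W, ∃ p : Fin (Module.finrank K⟮x⟯ F) → K[X], (∀ i, (p i).natDegree ≤ D) ∧
      aeval x q * h = ∑ i, aeval x (p i) * e i := by
    intro h hh
    refine ⟨fun i => ∑ j, C (b.repr ⟨h, hh⟩ j) * pb j i, fun i => ?_, ?_⟩
    · refine natDegree_sum_le_of_forall_le _ _ fun j _ => ?_
      exact (natDegree_C_mul_le _ _).trans (hD j i)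
    · have h1 : h = ∑ j, b.repr ⟨h, hh⟩ j • (b j : F) := by
        have h2 := congrArg (Subtype.val) (b.sum_repr ⟨h, hh⟩)
        change _ = h at h2
        refine h2.symm.trans ?_
        rw [Submodule.coe_sum]
        rfl
      conv_lhs => rw [h1]
      rw [Finset.mul_sum]
      simp only [map_sum, Finset.sum_mul]
      rw [Finset.sum_comm]
      refine Finset.sum_congr rfl fun j _ => ?_
      rw [mul_smul_comm, hpb j, Finset.smul_sum]
      refine Finset.sum_congr rfl fun i _ => ?_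
      rw [map_mul, aeval_C, Algebra.smul_def, mul_assoc]
  let Φ : (Fin (Module.finrank K⟮x⟯ F) × Fin (D + 1) → K) →ₗ[K] F :=
    { toFun := fun v => ∑ i, aeval x (drP v i) * e i
      map_add' := fun v v' => by
        simp only [drP_add, map_add, add_mul, Finset.sum_add_distrib]
      map_smul' := fun c v => by
        simp only [drP_smul, RingHom.id_apply]
        rw [sum_aeval_C_mul, aeval_C, Algebra.smul_def] }
  have hΦ : ∀ v, Φ v = ∑ i, aeval x (drP v i) * e i := fun v => rfl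
  have hΦinj : ∀ v, Φ v = 0 → v = 0 := by
    intro v hv
    have h1 := hindK _ hv
    funext ⟨i, n⟩
    have h2 := congrArg (fun r => r.coeff (n : ℕ)) (congrFun h1 i)
    simp only [coeff_drP, n.2, dif_pos, Pi.zero_apply, coeff_zero] at h2
    exact h2
  let W' : Submodule K (Fin (Module.finrank K⟮x⟯ F) × Fin (D + 1) → K) :=
    Submodule.comap Φ (W.map (LinearMap.mulLeft K (aeval x q)))
  have hW' : ∀ v, v ∈ W' ↔ ∃ h ∈ W, aeval x q * h = Φ v := by
    intro v
    rfl
  obtain ⟨d, w', σ, hδ, hwA, hspan⟩ := exists_echelon_basis S.A W'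
  have hw'mem : ∀ i, w' i ∈ W' := fun i => by
    rw [← hspan]
    exact Submodule.subset_span ⟨i, rfl⟩
  have hcoefA : ∀ i j n, (drP (w' i) j).coeff n ∈ S.A := by
    intro i j n
    rw [coeff_drP]
    split_ifs
    · exact hwA _ _
    · exact zero_mem _
  have hwW : ∀ i, (aeval x q)⁻¹ * Φ (w' i) ∈ W := by
    intro i
    obtain ⟨h, hh, h1⟩ := (hW' _).mp (hw'mem i)
    rw [← h1, inv_mul_cancel_left₀ hq0']
    exact hh
  have hΦV : ∀ i, Φ (w' i) ∈ S.V := fun i => (S.rd_sum_aeval hx.mem e he _ (hcoefA i)).1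
  have hrep : ∀ h ∈ W, ∃ c : Fin d → K, h = ∑ i, c i • ((aeval x q)⁻¹ * Φ (w' i)) ∧
      (h ∈ S.V → ∀ i, c i ∈ S.A) := by
    intro h hh
    obtain ⟨p, hpD, hp⟩ := hW h hh
    have hv : Φ (fun jn => (p jn.1).coeff jn.2) = aeval x q * h := by
      rw [hΦ, hp]
      refine Finset.sum_congr rfl fun i _ => ?_
      rw [drP_coeff p hpD]
    have hvW : (fun jn : Fin (Module.finrank K⟮x⟯ F) × Fin (D + 1) => (p jn.1).coeff jn.2) ∈ W' :=
      (hW' _).mpr ⟨h, hh, hv.symm⟩
    rw [← hspan] at hvW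
    obtain ⟨c, hc⟩ := (Submodule.mem_span_range_iff_exists_fun _).mp hvW
    refine ⟨c, ?_, fun hV i₀ => ?_⟩
    · have h1 : h = (aeval x q)⁻¹ * Φ (∑ i, c i • w' i) := by
        rw [hc, hv, inv_mul_cancel_left₀ hq0']
      rw [h1, map_sum, Finset.mul_sum]
      refine Finset.sum_congr rfl fun i _ => ?_
      rw [map_smul, mul_smul_comm]
    · have h1 : c i₀ = (p (σ i₀).1).coeff (σ i₀).2 := by
        have h2 := congrFun hc (σ i₀)
        rw [← h2, Finset.sum_apply]
        simp only [Pi.smul_apply, hδ, smul_eq_mul, mul_ite, mul_one, mul_zero]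
        rw [Finset.sum_ite_eq' Finset.univ i₀ c, if_pos (Finset.mem_univ _)]
      rw [h1]
      refine S.coeff_mem_of_sum_mem hx.mem e he hind p ?_ _ _
      rw [← hp]
      exact mul_mem hqV hV
  have hliK : LinearIndependent K (fun i => (aeval x q)⁻¹ * Φ (w' i)) := by
    rw [Fintype.linearIndependent_iff]
    intro c hc i₀
    have h1 : Φ (∑ i, c i • w' i) = 0 := by
      have h2 : (aeval x q)⁻¹ * Φ (∑ i, c i • w' i) = 0 := by
        rw [← hc, map_sum, Finset.mul_sum]
        refine Finset.sum_congr rfl fun i _ => ?_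
        rw [map_smul, mul_smul_comm]
      exact (mul_eq_zero.mp h2).resolve_left (inv_ne_zero hq0')
    have h3 := congrFun (hΦinj _ h1) (σ i₀)
    rw [Finset.sum_apply] at h3
    simp only [Pi.smul_apply, hδ, smul_eq_mul, mul_ite, mul_one, mul_zero, Pi.zero_apply] at h3
    rw [Finset.sum_ite_eq' Finset.univ i₀ c, if_pos (Finset.mem_univ _)] at h3
    exact h3
  have hd : Module.finrank K W = d := by
    have h1 : Submodule.span K (Set.range fun i => (aeval x q)⁻¹ * Φ (w' i)) = W := by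
      apply le_antisymm
      · rw [Submodule.span_le]
        rintro _ ⟨i, rfl⟩
        exact hwW i
      · intro h hh
        obtain ⟨c, hc, -⟩ := hrep h hh
        rw [hc]
        exact sum_mem fun i _ => Submodule.smul_mem _ _ (Submodule.subset_span ⟨i, rfl⟩)
    rw [← h1, finrank_span_eq_card hliK, Fintype.card_fin]
  subst hd
  refine ⟨fun i => (aeval x q)⁻¹ * Φ (w' i), hwW, fun i => mul_mem hqinv (hΦV i), ?_, ?_⟩
  · rw [Fintype.linearIndependent_iff]
    intro lam hlam i₀
    have hrd : ∀ i, S.rd ((aeval x q)⁻¹ * Φ (w' i)) = (S.rd (aeval x q))⁻¹ *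
        ∑ j, aeval (S.rd x) (S.rp (drP (w' i) j)) * S.rd (e j) := by
      intro i
      rw [S.rd_mul hqinv (hΦV i), S.rd_inv hqrd, hΦ, (S.rd_sum_aeval hx.mem e he _ (hcoefA i)).2]
    have h1 : ∑ j, aeval (S.rd x) (∑ i, C (lam i) * S.rp (drP (w' i) j)) * S.rd (e j) = 0 := by
      have h2 : (S.rd (aeval x q))⁻¹ *
          ∑ j, aeval (S.rd x) (∑ i, C (lam i) * S.rp (drP (w' i) j)) * S.rd (e j) = 0 := by
        rw [← hlam]
        simp only [hrd, map_sum, Finset.sum_mul]
        rw [Finset.sum_comm, Finset.mul_sum]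
        refine Finset.sum_congr rfl fun i _ => ?_
        rw [← mul_smul_comm, Finset.smul_sum]
        congr 1
        refine Finset.sum_congr rfl fun j _ => ?_
        rw [map_mul, aeval_C, Algebra.smul_def, mul_assoc]
      exact (mul_eq_zero.mp h2).resolve_left (inv_ne_zero hqrd)
    have h3 := congrArg (fun r => r.coeff ((σ i₀).2 : ℕ)) (congrFun (hind _ h1) (σ i₀).1)
    simp only [finsetSum_coeff, coeff_C_mul, coeff_rp, coeff_drP, (σ i₀).2.2, dif_pos,
      Pi.zero_apply, coeff_zero] at h3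
    have h4 : ∀ i, S.rc (w' i (σ i₀)) = if i = i₀ then 1 else 0 := by
      intro i
      rw [hδ]
      split_ifs
      · exact S.rc_one
      · exact S.rc_zero
    have h5 : ∑ i, lam i * S.rc (w' i (σ i₀)) = 0 := h3
    simp only [h4, mul_ite, mul_one, mul_zero] at h5
    rw [Finset.sum_ite_eq' Finset.univ i₀ lam, if_pos (Finset.mem_univ _)] at h5
    exact h5
  · intro h hh hV
    obtain ⟨c, hc, hcA⟩ := hrep h hh
    exact ⟨c, hcA hV, hc⟩

end RedSetting

end Fermat.Agent.S18
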