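import Fermat.Agent.S18.Gauss
import Fermat.Agent.S18.DimRed

/-!
# S18, piece DW: descent of an `m`-th root from level `N'` to level `N` (proofs)

We work on the level of Laurent series with `gsMem`, `gr` (which do not depend on the level).
Choose a complement `C̄` of `F̄_N` in `F̄_{N'}` over `k(j̄)`, lift a basis of it to `g_a ∈ F_{N'}`; together with the uniform
family of level `N` this is a `ℚ̄(j)`-basis of `F_{N'}` (count).  Write `w = w₀ + w₁`, `w₀ ∈ F_N`, `w₁ = ∑ α_a g_a`.  If `w₁ ≠ 0`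
scale: `w₁ = c⁻¹ t₁`, `t₁` integral with `t̄₁ ∈ k(j̄)·C̄ ∖ {0}`.  If `c ∈ A` then `t̄₁ = c̄ ω - (c w₀)‾ ∈ F̄_N`; otherwise
`c (u - w₀^m) = m w₀^{m-1} t₁ + c⁻¹(…)` reduces to `m ω^{m-1} t̄₁ ∈ F̄_N`.  Contradiction.
-/

set_option autoImplicit false
set_option linter.unusedSectionVars false
set_option linter.style.haveILetI false

namespace Fermat.Agent.S18

open Polynomial IntermediateField Fermat.Agent.S24 Fermat.Agent.S28 ModularCurve

theorem dw_fullC_le (K : Type*) [Field K] {N N' : ℕ} (h : N ∣ N') :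
    modularFunctionFieldFullC K N ≤ modularFunctionFieldFullC K N' := by
  rw [modularFunctionFieldFullC, adjoin_le_iff]
  rintro x ⟨d, hne, hdvd, rfl⟩
  haveI := hne
  exact jqModCd_mem_full K N' (hdvd.trans h)

theorem FN_le_of_dvd_aux {N N' : ℕ} (h : N ∣ N') : FN N ≤ FN N' := by
  show modularFunctionFieldBar N ≤ modularFunctionFieldBar N'
  rw [modularFunctionFieldBar_eq, modularFunctionFieldBar_eq]
  exact dw_fullC_le _ h

section Ring

variable (A : ValuationSubring Kb)

/-- the ring of integral series. -/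
def gsRing : Subring (LaurentSeries Kb) where
  carrier := {f | gsMem A f}
  mul_mem' := gsMem.mul
  one_mem' := gsMem_one
  add_mem' := gsMem.add
  zero_mem' := gsMem_zero
  neg_mem' := gsMem.neg

/-- reduction as a ring homomorphism. -/
noncomputable def grHom : gsRing A →+* LaurentSeries (kA A) where
  toFun f := gr A (f : LaurentSeries Kb)
  map_one' := gr_one
  map_mul' f g := gr_mul f.2 g.2
  map_zero' := gr_zero
  map_add' f g := gr_add f.2 g.2

variable {A}

theorem gsMem.pow {f : LaurentSeries Kb} (hf : gsMem A f) (n : ℕ) : gsMem A (f ^ n) := by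
  induction n with
  | zero => rw [pow_zero]; exact gsMem_one
  | succ n ih => rw [pow_succ]; exact ih.mul hf

theorem gr_pow {f : LaurentSeries Kb} (hf : gsMem A f) (n : ℕ) : gr A (f ^ n) = gr A f ^ n := by
  induction n with
  | zero => rw [pow_zero, pow_zero]; exact gr_one
  | succ n ih => rw [pow_succ, pow_succ, gr_mul (hf.pow n) hf, ih]

theorem gr_neg {f : LaurentSeries Kb} (hf : gsMem A f) : gr A (-f) = - gr A f := by
  have h := gr_add hf hf.neg
  rw [add_neg_cancel, gr_zero] at h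
  exact (neg_eq_of_add_eq_zero_right h.symm).symm

theorem gsMem.sub {f g : LaurentSeries Kb} (hf : gsMem A f) (hg : gsMem A g) : gsMem A (f - g) := by
  rw [sub_eq_add_neg]; exact hf.add hg.neg

theorem gr_sub {f g : LaurentSeries Kb} (hf : gsMem A f) (hg : gsMem A g) :
    gr A (f - g) = gr A f - gr A g := by
  rw [sub_eq_add_neg, gr_add hf hg.neg, gr_neg hg, sub_eq_add_neg]

theorem gsMem_sum {ι : Type*} (s : Finset ι) (f : ι → LaurentSeries Kb)
    (hf : ∀ i ∈ s, gsMem A (f i)) : gsMem A (∑ i ∈ s, f i) :=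
  (gsRing A).sum_mem hf

theorem gr_sum {ι : Type*} (s : Finset ι) (f : ι → LaurentSeries Kb)
    (hf : ∀ i ∈ s, gsMem A (f i)) : gr A (∑ i ∈ s, f i) = ∑ i ∈ s, gr A (f i) := by
  classical
  induction s using Finset.induction_on with
  | empty => simpa using gr_zero
  | insert a s ha ih =>
    rw [Finset.sum_insert ha, Finset.sum_insert ha,
      gr_add (hf a (Finset.mem_insert_self a s))
        (gsMem_sum s f fun i hi => hf i (Finset.mem_insert_of_mem hi)),
      ih (fun i hi => hf i (Finset.mem_insert_of_mem hi))]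

/-- inverses of integral series with nonzero reduction. -/
theorem gsMem_inv_of (Y : LaurentSeries A) (h : coeffMap (IsLocalRing.residue A) Y ≠ 0) :
    gsMem A (coeffMap A.subtype Y)⁻¹ ∧
      gr A (coeffMap A.subtype Y)⁻¹ = (coeffMap (IsLocalRing.residue A) Y)⁻¹ := by
  have h0 : coeffMap A.subtype Y ≠ 0 := by
    intro h1
    apply h
    have : Y = 0 := by
      apply coeffMap_injective A.subtype A.subtype_injective
      rw [h1, map_zero]
    rw [this, map_zero]
  have hrel : (coeffMap A.subtype Y)⁻¹ * coeffMap A.subtype Y = coeffMap A.subtype 1 := by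
    rw [map_one, inv_mul_cancel₀ h0]
  refine ⟨⟨1, Y, h, hrel⟩, ?_⟩
  have := gr_mul_eq h hrel
  rw [map_one] at this
  exact eq_inv_of_mul_eq_one_left this

/-- polynomials in `j` with integral coefficients. -/
theorem gs_aeval_j (P : (A : Type)[X]) :
    aeval (jqModC Kb) (P.map A.subtype) = coeffMap A.subtype (aeval (jqModC A) P) := by
  rw [coeffMap_aeval, coeffMap_jqModC]

theorem gs_aeval_j_res (P : (A : Type)[X]) :
    coeffMap (IsLocalRing.residue A) (aeval (jqModC A) P) =
      aeval (jqModC (kA A)) (P.map (IsLocalRing.residue A)) := by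
  rw [coeffMap_aeval, coeffMap_jqModC]

/-- first order expansion of an `m`-th power. -/
theorem dw_expand {x t : LaurentSeries Kb} (hx : gsMem A x) (ht : gsMem A t) {π : Kb}
    (hπ : π ∈ A) (hπ0 : IsLocalRing.residue A ⟨π, hπ⟩ = 0) (hπne : π ≠ 0) (m : ℕ) :
    gsMem A (HahnSeries.C π⁻¹ * ((x + HahnSeries.C π * t) ^ m - x ^ m)) ∧
      gr A (HahnSeries.C π⁻¹ * ((x + HahnSeries.C π * t) ^ m - x ^ m)) =
        (m : LaurentSeries (kA A)) * gr A x ^ (m - 1) * gr A t := by
  set X' : gsRing A := ⟨x, hx⟩ with hX'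
  set T' : gsRing A := ⟨t, ht⟩ with hT'
  set P' : gsRing A := ⟨HahnSeries.C π, gsMem_C hπ⟩ with hP'
  obtain ⟨κ, hκ⟩ := Polynomial.binomExpansion (X ^ m : (gsRing A)[X]) X' (P' * T')
  simp only [eval_pow, eval_X, derivative_X_pow, eval_mul, eval_C] at hκ
  set Z : gsRing A := (m : gsRing A) * X' ^ (m - 1) * T' + κ * P' * T' ^ 2 with hZ
  have hCC : (HahnSeries.C π⁻¹ : LaurentSeries Kb) * HahnSeries.C π = 1 := by
    rw [← map_mul, inv_mul_cancel₀ hπne, map_one]
  have hκ' := congrArg (Subtype.val) hκ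
  have key : HahnSeries.C π⁻¹ * ((x + HahnSeries.C π * t) ^ m - x ^ m) = (Z : LaurentSeries Kb) := by
    have e1 : (x + HahnSeries.C π * t) ^ m =
        x ^ m + (m : LaurentSeries Kb) * x ^ (m - 1) * (HahnSeries.C π * t) +
          (κ : LaurentSeries Kb) * (HahnSeries.C π * t) ^ 2 := by
      push_cast at hκ'
      exact hκ'
    have e2 : (Z : LaurentSeries Kb) = (m : LaurentSeries Kb) * x ^ (m - 1) * t +
        (κ : LaurentSeries Kb) * HahnSeries.C π * t ^ 2 := by
      rw [hZ]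
      push_cast
      rfl
    rw [e1, e2]
    linear_combination ((m : LaurentSeries Kb) * x ^ (m - 1) * t +
        (κ : LaurentSeries Kb) * HahnSeries.C π * t ^ 2) * hCC
  rw [key]
  refine ⟨Z.2, ?_⟩
  change grHom A Z = _
  have hP0 : grHom A P' = 0 := by
    change gr A (HahnSeries.C π) = 0
    rw [gr_C hπ, hπ0, map_zero]
  rw [hZ, map_add, map_mul, map_mul, map_mul, map_mul, map_pow, map_natCast, hP0, mul_zero,
    zero_mul, add_zero]
  rfl

/-- an algebraic element of `k((q))` is constant. -/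
theorem dw_const_of_pow_eq_one {k : Type*} [Field k] [IsAlgClosed k] {x : LaurentSeries k} {m : ℕ}
    (hm : m ≠ 0) (hx : x ^ m = 1) : ∃ ω : k, ω ≠ 0 ∧ x = HahnSeries.C ω := by
  have hint : IsIntegral k x := by
    refine ⟨X ^ m - 1, monic_X_pow_sub_C 1 hm, ?_⟩
    simp [hx]
  have hdeg := IsAlgClosed.degree_eq_one_of_irreducible k (minpoly.irreducible hint)
  obtain ⟨ω, hω⟩ := minpoly.mem_range_of_degree_eq_one k x hdeg
  rw [Fermat.Agent.S28.algebraMap_eq_C] at hω
  refine ⟨ω, ?_, hω.symm⟩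
  rintro rfl
  rw [map_zero] at hω
  rw [← hω, zero_pow hm] at hx
  exact zero_ne_one hx

end Ring

/-- a basis of a complement. -/
theorem dw_exists_compl {R E : Type*} [Field R] [AddCommGroup E] [Module R E] (M M' : Submodule R E)
    (hle : M ≤ M') [FiniteDimensional R M'] :
    ∃ (r : ℕ) (c : Fin r → E), (∀ a, c a ∈ M') ∧ LinearIndependent R c ∧
      Disjoint M (Submodule.span R (Set.range c)) ∧
      Module.finrank R M + r = Module.finrank R M' := by
  obtain ⟨q, hq⟩ := Submodule.exists_isCompl M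
  set Cb := q ⊓ M' with hCb
  have hdisj : Disjoint M Cb := hq.disjoint.mono_right inf_le_left
  have hsup : M ⊔ Cb = M' := by
    rw [hCb, ← sup_inf_assoc_of_le q hle, hq.sup_eq_top, top_inf_eq]
  haveI : FiniteDimensional R Cb := Submodule.finiteDimensional_of_le (inf_le_right : Cb ≤ M')
  haveI : FiniteDimensional R M := Submodule.finiteDimensional_of_le hle
  have hcount : Module.finrank R M + Module.finrank R Cb = Module.finrank R M' := by
    have h1 := Submodule.finrank_sup_add_finrank_inf_eq M Cb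
    rw [hsup, hdisj.eq_bot, finrank_bot, add_zero] at h1
    exact h1.symm
  let cb := Module.finBasis R Cb
  refine ⟨Module.finrank R Cb, fun a => ((cb a : Cb) : E), fun a => ?_, ?_, ?_, hcount⟩
  · exact (inf_le_right : Cb ≤ M') (cb a).2
  · exact cb.linearIndependent.map' Cb.subtype (Submodule.ker_subtype _)
  · refine hdisj.mono_right (Submodule.span_le.mpr ?_)
    rintro _ ⟨a, rfl⟩
    exact (cb a).2

section LinAlg

variable (L : Type) [Field L]

theorem dw_transcendental : Transcendental L (jqModC L) :=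
  transcendental_iff_injective.mpr (aeval_jqModC_injective (R := L))

theorem dw_aeval_mem (p : L[X]) : aeval (jqModC L) p ∈ L⟮jqModC L⟯ := by
  rw [mem_adjoin_simple_iff]
  exact ⟨p, 1, by simp⟩

/-- `F_N(L)` as a vector space over `L(j)`. -/
def dwSub (N : ℕ) : Submodule L⟮jqModC L⟯ (LaurentSeries L) where
  carrier := {x | x ∈ modularFunctionFieldFullC L N}
  add_mem' := fun ha hb => (modularFunctionFieldFullC L N).add_mem ha hb
  zero_mem' := (modularFunctionFieldFullC L N).zero_mem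
  smul_mem' := fun c x hx => by
    have hc : (c : LaurentSeries L) ∈ modularFunctionFieldFullC L N :=
      (adjoin_simple_le_iff.mpr (jqModC_mem_full L N)) c.2
    exact (modularFunctionFieldFullC L N).mul_mem hc hx

variable {L}

theorem mem_dwSub {N : ℕ} {x : LaurentSeries L} :
    x ∈ dwSub L N ↔ x ∈ modularFunctionFieldFullC L N := Iff.rfl

variable {N : ℕ} {ι : Type} [Fintype ι] (bL : ι → LaurentSeries L)

theorem dw_li (hind : ∀ P : ι → L[X], ∑ i, aeval (jqModC L) (P i) * bL i = 0 → ∀ i, P i = 0) :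
    LinearIndependent L⟮jqModC L⟯ bL :=
  linearIndependent_of_polyIndep (dw_transcendental L) bL fun P hP => _root_.funext (hind P hP)

theorem dw_span (hb : ∀ i, bL i ∈ modularFunctionFieldFullC L N)
    (hsp : ∀ x ∈ modularFunctionFieldFullC L N, ∃ d : L[X], d ≠ 0 ∧ ∃ c : ι → L[X],
      aeval (jqModC L) d * x = ∑ i, aeval (jqModC L) (c i) * bL i) :
    Submodule.span L⟮jqModC L⟯ (Set.range bL) = dwSub L N := by
  apply le_antisymm
  · rw [Submodule.span_le]
    rintro _ ⟨i, rfl⟩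
    exact hb i
  · intro x hx
    obtain ⟨d, hd, c, hc⟩ := hsp x hx
    have hd' : aeval (jqModC L) d ≠ 0 := fun h => hd (by
      apply aeval_jqModC_injective (R := L); rw [h, map_zero])
    have hx' : x = ∑ i, (⟨(aeval (jqModC L) d)⁻¹ * aeval (jqModC L) (c i),
        mul_mem (inv_mem (dw_aeval_mem L d)) (dw_aeval_mem L (c i))⟩ : L⟮jqModC L⟯) • bL i := by
      have h1 : ∀ i, (⟨(aeval (jqModC L) d)⁻¹ * aeval (jqModC L) (c i),
          mul_mem (inv_mem (dw_aeval_mem L d)) (dw_aeval_mem L (c i))⟩ : L⟮jqModC L⟯) • bL i =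
          (aeval (jqModC L) d)⁻¹ * (aeval (jqModC L) (c i) * bL i) := by
        intro i
        rw [← mul_assoc]
        rfl
      simp only [h1]
      rw [← Finset.mul_sum, ← hc, inv_mul_cancel_left₀ hd']
    rw [hx']
    exact Submodule.sum_mem _ fun i _ => Submodule.smul_mem _ _ (Submodule.subset_span ⟨i, rfl⟩)

theorem dw_finrank (hb : ∀ i, bL i ∈ modularFunctionFieldFullC L N)
    (hind : ∀ P : ι → L[X], ∑ i, aeval (jqModC L) (P i) * bL i = 0 → ∀ i, P i = 0)
    (hsp : ∀ x ∈ modularFunctionFieldFullC L N, ∃ d : L[X], d ≠ 0 ∧ ∃ c : ι → L[X],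
      aeval (jqModC L) d * x = ∑ i, aeval (jqModC L) (c i) * bL i) :
    FiniteDimensional L⟮jqModC L⟯ (dwSub L N) ∧
      Module.finrank L⟮jqModC L⟯ (dwSub L N) = Fintype.card ι := by
  rw [← dw_span bL hb hsp]
  exact ⟨FiniteDimensional.span_of_finite _ (Set.finite_range bL),
    finrank_span_eq_card (dw_li bL hind)⟩

end LinAlg

section Main

variable (A : ValuationSubring Kb) {N N' : ℕ} [NeZero N] [NeZero N']

/-- the decomposition `w = w₀ + c⁻¹ t₁`. -/
theorem dw_decomp (hNN' : N ∣ N') (hN : (N : kA A) ≠ 0) (hN' : (N' : kA A) ≠ 0)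
    (w : LaurentSeries Kb) (hw : w ∈ FN N') :
    w ∈ FN N ∨ ∃ (w₀ : LaurentSeries Kb) (c : Kb) (t₁ : LaurentSeries Kb), w₀ ∈ FN N ∧ c ≠ 0 ∧
      gsMem A t₁ ∧ gr A t₁ ∉ modularFunctionFieldFullC (kA A) N ∧
      w = w₀ + HahnSeries.C c⁻¹ * t₁ := by
  classical
  haveI := isAlgClosed_kA A
  obtain ⟨ι, _, b, hfam⟩ := gs_family N (NeZero.ne N)
  obtain ⟨ι', _, b', hfam'⟩ := gs_family N' (NeZero.ne N')
  obtain ⟨hbK, hindK, hspK⟩ := hfam Kb (Nat.cast_ne_zero.mpr (NeZero.ne N))
  obtain ⟨hbk, hindk, hspk⟩ := hfam (kA A) hN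
  obtain ⟨hbK', hindK', hspK'⟩ := hfam' Kb (Nat.cast_ne_zero.mpr (NeZero.ne N'))
  obtain ⟨hbk', hindk', hspk'⟩ := hfam' (kA A) hN'
  -- residue side
  obtain ⟨fd1, hfr⟩ := dw_finrank _ hbk hindk hspk
  obtain ⟨fd2, hfr'⟩ := dw_finrank _ hbk' hindk' hspk'
  obtain ⟨fd3, hfrK'⟩ := dw_finrank _ hbK' hindK' hspK'
  have hle : dwSub (kA A) N ≤ dwSub (kA A) N' := dw_fullC_le _ hNN'
  obtain ⟨r, cb, hcbM, hcbli, hdisj, hcount⟩ := dw_exists_compl _ _ hle
  -- lifts
  have hlift : ∀ a : Fin r, ∃ g : LaurentSeries Kb, g ∈ FN N' ∧ gsMem A g ∧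
      gr A g = cb a := by
    intro a
    have hmem : cb a ∈ modularFunctionFieldFullC (kA A) N' := hcbM a
    obtain ⟨f, hf⟩ := gsRed_surjective A N' hN' ⟨_, hmem⟩
    exact ⟨((f : FN N') : LaurentSeries Kb), (f : FN N').2, f.2, congrArg Subtype.val hf⟩
  choose g hgF hgM hgr using hlift
  set bK : ι → LaurentSeries Kb := fun i => coeffMap (Int.castRingHom Kb) (b i) with hbKdef
  set bk : ι → LaurentSeries (kA A) := fun i => coeffMap (Int.castRingHom (kA A)) (b i) with hbkdef
  have hbM : ∀ i, gsMem A (bK i) ∧ gr A (bK i) = bk i := by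
    intro i
    have h1 : bK i = coeffMap A.subtype (coeffMap (Int.castRingHom A) (b i)) :=
      (coeffMap_coeffMap_intCast _ _).symm
    rw [h1]
    exact ⟨gsMem_of _, by rw [gr_of, coeffMap_coeffMap_intCast]⟩
  set fam : ι ⊕ Fin r → LaurentSeries Kb := Sum.elim bK g with hfamdef
  set famb : ι ⊕ Fin r → LaurentSeries (kA A) := Sum.elim bk cb with hfambdef
  have hfamM : ∀ x, gsMem A (fam x) ∧ gr A (fam x) = famb x := by
    rintro (i | a)
    · exact hbM i
    · exact ⟨hgM a, hgr a⟩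
  have hlik : LinearIndependent (kA A)⟮jqModC (kA A)⟯ famb := by
    refine LinearIndependent.sum_type (dw_li bk hindk) hcbli ?_
    rw [dw_span bk hbk hspk]
    exact hdisj
  -- a general reduction formula
  have hred : ∀ {κ : Type} [Fintype κ] (P : κ → (A : Type)[X]) (f : κ → LaurentSeries Kb),
      (∀ x, gsMem A (f x)) →
      gsMem A (∑ x, coeffMap A.subtype (aeval (jqModC A) (P x)) * f x) ∧
      gr A (∑ x, coeffMap A.subtype (aeval (jqModC A) (P x)) * f x) =
        ∑ x, aeval (jqModC (kA A)) ((P x).map (IsLocalRing.residue A)) * gr A (f x) := by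
    intro κ _ P f hf
    have h1 : ∀ x ∈ Finset.univ, gsMem A (coeffMap A.subtype (aeval (jqModC A) (P x)) * f x) :=
      fun x _ => (gsMem_of _).mul (hf x)
    refine ⟨gsMem_sum _ _ h1, ?_⟩
    rw [gr_sum _ _ h1]
    refine Finset.sum_congr rfl fun x _ => ?_
    rw [gr_mul (gsMem_of _) (hf x), gr_of, gs_aeval_j_res]
  have hscal : ∀ (β : Kb) (P' : (A : Type)[X]) (P : Kb[X]), P'.map A.subtype = C β * P →
      coeffMap A.subtype (aeval (jqModC A) P') = HahnSeries.C β * aeval (jqModC Kb) P := by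
    intro β P' P h
    rw [← gs_aeval_j, h, map_mul, aeval_C, Fermat.Agent.S28.algebraMap_eq_C]
  -- independence over `ℚ̄[j]`
  have hindfam : PolyIndep Kb (jqModC Kb) fam := by
    intro P hP
    by_contra hne
    have hex : ∃ x, P x ≠ 0 := by
      by_contra h
      push Not at h
      exact hne (_root_.funext h)
    obtain ⟨β, P', hβ, hP', x₀, hx₀⟩ := gs_scale A P hex
    have h1 : ∑ x, coeffMap A.subtype (aeval (jqModC A) (P' x)) * fam x = 0 := by
      simp only [hscal β _ _ (hP' _), mul_assoc]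
      rw [← Finset.mul_sum, hP, mul_zero]
    have h2 := (hred P' fam (fun x => (hfamM x).1)).2
    rw [h1, gr_zero] at h2
    simp only [(hfamM _).2] at h2
    have h3 : ∑ x, (⟨aeval (jqModC (kA A)) ((P' x).map (IsLocalRing.residue A)),
        dw_aeval_mem _ _⟩ : (kA A)⟮jqModC (kA A)⟯) • famb x = 0 := h2.symm
    have h4 := (Fintype.linearIndependent_iff.mp hlik) _ h3 x₀
    have h5 := congrArg Subtype.val h4
    apply hx₀
    apply aeval_jqModC_injective (R := kA A)
    rw [map_zero]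
    exact h5
  have hliK : LinearIndependent Kb⟮jqModC Kb⟯ fam :=
    linearIndependent_of_polyIndep (dw_transcendental Kb) fam hindfam
  have hspan : Submodule.span Kb⟮jqModC Kb⟯ (Set.range fam) = dwSub Kb N' := by
    apply Submodule.eq_of_le_of_finrank_eq
    · rw [Submodule.span_le]
      rintro _ ⟨(i | a), rfl⟩
      · exact dw_fullC_le _ hNN' (hbK i)
      · exact (gs_mem_FN_iff N' _).mp (hgF a)
    · rw [finrank_span_eq_card hliK, Fintype.card_sum, Fintype.card_fin, hfrK', ← hfr', ← hcount,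
        hfr]
  have hwmem : w ∈ Submodule.span Kb⟮jqModC Kb⟯ (Set.range fam) := by
    rw [hspan]; exact (gs_mem_FN_iff N' w).mp hw
  obtain ⟨α, hα⟩ := (Submodule.mem_span_range_iff_exists_fun _).mp hwmem
  rw [Fintype.sum_sum_type] at hα
  set w₀ : LaurentSeries Kb := ∑ i, α (Sum.inl i) • fam (Sum.inl i) with hw₀def
  set w₁ : LaurentSeries Kb := ∑ a, α (Sum.inr a) • fam (Sum.inr a) with hw₁def
  have hw₀ : w₀ ∈ FN N := by
    rw [gs_mem_FN_iff]
    exact (dwSub Kb N).sum_mem fun i _ => (dwSub Kb N).smul_mem _ (hbK i)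
  obtain ⟨d, p, hd, hp⟩ :=
    exists_common_denom_adjoin (dw_transcendental Kb) (fun a => α (Sum.inr a))
  have hd' : aeval (jqModC Kb) d ≠ 0 := fun h => hd (by
    apply aeval_jqModC_injective (R := Kb); rw [h, map_zero])
  by_cases hp0 : ∀ a, p a = 0
  · left
    have h0 : ∀ a, α (Sum.inr a) = 0 := by
      intro a
      have h1 := hp a
      rw [hp0 a, map_zero] at h1
      exact Subtype.ext ((mul_eq_zero.mp h1).resolve_left hd')
    have h2 : w₁ = 0 := by
      rw [hw₁def]
      exact Finset.sum_eq_zero fun a _ => by rw [h0 a, zero_smul]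
    rw [← hα, h2, add_zero]
    exact hw₀
  · right
    push Not at hp0
    obtain ⟨β, p', hβ, hp', a₀, ha₀⟩ := gs_scale A p hp0
    obtain ⟨γ, d', hγ, hd'', u₀, hd'0⟩ := gs_scale A (fun _ : Unit => d) ⟨(), hd⟩
    set D : LaurentSeries A := aeval (jqModC A) (d' ()) with hD
    have hDres : coeffMap (IsLocalRing.residue A) D ≠ 0 := by
      rw [gs_aeval_j_res]
      intro h
      apply hd'0
      apply aeval_jqModC_injective (R := kA A)
      rw [map_zero]
      exact h
    obtain ⟨hDinvM, hDinvgr⟩ := gsMem_inv_of D hDres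
    set t₂ : LaurentSeries Kb := ∑ a, coeffMap A.subtype (aeval (jqModC A) (p' a)) * g a with ht₂
    obtain ⟨ht₂M, ht₂gr⟩ := hred p' g hgM
    have hDK : coeffMap A.subtype D = HahnSeries.C γ * aeval (jqModC Kb) d := hscal γ _ _ (hd'' ())
    have hw₁ : t₂ = HahnSeries.C β * (aeval (jqModC Kb) d * w₁) := by
      rw [ht₂, hw₁def, Finset.mul_sum, Finset.mul_sum]
      refine Finset.sum_congr rfl fun a _ => ?_
      rw [hscal β _ _ (hp' a), ← hp a, mul_assoc, mul_assoc]
      rfl
    refine ⟨w₀, β * γ⁻¹, t₂ * (coeffMap A.subtype D)⁻¹, hw₀, mul_ne_zero hβ (inv_ne_zero hγ),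
      ht₂M.mul hDinvM, ?_, ?_⟩
    · intro hmem
      rw [gr_mul ht₂M hDinvM, hDinvgr] at hmem
      have h1 : gr A t₂ ∈ modularFunctionFieldFullC (kA A) N := by
        have h2 : coeffMap (IsLocalRing.residue A) D ∈ modularFunctionFieldFullC (kA A) N := by
          rw [gs_aeval_j_res]; exact gs_aeval_mem N _ _
        have h3 := mul_mem hmem h2
        rwa [inv_mul_cancel_right₀ hDres] at h3
      have h5 : gr A t₂ = ∑ a, (⟨aeval (jqModC (kA A)) ((p' a).map (IsLocalRing.residue A)),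
          dw_aeval_mem _ _⟩ : (kA A)⟮jqModC (kA A)⟯) • cb a := by
        rw [ht₂gr]
        simp only [hgr]
        rfl
      have h3 : gr A t₂ ∈ Submodule.span (kA A)⟮jqModC (kA A)⟯ (Set.range cb) := by
        rw [h5]
        exact Submodule.sum_mem _ fun a _ =>
          Submodule.smul_mem _ _ (Submodule.subset_span ⟨a, rfl⟩)
      have h4 : gr A t₂ = 0 := (Submodule.disjoint_def.mp hdisj) _ h1 h3
      rw [h5] at h4
      have h6 := (Fintype.linearIndependent_iff.mp hcbli) _ h4 a₀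
      apply ha₀
      apply aeval_jqModC_injective (R := kA A)
      rw [map_zero]
      exact congrArg Subtype.val h6
    · rw [← hα, hw₁, hDK]
      congr 1
      have hCβ : (HahnSeries.C β : LaurentSeries Kb) ≠ 0 := by
        rw [Ne, map_eq_zero_iff _ HahnSeries.C_injective]; exact hβ
      have hCγ : (HahnSeries.C γ : LaurentSeries Kb) ≠ 0 := by
        rw [Ne, map_eq_zero_iff _ HahnSeries.C_injective]; exact hγ
      rw [mul_inv, inv_inv, map_mul, map_inv₀]
      field_simp

theorem dw_C_mem {L : Type} [Field L] (F : IntermediateField L (LaurentSeries L)) (c : L) :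
    HahnSeries.C c ∈ F := by
  rw [← Fermat.Agent.S28.algebraMap_eq_C]
  exact IntermediateField.algebraMap_mem _ _

/-- **DW.** -/
theorem mem_FN_of_pow_eq_aux (hNN' : N ∣ N')
    (hN' : (N' : kA A) ≠ 0) {m : ℕ} (hm : (m : kA A) ≠ 0) (u w : LaurentSeries Kb) (hu : u ∈ FN N)
    (hw : w ∈ FN N') (hwu : w ^ m = u) (Y₁ Y₂ : LaurentSeries A)
    (hY : coeffMap (IsLocalRing.residue A) Y₁ = coeffMap (IsLocalRing.residue A) Y₂)
    (hY0 : coeffMap (IsLocalRing.residue A) Y₂ ≠ 0)
    (huY : u * coeffMap A.subtype Y₂ = coeffMap A.subtype Y₁) : w ∈ FN N := by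
  classical
  haveI := isAlgClosed_kA A
  have hN : (N : kA A) ≠ 0 := by
    obtain ⟨e, rfl⟩ := hNN'
    intro h
    apply hN'
    rw [Nat.cast_mul, h, zero_mul]
  have hm0 : m ≠ 0 := by
    rintro rfl
    exact hm Nat.cast_zero
  have huM : gsMem A u := ⟨Y₁, Y₂, hY0, huY⟩
  have hu1 : gr A u = 1 := by
    have h1 := gr_mul_eq hY0 huY
    rw [hY] at h1
    exact mul_right_cancel₀ hY0 (h1.trans (one_mul _).symm)
  have hwM : gsMem A w := by
    rcases (gsV A N' hN').mem_or_inv_mem ⟨w, hw⟩ with h | h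
    · exact h
    · have h' : gsMem A w⁻¹ := h
      by_cases hw0 : w = 0
      · rw [hw0]; exact gsMem_zero
      have h1 : w = u * w⁻¹ ^ (m - 1) := by
        rw [← hwu]
        obtain ⟨n, rfl⟩ : ∃ n, m = n + 1 := ⟨m - 1, by omega⟩
        rw [Nat.add_sub_cancel, pow_succ, inv_pow]
        field_simp
      rw [h1]
      exact huM.mul (h'.pow _)
  obtain ⟨ω, hω0, hω⟩ := dw_const_of_pow_eq_one hm0 (x := gr A w)
    (by rw [← gr_pow hwM, hwu, hu1])
  rcases dw_decomp A hNN' hN hN' w hw with h | ⟨w₀, c, t₁, hw₀, hc, ht₁M, ht₁, hdec⟩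
  · exact h
  exfalso
  apply ht₁
  have hCc : (HahnSeries.C c : LaurentSeries Kb) * HahnSeries.C c⁻¹ = 1 := by
    rw [← map_mul, mul_inv_cancel₀ hc, map_one]
  by_cases hcA : c ∈ A
  · have h1 : HahnSeries.C c * w₀ = HahnSeries.C c * w - t₁ := by
      rw [hdec]
      linear_combination (-t₁) * hCc
    have h2 : gsMem A (HahnSeries.C c * w₀) := by
      rw [h1]; exact ((gsMem_C hcA).mul hwM).sub ht₁M
    have h3 : HahnSeries.C c * w₀ ∈ FN N := mul_mem (dw_C_mem _ c) hw₀
    have h4 := gr_mem A N hN h3 h2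
    rw [h1, gr_sub ((gsMem_C hcA).mul hwM) ht₁M, gr_mul (gsMem_C hcA) hwM, gr_C hcA, hω] at h4
    have h5 : HahnSeries.C (IsLocalRing.residue A ⟨c, hcA⟩) * HahnSeries.C ω ∈
        modularFunctionFieldFullC (kA A) N := mul_mem (dw_C_mem _ _) (dw_C_mem _ _)
    have h6 := sub_mem h5 h4
    rwa [sub_sub_cancel] at h6
  · have hπA : c⁻¹ ∈ A := (A.mem_or_inv_mem c).resolve_left hcA
    have hπ0 : IsLocalRing.residue A ⟨c⁻¹, hπA⟩ = 0 :=
      (valSubring_map_eq_zero_iff A (IsLocalRing.residue A) IsLocalRing.residue_surjective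
        hπA).mpr (Or.inr (by rwa [inv_inv]))
    have hw₀eq : w₀ = w - HahnSeries.C c⁻¹ * t₁ := by rw [hdec]; ring
    have hw₀M : gsMem A w₀ := by
      rw [hw₀eq]; exact hwM.sub ((gsMem_C hπA).mul ht₁M)
    have hw₀gr : gr A w₀ = HahnSeries.C ω := by
      rw [hw₀eq, gr_sub hwM ((gsMem_C hπA).mul ht₁M), gr_mul (gsMem_C hπA) ht₁M, gr_C hπA, hπ0,
        map_zero, zero_mul, sub_zero, hω]
    obtain ⟨e1, e2⟩ := dw_expand hw₀M ht₁M hπA hπ0 (inv_ne_zero hc) m
    rw [inv_inv, ← hdec, hwu] at e1 e2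
    have h3 : HahnSeries.C c * (u - w₀ ^ m) ∈ FN N :=
      mul_mem (dw_C_mem _ c) (sub_mem hu (pow_mem hw₀ m))
    have h4 := gr_mem A N hN h3 e1
    rw [e2, hw₀gr] at h4
    have hmC : (m : LaurentSeries (kA A)) = HahnSeries.C (m : kA A) := (map_natCast _ m).symm
    have h5 : (m : LaurentSeries (kA A)) * HahnSeries.C ω ^ (m - 1) ∈
        modularFunctionFieldFullC (kA A) N := by
      rw [hmC]; exact mul_mem (dw_C_mem _ _) (pow_mem (dw_C_mem _ _) _)
    have h6 : (m : LaurentSeries (kA A)) * HahnSeries.C ω ^ (m - 1) ≠ 0 := by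
      rw [hmC]
      refine mul_ne_zero ?_ (pow_ne_zero _ ?_)
      · rw [Ne, map_eq_zero_iff _ HahnSeries.C_injective]; exact hm
      · rw [Ne, map_eq_zero_iff _ HahnSeries.C_injective]; exact hω0
    have h7 := mul_mem (inv_mem h5) h4
    rwa [inv_mul_cancel_left₀ h6] at h7

end Main

end Fermat.Agent.S18
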