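import Mathlib
import Fermat.Prelude.Def_AlgebraicCurve_DivisorClassGroup

/-!
# S18, piece DP: places of an algebraic extension restrict to places
-/

set_option autoImplicit false

namespace Fermat.Agent.S18

open AlgebraicCurve

theorem dp_mem_iff {K F : Type*} [Field K] [Field F] [Algebra K F] (P : Place K F) {f : F}
    (hf : f ≠ 0) : f ∈ P.toValuationSubring ↔ 0 ≤ P.ord f := by
  obtain ⟨π, hπ⟩ := IsDiscreteValuationRing.exists_irreducible P.toValuationSubring
  obtain ⟨u, hu⟩ := P.exists_unit_mul_zpow hf hπ
  have hπ0 : (π : F) ≠ 0 := by simpa using hπ.ne_zero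
  constructor
  · intro hfm
    by_contra hn
    push Not at hn
    obtain ⟨k, hk⟩ : ∃ k : ℕ, P.ord f = -(k : ℤ) := ⟨(-P.ord f).toNat, by omega⟩
    have hk0 : k ≠ 0 := by omega
    rw [hk] at hu
    have h1 : (⟨f, hfm⟩ : P.toValuationSubring) * π ^ k = u := by
      apply Subtype.ext
      push_cast
      conv_lhs => rw [hu]
      rw [zpow_neg, zpow_natCast, mul_assoc, inv_mul_cancel₀ (pow_ne_zero _ hπ0), mul_one]
    have h2 : IsUnit (π ^ k) := isUnit_of_mul_isUnit_right (h1 ▸ u.isUnit)
    exact hπ.not_isUnit ((isUnit_pow_iff hk0).1 h2)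
  · intro hn
    obtain ⟨k, hk⟩ := Int.eq_ofNat_of_zero_le hn
    rw [hk] at hu
    rw [hu, zpow_natCast]
    exact P.toValuationSubring.mul_mem _ _ u.1.2 (pow_mem π.2 k)

/-- The restriction of a place to a subfield over which the big field is algebraic. -/
theorem dp_exists_restrict {K F F' : Type*} [Field K] [Field F] [Field F'] [Algebra K F]
    [Algebra K F'] [Algebra F F'] [IsScalarTower K F F'] [Algebra.IsAlgebraic F F']
    (P' : Place K F') :
    ∃ P : Place K F, P.toValuationSubring = P'.toValuationSubring.comap (algebraMap F F') := by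
  set O' := P'.toValuationSubring with hO'
  set O := O'.comap (algebraMap F F') with hO
  have hmem : ∀ f : F, f ∈ O ↔ algebraMap F F' f ∈ O' := fun f => Iff.rfl
  have hK : ∀ a : K, algebraMap K F a ∈ O := by
    intro a
    rw [hmem, ← IsScalarTower.algebraMap_apply]
    exact P'.algebraMap_mem' a
  have htop : O ≠ ⊤ := by
    intro htop
    apply P'.ne_top'
    have hall : ∀ f : F, algebraMap F F' f ∈ O' := by
      intro f
      rw [← hmem, htop]
      exact ValuationSubring.mem_top f
    refine SetLike.ext fun x => ⟨fun _ => ValuationSubring.mem_top x, fun _ => ?_⟩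
    have hint : IsIntegral O' x := by
      obtain ⟨p, hpm, hp⟩ := (Algebra.IsAlgebraic.isAlgebraic (R := F) x).isIntegral
      let φ : F →+* O' := (algebraMap F F').codRestrict O'.toSubring hall
      refine ⟨p.map φ, hpm.map φ, ?_⟩
      rw [Polynomial.eval₂_map]
      exact hp
    obtain ⟨y, hy⟩ := IsIntegrallyClosed.isIntegral_iff.1 hint
    rw [← hy]
    exact y.2
  have hpid : IsPrincipalIdealRing O := by
    have hwf : WfDvdMonoid O := by
      classical
      let μ : O → ℕ∞ := fun a =>
        if a = 0 then ⊤ else ((P'.ord (algebraMap F F' (a : F))).toNat : ℕ∞)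
      refine ⟨Subrelation.wf (r := InvImage (· < ·) μ) ?_ (InvImage.wf μ wellFounded_lt)⟩
      rintro a b ⟨ha, x, hx, rfl⟩
      have ha' : algebraMap F F' (a : F) ≠ 0 := by
        simpa using ha
      change μ a < μ (a * x)
      by_cases hx0 : x = 0
      · simp only [μ, hx0, mul_zero, if_true, if_neg ha]
        exact WithTop.coe_lt_top _
      · have hx' : algebraMap F F' (x : F) ≠ 0 := by
          simpa using hx0
        have hax : a * x ≠ 0 := mul_ne_zero ha hx0
        simp only [μ, if_neg ha, if_neg hax]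
        have h1 : 0 ≤ P'.ord (algebraMap F F' (a : F)) := (dp_mem_iff P' ha').1 a.2
        have h2 : 0 < P'.ord (algebraMap F F' (x : F)) := by
          by_contra hle
          apply hx
          have h3 : 0 ≤ P'.ord (algebraMap F F' (x : F))⁻¹ := by
            rw [Place.ord_inv]; omega
          have h4 : ((x : F))⁻¹ ∈ O := by
            rw [hmem, map_inv₀]
            exact (dp_mem_iff P' (inv_ne_zero hx')).2 h3
          refine IsUnit.of_mul_eq_one ⟨_, h4⟩ ?_
          apply Subtype.ext
          have hxF : (x : F) ≠ 0 := by simpa using hx0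
          simp [hxF]
        have h5 : P'.ord (algebraMap F F' ((a * x : O) : F)) =
            P'.ord (algebraMap F F' (a : F)) + P'.ord (algebraMap F F' (x : F)) := by
          have h6 : ((a * x : O) : F) = (a : F) * (x : F) := rfl
          rw [h6, map_mul, Place.ord_mul _ ha' hx']
        rw [h5]
        exact_mod_cast (by omega : (P'.ord (algebraMap F F' (a : F))).toNat <
          (P'.ord (algebraMap F F' (a : F)) + P'.ord (algebraMap F F' (x : F))).toNat)
    exact ((IsBezout.TFAE (R := O)).out 3 1).1 hwf
  exact ⟨⟨O, hK, htop, hpid⟩, rfl⟩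

theorem dp_dvd_ord_algebraMap {K F F' : Type*} [Field K] [Field F] [Field F'] [Algebra K F]
    [Algebra K F'] [Algebra F F'] [IsScalarTower K F F'] [Algebra.IsAlgebraic F F'] (u : F) (m : ℤ)
    (h : ∀ P : Place K F, m ∣ P.ord u) (P' : Place K F') : m ∣ P'.ord (algebraMap F F' u) := by
  rcases eq_or_ne u 0 with rfl | hu
  · simp
  obtain ⟨P, hP⟩ := dp_exists_restrict (F := F) P'
  have hmem : ∀ f : F, f ∈ P.toValuationSubring ↔ algebraMap F F' f ∈ P'.toValuationSubring := by
    intro f; rw [hP]; exact Iff.rfl
  obtain ⟨π, hπ⟩ := IsDiscreteValuationRing.exists_irreducible P.toValuationSubring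
  obtain ⟨w, hw⟩ := P.exists_unit_mul_zpow hu hπ
  have hπ0 : (π : F) ≠ 0 := by simpa using hπ.ne_zero
  have hw0 : ((w : P.toValuationSubring) : F) ≠ 0 := by simp
  have hw1 : P'.ord (algebraMap F F' ((w : P.toValuationSubring) : F)) = 0 := by
    have h1 : 0 ≤ P'.ord (algebraMap F F' ((w : P.toValuationSubring) : F)) :=
      (dp_mem_iff P' (by simp)).1 ((hmem _).1 w.1.2)
    have h2 : 0 ≤ P'.ord (algebraMap F F' ((w : P.toValuationSubring) : F))⁻¹ := by
      refine (dp_mem_iff P' (inv_ne_zero (by simp))).1 ?_
      rw [← map_inv₀, ← hmem]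
      have : (((w⁻¹ : P.toValuationSubringˣ) : P.toValuationSubring) : F) =
          ((w : P.toValuationSubring) : F)⁻¹ := by
        apply eq_inv_of_mul_eq_one_left
        have h7 := congrArg (Subtype.val) (Units.inv_mul w)
        exact h7
      rw [← this]
      exact (w⁻¹).1.2
    rw [Place.ord_inv] at h2
    omega
  have key : P'.ord (algebraMap F F' u) = P.ord u * P'.ord (algebraMap F F' (π : F)) := by
    conv_lhs => rw [hw]
    rw [map_mul, map_zpow₀, Place.ord_mul _ (by simp)
      (zpow_ne_zero _ (by simpa using hπ0)), hw1, zero_add, Place.ord_zpow]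
  rw [key]
  exact Dvd.dvd.mul_right (h P) _

end Fermat.Agent.S18
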