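import Fermat.Agent.S18.Gauss
import Fermat.Agent.S18.DescentDP
import Fermat.Agent.S18.DW
import Fermat.Agent.S24.Primes

/-!
# S18, pieces DP (places of an algebraic extension restrict to places) and DW (descent of an `m`-th root from level `N'` to level `N`)
-/

set_option autoImplicit false

namespace Fermat.Agent.S18

open Polynomial IntermediateField Fermat.Agent.S24 ModularCurve AlgebraicCurve

/-- **DP.** `F'/F` algebraic.  A place `P'` of `F'` restricts to a place `P = P' ∩ F` of `F` (`≠ ⊤` because `F'` is integral over `F`; its value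
group is a nonzero subgroup of `ℤ`, so it is a DVR) and `ord_{P'} = e · ord_P` on `F`.  Hence divisibility of all `ord`s is inherited. -/
theorem dvd_ord_algebraMap {K F F' : Type*} [Field K] [Field F] [Field F'] [Algebra K F]
    [Algebra K F'] [Algebra F F'] [IsScalarTower K F F'] [Algebra.IsAlgebraic F F'] (u : F) (m : ℤ)
    (h : ∀ P : Place K F, m ∣ P.ord u) (P' : Place K F') : m ∣ P'.ord (algebraMap F F' u) :=
  dp_dvd_ord_algebraMap u m h P'

theorem FN_le_of_dvd {N N' : ℕ} (h : N ∣ N') : FN N ≤ FN N' :=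
  FN_le_of_dvd_aux h

/-- **DW.** `u ∈ F_N`, `u ≡ 1`; `w ∈ F_{N'}`, `w^m = u`, `ℓ ∤ m N'`.  Then `w ∈ F_N`.

Proof. `δ = [F_{N'} : F_N] = ψ(N')/ψ(N) = [F̄_{N'} : F̄_N]` (S24 `finrank_modularFunctionFieldBar`, `finrank_modularFunctionFieldFullC`, tower law).
Lift an `F̄_N`-basis of `F̄_{N'}` to `e_i ∈ V'`: it is an orthonormal `F_N`-basis of `F_{N'}` (`∑ c_i e_i ∈ V' ⟹ c_i ∈ V`; scale by the `c_i` of maximal
valuation).  `w ∈ V'^×`, `w̄ = ω ∈ k` (`ω^m = 1`, `k` algebraically closed in `k((q))`).  The matrix `M` of multiplication by `w` has entries in `V` and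
reduces to `ω · 1`, so `χ = charpoly M ∈ V[T]` reduces to `(T - ω)^δ`.  If `w ∉ F_N` its minimal polynomial over `F_N` divides `T^m - u = ∏ (T - ζ w)`, is
separable of degree `> 1`, so it has a root `ζ w`, `ζ ∈ ℚ̄`, `ζ^m = 1`, `ζ ≠ 1`; it divides `χ`, so `χ(ζ w) = 0`; reduce: `(ζ̄ ω - ω)^δ = 0`, `ζ̄ = 1`.
But `T^m - 1` is separable over `k`: `m = ∏_{ζ ≠ 1} (1 - ζ)` is a unit of `A`.  Contradiction. -/
theorem mem_FN_of_pow_eq (A : ValuationSubring Kb) {N N' : ℕ} [NeZero N] [NeZero N'] (hNN' : N ∣ N')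
    (hN' : (N' : kA A) ≠ 0) {m : ℕ} (hm : (m : kA A) ≠ 0) (u w : LaurentSeries Kb) (hu : u ∈ FN N)
    (hw : w ∈ FN N') (hwu : w ^ m = u) (Y₁ Y₂ : LaurentSeries A)
    (hY : coeffMap (IsLocalRing.residue A) Y₁ = coeffMap (IsLocalRing.residue A) Y₂)
    (hY0 : coeffMap (IsLocalRing.residue A) Y₂ ≠ 0)
    (huY : u * coeffMap A.subtype Y₂ = coeffMap A.subtype Y₁) : w ∈ FN N :=
  mem_FN_of_pow_eq_aux A hNN' hN' hm u w hu hw hwu Y₁ Y₂ hY hY0 huY

end Fermat.Agent.S18
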