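import Fermat.Agent.S16.LevelOne
import Fermat.Agent.S16.Sturm3
import Fermat.Agent.S24.LevelForms

/-!
# S18, pieces H2A, H2B, H3A, H3B: the four identities between `E₄`, `Δ(q)`, `Δ(q^p)` in `ℤ⟦q⟧`

Truncated power series arithmetic on lists (evaluated by the kernel) + the Prelude Sturm bound.
-/

set_option autoImplicit false

namespace Fermat.Agent.S18

namespace HT

open PowerSeries Fermat.Agent.S16 ModularCurve

/-- `l` lists the first `n` coefficients of `P`. -/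
def Tr (n : ℕ) (P : PowerSeries ℤ) (l : List ℤ) : Prop := ∀ i < n, coeff i P = l.getD i 0

def addL (n : ℕ) (l l' : List ℤ) : List ℤ := (List.range n).map fun i => l.getD i 0 + l'.getD i 0
def subL (n : ℕ) (l l' : List ℤ) : List ℤ := (List.range n).map fun i => l.getD i 0 - l'.getD i 0
def smulL (n : ℕ) (c : ℤ) (l : List ℤ) : List ℤ := (List.range n).map fun i => c * l.getD i 0
def mulL (n : ℕ) (l l' : List ℤ) : List ℤ :=
  (List.range n).map fun i => ∑ j ∈ Finset.range (i + 1), l.getD j 0 * l'.getD (i - j) 0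
def vL (n p : ℕ) (l : List ℤ) : List ℤ :=
  (List.range n).map fun i => if p ∣ i then l.getD (i / p) 0 else 0

theorem getD_map_range (n : ℕ) (f : ℕ → ℤ) {i : ℕ} (hi : i < n) :
    ((List.range n).map f).getD i 0 = f i := by
  simp [List.getD_eq_getElem?_getD, hi]

variable {n : ℕ} {P Q : PowerSeries ℤ} {l l' : List ℤ}

theorem Tr.congr (h : Tr n P l) (e : l = l') : Tr n P l' := e ▸ h

theorem Tr.add (h : Tr n P l) (h' : Tr n Q l') : Tr n (P + Q) (addL n l l') := by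
  intro i hi
  rw [addL, getD_map_range n _ hi, map_add, h i hi, h' i hi]

theorem Tr.sub (h : Tr n P l) (h' : Tr n Q l') : Tr n (P - Q) (subL n l l') := by
  intro i hi
  rw [subL, getD_map_range n _ hi, map_sub, h i hi, h' i hi]

theorem Tr.C_mul (c : ℤ) (h : Tr n P l) : Tr n (C c * P) (smulL n c l) := by
  intro i hi
  rw [smulL, getD_map_range n _ hi, coeff_C_mul, h i hi]

theorem Tr.mul (h : Tr n P l) (h' : Tr n Q l') : Tr n (P * Q) (mulL n l l') := by
  intro i hi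
  rw [mulL, getD_map_range n _ hi, coeff_mul,
    Finset.Nat.sum_antidiagonal_eq_sum_range_succ (fun a b => coeff a P * coeff b Q)]
  refine Finset.sum_congr rfl fun j hj => ?_
  rw [Finset.mem_range] at hj
  rw [h j (by omega), h' (i - j) (by omega)]

theorem Tr.sq (h : Tr n P l) : Tr n (P ^ 2) (mulL n l l) := by
  rw [pow_two]; exact h.mul h

theorem Tr.cube (h : Tr n P l) : Tr n (P ^ 3) (mulL n (mulL n l l) l) := by
  rw [pow_succ, pow_two]; exact (h.mul h).mul h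

theorem Tr.V (p : ℕ) (h : Tr n P l) : Tr n (V p P) (vL n p l) := by
  intro i hi
  rw [vL, getD_map_range n _ hi, coeff_V]
  split_ifs with hd
  · exact h _ (lt_of_le_of_lt (Nat.div_le_self i p) hi)
  · rfl

theorem Tr.of_C_mul {c : ℤ} (hc : c ≠ 0) (h : Tr n (C c * P) (smulL n c l)) : Tr n P l := by
  intro i hi
  have := h i hi
  rw [smulL, getD_map_range n _ hi, coeff_C_mul] at this
  exact mul_left_cancel₀ hc this

/-- the first coefficients of `E₄`, `E₆`, `Δ`. -/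
def lE4 : List ℤ := [1, 240, 2160, 6720, 17520, 30240, 60480, 82560, 140400, 181680, 272160,
  319680, 490560, 527520, 743040, 846720, 1123440]
def lE6 : List ℤ := [1, -504, -16632, -122976, -532728, -1575504, -4058208, -8471232, -17047800,
  -29883672, -51991632, -81170208, -129985632, -187132176, -279550656, -384422976, -545530104]
def lD : List ℤ := [0, 1, -24, 252, -1472, 4830, -6048, -16744, 84480, -113643, -115920, 534612,
  -370944, -577738, 401856, 1217160, 987136]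

theorem tr_E4 : Tr 17 E4z lE4 := by
  intro i hi
  rw [L1.coeff_E4z, ArithmeticFunction.sigma_apply]
  revert i
  decide +kernel

theorem tr_E6 : Tr 17 E6z lE6 := by
  intro i hi
  rw [L1.coeff_E6z, ArithmeticFunction.sigma_apply]
  revert i
  decide +kernel

/-- `Δ = q ∏ (1 - qⁿ)²⁴ ∈ ℤ⟦q⟧`. -/
noncomputable def Dz : PowerSeries ℤ := X * dedekindEtaUnit

theorem tr_D : Tr 17 Dz lD := by
  refine Tr.of_C_mul (c := 1728) (by norm_num) ?_
  have e : C (1728 : ℤ) * Dz = E4z ^ 3 - E6z ^ 2 := by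
    rw [← L1.Delta_eq, Dz, map_ofNat C 1728]
  rw [e]
  exact (tr_E4.cube.sub tr_E6.sq).congr (by decide +kernel)

/-! ### modularity -/

theorem isQZ1_V {p N : ℕ} [NeZero p] [NeZero N] (hpN : p ∣ N) {k : ℤ} (h : IsQZ1 k P) :
    IsQZ N k (V p P) := by
  obtain ⟨f, hf⟩ := h
  have hF : (⇑f : UpperHalfPlane → ℂ) ∈ S20.MFs ⊤ k := S20.mf_coe_mem_MFs_top f
  obtain ⟨g, hg⟩ := S20.exists_modularForm_of_mem_MFs (S24.lev_mem (N := N) hpN hF)
  refine ⟨g, ?_⟩
  ext m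
  rw [hg, S24.lev_coeff hF, toC_V, coeff_V, hf]

theorem cw {N : ℕ} {k k' : ℤ} (hk : k = k') (h : IsQZ N k P) : IsQZ N k' P := hk ▸ h

/-- Sturm bound on `Γ₀(p)`. -/
theorem eq_zero_of_tr (p : ℕ) [Fact p.Prime] {k : ℕ} (h : IsQZ p (k : ℤ) P)
    (ht : Tr n P (List.replicate n 0)) (hn : k * (p + 1) < 12 * n) : P = 0 := by
  have : NeZero p := ⟨(Fact.out : p.Prime).ne_zero⟩
  obtain ⟨f, hf⟩ := h
  have hidx : (CongruenceSubgroup.Gamma0 p).index ≤ p + 1 := index_Gamma0_le p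
  have hf0 : f = 0 := by
    refine ModularForm.sturm_bound_Gamma0 p f fun m hm => ?_
    have h1 : ((k : ℤ) * ((CongruenceSubgroup.Gamma0 p).index : ℤ)).toNat ≤ k * (p + 1) := by
      have : (k : ℤ) * ((CongruenceSubgroup.Gamma0 p).index : ℤ) ≤ ((k * (p + 1) : ℕ) : ℤ) := by
        have h4 : ((CongruenceSubgroup.Gamma0 p).index : ℤ) ≤ ((p + 1 : ℕ) : ℤ) := by
          exact_mod_cast hidx
        rw [Nat.cast_mul]
        exact mul_le_mul_of_nonneg_left h4 (Int.natCast_nonneg k)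
      omega
    have h2 : m ≤ k * (p + 1) / 12 := hm.trans (Nat.div_le_div_right h1)
    have h3 : m < n := by omega
    rw [hf, coeff_toC, ht m h3]
    simp
  apply toC_injective
  rw [← hf, hf0, map_zero]
  exact UpperHalfPlane.qExpansion_zero 1

theorem isQZ_E4 (N : ℕ) : IsQZ N 4 E4z := isQZ1_E4z.isQZ N
theorem isQZ_D (N : ℕ) : IsQZ N 12 Dz := L1.isQZ1_Delta.isQZ N
theorem isQZ_VD (p : ℕ) [NeZero p] : IsQZ p 12 (V p Dz) := isQZ1_V (dvd_refl p) L1.isQZ1_Delta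
theorem isQZ_VE4 (p : ℕ) [NeZero p] : IsQZ p 4 (V p E4z) := isQZ1_V (dvd_refl p) isQZ1_E4z

/-! ### the four identities -/

theorem ps2A : E4z ^ 3 * Dz * V 2 Dz = (Dz + C 256 * V 2 Dz) ^ 3 := by
  have : Fact (Nat.Prime 2) := ⟨by norm_num⟩
  rw [← sub_eq_zero]
  refine eq_zero_of_tr (n := 17) 2 (k := 36) ?_ ?_ (by norm_num)
  · refine IsQZ.sub ?_ ?_
    · exact cw (by norm_num) ((((isQZ_E4 2).pow 3).mul (isQZ_D 2)).mul (isQZ_VD 2))
    · exact cw (by norm_num) (((isQZ_D 2).add ((isQZ_VD 2).C_mul 256)).pow 3)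
  · exact (((tr_E4.cube.mul tr_D).mul (tr_D.V 2)).sub
      (tr_D.add ((tr_D.V 2).C_mul 256)).cube).congr (by decide +kernel)

theorem ps2B : V 2 E4z ^ 3 * Dz * V 2 Dz = (Dz + C 16 * V 2 Dz) ^ 3 := by
  have : Fact (Nat.Prime 2) := ⟨by norm_num⟩
  rw [← sub_eq_zero]
  refine eq_zero_of_tr (n := 17) 2 (k := 36) ?_ ?_ (by norm_num)
  · refine IsQZ.sub ?_ ?_
    · exact cw (by norm_num) ((((isQZ_VE4 2).pow 3).mul (isQZ_D 2)).mul (isQZ_VD 2))
    · exact cw (by norm_num) (((isQZ_D 2).add ((isQZ_VD 2).C_mul 16)).pow 3)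
  · exact ((((tr_E4.V 2).cube.mul tr_D).mul (tr_D.V 2)).sub
      (tr_D.add ((tr_D.V 2).C_mul 16)).cube).congr (by decide +kernel)

theorem ps3A : Dz * V 3 Dz * (E4z ^ 3 - C 756 * Dz - C 19131876 * V 3 Dz) ^ 2 =
    (Dz ^ 2 + C 196830 * (Dz * V 3 Dz) + C 387420489 * V 3 Dz ^ 2) ^ 2 := by
  have : Fact (Nat.Prime 3) := ⟨by norm_num⟩
  rw [← sub_eq_zero]
  refine eq_zero_of_tr (n := 17) 3 (k := 48) ?_ ?_ (by norm_num)
  · refine IsQZ.sub ?_ ?_
    · refine cw (by norm_num)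
        (((isQZ_D 3).mul (isQZ_VD 3)).mul ((IsQZ.sub (IsQZ.sub (k := 12) ?_ ?_) ?_).pow 2))
      · exact cw (by norm_num) ((isQZ_E4 3).pow 3)
      · exact (isQZ_D 3).C_mul 756
      · exact (isQZ_VD 3).C_mul 19131876
    · refine cw (by norm_num) ((IsQZ.add (IsQZ.add (k := 24) ?_ ?_) ?_).pow 2)
      · exact cw (by norm_num) ((isQZ_D 3).pow 2)
      · exact cw (by norm_num) (((isQZ_D 3).mul (isQZ_VD 3)).C_mul 196830)
      · exact cw (by norm_num) (((isQZ_VD 3).pow 2).C_mul 387420489)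
  · exact (((tr_D.mul (tr_D.V 3)).mul
      ((tr_E4.cube.sub (tr_D.C_mul 756)).sub ((tr_D.V 3).C_mul 19131876)).sq).sub
      ((tr_D.sq.add ((tr_D.mul (tr_D.V 3)).C_mul 196830)).add
        ((tr_D.V 3).sq.C_mul 387420489)).sq).congr (by decide +kernel)

theorem ps3B : Dz * V 3 Dz * (V 3 E4z ^ 3 - C 36 * Dz - C 756 * V 3 Dz) ^ 2 =
    (Dz ^ 2 + C 270 * (Dz * V 3 Dz) + C 729 * V 3 Dz ^ 2) ^ 2 := by
  have : Fact (Nat.Prime 3) := ⟨by norm_num⟩
  rw [← sub_eq_zero]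
  refine eq_zero_of_tr (n := 17) 3 (k := 48) ?_ ?_ (by norm_num)
  · refine IsQZ.sub ?_ ?_
    · refine cw (by norm_num)
        (((isQZ_D 3).mul (isQZ_VD 3)).mul ((IsQZ.sub (IsQZ.sub (k := 12) ?_ ?_) ?_).pow 2))
      · exact cw (by norm_num) ((isQZ_VE4 3).pow 3)
      · exact (isQZ_D 3).C_mul 36
      · exact (isQZ_VD 3).C_mul 756
    · refine cw (by norm_num) ((IsQZ.add (IsQZ.add (k := 24) ?_ ?_) ?_).pow 2)
      · exact cw (by norm_num) ((isQZ_D 3).pow 2)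
      · exact cw (by norm_num) (((isQZ_D 3).mul (isQZ_VD 3)).C_mul 270)
      · exact cw (by norm_num) (((isQZ_VD 3).pow 2).C_mul 729)
  · exact (((tr_D.mul (tr_D.V 3)).mul
      (((tr_E4.V 3).cube.sub (tr_D.C_mul 36)).sub ((tr_D.V 3).C_mul 756)).sq).sub
      ((tr_D.sq.add ((tr_D.mul (tr_D.V 3)).C_mul 270)).add
        ((tr_D.V 3).sq.C_mul 729)).sq).congr (by decide +kernel)

end HT

end Fermat.Agent.S18
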