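import Fermat.Agent.S28.Formal
import Fermat.Agent.S18.HauptPS
import Fermat.Prelude.Thm_ModularForm_sturm_bound_Gamma0

/-!
# S18, pieces H2A, H2B, H3A, H3B: the Hauptmoduln of `X₀(2)`, `X₀(3)` as integral `q`-series and their relations with `j`
All four identities were checked numerically up to `q^40`.
-/

set_option autoImplicit false

namespace Fermat.Agent.S18

open ModularCurve Fermat.Agent.S28

/-- `t₂ = Δ(q)/Δ(q²) = q⁻¹ - 24 + …`. -/
noncomputable def tZ2 : LaurentSeries ℤ := DeltaC ℤ * qExpand ℤ 2 (DeltaInvC ℤ)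

/-- `t₃ = (η(q)/η(q³))¹² = q⁻¹ - 12 + …`. -/
noncomputable def tZ3 : LaurentSeries ℤ :=
  HahnSeries.single (-1 : ℤ) 1 * HahnSeries.ofPowerSeries ℤ ℤ (etaProd ^ 12) *
    qExpand ℤ 3 (HahnSeries.ofPowerSeries ℤ ℤ ((etaProd ^ 12).invOfUnit 1))

namespace HT

open Fermat.Agent.S16

local notation "ι" => HahnSeries.ofPowerSeries ℤ ℤ

theorem qExpand_iota (p : ℕ) [NeZero p] (P : PowerSeries ℤ) : qExpand ℤ p (ι P) = ι (V p P) := by
  have hpos : 0 < p := Nat.pos_of_ne_zero (NeZero.ne p)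
  ext n
  by_cases hn : (p : ℤ) ∣ n
  · obtain ⟨m, rfl⟩ := hn
    rw [qExpand_coeff_mul]
    rcases le_or_gt 0 m with hm | hm
    · lift m to ℕ using hm
      rw [HahnSeries.ofPowerSeries_apply_coeff, ← Nat.cast_mul,
        HahnSeries.ofPowerSeries_apply_coeff, coeff_V, if_pos (dvd_mul_right _ _),
        Nat.mul_div_cancel_left _ hpos]
    · rw [ofPowerSeries_coeff_of_neg _ hm, ofPowerSeries_coeff_of_neg]
      exact mul_neg_of_pos_of_neg (by exact_mod_cast hpos) hm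
  · rw [qExpand_coeff_of_not_dvd _ _ hn]
    rcases le_or_gt 0 n with hm | hm
    · lift n to ℕ using hm
      rw [HahnSeries.ofPowerSeries_apply_coeff, coeff_V, if_neg]
      exact fun h => hn (Int.natCast_dvd_natCast.mpr h)
    · rw [ofPowerSeries_coeff_of_neg _ hm]

theorem map_int_id (P : PowerSeries ℤ) : P.map (Int.castRingHom ℤ) = P := by
  ext n; simp

theorem DeltaC_eq : DeltaC ℤ = ι Dz := by
  rw [DeltaC, Dz, map_mul, HahnSeries.ofPowerSeries_X, map_int_id]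

theorem E4z_eq : E4z = eisenstein4 := by
  apply toC_injective
  rw [← L1.qExpansion_E4, Fermat.Agent.S28.qExpansion_E4]
  rfl

theorem E4cubeC_eq : E4cubeC ℤ = ι (E4z ^ 3) := by
  rw [E4cubeC, map_int_id, E4z_eq]

theorem iota_C (c : ℤ) : ι (PowerSeries.C c) = (c : LaurentSeries ℤ) :=
  eq_intCast ((ι).comp PowerSeries.C) c

theorem b_mul_b' (p : ℕ) [NeZero p] :
    qExpand ℤ p (DeltaC ℤ) * qExpand ℤ p (DeltaInvC ℤ) = 1 := by
  rw [← map_mul, DeltaC_mul_DeltaInvC, map_one]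

theorem ls2A : E4cubeC ℤ * DeltaC ℤ * qExpand ℤ 2 (DeltaC ℤ) =
    (DeltaC ℤ + 256 * qExpand ℤ 2 (DeltaC ℤ)) ^ 3 := by
  have h := congrArg ι ps2A
  simp only [map_mul, map_pow, map_add, iota_C, Int.cast_ofNat] at h
  rw [E4cubeC_eq, DeltaC_eq, qExpand_iota, map_pow]
  exact h

theorem ls2B : qExpand ℤ 2 (E4cubeC ℤ) * DeltaC ℤ * qExpand ℤ 2 (DeltaC ℤ) =
    (DeltaC ℤ + 16 * qExpand ℤ 2 (DeltaC ℤ)) ^ 3 := by
  have h := congrArg ι ps2B
  simp only [map_mul, map_pow, map_add, iota_C, Int.cast_ofNat] at h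
  rw [E4cubeC_eq, DeltaC_eq, qExpand_iota, qExpand_iota, V_pow (p := 2) E4z (by norm_num) 3, map_pow]
  exact h

theorem ls3A : DeltaC ℤ * qExpand ℤ 3 (DeltaC ℤ) *
      (E4cubeC ℤ - 756 * DeltaC ℤ - 19131876 * qExpand ℤ 3 (DeltaC ℤ)) ^ 2 =
    (DeltaC ℤ ^ 2 + 196830 * (DeltaC ℤ * qExpand ℤ 3 (DeltaC ℤ)) +
      387420489 * qExpand ℤ 3 (DeltaC ℤ) ^ 2) ^ 2 := by
  have h := congrArg ι ps3A
  simp only [map_mul, map_pow, map_add, map_sub, iota_C, Int.cast_ofNat] at h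
  rw [E4cubeC_eq, DeltaC_eq, qExpand_iota, map_pow]
  exact h

theorem ls3B : DeltaC ℤ * qExpand ℤ 3 (DeltaC ℤ) *
      (qExpand ℤ 3 (E4cubeC ℤ) - 36 * DeltaC ℤ - 756 * qExpand ℤ 3 (DeltaC ℤ)) ^ 2 =
    (DeltaC ℤ ^ 2 + 270 * (DeltaC ℤ * qExpand ℤ 3 (DeltaC ℤ)) +
      729 * qExpand ℤ 3 (DeltaC ℤ) ^ 2) ^ 2 := by
  have h := congrArg ι ps3B
  simp only [map_mul, map_pow, map_add, map_sub, iota_C, Int.cast_ofNat] at h
  rw [E4cubeC_eq, DeltaC_eq, qExpand_iota, qExpand_iota, V_pow (p := 3) E4z (by norm_num) 3, map_pow]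
  exact h

theorem constantCoeff_e12 : PowerSeries.constantCoeff (etaProd ^ 12) = 1 := by
  rw [map_pow, constantCoeff_etaProd, one_pow]

theorem e12_mul_inv : etaProd ^ 12 * (etaProd ^ 12).invOfUnit 1 = 1 :=
  PowerSeries.mul_invOfUnit _ _ (by rw [constantCoeff_e12]; rfl)

theorem constantCoeff_e12inv : PowerSeries.constantCoeff ((etaProd ^ 12).invOfUnit 1) = 1 := by
  have h := congrArg (PowerSeries.constantCoeff (R := ℤ)) e12_mul_inv
  rwa [map_mul, constantCoeff_e12, one_mul, map_one] at h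

theorem e12inv_sq : (etaProd ^ 12).invOfUnit 1 ^ 2 = dedekindEtaUnitInv := by
  have h1 : dedekindEtaUnit * (etaProd ^ 12).invOfUnit 1 ^ 2 = 1 := by
    have : dedekindEtaUnit * (etaProd ^ 12).invOfUnit 1 ^ 2 =
        (etaProd ^ 12 * (etaProd ^ 12).invOfUnit 1) ^ 2 := by
      rw [dedekindEtaUnit]; ring
    rw [this, e12_mul_inv, one_pow]
  calc (etaProd ^ 12).invOfUnit 1 ^ 2
      = (etaProd ^ 12).invOfUnit 1 ^ 2 * (dedekindEtaUnit * dedekindEtaUnitInv) := by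
        rw [dedekindEtaUnit_mul_inv, mul_one]
    _ = (dedekindEtaUnit * (etaProd ^ 12).invOfUnit 1 ^ 2) * dedekindEtaUnitInv := by ring
    _ = dedekindEtaUnitInv := by rw [h1, one_mul]

end HT

open HT Fermat.Agent.S16 in
theorem tZ2_eq : ∃ U : PowerSeries ℤ, PowerSeries.constantCoeff U = 1 ∧
    tZ2 = HahnSeries.single (-1 : ℤ) 1 * HahnSeries.ofPowerSeries ℤ ℤ U := by
  refine ⟨dedekindEtaUnit * V 2 dedekindEtaUnitInv, ?_, ?_⟩
  · rw [map_mul, constantCoeff_V, constantCoeff_dedekindEtaUnit, constantCoeff_dedekindEtaUnitInv,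
      one_mul]
  · rw [tZ2, DeltaC, DeltaInvC, map_mul, qExpand_single, map_int_id, map_int_id, qExpand_iota,
      map_mul, mul_mul_mul_comm, HahnSeries.single_mul_single]
    norm_num

open HT Fermat.Agent.S16 in
theorem tZ3_eq : ∃ U : PowerSeries ℤ, PowerSeries.constantCoeff U = 1 ∧
    tZ3 = HahnSeries.single (-1 : ℤ) 1 * HahnSeries.ofPowerSeries ℤ ℤ U := by
  refine ⟨etaProd ^ 12 * V 3 ((etaProd ^ 12).invOfUnit 1), ?_, ?_⟩
  · rw [map_mul, constantCoeff_V, constantCoeff_e12, constantCoeff_e12inv, one_mul]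
  · rw [tZ3, qExpand_iota, map_mul, mul_assoc]

open HT Fermat.Agent.S16 in
theorem tZ3_sq : tZ3 ^ 2 = DeltaC ℤ * qExpand ℤ 3 (DeltaInvC ℤ) := by
  have hS : (HahnSeries.single (-1 : ℤ) (1 : ℤ)) ^ 2 = HahnSeries.single (-2 : ℤ) 1 := by
    rw [pow_two, HahnSeries.single_mul_single]; norm_num
  have hA : (HahnSeries.ofPowerSeries ℤ ℤ (etaProd ^ 12)) ^ 2 =
      HahnSeries.ofPowerSeries ℤ ℤ dedekindEtaUnit := by
    rw [← map_pow, ← pow_mul, dedekindEtaUnit]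
  have hB : (qExpand ℤ 3 (HahnSeries.ofPowerSeries ℤ ℤ ((etaProd ^ 12).invOfUnit 1))) ^ 2 =
      qExpand ℤ 3 (HahnSeries.ofPowerSeries ℤ ℤ dedekindEtaUnitInv) := by
    rw [← map_pow, ← map_pow, e12inv_sq]
  have hS' : HahnSeries.single (1 : ℤ) (1 : ℤ) * HahnSeries.single (((3 : ℕ) : ℤ) * -1) (1 : ℤ) =
      HahnSeries.single (-2 : ℤ) 1 := by
    rw [HahnSeries.single_mul_single]; norm_num
  rw [tZ3, DeltaC, DeltaInvC, map_mul, qExpand_single, map_int_id, map_int_id, mul_pow, mul_pow,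
    hS, hA, hB, mul_mul_mul_comm, hS', mul_assoc]

namespace HT

theorem lw_int (c : ℤ) : LeadsWith ((c : ℤ) : LaurentSeries ℤ) 0 c := by
  have h : ((c : ℤ) : LaurentSeries ℤ) = HahnSeries.C c := (eq_intCast (HahnSeries.C : ℤ →+* LaurentSeries ℤ) c).symm
  rw [h]
  exact leadsWith_C c

theorem lw_tZ3 : LeadsWith tZ3 (-1) 1 := by
  obtain ⟨U, hU, h⟩ := tZ3_eq
  have := (leadsWith_single (R := ℤ) (-1) 1).mul (leadsWith_ofPowerSeries U)
  rw [hU, ← h] at this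
  simpa using this

theorem lw_sub {x y : LaurentSeries ℤ} {n m : ℤ} {a b : ℤ} (hx : LeadsWith x n a)
    (hy : LeadsWith y m b) (hnm : n < m) : LeadsWith (x - y) n a := by
  rw [sub_eq_add_neg]
  exact hx.add_of_lt hy.neg hnm

theorem eq_of_sq_eq {x y : LaurentSeries ℤ} {n : ℤ} (hsq : x ^ 2 = y ^ 2)
    (hx : LeadsWith x n 1) (hy : LeadsWith y n 1) : x = y := by
  have h : (x - y) * (x + y) = 0 := by linear_combination hsq
  rcases mul_eq_zero.mp h with h | h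
  · exact sub_eq_zero.mp h
  · exfalso
    have hxy : x = -y := eq_neg_of_add_eq_zero_left h
    rw [hxy] at hx
    have := (hx.unique hy.neg one_ne_zero (by norm_num)).2
    norm_num at this

theorem lw_tZ3_sq : LeadsWith (tZ3 ^ 2) (-2) 1 := by
  have := lw_tZ3.pow 2
  simpa using this

theorem lw_tZ3_four : LeadsWith (tZ3 ^ 4) (-4) 1 := by
  have := lw_tZ3.pow 4
  simpa using this

theorem lw_P (c d : ℤ) : LeadsWith (tZ3 ^ 4 + (c : LaurentSeries ℤ) * tZ3 ^ 2 + (d : LaurentSeries ℤ))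
    (-4) 1 := by
  have h1 := (lw_int c).mul lw_tZ3_sq
  exact (lw_tZ3_four.add_of_lt h1 (by norm_num)).add_of_lt (lw_int d) (by norm_num)

end HT

open HT in
/-- **H2A.** `j t² = (t+256)³`.  Equivalent to `E₄(z)³ Δ(z) Δ(2z) = (Δ(z) + 256 Δ(2z))³` in `M₃₆(Γ₀(2))`, Sturm bound `9`.
(S24.LevelForms: `lev`, `qLf_lev`, `qLf_discriminant`, `qLf_E4_cube`; S16.Sturm3 for a worked example of a Sturm computation.) -/
theorem haupt2_A : jqModC ℤ * tZ2 ^ 2 = (tZ2 + 256) ^ 3 := by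
  have h1 := DeltaC_mul_DeltaInvC ℤ
  have h2 := b_mul_b' 2
  have h := ls2A
  rw [jqModC_eq, tZ2]
  generalize DeltaC ℤ = a at *
  generalize DeltaInvC ℤ = a' at *
  generalize qExpand ℤ 2 a = b at *
  generalize qExpand ℤ 2 a' = b' at *
  generalize E4cubeC ℤ = E at *
  have e1 : a * b' + 256 = (a + 256 * b) * b' := by linear_combination (-256) * h2
  rw [e1, mul_pow (a + 256 * b) b' 3, ← h]
  linear_combination (E * a * b' ^ 2) * h1 - (E * a * b' ^ 2) * h2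

open HT in
/-- **H2B.** `j(q²) t = (t+16)³`.  Equivalent to `E₄(2z)³ Δ(z) Δ(2z) = (Δ(z) + 16 Δ(2z))³`, weight 36, Sturm bound `9`. -/
theorem haupt2_B : qExpand ℤ 2 (jqModC ℤ) * tZ2 = (tZ2 + 16) ^ 3 := by
  have h2 := b_mul_b' 2
  have h := ls2B
  rw [jqModC_eq, tZ2, map_mul]
  generalize qExpand ℤ 2 (DeltaC ℤ) = b at *
  generalize qExpand ℤ 2 (DeltaInvC ℤ) = b' at *
  generalize qExpand ℤ 2 (E4cubeC ℤ) = E at *
  generalize DeltaC ℤ = a at *
  have e1 : a * b' + 16 = (a + 16 * b) * b' := by linear_combination (-16) * h2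
  rw [e1, mul_pow (a + 16 * b) b' 3, ← h]
  linear_combination (-(E * a * b' ^ 2)) * h2

open HT in
/-- **H3A.** `j t³ = (t+27)(t+243)³`.  With `s = t² = Δ(z)/Δ(3z)` this reads `t ((j-756) s - 19131876) = s² + 196830 s + 387420489`.
Its square is `Δ₁Δ₃ (E₄³ - 756 Δ₁ - 19131876 Δ₃)² = (Δ₁² + 196830 Δ₁Δ₃ + 387420489 Δ₃²)²` (`Δ₁ = Δ(z)`, `Δ₃ = Δ(3z)`), weight 48 on `Γ₀(3)`,
Sturm bound `16`.  `ℤ((q))` is a domain, so `t W = ± P`; the sign is fixed by the leading coefficients. -/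
theorem haupt3_A : jqModC ℤ * tZ3 ^ 3 = (tZ3 + 27) * (tZ3 + 243) ^ 3 := by
  have key : tZ3 * ((jqModC ℤ - 756) * tZ3 ^ 2 - 19131876) =
      tZ3 ^ 4 + 196830 * tZ3 ^ 2 + 387420489 := by
    refine eq_of_sq_eq (n := -4) ?_ ?_ ?_
    · have h1 := DeltaC_mul_DeltaInvC ℤ
      have h2 := b_mul_b' 3
      have h := ls3A
      have hs := tZ3_sq
      have ht4 : tZ3 ^ 4 = (DeltaC ℤ * qExpand ℤ 3 (DeltaInvC ℤ)) ^ 2 := by rw [← hs]; ring
      rw [mul_pow, ht4, hs, jqModC_eq]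
      generalize qExpand ℤ 3 (DeltaC ℤ) = b at *
      generalize qExpand ℤ 3 (DeltaInvC ℤ) = b' at *
      generalize DeltaC ℤ = a at *
      generalize DeltaInvC ℤ = a' at *
      generalize E4cubeC ℤ = E at *
      have hW : (E * a' - 756) * (a * b') - 19131876 = (E - 756 * a - 19131876 * b) * b' := by
        linear_combination (E * b') * h1 + 19131876 * h2
      have hP : (a * b') ^ 2 + 196830 * (a * b') + 387420489 =
          (a ^ 2 + 196830 * (a * b) + 387420489 * b ^ 2) * b' ^ 2 := by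
        linear_combination (-196830 * a * b' - 387420489 * (b * b' + 1)) * h2
      rw [hW, hP, mul_pow _ (b' ^ 2), ← h]
      linear_combination (-(a * b' ^ 3 * (E - 756 * a - 19131876 * b) ^ 2)) * h2
    · have l1 : LeadsWith (jqModC ℤ - 756) (-1) 1 := by
        have := lw_sub (leadsWith_jqModC ℤ) (lw_int 756) (by norm_num)
        simpa using this
      have l2 := l1.mul lw_tZ3_sq
      have l3 := lw_sub l2 (lw_int 19131876) (by norm_num)
      have l4 := lw_tZ3.mul l3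
      simpa using l4
    · have := lw_P 196830 387420489
      simpa using this
  linear_combination key

open HT in
/-- **H3B.** `j(q³) t = (t+27)(t+3)³`, i.e. `t (j₃ - 36 s - 756) = s² + 270 s + 729`; squared:
`Δ₁Δ₃ (E₄(3z)³ - 36 Δ₁ - 756 Δ₃)² = (Δ₁² + 270 Δ₁Δ₃ + 729 Δ₃²)²`, weight 48 on `Γ₀(3)`, Sturm bound `16`. -/
theorem haupt3_B : qExpand ℤ 3 (jqModC ℤ) * tZ3 = (tZ3 + 27) * (tZ3 + 3) ^ 3 := by
  have key : tZ3 * (qExpand ℤ 3 (jqModC ℤ) - 36 * tZ3 ^ 2 - 756) =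
      tZ3 ^ 4 + 270 * tZ3 ^ 2 + 729 := by
    refine eq_of_sq_eq (n := -4) ?_ ?_ ?_
    · have h2 := b_mul_b' 3
      have h := ls3B
      have hs := tZ3_sq
      have ht4 : tZ3 ^ 4 = (DeltaC ℤ * qExpand ℤ 3 (DeltaInvC ℤ)) ^ 2 := by rw [← hs]; ring
      rw [mul_pow, ht4, hs, jqModC_eq, map_mul]
      generalize qExpand ℤ 3 (DeltaC ℤ) = b at *
      generalize qExpand ℤ 3 (DeltaInvC ℤ) = b' at *
      generalize qExpand ℤ 3 (E4cubeC ℤ) = E at *
      generalize DeltaC ℤ = a at *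
      have hW : E * b' - 36 * (a * b') - 756 = (E - 36 * a - 756 * b) * b' := by
        linear_combination 756 * h2
      have hP : (a * b') ^ 2 + 270 * (a * b') + 729 =
          (a ^ 2 + 270 * (a * b) + 729 * b ^ 2) * b' ^ 2 := by
        linear_combination (-270 * a * b' - 729 * (b * b' + 1)) * h2
      rw [hW, hP, mul_pow _ (b' ^ 2), ← h]
      linear_combination (-(a * b' ^ 3 * (E - 36 * a - 756 * b) ^ 2)) * h2
    · have l0 : LeadsWith (qExpand ℤ 3 (jqModC ℤ)) (-3) 1 := by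
        have := (leadsWith_jqModC ℤ).qExpand 3
        simpa using this
      have l1 := (lw_int 36).mul lw_tZ3_sq
      have l2 := lw_sub l0 l1 (by norm_num)
      have l3 := lw_sub l2 (lw_int 756) (by norm_num)
      have l4 := lw_tZ3.mul l3
      simpa using l4
    · have := lw_P 270 729
      simpa using this
  linear_combination key

end Fermat.Agent.S18
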