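import Fermat.Agent.S24.Principal

/-!
# S18, piece HD (abstract part): the degree of `K(t) / K(j)` when `j t^m = u(t)`,
`u` a product of `n > m` factors `t + c`, `c ≠ 0`.
-/

set_option autoImplicit false

namespace Fermat.Agent.S18

open IntermediateField Fermat.Agent.S24 AlgebraicCurve

variable {K F : Type*} [Field K] [Field F] [Algebra K F]

/-- `u` behaves like a monic polynomial of degree `n` in `t` with non-zero constant term. -/
structure GoodNum (K : Type*) {F : Type*} [Field K] [Field F] [Algebra K F]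
    (t : F) (n : ℕ) (u : F) : Prop where
  ne : u ≠ 0
  pos : ∀ v : Place K F, 0 < v.ord t → v.ord u = 0
  neg : ∀ v : Place K F, v.ord t < 0 → v.ord u = n * v.ord t
  zero : ∀ v : Place K F, v.ord t = 0 → 0 ≤ v.ord u

theorem GoodNum.mul {t u u' : F} {n n' : ℕ} (h : GoodNum K t n u) (h' : GoodNum K t n' u') :
    GoodNum K t (n + n') (u * u') where
  ne := mul_ne_zero h.ne h'.ne
  pos v hv := by rw [v.ord_mul h.ne h'.ne, h.pos v hv, h'.pos v hv, add_zero]
  neg v hv := by rw [v.ord_mul h.ne h'.ne, h.neg v hv, h'.neg v hv]; push_cast; ring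
  zero v hv := by rw [v.ord_mul h.ne h'.ne]; exact add_nonneg (h.zero v hv) (h'.zero v hv)

theorem GoodNum.one (t : F) : GoodNum K t 0 (1 : F) where
  ne := one_ne_zero
  pos v _ := v.ord_one
  neg v _ := by simp
  zero v _ := by simp

theorem GoodNum.pow {t u : F} {n : ℕ} (h : GoodNum K t n u) (k : ℕ) :
    GoodNum K t (k * n) (u ^ k) := by
  induction k with
  | zero => simpa using GoodNum.one t
  | succ k ih =>
    have := ih.mul h
    rwa [← pow_succ, ← Nat.succ_mul] at this

theorem goodNum_add {t : F} (ht : Transcendental K t) {c : K} (hc : c ≠ 0) :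
    GoodNum K t 1 (t + algebraMap K F c) := by
  have ht0 : t ≠ 0 := by
    rintro rfl
    exact ht isAlgebraic_zero
  have hc0 : algebraMap K F c ≠ 0 := by simpa using hc
  have hne : t + algebraMap K F c ≠ 0 := by
    intro h0
    apply ht
    rw [eq_neg_of_add_eq_zero_left h0, ← map_neg]
    exact isAlgebraic_algebraMap _
  refine ⟨hne, fun v hv => ?_, fun v hv => ?_, fun v hv => ?_⟩
  · rw [add_comm, ord_add_eq_of_lt v hc0 ht0 (by rwa [ord_algebraMap]), ord_algebraMap]
  · rw [ord_add_eq_of_lt v ht0 hc0 (by rwa [ord_algebraMap])]; simp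
  · have := le_ord_add v hne
    rwa [hv, ord_algebraMap, min_self] at this

/-- If `j t^m = u` with `u` "monic of degree `n > m` in `t` with non-zero constant term" then
`[F : K(j)] = n [F : K(t)]`. -/
theorem finrank_of_goodNum [IsAlgClosed K] [CharZero K] (h : IsFF K F) {j t u : F} {m n : ℕ}
    (hm : 0 < m) (hmn : m < n) (hj : Transcendental K j) (ht : Transcendental K t) (hu : GoodNum K t n u)
    (hrel : j * t ^ m = u) :
    n * Module.finrank K⟮t⟯ F = Module.finrank K⟮j⟯ F := by
  have ht0 : t ≠ 0 := by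
    rintro rfl
    exact ht isAlgebraic_zero
  have hj0 : j ≠ 0 := by
    rintro rfl
    exact hj isAlgebraic_zero
  have hord : ∀ v : Place K F, v.ord j⁻¹ = m * v.ord t - v.ord u := by
    intro v
    rw [← hrel, v.ord_mul hj0 (pow_ne_zero _ ht0), ord_pow, v.ord_inv]
    ring
  have hmn' : (m : ℤ) < n := by exact_mod_cast hmn
  have hset : zerosOf K j⁻¹ = zerosOf K t ∪ zerosOf K t⁻¹ := by
    ext v
    simp only [zerosOf, Set.mem_union, Set.mem_ofPred_eq, hord v]
    rw [v.ord_inv]
    rcases lt_trichotomy (v.ord t) 0 with hv | hv | hv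
    · rw [hu.neg v hv]
      constructor
      · intro _; right; omega
      · intro _; nlinarith
    · have := hu.zero v hv
      rw [hv]
      constructor
      · intro h1; omega
      · rintro (h1 | h1) <;> omega
    · rw [hu.pos v hv]
      constructor
      · intro _; left; exact hv
      · intro _
        have : (0 : ℤ) < m := by exact_mod_cast hm
        nlinarith
  have hdisj : Disjoint (zerosOf K t) (zerosOf K t⁻¹) := by
    rw [Set.disjoint_left]
    intro v h1 h2
    simp only [zerosOf, Set.mem_ofPred_eq, Place.ord_inv] at h1 h2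
    omega
  have key := h.sum_ord_zerosOf (transcendental_inv hj)
  rw [adjoin_inv_eq, hset,
    finsum_mem_union hdisj (h.zerosOf_finite ht0) (h.zerosOf_finite (inv_ne_zero ht0))] at key
  have h1 : ∑ᶠ v ∈ zerosOf K t, v.ord j⁻¹ = m * ∑ᶠ v ∈ zerosOf K t, v.ord t := by
    rw [mul_finsum_mem]
    refine finsum_mem_congr rfl fun v hv => ?_
    rw [hord v, hu.pos v hv, sub_zero]
  have h2 : ∑ᶠ v ∈ zerosOf K t⁻¹, v.ord j⁻¹ = (n - m : ℤ) * ∑ᶠ v ∈ zerosOf K t⁻¹, v.ord t⁻¹ := by
    rw [mul_finsum_mem]
    refine finsum_mem_congr rfl fun v hv => ?_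
    have hv' : v.ord t < 0 := by
      simp only [zerosOf, Set.mem_ofPred_eq, Place.ord_inv] at hv
      omega
    rw [hord v, hu.neg v hv', v.ord_inv]
    ring
  rw [h1, h2, h.sum_ord_zerosOf ht, h.sum_ord_zerosOf (transcendental_inv ht), adjoin_inv_eq] at key
  have : ((n * Module.finrank K⟮t⟯ F : ℕ) : ℤ) = (Module.finrank K⟮j⟯ F : ℕ) := by
    rw [← key]; push_cast; ring
  exact_mod_cast this

/-- `t` is transcendental as soon as `j t^m = u` with `t`, `u` algebraic over `K(t)`. -/
theorem transcendental_of_rel {j t u : F} {m : ℕ} (hj : Transcendental K j) (ht0 : t ≠ 0)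
    (hu : IsAlgebraic K t → IsAlgebraic K u) (hrel : j * t ^ m = u) : Transcendental K t := by
  intro ht
  apply hj
  have : j = u * (t ^ m)⁻¹ := by
    rw [← hrel]; field_simp
  rw [this]
  exact (hu ht).mul (ht.pow m).inv

private lemma ofNat_eq_algebraMap (n : ℕ) [n.AtLeastTwo] :
    (OfNat.ofNat n : F) = algebraMap K F (OfNat.ofNat n) := (map_ofNat _ n).symm

theorem finrank_of_rel2 [IsAlgClosed K] [CharZero K] (h : IsFF K F) {j t : F}
    (hj : Transcendental K j) (hrel : j * t ^ 2 = (t + 256) ^ 3) :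
    Transcendental K t ∧ FiniteDimensional K⟮t⟯ F ∧
      3 * Module.finrank K⟮t⟯ F = Module.finrank K⟮j⟯ F := by
  have : CharZero F := charZero_of_injective_algebraMap (algebraMap K F).injective
  have ht0 : t ≠ 0 := by
    rintro rfl
    norm_num at hrel
  have ht : Transcendental K t := by
    refine transcendental_of_rel hj ht0 (fun ht => ?_) hrel
    rw [ofNat_eq_algebraMap (K := K)]
    exact (ht.add (isAlgebraic_algebraMap _)).pow 3
  refine ⟨ht, h.finiteDimensional ht, ?_⟩
  refine finrank_of_goodNum h (m := 2) (by norm_num) (by norm_num) hj ht ?_ hrel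
  rw [ofNat_eq_algebraMap (K := K)]
  exact (goodNum_add ht (by norm_num)).pow 3

theorem finrank_of_rel3 [IsAlgClosed K] [CharZero K] (h : IsFF K F) {j t : F}
    (hj : Transcendental K j) (hrel : j * t ^ 3 = (t + 27) * (t + 243) ^ 3) :
    Transcendental K t ∧ FiniteDimensional K⟮t⟯ F ∧
      4 * Module.finrank K⟮t⟯ F = Module.finrank K⟮j⟯ F := by
  have : CharZero F := charZero_of_injective_algebraMap (algebraMap K F).injective
  have ht0 : t ≠ 0 := by
    rintro rfl
    norm_num at hrel
  have ht : Transcendental K t := by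
    refine transcendental_of_rel hj ht0 (fun ht => ?_) hrel
    rw [ofNat_eq_algebraMap (K := K) 27, ofNat_eq_algebraMap (K := K) 243]
    exact (ht.add (isAlgebraic_algebraMap _)).mul ((ht.add (isAlgebraic_algebraMap _)).pow 3)
  refine ⟨ht, h.finiteDimensional ht, ?_⟩
  refine finrank_of_goodNum h (m := 3) (by norm_num) (by norm_num) hj ht ?_ hrel
  rw [ofNat_eq_algebraMap (K := K) 27, ofNat_eq_algebraMap (K := K) 243]
  exact (goodNum_add ht (by norm_num)).mul ((goodNum_add ht (by norm_num)).pow 3)

end Fermat.Agent.S18
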