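import Fermat.Agent.S18.Haupt
import Fermat.Agent.S24.TowerDegree
import Fermat.Agent.S24.MDefs

/-!
# S18, piece HM: the Hauptmoduln `t₂`, `t₃` lie in the function fields `K(X₀(N))`
-/

set_option autoImplicit false

namespace Fermat.Agent.S18.HM

open IntermediateField Polynomial ModularCurve Fermat.Agent.S24

/-- the degree argument: `K(j) ⊆ F ⊆ K(t)`, `[F : K(j)] = n`, `[K(t) : K(j)] ≤ n`, so `t ∈ F`. -/
theorem mem_of_finrank {K L : Type*} [Field K] [Field L] [Algebra K L]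
    (F : IntermediateField K L) (j : F) (t : L) (n : ℕ)
    [FiniteDimensional K⟮j⟯ F] (hn : Module.finrank K⟮j⟯ F = n)
    (P : K⟮j⟯[X]) (hP0 : P ≠ 0) (hPn : P.natDegree ≤ n) (hPt : aeval t P = 0)
    (hF : F ≤ K⟮t⟯) : t ∈ F := by
  have halg : IsAlgebraic K⟮j⟯ t := ⟨P, hP0, hPt⟩
  have hint : IsIntegral K⟮j⟯ t := halg.isIntegral
  have h1 : Module.finrank K⟮j⟯ K⟮j⟯⟮t⟯ ≤ n := by
    rw [IntermediateField.adjoin.finrank hint]
    exact (natDegree_le_of_dvd (minpoly.dvd _ t hPt) hP0).trans hPn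
  have hintF : IsIntegral F t := hint.tower_top
  have h2 : Module.finrank K⟮j⟯ F * Module.finrank F F⟮t⟯ = Module.finrank K⟮j⟯ F⟮t⟯ :=
    Module.finrank_mul_finrank K⟮j⟯ F F⟮t⟯
  have hle : (F⟮t⟯).restrictScalars K⟮j⟯ ≤ K⟮j⟯⟮t⟯ := by
    intro x hx
    have hx1 : x ∈ (F⟮t⟯).restrictScalars K := hx
    rw [restrictScalars_adjoin_eq_sup] at hx1
    have h3 : F ⊔ K⟮t⟯ ≤ (K⟮j⟯⟮t⟯).restrictScalars K := by
      have h4 : K⟮t⟯ ≤ (K⟮j⟯⟮t⟯).restrictScalars K := by
        rw [adjoin_simple_le_iff]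
        exact mem_adjoin_simple_self _ t
      exact sup_le (hF.trans h4) h4
    exact h3 hx1
  have : FiniteDimensional K⟮j⟯ K⟮j⟯⟮t⟯ := adjoin.finiteDimensional hint
  have h3 : Module.finrank K⟮j⟯ F⟮t⟯ ≤ Module.finrank K⟮j⟯ K⟮j⟯⟮t⟯ :=
    LinearMap.finrank_le_finrank_of_injective (f := (IntermediateField.inclusion hle).toLinearMap)
      (IntermediateField.inclusion hle).injective
  have hnpos : 0 < n := hn ▸ Module.finrank_pos
  have h5 : Module.finrank F F⟮t⟯ ≤ 1 := by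
    rw [hn] at h2
    have : n * Module.finrank F F⟮t⟯ ≤ n * 1 := by omega
    exact Nat.le_of_mul_le_mul_left this hnpos
  have : FiniteDimensional F F⟮t⟯ := adjoin.finiteDimensional hintF
  have h6 : Module.finrank F F⟮t⟯ = 1 := le_antisymm h5 Module.finrank_pos
  rw [finrank_adjoin_simple_eq_one_iff, IntermediateField.mem_bot] at h6
  obtain ⟨x, rfl⟩ := h6
  exact x.2

theorem poly_two {J L : Type*} [Field J] [Field L] [Algebra J L] (g : J) (t : L)
    (h2 : (2 : J) ≠ 0) (hA : algebraMap J L g * t ^ 2 = (t + 256) ^ 3) :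
    ∃ P : J[X], P ≠ 0 ∧ P.natDegree ≤ 3 ∧ aeval t P = 0 := by
  refine ⟨(X + C 256) ^ 3 - C g * X ^ 2, ?_, ?_, ?_⟩
  · intro h
    have h1 := congrArg (eval 0) h
    simp only [eval_sub, eval_pow, eval_add, eval_X, eval_C, eval_mul, eval_zero] at h1
    have h4 : (2 : J) ^ 24 = 0 := by
      have : (2 : J) ^ 24 = (0 + 256) ^ 3 - g * 0 ^ 2 := by norm_num
      rw [this, h1]
    exact h2 (pow_eq_zero_iff (by norm_num) |>.mp h4)
  · compute_degree
  · simp only [map_sub, map_pow, map_add, aeval_X, aeval_C, map_mul, map_ofNat]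
    rw [hA, sub_self]

theorem poly_three {J L : Type*} [Field J] [Field L] [Algebra J L] (g : J) (t : L)
    (h3 : (3 : J) ≠ 0) (hA : algebraMap J L g * t ^ 3 = (t + 27) * (t + 243) ^ 3) :
    ∃ P : J[X], P ≠ 0 ∧ P.natDegree ≤ 4 ∧ aeval t P = 0 := by
  refine ⟨(X + C 27) * (X + C 243) ^ 3 - C g * X ^ 3, ?_, ?_, ?_⟩
  · intro h
    have h1 := congrArg (eval 0) h
    simp only [eval_sub, eval_pow, eval_add, eval_X, eval_C, eval_mul, eval_zero] at h1
    have h4 : (3 : J) ^ 18 = 0 := by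
      have : (3 : J) ^ 18 = (0 + 27) * (0 + 243) ^ 3 - g * 0 ^ 3 := by norm_num
      rw [this, h1]
    exact h3 (pow_eq_zero_iff (by norm_num) |>.mp h4)
  · compute_degree
  · simp only [map_sub, map_pow, map_add, aeval_X, aeval_C, map_mul, map_ofNat]
    rw [hA, sub_self]

theorem mem_two {K L : Type*} [Field K] [Field L] [Algebra K L]
    (F : IntermediateField K L) (j : F) (t : L)
    [FiniteDimensional K⟮j⟯ F] (hn : Module.finrank K⟮j⟯ F = 3) (h2 : (2 : K) ≠ 0)
    (hA : (j : L) * t ^ 2 = (t + 256) ^ 3) (hF : F ≤ K⟮t⟯) : t ∈ F := by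
  have h3 : (2 : K⟮j⟯) ≠ 0 := by
    have : (2 : K⟮j⟯) = algebraMap K _ 2 := (map_ofNat _ 2).symm
    rw [this]
    exact (_root_.map_ne_zero _).mpr h2
  obtain ⟨P, hP0, hPn, hPt⟩ := poly_two (J := K⟮j⟯) (AdjoinSimple.gen K j) t h3 hA
  exact mem_of_finrank F j t 3 hn P hP0 hPn hPt hF

theorem mem_three {K L : Type*} [Field K] [Field L] [Algebra K L]
    (F : IntermediateField K L) (j : F) (t : L)
    [FiniteDimensional K⟮j⟯ F] (hn : Module.finrank K⟮j⟯ F = 4) (h3 : (3 : K) ≠ 0)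
    (hA : (j : L) * t ^ 3 = (t + 27) * (t + 243) ^ 3) (hF : F ≤ K⟮t⟯) : t ∈ F := by
  have h3' : (3 : K⟮j⟯) ≠ 0 := by
    have : (3 : K⟮j⟯) = algebraMap K _ 3 := (map_ofNat _ 3).symm
    rw [this]
    exact (_root_.map_ne_zero _).mpr h3
  obtain ⟨P, hP0, hPn, hPt⟩ := poly_three (J := K⟮j⟯) (AdjoinSimple.gen K j) t h3' hA
  exact mem_of_finrank F j t 4 hn P hP0 hPn hPt hF

theorem full_le_of_dvd (K : Type*) [Field K] {M N : ℕ} (h : M ∣ N) :
    modularFunctionFieldFullC K M ≤ modularFunctionFieldFullC K N := by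
  rw [modularFunctionFieldFullC, adjoin_le_iff]
  rintro x ⟨d, hne, hdvd, rfl⟩
  have := hne
  exact jqModCd_mem_full K N (hdvd.trans h)

theorem psi_two : dedekindPsi 2 = 3 := by
  have := towerDegree_psi_of_not_dvd (p := 2) (M := 1) Nat.prime_two (by norm_num)
  rw [dedekindPsi_one] at this
  simpa using this

theorem psi_three : dedekindPsi 3 = 4 := by
  have := towerDegree_psi_of_not_dvd (p := 3) (M := 1) Nat.prime_three (by norm_num)
  rw [dedekindPsi_one] at this
  simpa using this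

/-- `F_p ≤ E` as soon as `j, j_p ∈ E`. -/
theorem full_prime_le (K : Type*) [Field K] {p : ℕ} (hp : p.Prime) [NeZero p]
    (E : IntermediateField K (LaurentSeries K)) (h1 : jqModC K ∈ E)
    (hpE : qExpand K p (jqModC K) ∈ E) : modularFunctionFieldFullC K p ≤ E := by
  rw [modularFunctionFieldFullC, adjoin_le_iff]
  rintro x ⟨d, hne, hdvd, rfl⟩
  have := hne
  rcases (Nat.dvd_prime hp).mp hdvd with rfl | rfl
  · rw [SetLike.mem_coe, qExpand_one_apply]; exact h1
  · exact hpE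

section Two

variable (K : Type) [Field K]

theorem t2_A : jqModC K * coeffMap (Int.castRingHom K) tZ2 ^ 2 =
    (coeffMap (Int.castRingHom K) tZ2 + 256) ^ 3 := by
  have := congrArg (coeffMap (Int.castRingHom K)) haupt2_A
  simpa only [map_mul, map_pow, map_add, map_ofNat, coeffMap_jqModC] using this

theorem t2_B : qExpand K 2 (jqModC K) * coeffMap (Int.castRingHom K) tZ2 =
    (coeffMap (Int.castRingHom K) tZ2 + 16) ^ 3 := by
  have := congrArg (coeffMap (Int.castRingHom K)) haupt2_B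
  simpa only [map_mul, map_pow, map_add, map_ofNat, coeffMap_jqModC, coeffMap_qExpand] using this

theorem t3_A : jqModC K * coeffMap (Int.castRingHom K) tZ3 ^ 3 =
    (coeffMap (Int.castRingHom K) tZ3 + 27) * (coeffMap (Int.castRingHom K) tZ3 + 243) ^ 3 := by
  have := congrArg (coeffMap (Int.castRingHom K)) haupt3_A
  simpa only [map_mul, map_pow, map_add, map_ofNat, coeffMap_jqModC] using this

theorem t3_B : qExpand K 3 (jqModC K) * coeffMap (Int.castRingHom K) tZ3 =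
    (coeffMap (Int.castRingHom K) tZ3 + 27) * (coeffMap (Int.castRingHom K) tZ3 + 3) ^ 3 := by
  have := congrArg (coeffMap (Int.castRingHom K)) haupt3_B
  simpa only [map_mul, map_pow, map_add, map_ofNat, coeffMap_jqModC, coeffMap_qExpand] using this

variable {K}

theorem t2_ne_zero (h2 : (2 : K) ≠ 0) : coeffMap (Int.castRingHom K) tZ2 ≠ 0 := by
  intro h
  have h1 := t2_A K
  rw [h] at h1
  have h3 : (2 : LaurentSeries K) ≠ 0 := by
    have : (2 : LaurentSeries K) = algebraMap K (LaurentSeries K) 2 := (map_ofNat _ 2).symm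
    rw [this]
    exact (_root_.map_ne_zero _).mpr h2
  have h4 : (2 : LaurentSeries K) ^ 24 = 0 := by
    have : (2 : LaurentSeries K) ^ 24 = (0 + 256) ^ 3 := by norm_num
    rw [this, ← h1]; simp
  exact h3 (pow_eq_zero_iff (by norm_num) |>.mp h4)

theorem t3_ne_zero (h3 : (3 : K) ≠ 0) : coeffMap (Int.castRingHom K) tZ3 ≠ 0 := by
  intro h
  have h1 := t3_A K
  rw [h] at h1
  have h3' : (3 : LaurentSeries K) ≠ 0 := by
    have : (3 : LaurentSeries K) = algebraMap K (LaurentSeries K) 3 := (map_ofNat _ 3).symm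
    rw [this]
    exact (_root_.map_ne_zero _).mpr h3
  have h4 : (3 : LaurentSeries K) ^ 18 = 0 := by
    have : (3 : LaurentSeries K) ^ 18 = (0 + 27) * (0 + 243) ^ 3 := by norm_num
    rw [this, ← h1]; simp
  exact h3' (pow_eq_zero_iff (by norm_num) |>.mp h4)

end Two

theorem tZ2_mem_two (K : Type) [Field K] [IsAlgClosed K] (h2 : (2 : K) ≠ 0) :
    coeffMap (Int.castRingHom K) tZ2 ∈ modularFunctionFieldFullC K 2 := by
  obtain ⟨hfd, hfr⟩ := finrank_modularFunctionFieldFullC K 2 (by exact_mod_cast h2)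
  rw [psi_two] at hfr
  set t := coeffMap (Int.castRingHom K) tZ2 with ht
  have ht0 : t ≠ 0 := t2_ne_zero h2
  have hA := t2_A K
  have hB := t2_B K
  rw [← ht] at hA hB
  have htm : t ∈ K⟮t⟯ := mem_adjoin_simple_self K t
  have hnat : ∀ n : ℕ, (n : LaurentSeries K) ∈ K⟮t⟯ := fun n => _root_.natCast_mem _ n
  refine mem_two (modularFunctionFieldFullC K 2) (jFullC K 2) t hfr h2 hA ?_
  refine full_prime_le K Nat.prime_two _ ?_ ?_
  · have : jqModC K = (t + 256) ^ 3 / t ^ 2 := by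
      rw [eq_div_iff (pow_ne_zero 2 ht0), hA]
    rw [this]
    exact div_mem (pow_mem (add_mem htm (by exact_mod_cast hnat 256)) 3) (pow_mem htm 2)
  · have : qExpand K 2 (jqModC K) = (t + 16) ^ 3 / t := by
      rw [eq_div_iff ht0, hB]
    rw [this]
    exact div_mem (pow_mem (add_mem htm (by exact_mod_cast hnat 16)) 3) htm

theorem tZ3_mem_three (K : Type) [Field K] [IsAlgClosed K] (h3 : (3 : K) ≠ 0) :
    coeffMap (Int.castRingHom K) tZ3 ∈ modularFunctionFieldFullC K 3 := by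
  obtain ⟨hfd, hfr⟩ := finrank_modularFunctionFieldFullC K 3 (by exact_mod_cast h3)
  rw [psi_three] at hfr
  set t := coeffMap (Int.castRingHom K) tZ3 with ht
  have ht0 : t ≠ 0 := t3_ne_zero h3
  have hA := t3_A K
  have hB := t3_B K
  rw [← ht] at hA hB
  have htm : t ∈ K⟮t⟯ := mem_adjoin_simple_self K t
  have hnat : ∀ n : ℕ, (n : LaurentSeries K) ∈ K⟮t⟯ := fun n => _root_.natCast_mem _ n
  refine mem_three (modularFunctionFieldFullC K 3) (jFullC K 3) t hfr h3 hA ?_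
  refine full_prime_le K Nat.prime_three _ ?_ ?_
  · have : jqModC K = (t + 27) * (t + 243) ^ 3 / t ^ 3 := by
      rw [eq_div_iff (pow_ne_zero 3 ht0), hA]
    rw [this]
    exact div_mem (mul_mem (add_mem htm (by exact_mod_cast hnat 27))
      (pow_mem (add_mem htm (by exact_mod_cast hnat 243)) 3)) (pow_mem htm 3)
  · have : qExpand K 3 (jqModC K) = (t + 27) * (t + 3) ^ 3 / t := by
      rw [eq_div_iff ht0, hB]
    rw [this]
    exact div_mem (mul_mem (add_mem htm (by exact_mod_cast hnat 27))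
      (pow_mem (add_mem htm (by exact_mod_cast hnat 3)) 3)) htm

theorem tZ2_mem (K : Type) [Field K] [IsAlgClosed K] (h2 : (2 : K) ≠ 0) {N : ℕ} (hN : 2 ∣ N) :
    coeffMap (Int.castRingHom K) tZ2 ∈ modularFunctionFieldFullC K N :=
  full_le_of_dvd K hN (tZ2_mem_two K h2)

theorem tZ3_mem (K : Type) [Field K] [IsAlgClosed K] (h3 : (3 : K) ≠ 0) {N : ℕ} (hN : 3 ∣ N) :
    coeffMap (Int.castRingHom K) tZ3 ∈ modularFunctionFieldFullC K N :=
  full_le_of_dvd K hN (tZ3_mem_three K h3)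

theorem tZ2_two_mem {N : ℕ} (hN : 4 ∣ N) :
    coeffMap (Int.castRingHom Kb) (qExpand ℤ 2 tZ2) ∈ FN N := by
  show _ ∈ modularFunctionFieldBar N
  rw [modularFunctionFieldBar_eq, coeffMap_qExpand]
  apply full_le_of_dvd Kb (M := 2 * 2) (by norm_num; exact hN)
  apply full_degeneracyC_map_le Kb 2 2
  exact ⟨_, tZ2_mem_two Kb (by norm_num), rfl⟩

theorem tZ3_three_mem {N : ℕ} (hN : 9 ∣ N) :
    coeffMap (Int.castRingHom Kb) (qExpand ℤ 3 tZ3) ∈ FN N := by
  show _ ∈ modularFunctionFieldBar N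
  rw [modularFunctionFieldBar_eq, coeffMap_qExpand]
  apply full_le_of_dvd Kb (M := 3 * 3) (by norm_num; exact hN)
  apply full_degeneracyC_map_le Kb 3 3
  exact ⟨_, tZ3_mem_three Kb (by norm_num), rfl⟩

end Fermat.Agent.S18.HM
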