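import Fermat.Agent.S24.Final

/-!
# S18, piece MF: fibre counts of `j` on `X₀(N)` and vanishing of `ν₂`, `ν₃`
-/

set_option autoImplicit false

namespace Fermat.Agent.S18

open Polynomial IntermediateField Fermat.Agent.S24 ModularCurve AlgebraicCurve
open UpperHalfPlane ModularForm EisensteinSeries Filter Topology CongruenceSubgroup
open Fermat.Agent.S20 Fermat.Agent.S23
open scoped MatrixGroups Manifold ModularForm

/-- **MF (fibre counts of `j`).** Extracted from the proof of S24 `genus_FN`. -/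
theorem card_fiber_j (N : ℕ) [NeZero N] :
    (∀ c : Kb, c ≠ 0 → c ≠ 1728 →
      (zerosOf Kb (jBar N - algebraMap Kb (FN N) c)).ncard = dedekindPsi N) ∧
    3 * (zerosOf Kb (jBar N)).ncard = dedekindPsi N + 2 * nuThree N ∧
    2 * (zerosOf Kb (jBar N - algebraMap Kb (FN N) 1728)).ncard = dedekindPsi N + nuTwo N := by
  classical
  haveI : Fintype (Cos (Gamma0 N)) := Fintype.ofFinite _
  obtain ⟨w, B, hfam, hrat, -, -⟩ := exists_ratFam N
  have hneg := neg_one_mem_Gamma0 N
  obtain ⟨z0, hz0⟩ := exists_det_ne_zero (hasSep_Gamma0 N) hfam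
  have hdet := det_Mat_ne_zero hfam hz0
  have hcusp := Delta_inv_tendsto hneg hfam hdet
  have hS := trace_S hfam.mem hdet
  have hST := trace_ST hfam.mem hdet
  have h12 := weight_lt_twelve hfam.mem hdet hcusp
  have hev := hfam.even hneg
  have h0 := hfam.nonneg
  have h10 : ∀ i, w i ≤ 10 := fun i => by
    obtain ⟨m, hm⟩ := hev i
    have := h12 i
    omega
  have hμ : Fintype.card (Cos (Gamma0 N)) = dedekindPsi N := by
    rw [← Nat.card_eq_fintype_card]; exact card_cos N
  have h4 : (2 : ℝ) * Fintype.card {i // (4 : ℤ) ∣ w i} = dedekindPsi N + nuTwo N := by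
    have h1 : ∑ i, (if (4 : ℤ) ∣ w i then 2 else 0 : ℝ) = ∑ i, (1 + (Complex.I ^ (-w i)).re) :=
      Finset.sum_congr rfl fun i _ => ind_four (w i) (h0 i) (h10 i) (hev i)
    rw [Finset.sum_add_distrib, ← Complex.re_sum, hS, Complex.natCast_re, card_fixedBy_S,
      ← Finset.sum_filter, Finset.sum_const, Finset.sum_const, Finset.card_univ, hμ] at h1
    rw [Fintype.card_subtype]
    simpa [mul_comm] using h1
  have h6 : (3 : ℝ) * Fintype.card {i // (6 : ℤ) ∣ w i} = dedekindPsi N + 2 * nuThree N := by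
    have h1 : ∑ i, (if (6 : ℤ) ∣ w i then 3 else 0 : ℝ) = ∑ i, (1 + 2 * (xi ^ (-w i)).re) :=
      Finset.sum_congr rfl fun i _ => ind_six (w i) (h0 i) (h10 i) (hev i)
    rw [Finset.sum_add_distrib, ← Finset.mul_sum, ← Complex.re_sum, hST, Complex.natCast_re,
      card_fixedBy_ST, ← Finset.sum_filter, Finset.sum_const, Finset.sum_const, Finset.card_univ,
      hμ] at h1
    rw [Fintype.card_subtype]
    simpa [mul_comm] using h1
  refine ⟨fun c hc0 hc1 => ?_, ?_, ?_⟩
  · rw [← _root_.Nat.card_coe_set_eq, card_fiber_generic hfam hrat hc0 hc1, hμ]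
  · have := card_fiber_zero hfam hrat
    rw [map_zero, sub_zero] at this
    rw [← _root_.Nat.card_coe_set_eq, this]
    exact_mod_cast h6
  · rw [← _root_.Nat.card_coe_set_eq, card_fiber_1728 hfam hrat]
    exact_mod_cast h4

private lemma card_eq_zero_of_dvd {N d : ℕ} (h : d ∣ N) (P : ∀ R : Type, [CommRing R] → R → Prop)
    (hP : ∀ (R S : Type) [CommRing R] [CommRing S] (f : R →+* S) (x : R), P R x → P S (f x))
    (hd : ∀ x : ZMod d, ¬ P (ZMod d) x) : Nat.card {x : ZMod N // P (ZMod N) x} = 0 := by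
  haveI : IsEmpty {x : ZMod N // P (ZMod N) x} :=
    ⟨fun x => hd _ (hP _ _ (ZMod.castHom h (ZMod d)) x.1 x.2)⟩
  exact Nat.card_of_isEmpty

theorem nuTwo_eq_zero_of_four_dvd {N : ℕ} (h : 4 ∣ N) : nuTwo N = 0 := by
  unfold nuTwo
  exact card_eq_zero_of_dvd h (fun R _ x => x ^ 2 + 1 = 0)
    (fun R S _ _ f x hx => by rw [← map_pow, ← map_one f, ← map_add, hx, map_zero]) (by decide)

theorem nuThree_eq_zero_of_two_dvd {N : ℕ} (h : 2 ∣ N) : nuThree N = 0 := by
  unfold nuThree
  exact card_eq_zero_of_dvd h (fun R _ x => x ^ 2 + x + 1 = 0)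
    (fun R S _ _ f x hx => by rw [← map_pow, ← map_one f, ← map_add, ← map_add, hx, map_zero])
    (by decide)

theorem nuTwo_eq_zero_of_three_dvd {N : ℕ} (h : 3 ∣ N) : nuTwo N = 0 := by
  unfold nuTwo
  exact card_eq_zero_of_dvd h (fun R _ x => x ^ 2 + 1 = 0)
    (fun R S _ _ f x hx => by rw [← map_pow, ← map_one f, ← map_add, hx, map_zero]) (by decide)

theorem nuThree_eq_zero_of_nine_dvd {N : ℕ} (h : 9 ∣ N) : nuThree N = 0 := by
  unfold nuThree
  exact card_eq_zero_of_dvd h (fun R _ x => x ^ 2 + x + 1 = 0)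
    (fun R S _ _ f x hx => by rw [← map_pow, ← map_one f, ← map_add, ← map_add, hx, map_zero])
    (by decide)

end Fermat.Agent.S18
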