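import Fermat.Agent.S18.BranchAbs
import Fermat.Agent.S18.ModCoordHM
import Fermat.Agent.S18.ModCoordMF
import Fermat.Agent.S18.ModCoordHD

/-!
# S18, pieces HB2, HB3: instantiation of `BranchAbs.lean` for `F = ℚ̄(X₀(N))`
-/

set_option autoImplicit false

namespace Fermat.Agent.S18.HB

open Polynomial IntermediateField Fermat.Agent.S24 ModularCurve AlgebraicCurve Fermat.Agent.S28

theorem lw_coeffMap {R S : Type*} [CommRing R] [CommRing S] (φ : R →+* S) {x : LaurentSeries R}
    {n : ℤ} {a : R} (h : LeadsWith x n a) : LeadsWith (coeffMap φ x) n (φ a) :=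
  ⟨by rw [coeffMap_coeff, h.1], fun m hm => by rw [coeffMap_coeff, h.2 m hm, map_zero]⟩

theorem lw_tZ2 : LeadsWith tZ2 (-1) 1 := by
  obtain ⟨U, hU, h⟩ := tZ2_eq
  have := (leadsWith_single (R := ℤ) (-1) 1).mul (leadsWith_ofPowerSeries U)
  rw [hU, ← h] at this
  simpa using this

/-- a Laurent series with a pole is not a constant. -/
theorem ne_natCast_of_lw {K : Type*} [Field K] {x : LaurentSeries K} {n : ℤ} (h : LeadsWith x n 1)
    (hn : n < 0) (c : ℕ) : x ≠ (c : LaurentSeries K) := by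
  intro hx
  have h1 : ((c : ℕ) : LaurentSeries K) = HahnSeries.C (c : K) := (map_natCast _ c).symm
  rw [hx, h1] at h
  have h2 := h.1
  rw [HahnSeries.C_apply, HahnSeries.coeff_single_of_ne hn.ne] at h2
  exact zero_ne_one h2

theorem rel2 : (coeffMap (Int.castRingHom Kb) tZ2 + 16) ^ 3 *
      coeffMap (Int.castRingHom Kb) (qExpand ℤ 2 tZ2) ^ 2 =
    (coeffMap (Int.castRingHom Kb) (qExpand ℤ 2 tZ2) + 256) ^ 3 *
      coeffMap (Int.castRingHom Kb) tZ2 := by
  have hA := congrArg (qExpand Kb 2) (HM.t2_A Kb)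
  have hB := HM.t2_B Kb
  simp only [map_mul, map_pow, map_add, map_ofNat] at hA
  rw [coeffMap_qExpand]
  linear_combination (coeffMap (Int.castRingHom Kb) tZ2) * hA +
    (qExpand Kb 2 (coeffMap (Int.castRingHom Kb) tZ2)) ^ 2 * (-hB)

theorem rel3 : (coeffMap (Int.castRingHom Kb) tZ3 + 27) * (coeffMap (Int.castRingHom Kb) tZ3 + 3) ^ 3 *
      coeffMap (Int.castRingHom Kb) (qExpand ℤ 3 tZ3) ^ 3 =
    (coeffMap (Int.castRingHom Kb) (qExpand ℤ 3 tZ3) + 27) *
      (coeffMap (Int.castRingHom Kb) (qExpand ℤ 3 tZ3) + 243) ^ 3 *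
      coeffMap (Int.castRingHom Kb) tZ3 := by
  have hA := congrArg (qExpand Kb 3) (HM.t3_A Kb)
  have hB := HM.t3_B Kb
  simp only [map_mul, map_pow, map_add, map_ofNat] at hA
  rw [coeffMap_qExpand]
  linear_combination (coeffMap (Int.castRingHom Kb) tZ3) * hA +
    (qExpand Kb 3 (coeffMap (Int.castRingHom Kb) tZ3)) ^ 3 * (-hB)

theorem mul_ne2 : coeffMap (Int.castRingHom Kb) tZ2 * coeffMap (Int.castRingHom Kb) (qExpand ℤ 2 tZ2) ≠
    4096 := by
  have h1 := (lw_coeffMap (Int.castRingHom Kb) lw_tZ2).mul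
    (lw_coeffMap (Int.castRingHom Kb) (lw_tZ2.qExpand 2))
  rw [map_one, one_mul] at h1
  have := ne_natCast_of_lw h1 (by norm_num) 4096
  exact_mod_cast this

theorem mul_ne3 : coeffMap (Int.castRingHom Kb) tZ3 * coeffMap (Int.castRingHom Kb) (qExpand ℤ 3 tZ3) ≠
    729 := by
  have h1 := (lw_coeffMap (Int.castRingHom Kb) HT.lw_tZ3).mul
    (lw_coeffMap (Int.castRingHom Kb) (HT.lw_tZ3.qExpand 3))
  rw [map_one, one_mul] at h1
  have := ne_natCast_of_lw h1 (by norm_num) 729
  exact_mod_cast this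

/-- **HB2**, stated for any `a : FN N` whose `q`-expansion is `t₂`. -/
theorem card_fiber_t2_aux (N : ℕ) [NeZero N] (hN : 4 ∣ N) (a : FN N)
    (ha : (a : LaurentSeries Kb) = coeffMap (Int.castRingHom Kb) tZ2)
    (τ : Kb) (h0 : τ ≠ 0) (h64 : τ ≠ -64) :
    (zerosOf Kb (a - algebraMap Kb (FN N) τ)).ncard = Module.finrank Kb⟮a⟯ (FN N) := by
  obtain ⟨hgen, hz, h1728⟩ := card_fiber_j N
  rw [nuThree_eq_zero_of_two_dvd (Dvd.dvd.trans (by norm_num) hN)] at hz
  rw [nuTwo_eq_zero_of_four_dvd hN] at h1728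
  have hA : jBar N * a ^ 2 = (a + 256) ^ 3 := by
    apply Subtype.ext
    have := HM.t2_A Kb
    rw [← ha] at this
    exact this
  set b : FN N := ⟨coeffMap (Int.castRingHom Kb) (qExpand ℤ 2 tZ2), HM.tZ2_two_mem hN⟩ with hb
  have hrel : (a + 16) ^ 3 * b ^ 2 = (b + 256) ^ 3 * a := by
    apply Subtype.ext
    have := rel2
    rw [← ha] at this
    exact this
  have hab : a * b ≠ 4096 := by
    intro h
    have h' := congrArg (Subtype.val) h
    have := mul_ne2
    rw [← ha] at this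
    exact this h'
  have hat : Transcendental Kb a :=
    (finrank_of_rel2 (isFF_FN N) (transcendental_jBar N) hA).1
  exact hb2 (isFF_FN N) (jBar N) a _ (dedekindPsi N) (transcendental_jBar N) hat
    (finrank_modularFunctionFieldBar N).2 hgen (by simpa using hz) (by simpa using h1728) hA
    (hb2_rel hrel hab) τ h0 h64

/-- **HB3**, stated for any `a : FN N` whose `q`-expansion is `t₃`. -/
theorem card_fiber_t3_aux (N : ℕ) [NeZero N] (hN : 9 ∣ N) (a : FN N)
    (ha : (a : LaurentSeries Kb) = coeffMap (Int.castRingHom Kb) tZ3)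
    (τ : Kb) (h0 : τ ≠ 0) (h27 : τ ≠ -27) :
    (zerosOf Kb (a - algebraMap Kb (FN N) τ)).ncard = Module.finrank Kb⟮a⟯ (FN N) := by
  obtain ⟨hgen, hz, h1728⟩ := card_fiber_j N
  rw [nuThree_eq_zero_of_nine_dvd hN] at hz
  rw [nuTwo_eq_zero_of_three_dvd (Dvd.dvd.trans (by norm_num) hN)] at h1728
  have hA : jBar N * a ^ 3 = (a + 27) * (a + 243) ^ 3 := by
    apply Subtype.ext
    have := HM.t3_A Kb
    rw [← ha] at this
    exact this
  set b : FN N := ⟨coeffMap (Int.castRingHom Kb) (qExpand ℤ 3 tZ3), HM.tZ3_three_mem hN⟩ with hb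
  have hrel : (a + 27) * (a + 3) ^ 3 * b ^ 3 = (b + 27) * (b + 243) ^ 3 * a := by
    apply Subtype.ext
    have := rel3
    rw [← ha] at this
    exact this
  have hab : a * b ≠ 729 := by
    intro h
    have h' := congrArg (Subtype.val) h
    have := mul_ne3
    rw [← ha] at this
    exact this h'
  have hat : Transcendental Kb a :=
    (finrank_of_rel3 (isFF_FN N) (transcendental_jBar N) hA).1
  obtain ⟨hnd, hd⟩ := hb3_rel (K := Kb) hat hrel hab
  exact hb3 (isFF_FN N) (jBar N) a _ _ (dedekindPsi N) (transcendental_jBar N) hat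
    (finrank_modularFunctionFieldBar N).2 hgen (by simpa using hz) (by simpa using h1728) hA
    hnd hd τ h0 h27

end Fermat.Agent.S18.HB
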