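import Fermat.Agent.S18.Setting
import Fermat.Agent.S18.LinAlg

/-!
# S18, piece NC: the normality criterion for orders over `k[x]` (any characteristic)
-/

set_option autoImplicit false

namespace Fermat.Agent.S18

open Polynomial IntermediateField Fermat.Agent.S24 Matrix

variable {k E : Type*} [Field k] [Field E] [Algebra k E]

/-- `k[X] → k(x)`. -/
noncomputable def ncι (x : E) : k[X] →ₐ[k] k⟮x⟯ := aeval (AdjoinSimple.gen k x)

theorem ncι_algebraMap (x : E) (p : k[X]) : algebraMap k⟮x⟯ E (ncι x p) = aeval x p := by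
  rw [ncι, ← aeval_algebraMap_apply, AdjoinSimple.algebraMap_gen]

theorem ncι_injective {x : E} (hx : Transcendental k x) : Function.Injective (ncι (k := k) x) := by
  intro p q h
  have := congrArg (algebraMap k⟮x⟯ E) h
  rw [ncι_algebraMap, ncι_algebraMap] at this
  exact (transcendental_iff_injective.1 hx) this

theorem ncι_smul (x : E) (p : k[X]) (u : E) : ncι x p • u = aeval x p * u := by
  rw [Algebra.smul_def, ncι_algebraMap]

theorem nc_linearIndependent {x : E} {μ : ℕ} (e' : Fin μ → E) (hind : PolyIndep k x e') :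
    LinearIndependent k⟮x⟯ e' := by
  classical
  rw [Fintype.linearIndependent_iff]
  intro y hy i
  have hfrac : ∀ i, ∃ r s : k[X], aeval x s ≠ 0 ∧ ((y i : k⟮x⟯) : E) * aeval x s = aeval x r := by
    intro i
    obtain ⟨r, s, hrs⟩ := (mem_adjoin_simple_iff k ((y i : k⟮x⟯) : E)).1 (y i).2
    by_cases hs : aeval x s = 0
    · refine ⟨0, 1, by simp, ?_⟩
      rw [hrs, hs]; simp
    · exact ⟨r, s, hs, by rw [hrs, div_mul_cancel₀ _ hs]⟩
  choose r s hs hrs using hfrac
  have h1 : ∑ i, aeval x (r i * ∏ j ∈ Finset.univ.erase i, s j) * e' i = 0 := by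
    have h2 : (∑ i, y i • e' i) * aeval x (∏ j, s j) = 0 := by rw [hy, zero_mul]
    rw [Finset.sum_mul] at h2
    rw [← h2]
    refine Finset.sum_congr rfl fun i _ => ?_
    rw [← Finset.mul_prod_erase Finset.univ s (Finset.mem_univ i), map_mul, map_mul, ← hrs i,
      Algebra.smul_def]
    change _ = ((y i : k⟮x⟯) : E) * e' i * _
    ring
  have h0 := congrFun (hind _ h1) i
  have h3 : aeval x (r i) * aeval x (∏ j ∈ Finset.univ.erase i, s j) = 0 := by
    rw [← map_mul, h0]; simp
  have h4 : aeval x (∏ j ∈ Finset.univ.erase i, s j) ≠ 0 := by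
    rw [map_prod, Finset.prod_ne_zero_iff]
    exact fun j _ => hs j
  have h5 : aeval x (r i) = 0 := (mul_eq_zero.1 h3).resolve_right h4
  have h6 : ((y i : k⟮x⟯) : E) = 0 := by
    have := hrs i
    rw [h5] at this
    exact (mul_eq_zero.1 this).resolve_right (hs i)
  exact_mod_cast h6

theorem nc_aeval_mul_mem {ι : Type*} [Fintype ι] {x : E} {e : ι → E} (q : k[X]) {h : E}
    (hh : h ∈ polySpan k x e) : aeval x q * h ∈ polySpan k x e := by
  obtain ⟨p, rfl⟩ := hh
  exact ⟨fun i => q * p i, by simp [Finset.mul_sum, mul_assoc]⟩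

theorem nc_self_mem {ι : Type*} [Fintype ι] [DecidableEq ι] {x : E} {e : ι → E} (i : ι) :
    e i ∈ polySpan k x e :=
  ⟨fun j => if j = i then 1 else 0, by simp⟩

theorem nc_mul_mem {ι : Type*} [Fintype ι] {x : E} {e : ι → E}
    (hmul : ∀ i j, e i * e j ∈ polySpan k x e) {u w : E} (hu : u ∈ polySpan k x e)
    (hw : w ∈ polySpan k x e) : u * w ∈ polySpan k x e := by
  obtain ⟨p, rfl⟩ := hu
  obtain ⟨q, rfl⟩ := hw
  rw [Finset.sum_mul_sum]
  refine Submodule.sum_mem _ fun i _ => Submodule.sum_mem _ fun j _ => ?_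
  have : aeval x (p i) * e i * (aeval x (q j) * e j) = aeval x (p i * q j) * (e i * e j) := by
    rw [map_mul]; ring
  rw [this]
  exact nc_aeval_mul_mem _ (hmul i j)

section mat

variable {x : E} {μ : ℕ} (b : Module.Basis (Fin μ) k⟮x⟯ E)

/-- `M` is the polynomial multiplication matrix of `u` w.r.t. the basis `b`. -/
def IsMat (u : E) (M : Matrix (Fin μ) (Fin μ) k[X]) : Prop :=
  Algebra.leftMulMatrix b u = M.map (ncι x)

variable {b}

theorem nc_exists_mat (hmul : ∀ i j, b i * b j ∈ polySpan k x b) {u : E}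
    (hu : u ∈ polySpan k x b) : ∃ M, IsMat b u M := by
  classical
  have h1 : ∀ j, u * b j ∈ polySpan k x b := fun j => nc_mul_mem hmul hu (nc_self_mem j)
  choose q hq using h1
  refine ⟨Matrix.of fun l j => q j l, ?_⟩
  ext l j
  rw [Algebra.leftMulMatrix_eq_repr_mul, hq j, Matrix.map_apply, Matrix.of_apply]
  have : ∑ i, aeval x (q j i) * b i = ∑ i, (ncι x (q j i)) • b i :=
    Finset.sum_congr rfl fun i _ => (ncι_smul x _ _).symm
  rw [this, Module.Basis.repr_sum_self]

theorem IsMat.mul {u w : E} {M M' : Matrix (Fin μ) (Fin μ) k[X]} (h : IsMat b u M)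
    (h' : IsMat b w M') : IsMat b (u * w) (M * M') := by
  unfold IsMat at *
  rw [map_mul, h, h', Matrix.map_mul]

theorem IsMat.pow {u : E} {M : Matrix (Fin μ) (Fin μ) k[X]} (h : IsMat b u M) (n : ℕ) :
    IsMat b (u ^ n) (M ^ n) := by
  unfold IsMat at *
  rw [map_pow, h]
  exact ((ncι x).toRingHom.mapMatrix.map_pow M n).symm

theorem IsMat.smul {u : E} {M : Matrix (Fin μ) (Fin μ) k[X]} (h : IsMat b u M) (q : k[X]) :
    IsMat b (aeval x q * u) (q • M) := by
  unfold IsMat at *
  rw [← ncι_smul, map_smul, h]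
  ext i j
  simp

theorem IsMat.unique (hx : Transcendental k x) {u : E} {M M' : Matrix (Fin μ) (Fin μ) k[X]}
    (h : IsMat b u M) (h' : IsMat b u M') : M = M' := by
  unfold IsMat at *
  rw [h] at h'
  refine Matrix.ext fun i j => ?_
  have := congrFun (congrFun h' i) j
  exact ncι_injective hx this

theorem IsMat.trace {u : E} {M : Matrix (Fin μ) (Fin μ) k[X]} (h : IsMat b u M) :
    Algebra.trace k⟮x⟯ E u = ncι x M.trace := by
  unfold IsMat at h
  rw [Algebra.trace_eq_matrix_trace b, h, Matrix.trace, Matrix.trace, map_sum]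
  rfl

/-- nilpotent modulo `(x - c)`: the evaluated matrix is nilpotent. -/
theorem IsMat.isNilpotent (hx : Transcendental k x) {u s : E} {M Ms : Matrix (Fin μ) (Fin μ) k[X]}
    (h : IsMat b u M) (hs : IsMat b s Ms) (c : k) (n : ℕ)
    (hn : u ^ n = (x - algebraMap k E c) * s) : IsNilpotent (M.map (Polynomial.eval c)) := by
  have h1 : IsMat b (u ^ n) ((X - C c) • Ms) := by
    rw [hn]
    have := hs.smul (X - C c)
    simpa using this
  have h2 : M ^ n = (X - C c) • Ms := (h.pow n).unique hx h1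
  refine ⟨n, ?_⟩
  have h3 : (M.map (Polynomial.eval c)) ^ n = (M ^ n).map (Polynomial.eval c) :=
    ((Polynomial.evalRingHom c).mapMatrix.map_pow M n).symm
  rw [h3, h2]
  ext i j
  simp

/-- trace of (anything) times (nilpotent mod `x - c`) vanishes at `c`. -/
theorem IsMat.eval_trace_mul (hx : Transcendental k x) {u w : E}
    {M Mw : Matrix (Fin μ) (Fin μ) k[X]} (h : IsMat b u M) (hw : IsMat b w Mw) (c : k)
    (hnil : IsNilpotent (M.map (Polynomial.eval c))) : (Mw * M).trace.eval c = 0 := by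
  have hcomm : Mw * M = M * Mw := by
    refine (hw.mul h).unique hx ?_
    rw [mul_comm]
    exact h.mul hw
  have h1 : (Mw * M).map (Polynomial.eval c) =
      Mw.map (Polynomial.eval c) * M.map (Polynomial.eval c) :=
    (Polynomial.evalRingHom c).mapMatrix.map_mul Mw M
  have h2 : (M * Mw).map (Polynomial.eval c) =
      M.map (Polynomial.eval c) * Mw.map (Polynomial.eval c) :=
    (Polynomial.evalRingHom c).mapMatrix.map_mul M Mw
  have hc : Commute (Mw.map (Polynomial.eval c)) (M.map (Polynomial.eval c)) := by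
    rw [Commute, SemiconjBy, ← h1, ← h2, hcomm]
  have h3 : IsNilpotent ((Mw * M).map (Polynomial.eval c)) := by
    rw [h1]
    exact hc.isNilpotent_mul_left hnil
  have h4 := Matrix.isNilpotent_trace_of_isNilpotent h3
  have h5 : ((Mw * M).map (Polynomial.eval c)).trace = (Mw * M).trace.eval c := by
    rw [Matrix.trace, Matrix.trace, Polynomial.eval_finsetSum]
    rfl
  rw [← h5]
  exact h4.eq_zero

end mat

/-- `N ⊆ k^μ` consists of coordinate vectors (w.r.t. `e`) of elements which are nilpotent modulo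
`(x - c) R`, `R = ∑ k[x] e_i`. -/
def NilFam {μ : ℕ} (x : E) (c : k) (e : Fin μ → E) (N : Submodule k (Fin μ → k)) : Prop :=
  ∀ a ∈ N, ∃ n : ℕ, ∃ r ∈ polySpan k x e,
    (∑ i, algebraMap k E (a i) * e i) ^ n = (x - algebraMap k E c) * r

/-- `Δ` is the discriminant polynomial of the family `e`. -/
def IsDiscPoly {μ : ℕ} (x : E) (e : Fin μ → E) (Δ : k[X]) : Prop :=
  aeval x Δ = algebraMap k⟮x⟯ E (Algebra.discr k⟮x⟯ e)

/-- **NC (normality criterion).** `R = ∑ k[x] e_i ⊆ R' = ∑ k[x] e'_i`, `R'` a ring of integral elements,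
`e = G e'`.  If `v_c(disc R) ≤ dim N` for a space `N` of nilpotents of `R/(x-c)R`, then `R = R'` at `c`.

Proof. `φ : a ↦ a G(c)` maps `N` to a `NilFam` `N'` of `e'`, `dim N' ≥ dim N - κ`, `κ = corank G(c)`,
`(X-c)^κ ∣ det G` (LA1).  If `r ∈ R'` is nilpotent mod `(x-c)R'` then so is `r e'_j`, its multiplication
matrix `M ∈ Mat(k[X])` w.r.t. `e'` has `M(c)` nilpotent, so `(X-c) ∣ tr M`; hence the Gram matrix
`Γ' = (Tr e'_i e'_j) ∈ Mat(k[X])` satisfies `N' ⊆ ker Γ'(c)` and `(X-c)^{dim N'} ∣ det Γ' = Δ'` (LA1).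
`Δ = (det G)^2 Δ'` (`Algebra.discr_of_matrix_mulVec`).  So
`dim N ≥ v_c Δ = 2 v_c(det G) + v_c Δ' ≥ 2 v_c(det G) + dim N - v_c (det G)`. -/
theorem normCrit {x : E} (hx : Transcendental k x) [FiniteDimensional k⟮x⟯ E] {μ : ℕ}
    (hμ : Module.finrank k⟮x⟯ E = μ) (e e' : Fin μ → E)
    (hind : PolyIndep k x e') (hint : ∀ i, e' i ∈ intRing k x)
    (hmul : ∀ i j, e' i * e' j ∈ polySpan k x e')
    (G : Matrix (Fin μ) (Fin μ) k[X]) (hG : ∀ i, e i = ∑ j, aeval x (G i j) * e' j)
    (Δ : k[X]) (hΔ0 : Δ ≠ 0) (hΔ : IsDiscPoly x e Δ)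
    (c : k) (N : Submodule k (Fin μ → k)) (hN : NilFam x c e N)
    (hle : Δ.rootMultiplicity c ≤ Module.finrank k N) : G.det.eval c ≠ 0 := by
  classical
  have hli := nc_linearIndependent e' hind
  have hμ0 : 0 < μ := hμ ▸ Module.finrank_pos
  have : Nonempty (Fin μ) := ⟨⟨0, hμ0⟩⟩
  set b : Module.Basis (Fin μ) k⟮x⟯ E :=
    basisOfLinearIndependentOfCardEqFinrank hli (by rw [Fintype.card_fin, hμ]) with hbdef
  have hb : ⇑b = e' := coe_basisOfLinearIndependentOfCardEqFinrank _ _
  have hmul' : ∀ i j, b i * b j ∈ polySpan k x b := by rw [hb]; exact hmul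
  have heR : ∀ i, e i ∈ polySpan k x b := fun i => ⟨G i, by rw [hb]; exact hG i⟩
  have hsub : ∀ u, u ∈ polySpan k x e → u ∈ polySpan k x b := by
    rintro _ ⟨p, rfl⟩
    exact Submodule.sum_mem _ fun i _ => nc_aeval_mul_mem _ (heR i)
  choose Mb hMb using fun i => nc_exists_mat hmul' (nc_self_mem (k := k) (x := x) (e := b) i)
  set Γ : Matrix (Fin μ) (Fin μ) k[X] := Matrix.of fun i j => (Mb i * Mb j).trace with hΓ
  have hΓtr : ∀ i j, Algebra.trace k⟮x⟯ E (b i * b j) = ncι x (Γ i j) :=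
    fun i j => ((hMb i).mul (hMb j)).trace
  have hdisc' : Algebra.discr k⟮x⟯ e' = ncι x Γ.det := by
    rw [Algebra.discr_def, ← hb]
    have : Algebra.traceMatrix k⟮x⟯ b = Γ.map (ncι x) := by
      ext i j
      rw [Algebra.traceMatrix_apply, Algebra.traceForm_apply, hΓtr]
      rfl
    rw [this]
    exact ((ncι x).toRingHom.map_det Γ).symm
  have hdisc : Δ = G.det ^ 2 * Γ.det := by
    apply ncι_injective hx
    apply (algebraMap k⟮x⟯ E).injective
    rw [ncι_algebraMap, hΔ]
    congr 1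
    have he : e = ((G.map (ncι x)).map (algebraMap k⟮x⟯ E)) *ᵥ e' := by
      ext i
      rw [hG i]
      simp only [Matrix.mulVec, dotProduct, Matrix.map_apply, ncι_algebraMap]
    rw [he, Algebra.discr_of_matrix_mulVec, hdisc', map_mul, map_pow]
    congr 2
    exact ((ncι x).toRingHom.map_det G).symm
  set Gc : Matrix (Fin μ) (Fin μ) k := G.map (Polynomial.eval c) with hGc
  set Γc : Matrix (Fin μ) (Fin μ) k := Γ.map (Polynomial.eval c) with hΓc
  set φ : (Fin μ → k) →ₗ[k] (Fin μ → k) := Gcᵀ.mulVecLin with hφ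
  have hker : ∀ a ∈ N, Γc *ᵥ (φ a) = 0 := by
    intro a ha
    obtain ⟨n, r₁, hr₁, hn⟩ := hN a ha
    set r : E := ∑ i, algebraMap k E (a i) * e i with hrdef
    set g : Fin μ → k[X] := fun j => ∑ i, C (a i) * G i j with hg
    have hr : r = ∑ j, aeval x (g j) * b j := by
      rw [hrdef, hb]
      simp only [hg, hG, map_sum, map_mul, aeval_C, Finset.mul_sum, Finset.sum_mul]
      rw [Finset.sum_comm]
      refine Finset.sum_congr rfl fun j _ => Finset.sum_congr rfl fun i _ => ?_
      ring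
    have hrR : r ∈ polySpan k x b := ⟨g, hr⟩
    obtain ⟨Mr, hMr⟩ := nc_exists_mat hmul' hrR
    obtain ⟨Ms, hMs⟩ := nc_exists_mat hmul' (hsub _ hr₁)
    have hnil := hMr.isNilpotent hx hMs c n hn
    ext i
    have h1 := hMr.eval_trace_mul hx (hMb i) c hnil
    have h2 : (Mb i * Mr).trace = ∑ j, g j * Γ i j := by
      apply ncι_injective hx
      rw [← ((hMb i).mul hMr).trace, hr, Finset.mul_sum, map_sum, map_sum]
      refine Finset.sum_congr rfl fun j _ => ?_
      have h3 : b i * (aeval x (g j) * b j) = ncι x (g j) • (b i * b j) := by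
        rw [ncι_smul]; ring
      rw [h3, map_smul, smul_eq_mul, hΓtr, map_mul]
    rw [h2, Polynomial.eval_finsetSum] at h1
    simp only [Polynomial.eval_mul] at h1
    rw [Pi.zero_apply, ← h1]
    simp only [Matrix.mulVec, dotProduct, hφ, Matrix.mulVecLin_apply, hΓc, hGc, Matrix.map_apply,
      Matrix.transpose_apply, hg, Polynomial.eval_finsetSum, Polynomial.eval_mul,
      Polynomial.eval_C]
    refine Finset.sum_congr rfl fun j _ => ?_
    rw [mul_comm]
    congr 1
    exact Finset.sum_congr rfl fun l _ => mul_comm _ _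
  -- dimension counts
  have hcard : Module.finrank k (Fin μ → k) = μ := by simp
  have hrankΓ : Γc.rank + Module.finrank k (N.map φ) ≤ μ := by
    have h1 := LinearMap.finrank_range_add_finrank_ker Γc.mulVecLin
    rw [hcard] at h1
    have h2 : N.map φ ≤ LinearMap.ker Γc.mulVecLin := by
      rintro _ ⟨a, ha, rfl⟩
      rw [LinearMap.mem_ker, Matrix.mulVecLin_apply]
      exact hker a ha
    have h3 := Submodule.finrank_mono h2
    have h4 : Γc.rank = Module.finrank k (LinearMap.range Γc.mulVecLin) := rfl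
    omega
  have hrankG : Gc.rank + Module.finrank k (LinearMap.ker φ) = μ := by
    have h1 := LinearMap.finrank_range_add_finrank_ker φ
    rw [hcard] at h1
    have h4 : Gc.rank = Module.finrank k (LinearMap.range φ) := by
      rw [← Matrix.rank_transpose]; rfl
    omega
  have hN' : Module.finrank k N ≤ Module.finrank k (N.map φ) + Module.finrank k (LinearMap.ker φ) := by
    have h1 := LinearMap.finrank_range_add_finrank_ker (φ.domRestrict N)
    rw [LinearMap.range_domRestrict] at h1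
    have h2 : (LinearMap.ker (φ.domRestrict N)).map N.subtype ≤ LinearMap.ker φ := by
      rintro _ ⟨a, ha, rfl⟩
      exact ha
    have h3 := Submodule.finrank_mono h2
    rw [Submodule.finrank_map_subtype_eq] at h3
    omega
  have hd1 := pow_dvd_det_of_rank_add_le G c _ hrankG.le
  have hd2 := pow_dvd_det_of_rank_add_le Γ c _ hrankΓ
  have hG0 : G.det ≠ 0 := by
    rintro h
    rw [h] at hdisc
    exact hΔ0 (by rw [hdisc]; simp)
  have hΓ0 : Γ.det ≠ 0 := by
    rintro h
    rw [h] at hdisc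
    exact hΔ0 (by rw [hdisc]; simp)
  have hm1 := (Polynomial.le_rootMultiplicity_iff hG0).2 hd1
  have hm2 := (Polynomial.le_rootMultiplicity_iff hΓ0).2 hd2
  have hm3 : Δ.rootMultiplicity c = 2 * G.det.rootMultiplicity c + Γ.det.rootMultiplicity c := by
    rw [hdisc, Polynomial.rootMultiplicity_mul (mul_ne_zero (pow_ne_zero _ hG0) hΓ0), pow_two,
      Polynomial.rootMultiplicity_mul (mul_ne_zero hG0 hG0)]
    ring
  have hm4 : G.det.rootMultiplicity c = 0 := by omega
  intro h0
  exact ((Polynomial.rootMultiplicity_eq_zero_iff.1 hm4) h0) |> hG0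

end Fermat.Agent.S18
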