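import Mathlib

/-!
# S18, piece SEP: separability from `q d/dq`  (helper4's argument, findings #236 (D))
-/

set_option autoImplicit false

namespace Fermat.Agent.S18

open IntermediateField Polynomial

section Theta

variable {k : Type*} [Field k]

/-- `θ = q d/dq` on Laurent series. -/
noncomputable def sepTheta (f : LaurentSeries k) : LaurentSeries k where
  coeff n := (n : k) * f.coeff n
  isPWO_support' := f.isPWO_support.mono fun n hn => by
    rw [Function.mem_support] at hn
    rw [HahnSeries.mem_support]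
    exact right_ne_zero_of_mul hn

theorem sepTheta_coeff (f : LaurentSeries k) (n : ℤ) :
    (sepTheta f).coeff n = (n : k) * f.coeff n := rfl

theorem sepTheta_support (f : LaurentSeries k) : (sepTheta f).support ⊆ f.support := fun n hn => by
  rw [HahnSeries.mem_support, sepTheta_coeff] at hn
  rw [HahnSeries.mem_support]
  exact right_ne_zero_of_mul hn

theorem sepTheta_mul (f g : LaurentSeries k) :
    sepTheta (f * g) = f * sepTheta g + g * sepTheta f := by
  ext n
  rw [sepTheta_coeff, HahnSeries.coeff_add, mul_comm g, HahnSeries.coeff_mul,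
    HahnSeries.coeff_mul_right' g.isPWO_support (sepTheta_support g),
    HahnSeries.coeff_mul_left' f.isPWO_support (sepTheta_support f), Finset.mul_sum,
    ← Finset.sum_add_distrib]
  refine Finset.sum_congr rfl fun ij hij => ?_
  rw [Finset.mem_antidiagonal] at hij
  rw [sepTheta_coeff, sepTheta_coeff, ← hij.2.2]
  push_cast
  ring

theorem sep_algebraMap_eq_C (a : k) : algebraMap k (LaurentSeries k) a = HahnSeries.C a := by
  have h1 : algebraMap k (PowerSeries k) a = PowerSeries.C a := by simp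
  rw [HahnSeries.algebraMap_apply', h1, HahnSeries.ofPowerSeries_C]

/-- `θ` as a derivation. -/
noncomputable def sepD : Derivation k (LaurentSeries k) (LaurentSeries k) where
  toFun := sepTheta
  map_add' f g := by
    ext n
    simp only [sepTheta_coeff, HahnSeries.coeff_add]
    ring
  map_smul' c f := by
    ext n
    rw [Algebra.smul_def, sep_algebraMap_eq_C, HahnSeries.C_mul_eq_smul]
    simp only [sepTheta_coeff, HahnSeries.coeff_smul, RingHom.id_apply, smul_eq_mul]
    ring
  map_one_eq_zero' := by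
    ext n
    show (sepTheta 1).coeff n = 0
    rw [sepTheta_coeff, HahnSeries.coeff_one]
    split_ifs with h
    · simp [h]
    · simp
  leibniz' f g := by
    show sepTheta (f * g) = f • sepTheta g + g • sepTheta f
    rw [sepTheta_mul]
    rfl

end Theta

section Abstract

variable {k E M : Type*} [Field k] [Field E] [Algebra k E] [AddCommGroup M] [Module k M]
  [Module E M] (D : Derivation k E M) {x : E}

include D in
theorem sep_transcendental [PerfectField k] (hx : D x ≠ 0) : Transcendental k x := by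
  intro halg
  have hint : IsIntegral k x := halg.isIntegral
  have hsep : (minpoly k x).Separable := PerfectField.separable_of_irreducible (minpoly.irreducible hint)
  have h0 : D (aeval x (minpoly k x)) = 0 := by rw [minpoly.aeval, map_zero]
  rw [Derivation.map_aeval, smul_eq_zero] at h0
  exact (h0.resolve_right hx) |> hsep.aeval_derivative_ne_zero (minpoly.aeval k x)

theorem sep_exists_delta (c : E) (hc : c ∈ k⟮x⟯) : ∃ c' ∈ k⟮x⟯, D c = c' • D x := by
  obtain ⟨a, b, rfl⟩ := (mem_adjoin_simple_iff k c).mp hc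
  have hmem : ∀ f : k[X], aeval x f ∈ k⟮x⟯ := fun f => by
    rw [mem_adjoin_simple_iff]
    exact ⟨f, 1, by simp⟩
  refine ⟨(aeval x b)⁻¹ ^ 2 * (aeval x b * aeval x (derivative a) -
    aeval x a * aeval x (derivative b)), ?_, ?_⟩
  · exact mul_mem (pow_mem (inv_mem (hmem _)) _)
      (sub_mem (mul_mem (hmem _) (hmem _)) (mul_mem (hmem _) (hmem _)))
  · rw [Derivation.leibniz_div, Derivation.map_aeval, Derivation.map_aeval, smul_smul, smul_smul,
      ← sub_smul, smul_smul]

theorem sep_exists_root [PerfectField k] (hx : D x ≠ 0) (ℓ : ℕ) [Fact ℓ.Prime] [CharP k ℓ]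
    (c : E) (hc : c ∈ k⟮x⟯) (hDc : D c = 0) : ∃ r ∈ k⟮x⟯, r ^ ℓ = c := by
  have hℓ : ℓ.Prime := Fact.out
  have : CharP E ℓ := charP_of_injective_algebraMap (algebraMap k E).injective ℓ
  obtain ⟨a, b, rfl⟩ := (mem_adjoin_simple_iff k c).mp hc
  have hmem : ∀ f : k[X], aeval x f ∈ k⟮x⟯ := fun f => by
    rw [mem_adjoin_simple_iff]
    exact ⟨f, 1, by simp⟩
  by_cases hb : aeval x b = 0
  · exact ⟨0, zero_mem _, by rw [hb, div_zero, zero_pow hℓ.ne_zero]⟩
  -- `f = a b^(ℓ-1)`
  have e1 : aeval x (a * b ^ (ℓ - 1)) = aeval x a / aeval x b * aeval x b ^ ℓ := by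
    rw [map_mul, map_pow]
    obtain ⟨n, hn⟩ : ∃ n, ℓ = n + 1 := ⟨ℓ - 1, by have := hℓ.pos; omega⟩
    rw [hn, Nat.add_sub_cancel, pow_succ]
    field_simp
  have e2 : D (aeval x (a * b ^ (ℓ - 1))) = 0 := by
    have h0 : D (aeval x b ^ ℓ) = 0 := by
      rw [Derivation.leibniz_pow, ← Nat.cast_smul_eq_nsmul E, CharP.cast_eq_zero E ℓ, zero_smul]
    rw [e1, Derivation.leibniz, hDc, h0, smul_zero, smul_zero, add_zero]
  rw [Derivation.map_aeval, smul_eq_zero] at e2
  have e3 : derivative (a * b ^ (ℓ - 1)) = 0 := by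
    by_contra h
    exact sep_transcendental D hx ⟨_, h, e2.resolve_right hx⟩
  have e4 := expand_contract ℓ e3 hℓ.ne_zero
  rw [polynomial_expand_eq] at e4
  refine ⟨aeval x ((contract ℓ (a * b ^ (ℓ - 1))).map (frobeniusEquiv k ℓ).symm) / aeval x b,
    div_mem (hmem _) (hmem _), ?_⟩
  rw [div_pow, ← map_pow, e4, e1]
  field_simp

theorem sep_abstract [PerfectField k] (hx : D x ≠ 0) [Algebra.IsAlgebraic k⟮x⟯ E] :
    Algebra.IsSeparable k⟮x⟯ E := by
  obtain ⟨ℓ, hchar⟩ := CharP.exists k
  rcases CharP.char_is_prime_or_zero k ℓ with hℓ | rfl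
  swap
  · have : CharZero k := CharP.charP_to_charZero k
    have : CharZero k⟮x⟯ := charZero_of_injective_algebraMap (algebraMap k k⟮x⟯).injective
    exact Algebra.IsAlgebraic.isSeparable_of_perfectField
  have := Fact.mk hℓ
  have hcharK : CharP k⟮x⟯ ℓ := charP_of_injective_algebraMap (algebraMap k k⟮x⟯).injective ℓ
  refine ⟨fun y => ?_⟩
  have hint : IsIntegral k⟮x⟯ y := (Algebra.IsAlgebraic.isAlgebraic y).isIntegral
  have hirr : Irreducible (minpoly k⟮x⟯ y) := minpoly.irreducible hint
  have hmonic : (minpoly k⟮x⟯ y).Monic := minpoly.monic hint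
  show (minpoly k⟮x⟯ y).Separable
  rw [separable_iff_derivative_ne_zero hirr]
  intro hder
  obtain ⟨P, hP⟩ : ∃ P, P = minpoly k⟮x⟯ y := ⟨_, rfl⟩
  rw [← hP] at hirr hmonic hder
  obtain ⟨n, hn⟩ : ∃ n, n = P.natDegree := ⟨_, rfl⟩
  choose δ hδmem hδ using fun c : k⟮x⟯ => sep_exists_delta D (c : E) c.2
  let Q : (k⟮x⟯)[X] := ∑ i ∈ Finset.range n, monomial i (⟨δ (P.coeff i), hδmem _⟩ : k⟮x⟯)
  -- the terms coming from `P'` vanish
  have hterm : ∀ i : ℕ, ((P.coeff i : k⟮x⟯) : E) • D (y ^ i) = 0 := by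
    intro i
    rw [Derivation.leibniz_pow]
    cases i with
    | zero => rw [zero_smul, smul_zero]
    | succ j =>
      have h1 : P.coeff (j + 1) * ((j : k⟮x⟯) + 1) = 0 := by
        have := congrArg (fun R => R.coeff j) hder
        simpa [coeff_derivative] using this
      have h2 : ((P.coeff (j + 1) : k⟮x⟯) : E) * ((j : E) + 1) = 0 := by
        have := congrArg (fun c : k⟮x⟯ => (c : E)) h1
        simpa using this
      rw [← Nat.cast_smul_eq_nsmul E, smul_smul]
      push_cast
      rw [h2, zero_smul]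
  have h0 : D (aeval y P) = 0 := by rw [hP, minpoly.aeval, map_zero]
  have hQ : aeval y Q • D x = 0 := by
    rw [aeval_eq_sum_range, ← hn, map_sum, Finset.sum_range_succ] at h0
    have htop : D (P.coeff n • y ^ n) = 0 := by
      rw [hn, hmonic.coeff_natDegree, one_smul]
      have := hterm P.natDegree
      rwa [hmonic.coeff_natDegree, OneMemClass.coe_one, one_smul] at this
    rw [htop, add_zero] at h0
    rw [← h0, map_sum, Finset.sum_smul]
    refine Finset.sum_congr rfl fun i _ => ?_
    rw [aeval_monomial, Algebra.smul_def, Derivation.leibniz]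
    show (δ (P.coeff i) * y ^ i) • D x =
      ((P.coeff i : k⟮x⟯) : E) • D (y ^ i) + y ^ i • D ((P.coeff i : k⟮x⟯) : E)
    rw [hterm, zero_add, hδ, smul_smul, mul_comm]
  have hQ0 : aeval y Q = 0 := (smul_eq_zero.mp hQ).resolve_right hx
  have hQdeg : Q.degree < n := by
    rw [degree_lt_iff_coeff_zero]
    intro m hm
    rw [finsetSum_coeff]
    refine Finset.sum_eq_zero fun i hi => ?_
    rw [coeff_monomial, if_neg]
    have := Finset.mem_range.mp hi
    omega
  have hQz : Q = 0 := by
    by_contra hne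
    have h1 := minpoly.degree_le_of_ne_zero k⟮x⟯ y hne hQ0
    rw [← hP, degree_eq_natDegree hmonic.ne_zero, ← hn] at h1
    exact absurd (lt_of_le_of_lt h1 hQdeg) (lt_irrefl _)
  have hDcoeff : ∀ i, D ((P.coeff i : k⟮x⟯) : E) = 0 := by
    intro i
    rcases lt_trichotomy i n with hi | hi | hi
    · have h1 : Q.coeff i = 0 := by rw [hQz, coeff_zero]
      rw [finsetSum_coeff, Finset.sum_eq_single i] at h1
      · rw [coeff_monomial, if_pos rfl] at h1
        have h2 : δ (P.coeff i) = 0 := congrArg (fun c : k⟮x⟯ => (c : E)) h1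
        rw [hδ, h2, zero_smul]
      · intro j _ hj
        rw [coeff_monomial, if_neg hj]
      · intro h
        exact absurd (Finset.mem_range.mpr hi) h
    · rw [hi, hn, hmonic.coeff_natDegree]
      exact D.map_one_eq_zero
    · rw [coeff_eq_zero_of_natDegree_lt (by omega)]
      exact map_zero D
  have hlift : contract ℓ P ∈ lifts (frobenius k⟮x⟯ ℓ) := by
    rw [lifts_iff_coeff_lifts]
    intro j
    rw [coeff_contract hℓ.ne_zero]
    obtain ⟨r, hr, hr2⟩ := sep_exists_root D hx ℓ _ (P.coeff (j * ℓ)).2 (hDcoeff _)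
    exact ⟨⟨r, hr⟩, Subtype.ext hr2⟩
  obtain ⟨g, hg⟩ := (mem_lifts _).mp hlift
  have hfin : P = g ^ ℓ := by
    rw [← expand_contract ℓ hder hℓ.ne_zero, ← hg, ← map_expand, map_frobenius_expand]
  rw [hfin] at hirr
  exact not_irreducible_pow hℓ.ne_one hirr

end Abstract

/-- **SEP.** Let `E ⊆ k((q))` be algebraic over `k(x)`, `k` perfect, `θ x ≠ 0` for `θ = q d/dq`.  Then `E / k(x)` is separable.
Proof: `θ` (coefficientwise `a_n ↦ n a_n`) is a `k`-derivation of `k((q))`.  Let `y ∈ E` with minimal polynomial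
`P = T^r + ∑ p_i T^i` over `k(x)`, and assume `P' = 0`.  Applying `θ` to `P(y) = 0` gives `∑ θ(p_i) y^i = 0`, `θ(p_i) = p_i'(x) θ x`, so
`∑ p_i'(x) y^i = 0` has degree `< r`: all `p_i' = 0`, so `p_i ∈ k(x^ℓ) = k(x)^ℓ` (`k` perfect) and `P = R^ℓ`, contradiction. -/
theorem isSeparable_of_coeff {k : Type*} [Field k] [PerfectField k]
    (E : IntermediateField k (LaurentSeries k)) (x : E) [Algebra.IsAlgebraic k⟮x⟯ E]
    (n : ℤ) (hn : (n : k) ≠ 0) (hx : (x : LaurentSeries k).coeff n ≠ 0) :
    Algebra.IsSeparable k⟮x⟯ E := by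
  let D : Derivation k E (LaurentSeries k) := (sepD (k := k)).compAlgebraMap E
  refine sep_abstract D (x := x) ?_
  intro h
  have h1 : (sepTheta (x : LaurentSeries k)).coeff n = 0 := by
    have : sepTheta (x : LaurentSeries k) = 0 := h
    rw [this, HahnSeries.coeff_zero]
  rw [sepTheta_coeff] at h1
  exact (mul_ne_zero hn hx) h1

end Fermat.Agent.S18
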