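import Fermat.Agent.S18.Gauss
import Fermat.Agent.S18.Haupt
import Fermat.Agent.S18.Sep
import Fermat.Agent.S18.DimRed
import Fermat.Agent.S18.NormCrit

/-!
# S18, piece HC (general part): a Hauptmodul-type coordinate is a good coordinate
-/

set_option autoImplicit false

namespace Fermat.Agent.S18

open Polynomial IntermediateField Fermat.Agent.S24 ModularCurve

section field

variable {k Fb : Type*} [Field k] [Field Fb] [Algebra k Fb]

theorem hc_mem_adjoin {jb tb : Fb} {P Q : k[X]} (hQt : aeval tb Q ≠ 0)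
    (hrel : jb * aeval tb Q = aeval tb P) : jb ∈ k⟮tb⟯ := by
  have h : jb = aeval tb P / aeval tb Q := by rw [← hrel, mul_div_cancel_right₀ _ hQt]
  rw [h]
  have hm : ∀ R : k[X], aeval tb R ∈ k⟮tb⟯ := fun R =>
    IntermediateField.algebra_adjoin_le_adjoin k _ (Polynomial.aeval_mem_adjoin_singleton k _)
  exact div_mem (hm P) (hm Q)

theorem hc_transcendental {jb tb : Fb} {P Q : k[X]} (hj : Transcendental k jb)
    (hQt : aeval tb Q ≠ 0) (hrel : jb * aeval tb Q = aeval tb P) : Transcendental k tb := by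
  intro halg
  apply hj
  have := IntermediateField.isAlgebraic_adjoin_simple halg.isIntegral
  have h2 := this.isAlgebraic (⟨jb, hc_mem_adjoin hQt hrel⟩ : k⟮tb⟯)
  exact IntermediateField.isAlgebraic_iff.1 h2

theorem hc_finrank_le {jb tb : Fb} [FiniteDimensional k⟮jb⟯ Fb] {P Q : k[X]} (hP : P.Monic)
    (hQ : Q.natDegree < P.natDegree) (hQt : aeval tb Q ≠ 0)
    (hrel : jb * aeval tb Q = aeval tb P) :
    FiniteDimensional k⟮tb⟯ Fb ∧
      Module.finrank k⟮jb⟯ Fb ≤ P.natDegree * Module.finrank k⟮tb⟯ Fb := by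
  set E := k⟮jb⟯ with hE
  set R : E[X] := P.map (algebraMap k E) - C (AdjoinSimple.gen k jb) * Q.map (algebraMap k E)
    with hR
  have hnd : (C (AdjoinSimple.gen k jb) * Q.map (algebraMap k E)).natDegree
      < (P.map (algebraMap k E)).natDegree :=
    lt_of_le_of_lt (natDegree_C_mul_le _ _) (by rw [natDegree_map, natDegree_map]; exact hQ)
  have hRm : R.Monic := (hP.map _).sub_of_left (degree_lt_degree hnd)
  have hRd : R.natDegree = P.natDegree := by
    rw [hR, natDegree_sub_eq_left_of_natDegree_lt hnd, natDegree_map]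
  have hroot : aeval tb R = 0 := by
    rw [hR, map_sub, map_mul, aeval_C, aeval_map_algebraMap, aeval_map_algebraMap,
      AdjoinSimple.algebraMap_gen, hrel, sub_self]
  have hint : IsIntegral E tb := ⟨R, hRm, hroot⟩
  have hmin : (minpoly E tb).natDegree ≤ P.natDegree := by
    rw [← hRd]
    exact natDegree_le_of_dvd (minpoly.dvd E tb hroot) hRm.ne_zero
  set L : IntermediateField E Fb := E⟮tb⟯ with hL
  have h1 : Module.finrank E L = (minpoly E tb).natDegree := IntermediateField.adjoin.finrank hint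
  have h2 : Module.finrank E L * Module.finrank L Fb = Module.finrank E Fb :=
    Module.finrank_mul_finrank E L Fb
  have hfin : FiniteDimensional L Fb := FiniteDimensional.right E L Fb
  have hres : L.restrictScalars k = k⟮tb⟯ := by
    rw [hL, hE, adjoin_simple_adjoin_simple]
    apply le_antisymm
    · rw [adjoin_le_iff]
      rintro y (rfl | rfl)
      · exact hc_mem_adjoin hQt hrel
      · exact mem_adjoin_simple_self k _
    · apply adjoin.mono
      intro y hy
      right
      exact hy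
  have key : ∀ M : IntermediateField k Fb, M = k⟮tb⟯ → FiniteDimensional M Fb →
      FiniteDimensional k⟮tb⟯ Fb ∧ Module.finrank M Fb = Module.finrank k⟮tb⟯ Fb := by
    rintro M rfl hM
    exact ⟨hM, rfl⟩
  obtain ⟨h3, h4⟩ := key _ hres hfin
  refine ⟨h3, ?_⟩
  have h5 : Module.finrank (L.restrictScalars k) Fb = Module.finrank L Fb := rfl
  rw [← h4, h5, ← h2, h1]
  exact Nat.mul_le_mul_right _ hmin

end field

section red

variable {K F k Fb : Type*} [Field K] [Field F] [Algebra K F] [Field k] [Field Fb] [Algebra k Fb]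
variable (S : RedSetting K F k Fb)

theorem RedSetting.finrank_rd_le {x : F} (hxV : x ∈ S.V) (ht : Transcendental k (S.rd x))
    [FiniteDimensional K⟮x⟯ F] [FiniteDimensional k⟮S.rd x⟯ Fb] :
    Module.finrank k⟮S.rd x⟯ Fb ≤ Module.finrank K⟮x⟯ F := by
  set B := Module.finBasis k⟮S.rd x⟯ Fb with hB
  choose e heV he using fun i => S.exists_rd_eq (B i)
  have hind : PolyIndep k (S.rd x) (fun i => S.rd (e i)) := by
    intro p hp
    have h1 : ∑ i, ncι (S.rd x) (p i) • B i = 0 := by
      rw [← hp]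
      exact Finset.sum_congr rfl fun i _ => by rw [ncι_smul]; simp only [he i]
    have h2 := Fintype.linearIndependent_iff.1 B.linearIndependent _ h1
    funext i
    apply ncι_injective ht
    rw [h2 i, Pi.zero_apply, map_zero]
  have h3 := S.polyIndep_of_rd hxV e heV hind
  have h4 := linearIndependent_of_polyIndep (S.transcendental_of_rd hxV ht) e h3
  have h5 := h4.fintype_card_le_finrank
  simpa using h5

/-- abstract form of HC, without separability. -/
theorem RedSetting.coord_of_rel {x : F} (hxV : x ∈ S.V) [FiniteDimensional K⟮x⟯ F] {jb : Fb}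
    (hj : Transcendental k jb) [FiniteDimensional k⟮jb⟯ Fb] {P Q : k[X]} (hP : P.Monic)
    (hQ : Q.natDegree < P.natDegree) (hQt : aeval (S.rd x) Q ≠ 0)
    (hrel : jb * aeval (S.rd x) Q = aeval (S.rd x) P)
    (hdeg : P.natDegree * Module.finrank K⟮x⟯ F = Module.finrank k⟮jb⟯ Fb) :
    Transcendental k (S.rd x) ∧ FiniteDimensional k⟮S.rd x⟯ Fb ∧
      Module.finrank K⟮x⟯ F = Module.finrank k⟮S.rd x⟯ Fb := by
  have ht := hc_transcendental hj hQt hrel
  obtain ⟨hfin, hle⟩ := hc_finrank_le hP hQ hQt hrel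
  refine ⟨ht, hfin, ?_⟩
  have h1 := S.finrank_rd_le hxV ht
  have hpos : 0 < P.natDegree := lt_of_le_of_lt (Nat.zero_le _) hQ
  rw [← hdeg] at hle
  exact le_antisymm (Nat.le_of_mul_le_mul_left hle hpos) h1

end red

section concrete

theorem hc_coeffMap_aeval {k : Type*} [Field k] (tZ : LaurentSeries ℤ) (P : ℤ[X]) :
    aeval (coeffMap (Int.castRingHom k) tZ) (P.map (Int.castRingHom k))
      = coeffMap (Int.castRingHom k) (aeval tZ P) := by
  rw [aeval_def, aeval_def, eval₂_map, hom_eval₂]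
  congr 1
  exact RingHom.ext_int _ _

/-- **HC, general form.** -/
theorem coord_of_haupt (A : ValuationSubring Kb) (N : ℕ) [NeZero N] (hNk : (N : kA A) ≠ 0)
    (S : RedSetting Kb (FN N) (kA A) (modularFunctionFieldFullC (kA A) N)) (hS : IsGauss A N S)
    (tZ : LaurentSeries ℤ) (htZ : tZ.coeff (-1) = 1)
    (x : FN N) (hx : (x : LaurentSeries Kb) = coeffMap (Int.castRingHom Kb) tZ)
    (P : ℤ[X]) (hP : P.Monic) (e : ℕ) (he : e < P.natDegree)
    (hrel : jqModC ℤ * tZ ^ e = aeval tZ P)
    (hfin : FiniteDimensional Kb⟮x⟯ (FN N))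
    (hdeg : P.natDegree * Module.finrank Kb⟮x⟯ (FN N) = dedekindPsi N) :
    S.Coord x := by
  have hac : IsAlgClosed (kA A) := isAlgClosed_kA A
  have hY2 : coeffMap (IsLocalRing.residue A) (1 : LaurentSeries A) ≠ 0 := by
    rw [map_one]; exact one_ne_zero
  have hY : (x : LaurentSeries Kb) * coeffMap A.subtype (1 : LaurentSeries A)
      = coeffMap A.subtype (coeffMap (Int.castRingHom A) tZ) := by
    rw [map_one, mul_one, hx, coeffMap_coeffMap]
    exact coeffMap_congr (RingHom.ext_int _ _) _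
  have hmem : x ∈ S.V := (hS.mem_iff x).2 ⟨_, 1, hY2, hY⟩
  have hrd : ((S.rd x : modularFunctionFieldFullC (kA A) N) : LaurentSeries (kA A))
      = coeffMap (Int.castRingHom (kA A)) tZ := by
    have := hS.rd_mul x _ 1 hY2 hY
    rw [map_one, mul_one, coeffMap_coeffMap] at this
    rw [this]
    exact coeffMap_congr (RingHom.ext_int _ _) _
  have hcoe : ∀ R : (kA A)[X],
      ((aeval (S.rd x) R : modularFunctionFieldFullC (kA A) N) : LaurentSeries (kA A))
        = aeval (coeffMap (Int.castRingHom (kA A)) tZ) R := by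
    intro R
    rw [← hrd]
    exact (Polynomial.aeval_algHom_apply (modularFunctionFieldFullC (kA A) N).val (S.rd x) R).symm
  have hcoeff : ((S.rd x : modularFunctionFieldFullC (kA A) N) : LaurentSeries (kA A)).coeff (-1)
      ≠ 0 := by
    rw [hrd, coeffMap_coeff, htZ, map_one]
    exact one_ne_zero
  have hne : S.rd x ≠ 0 := by
    intro h0
    apply hcoeff
    rw [h0]
    rfl
  obtain ⟨hfj, hdj⟩ := finrank_modularFunctionFieldFullC (kA A) N hNk
  have hrel' : jFullC (kA A) N * aeval (S.rd x) (X ^ e : (kA A)[X])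
      = aeval (S.rd x) (P.map (Int.castRingHom (kA A))) := by
    apply Subtype.ext
    have hl : ((jFullC (kA A) N * aeval (S.rd x) (X ^ e : (kA A)[X]) :
        modularFunctionFieldFullC (kA A) N) : LaurentSeries (kA A))
        = jqModC (kA A) * ((aeval (S.rd x) (X ^ e : (kA A)[X]) :
      modularFunctionFieldFullC (kA A) N) : LaurentSeries (kA A)) := rfl
    rw [hl, hcoe, hcoe, hc_coeffMap_aeval, ← hrel, map_mul (coeffMap _), map_pow (coeffMap _),
      coeffMap_jqModC, map_pow, aeval_X]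
  obtain ⟨h1, h2, h3⟩ := S.coord_of_rel hmem (transcendental_jFullC (k := kA A) (N := N))
    (hP.map (Int.castRingHom (kA A)))
    (Q := X ^ e) (by rw [natDegree_X_pow, hP.natDegree_map]; exact he)
    (by rw [map_pow, aeval_X]; exact pow_ne_zero _ hne) hrel'
    (by rw [hP.natDegree_map, hdeg, hdj])
  have halg : Algebra.IsAlgebraic (kA A)⟮S.rd x⟯ (modularFunctionFieldFullC (kA A) N) :=
    Algebra.IsAlgebraic.of_finite _ _
  exact ⟨hmem, h1, hfin, h2, h3,
    isSeparable_of_coeff (modularFunctionFieldFullC (kA A) N) (S.rd x) (-1) (by simp) hcoeff⟩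

theorem hc_coeff_neg_one (U : PowerSeries ℤ) (hU : PowerSeries.constantCoeff U = 1) :
    (HahnSeries.single (-1 : ℤ) (1 : ℤ) * HahnSeries.ofPowerSeries ℤ ℤ U).coeff (-1) = 1 := by
  have h := HahnSeries.coeff_single_mul_add (r := (1 : ℤ)) (x := HahnSeries.ofPowerSeries ℤ ℤ U)
    (a := 0) (b := -1)
  rw [zero_add] at h
  rw [h, one_mul]
  have h2 := HahnSeries.ofPowerSeries_apply_coeff (Γ := ℤ) U 0
  rw [Nat.cast_zero] at h2
  rw [h2, PowerSeries.coeff_zero_eq_constantCoeff_apply, hU]

theorem coord_t2_aux (A : ValuationSubring Kb) (N : ℕ) [NeZero N] (hNk : (N : kA A) ≠ 0)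
    (S : RedSetting Kb (FN N) (kA A) (modularFunctionFieldFullC (kA A) N)) (hS : IsGauss A N S)
    (x : FN N) (hx : (x : LaurentSeries Kb) = coeffMap (Int.castRingHom Kb) tZ2)
    (hfin : FiniteDimensional Kb⟮x⟯ (FN N))
    (hdeg : 3 * Module.finrank Kb⟮x⟯ (FN N) = dedekindPsi N) : S.Coord x := by
  obtain ⟨U, hU0, hU⟩ := tZ2_eq
  have hd : ((X + C 256 : ℤ[X]) ^ 3).natDegree = 3 := by
    rw [natDegree_pow, natDegree_X_add_C]
  refine coord_of_haupt A N hNk S hS tZ2 (by rw [hU]; exact hc_coeff_neg_one U hU0) x hx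
    ((X + C 256) ^ 3) ((monic_X_add_C 256).pow 3) 2 (by rw [hd]; norm_num) ?_ hfin
    (by rw [hd]; exact hdeg)
  rw [haupt2_A, map_pow, map_add, aeval_X, aeval_C, map_ofNat]

theorem coord_t3_aux (A : ValuationSubring Kb) (N : ℕ) [NeZero N] (hNk : (N : kA A) ≠ 0)
    (S : RedSetting Kb (FN N) (kA A) (modularFunctionFieldFullC (kA A) N)) (hS : IsGauss A N S)
    (x : FN N) (hx : (x : LaurentSeries Kb) = coeffMap (Int.castRingHom Kb) tZ3)
    (hfin : FiniteDimensional Kb⟮x⟯ (FN N))
    (hdeg : 4 * Module.finrank Kb⟮x⟯ (FN N) = dedekindPsi N) : S.Coord x := by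
  obtain ⟨U, hU0, hU⟩ := tZ3_eq
  have hm : ((X + C 27 : ℤ[X]) * (X + C 243) ^ 3).Monic :=
    (monic_X_add_C 27).mul ((monic_X_add_C 243).pow 3)
  have hd : ((X + C 27 : ℤ[X]) * (X + C 243) ^ 3).natDegree = 4 := by
    rw [(monic_X_add_C 27).natDegree_mul ((monic_X_add_C 243).pow 3), natDegree_pow,
      natDegree_X_add_C, natDegree_X_add_C]
  refine coord_of_haupt A N hNk S hS tZ3 (by rw [hU]; exact hc_coeff_neg_one U hU0) x hx
    ((X + C 27) * (X + C 243) ^ 3) hm 3 (by rw [hd]; norm_num) ?_ hfin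
    (by rw [hd]; exact hdeg)
  rw [haupt3_A, map_mul, map_pow, map_add, map_add, aeval_X, aeval_C, aeval_C, map_ofNat,
    map_ofNat]

end concrete

end Fermat.Agent.S18
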