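import Fermat.Agent.S18.Gauss
import Fermat.Agent.S24.Residue

/-!
# S18, piece HH (general part): hypothesis (H) for a coordinate with branch locus `{∞, 0, β}`
-/

set_option autoImplicit false

namespace Fermat.Agent.S18

open Polynomial IntermediateField Fermat.Agent.S24 ModularCurve AlgebraicCurve

section abstract

variable {K F k Fb : Type*} [Field K] [Field F] [Algebra K F] [Field k] [Field Fb] [Algebra k Fb]
variable (S : RedSetting K F k Fb)

theorem RedSetting.branchHyp_of_fiber {x : F} {β : K} (hβA : β ∈ S.A) (hβ : S.rc β ≠ 0)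
    (hfib : ∀ τ : K, τ ≠ 0 → τ ≠ β →
      (zerosOf K (x - algebraMap K F τ)).ncard = Module.finrank K⟮x⟯ F) : S.BranchHyp x := by
  intro cb
  by_cases h0 : cb = 0
  · refine ⟨0, S.A.zero_mem, by rw [h0]; exact S.rc_zero, fun b _ hb hb0 => hfib b hb0 ?_⟩
    rintro rfl
    exact hβ (hb.trans h0)
  by_cases h1 : cb = S.rc β
  · refine ⟨β, hβA, h1.symm, fun b _ hb hbβ => hfib b ?_ hbβ⟩
    rintro rfl
    exact h0 (by rw [← hb]; exact S.rc_zero)
  · obtain ⟨b₀, hb₀A, hb₀⟩ := S.exists_rc_eq cb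
    refine ⟨b₀, hb₀A, hb₀, fun b _ hb _ => hfib b ?_ ?_⟩
    · rintro rfl
      exact h0 (by rw [← hb]; exact S.rc_zero)
    · rintro rfl
      exact h1 hb.symm

theorem hh_ord_pos_inv_sub (v : Place K F) {x : F} (hx : x ≠ 0) {b : K} (hb : b ≠ 0)
    (h : 0 < v.ord (x - algebraMap K F b⁻¹)) : 0 < v.ord (x⁻¹ - algebraMap K F b) := by
  have hb' : algebraMap K F b ≠ 0 := by simpa using hb
  have hbi' : algebraMap K F b⁻¹ ≠ 0 := by simpa using hb
  have hne : x - algebraMap K F b⁻¹ ≠ 0 := by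
    intro h0
    rw [h0, v.ord_zero] at h
    exact lt_irrefl _ h
  have hordx : v.ord x = 0 := by
    have h1 := ord_add_eq_of_lt v hbi' hne (by rw [ord_algebraMap]; exact h)
    rw [add_sub_cancel, ord_algebraMap] at h1
    exact h1
  have e : x⁻¹ - algebraMap K F b = -(algebraMap K F b * x⁻¹ * (x - algebraMap K F b⁻¹)) := by
    rw [map_inv₀]
    field_simp
    ring
  rw [e, ord_neg, v.ord_mul (mul_ne_zero hb' (inv_ne_zero hx)) hne,
    v.ord_mul hb' (inv_ne_zero hx), ord_algebraMap, v.ord_inv, hordx]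
  simpa using h

theorem hh_zerosOf_inv_sub {x : F} (hx : x ≠ 0) {b : K} (hb : b ≠ 0) :
    zerosOf K (x⁻¹ - algebraMap K F b) = zerosOf K (x - algebraMap K F b⁻¹) := by
  ext v
  constructor
  · intro h
    have := hh_ord_pos_inv_sub v (inv_ne_zero hx) (inv_ne_zero hb) (by rw [inv_inv]; exact h)
    rwa [inv_inv] at this
  · intro h
    exact hh_ord_pos_inv_sub v hx hb h

theorem RedSetting.branchHyp_pair {x : F} (hx : x ≠ 0) {β : K} (hβA : β ∈ S.A) (hβ : S.rc β ≠ 0)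
    (hfib : ∀ τ : K, τ ≠ 0 → τ ≠ β →
      (zerosOf K (x - algebraMap K F τ)).ncard = Module.finrank K⟮x⟯ F) :
    S.BranchHyp x ∧ S.BranchHyp x⁻¹ := by
  refine ⟨S.branchHyp_of_fiber hβA hβ hfib, ?_⟩
  obtain ⟨h1, h2⟩ := S.rc_inv hβ
  refine S.branchHyp_of_fiber h1 (by rw [h2]; exact inv_ne_zero hβ) fun τ hτ0 hτβ => ?_
  rw [hh_zerosOf_inv_sub hx hτ0, adjoin_simple_inv_eq]
  refine hfib _ (inv_ne_zero hτ0) ?_
  intro h
  exact hτβ (by rw [← h, inv_inv])

end abstract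

section concrete

theorem hh_natCast_eq_zero_iff (A : ValuationSubring Kb) {ℓ : ℕ} (hℓ : ℓ.Prime)
    (hA : A.LiesOverPrime ℓ) (n : ℕ) : (n : kA A) = 0 ↔ ℓ ∣ n := by
  have h0 : (ℓ : kA A) = 0 := by
    obtain ⟨ha, hm⟩ := ValuationSubring.mem_nonunits_iff_exists_mem_maximalIdeal.1 hA
    have h1 := (IsLocalRing.residue_eq_zero_iff _).2 hm
    have h2 : (⟨(ℓ : Kb), ha⟩ : A) = ((ℓ : ℕ) : A) := by
      apply Subtype.ext
      simp
    rw [h2, map_natCast] at h1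
    exact h1
  have h1 := CharP.ringChar_of_prime_eq_zero hℓ h0
  rw [ringChar.spec, h1]

theorem hh_rc_neg_natCast (A : ValuationSubring Kb) {ℓ : ℕ} (hℓ : ℓ.Prime)
    (hA : A.LiesOverPrime ℓ) (N : ℕ)
    (S : RedSetting Kb (FN N) (kA A) (modularFunctionFieldFullC (kA A) N)) (hS : IsGauss A N S)
    (n : ℕ) (hn : ¬ ℓ ∣ n) : (-(n : Kb)) ∈ S.A ∧ S.rc (-(n : Kb)) ≠ 0 := by
  have hmem : (-(n : Kb)) ∈ A := neg_mem (natCast_mem A n)
  refine ⟨by rw [hS.hA]; exact hmem, ?_⟩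
  rw [hS.rc _ hmem]
  have h2 : (⟨-(n : Kb), hmem⟩ : A) = -((n : ℕ) : A) := by
    apply Subtype.ext
    simp
  rw [h2, map_neg, map_natCast, neg_ne_zero, Ne, hh_natCast_eq_zero_iff A hℓ hA]
  exact hn

end concrete

end Fermat.Agent.S18
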