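import Fermat.Agent.S18.Gauss
import Fermat.Agent.S18.Haupt
import Fermat.Agent.S18.Sep
import Fermat.Agent.S18.ModCoordHM
import Fermat.Agent.S24.Final
import Fermat.Agent.S18.ModCoordMF
import Fermat.Agent.S18.ModCoordHD
import Fermat.Agent.S18.ModCoordHB
import Fermat.Agent.S18.ModCoordHC
import Fermat.Agent.S18.ModCoordHH

/-!
# S18, pieces MF, HM, HD, HC, HB2, HB3: the Hauptmodul `t` is a good coordinate on `X₀(N)`, `p² ∣ N`, with branch locus `{∞, 0, -64}` resp. `{∞, 0, -27}`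
-/

set_option autoImplicit false

namespace Fermat.Agent.S18

open Polynomial IntermediateField Fermat.Agent.S24 ModularCurve AlgebraicCurve

-- **MF** (`card_fiber_j`, `nuTwo_eq_zero_of_four_dvd`, ...) is proved in `ModCoordMF.lean`.

/-- **HM (membership).** `t₂ ∈ K(j, j₂)`, `t₃ ∈ K(j, j₃)` for every algebraically closed field `K` in which `p ≠ 0`.
Proof: `K(j, j_p) ⊆ K(t)` by H·A, H·B; `[K(j,j_p) : K(j)] = p + 1` (S24 `finrank_modularFunctionFieldFullC`, `ψ(p) = p+1`) and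
`[K(t) : K(j)] ≤ p + 1` (`t` is a root of `(T+256)³ - j T²`, resp. `(T+27)(T+243)³ - j T³`); so `K(t) = K(j, j_p)`.
Then `modularFunctionFieldFullC K p ≤ modularFunctionFieldFullC K N` for `p ∣ N` (S28 `full_degeneracyC_le`-type lemma). -/
theorem tZ2_mem (K : Type) [Field K] [IsAlgClosed K] (h2 : (2 : K) ≠ 0) {N : ℕ} (hN : 2 ∣ N) :
    coeffMap (Int.castRingHom K) tZ2 ∈ modularFunctionFieldFullC K N :=
  HM.tZ2_mem K h2 hN

theorem tZ3_mem (K : Type) [Field K] [IsAlgClosed K] (h3 : (3 : K) ≠ 0) {N : ℕ} (hN : 3 ∣ N) :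
    coeffMap (Int.castRingHom K) tZ3 ∈ modularFunctionFieldFullC K N :=
  HM.tZ3_mem K h3 hN

/-- also `t₂(q²) ∈ F_N` for `4 ∣ N`, `t₃(q³) ∈ F_N` for `9 ∣ N` (apply `q ↦ q^p` to the previous statement). -/
theorem tZ2_two_mem {N : ℕ} (hN : 4 ∣ N) :
    coeffMap (Int.castRingHom Kb) (qExpand ℤ 2 tZ2) ∈ FN N :=
  HM.tZ2_two_mem hN

theorem tZ3_three_mem {N : ℕ} (hN : 9 ∣ N) :
    coeffMap (Int.castRingHom Kb) (qExpand ℤ 3 tZ3) ∈ FN N :=
  HM.tZ3_three_mem hN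

/-- `t₂` as an element of `ℚ̄(X₀(N))`. -/
noncomputable def t2 (N : ℕ) (hN : 2 ∣ N) : FN N :=
  ⟨coeffMap (Int.castRingHom Kb) tZ2, by
    show _ ∈ modularFunctionFieldBar N
    rw [modularFunctionFieldBar_eq]; exact tZ2_mem Kb (by norm_num) hN⟩

/-- `t₃` as an element of `ℚ̄(X₀(N))`. -/
noncomputable def t3 (N : ℕ) (hN : 3 ∣ N) : FN N :=
  ⟨coeffMap (Int.castRingHom Kb) tZ3, by
    show _ ∈ modularFunctionFieldBar N
    rw [modularFunctionFieldBar_eq]; exact tZ3_mem Kb (by norm_num) hN⟩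

/-- H2A inside `ℚ̄(X₀(N))`. -/
theorem t2_rel (N : ℕ) (hN : 2 ∣ N) : jBar N * t2 N hN ^ 2 = (t2 N hN + 256) ^ 3 := by
  apply Subtype.ext
  have h := congrArg (coeffMap (Int.castRingHom Kb)) haupt2_A
  simp only [map_mul, map_pow, map_add, coeffMap_jqModC, map_ofNat] at h
  exact h

/-- H3A inside `ℚ̄(X₀(N))`. -/
theorem t3_rel (N : ℕ) (hN : 3 ∣ N) :
    jBar N * t3 N hN ^ 3 = (t3 N hN + 27) * (t3 N hN + 243) ^ 3 := by
  apply Subtype.ext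
  have h := congrArg (coeffMap (Int.castRingHom Kb)) haupt3_A
  simp only [map_mul, map_pow, map_add, coeffMap_jqModC, map_ofNat] at h
  exact h

/-- **HD (degree).** `ψ(N) = 3 [F_N : K(t₂)]`.  Proof: `1/j = t²/(t+256)³`; `zerosOf (1/j) = zerosOf t ⊔ zerosOf (1/t)` with
`ord_P (1/j) = 2 ord_P t`, resp. `ord_P (1/t)`; S24 `IsFF.sum_ord_zerosOf` three times (`K(t) = K(1/t)`, `K(j) = K(1/j)`). -/
theorem finrank_t2 (N : ℕ) [NeZero N] (hN : 2 ∣ N) :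
    Transcendental Kb (t2 N hN) ∧ FiniteDimensional Kb⟮t2 N hN⟯ (FN N) ∧
      3 * Module.finrank Kb⟮t2 N hN⟯ (FN N) = dedekindPsi N := by
  rw [← (finrank_modularFunctionFieldBar N).2]
  exact finrank_of_rel2 (isFF_FN N) (transcendental_jBar N) (t2_rel N hN)

theorem finrank_t3 (N : ℕ) [NeZero N] (hN : 3 ∣ N) :
    Transcendental Kb (t3 N hN) ∧ FiniteDimensional Kb⟮t3 N hN⟯ (FN N) ∧
      4 * Module.finrank Kb⟮t3 N hN⟯ (FN N) = dedekindPsi N := by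
  rw [← (finrank_modularFunctionFieldBar N).2]
  exact finrank_of_rel3 (isFF_FN N) (transcendental_jBar N) (t3_rel N hN)

/-- **HC (good coordinate).**  `t ∈ V`, `t̄` = coefficientwise reduction (IsGauss), transcendental (pole at `q = 0`).
`[F̄ : k(t̄)] ≤ [F : K(t)]` (`polyIndep_of_rd`), `ψ(N) = [F̄ : k(j̄)] ≤ 3 [F̄ : k(t̄)]` (`t̄` is a root of a cubic over `k(j̄)`), and HD; so equality.
Separability: SEP with `n = -1`. -/
theorem coord_t2 (A : ValuationSubring Kb) (N : ℕ) [NeZero N] (hN : 2 ∣ N) (hNk : (N : kA A) ≠ 0)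
    (S : RedSetting Kb (FN N) (kA A) (modularFunctionFieldFullC (kA A) N)) (hS : IsGauss A N S) :
    S.Coord (t2 N hN) :=
  coord_t2_aux A N hNk S hS (t2 N hN) rfl (finrank_t2 N hN).2.1 (finrank_t2 N hN).2.2

theorem coord_t3 (A : ValuationSubring Kb) (N : ℕ) [NeZero N] (hN : 3 ∣ N) (hNk : (N : kA A) ≠ 0)
    (S : RedSetting Kb (FN N) (kA A) (modularFunctionFieldFullC (kA A) N)) (hS : IsGauss A N S) :
    S.Coord (t3 N hN) :=
  coord_t3_aux A N hNk S hS (t3 N hN) rfl (finrank_t3 N hN).2.1 (finrank_t3 N hN).2.2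

/-- **HB2 (branch locus of `t₂`, `4 ∣ N`).**  Let `a = t₂`, `b = t₂(q²)`, `μ' = ψ(N)`.  It suffices that `ord_P (a - τ) = 1` for all `P ∈ zerosOf (a - τ)`
(`IsFF.sum_ord_zerosOf`).  `c = (τ+256)³/τ²`, `j - c = (a - τ) h_τ(a)/a²`.
* `c ≠ 0, 1728`: the fibre of `j = c` has `μ'` places and `∑ ord = μ'`, so all `ord_P (j - c) = 1`.
* `c = 0` (`τ = -256`): `ord_P j = 3 ord_P (a+256) ≥ 3`, the fibre has `μ'/3` places (`ν₃ = 0`), so all `= 3`.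
* `c = 1728` (`τ = 512`): `j - 1728 = (a+64)(a-512)²/a²`.  H2B at `q` and H2A at `q²` give `(a+16)³ b² = (b+256)³ a`,
  `(a+16)³b² - (b+256)³a = (ab - 4096)(a²b + 48ab + 4096a - b²)`, `ab ≠ 4096` (pole), so `b² = a²b + 48ab + 4096a` and
  `(2b - a² - 48a)² = a (a+64) (a+16)²`: `ord_P (a+64)` is even at `a(P) = -64`.  So all `ord_P (j-1728) ≥ 2`, the fibre has `μ'/2` places
  (`ν₂ = 0`), so all `= 2` and `ord_P (a - 512) = 1`. -/
theorem card_fiber_t2 (N : ℕ) [NeZero N] (hN : 4 ∣ N) (τ : Kb) (h0 : τ ≠ 0) (h64 : τ ≠ -64) :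
    (zerosOf Kb (t2 N (Dvd.dvd.trans (by norm_num) hN) - algebraMap Kb (FN N) τ)).ncard =
      Module.finrank Kb⟮t2 N (Dvd.dvd.trans (by norm_num) hN)⟯ (FN N) :=
  HB.card_fiber_t2_aux N hN _ rfl τ h0 h64

/-- **HB3 (branch locus of `t₃`, `9 ∣ N`).**  `a = t₃`, `b = t₃(q³)`.  `j = (a+27)(a+243)³/a³`, `j - 1728 = (a² - 486a - 19683)²/a³`, `ν₂ = ν₃ = 0`.
`(a+27)(a+3)³b³ - (b+27)(b+243)³a = (ab - 729) Ψ`, `Ψ = a³b² + 36a²b² + 729a²b + 270ab² + 26244ab + 531441a - b³`, and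
`a n³ - (a+27) d³ = Ψ · (6561a³ + 137781a² + 177147a - 531441)` for `n = -a²b - 27ab + 729a - 108b - 6561`, `d = -a²b - 18ab - 1458a - 27b`
(checked by computer): so `3 ∣ ord_P (a+27)` at `a(P) = -27`; all `ord_P j ≥ 3`, hence `= 3`, hence `ord_P (a+243) = 1`.  Same for `1728`. -/
theorem card_fiber_t3 (N : ℕ) [NeZero N] (hN : 9 ∣ N) (τ : Kb) (h0 : τ ≠ 0) (h27 : τ ≠ -27) :
    (zerosOf Kb (t3 N (Dvd.dvd.trans (by norm_num) hN) - algebraMap Kb (FN N) τ)).ncard =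
      Module.finrank Kb⟮t3 N (Dvd.dvd.trans (by norm_num) hN)⟯ (FN N) :=
  HB.card_fiber_t3_aux N hN _ rfl τ h0 h27

/-- **HH (hypothesis (H)).** `0, -64` have distinct reductions for odd `ℓ`; `zerosOf (t⁻¹ - c') = zerosOf (t - 1/c')` for `c' ≠ 0`, exceptional `c' ∈ {0, -1/64}`. -/
theorem exists_coord_odd (A : ValuationSubring Kb) {ℓ : ℕ} (hℓ : ℓ.Prime) (hA : A.LiesOverPrime ℓ)
    (hodd : ℓ ≠ 2) (N : ℕ) [NeZero N] (h4 : 4 ∣ N) (hN : ¬ ℓ ∣ N)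
    (S : RedSetting Kb (FN N) (kA A) (modularFunctionFieldFullC (kA A) N)) (hS : IsGauss A N S) :
    ∃ x : FN N, S.Coord x ∧ S.BranchHyp x ∧ S.BranchHyp x⁻¹ := by
  have hNk : (N : kA A) ≠ 0 := fun h => hN ((hh_natCast_eq_zero_iff A hℓ hA N).1 h)
  have h2 : 2 ∣ N := Dvd.dvd.trans (by norm_num) h4
  have hc := coord_t2 A N h2 hNk S hS
  have h64 : ¬ ℓ ∣ 64 := by
    intro h
    have h' : ℓ ∣ 2 ^ 6 := by norm_num; exact h
    exact hodd ((Nat.prime_dvd_prime_iff_eq hℓ Nat.prime_two).1 (hℓ.dvd_of_dvd_pow h'))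
  obtain ⟨hβA, hβ⟩ := hh_rc_neg_natCast A hℓ hA N S hS 64 h64
  have hx0 : t2 N h2 ≠ 0 := by
    intro h0
    apply hc.trans
    rw [h0, S.rd_zero]
    exact isAlgebraic_zero
  refine ⟨t2 N h2, hc, S.branchHyp_pair hx0 hβA hβ fun τ hτ0 hτ => ?_⟩
  exact card_fiber_t2 N h4 τ hτ0 (by simpa using hτ)

theorem exists_coord_two (A : ValuationSubring Kb) (hA : A.LiesOverPrime 2)
    (N : ℕ) [NeZero N] (h9 : 9 ∣ N) (hN : ¬ 2 ∣ N)
    (S : RedSetting Kb (FN N) (kA A) (modularFunctionFieldFullC (kA A) N)) (hS : IsGauss A N S) :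
    ∃ x : FN N, S.Coord x ∧ S.BranchHyp x ∧ S.BranchHyp x⁻¹ := by
  have hNk : (N : kA A) ≠ 0 := fun h => hN ((hh_natCast_eq_zero_iff A Nat.prime_two hA N).1 h)
  have h3 : 3 ∣ N := Dvd.dvd.trans (by norm_num) h9
  have hc := coord_t3 A N h3 hNk S hS
  obtain ⟨hβA, hβ⟩ := hh_rc_neg_natCast A Nat.prime_two hA N S hS 27 (by norm_num)
  have hx0 : t3 N h3 ≠ 0 := by
    intro h0
    apply hc.trans
    rw [h0, S.rd_zero]
    exact isAlgebraic_zero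
  refine ⟨t3 N h3, hc, S.branchHyp_pair hx0 hβA hβ fun τ hτ0 hτ => ?_⟩
  exact card_fiber_t3 N h9 τ hτ0 (by simpa using hτ)

end Fermat.Agent.S18
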