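import Fermat.Agent.S18.KL
import Fermat.Agent.S18.ModCoord
import Fermat.Agent.S18.Descent

/-!
# S18, piece KLM: the Kummer lemma for `ℚ̄(X₀(N))`   (also the input of the S29/S42 project)
-/

set_option autoImplicit false
set_option linter.style.haveILetI false

namespace Fermat.Agent.S18

open Polynomial IntermediateField Fermat.Agent.S24 ModularCurve AlgebraicCurve

/-- integers prime to `ℓ` are invertible in the residue field. -/
theorem natCast_kA_ne_zero (A : ValuationSubring Kb) {ℓ : ℕ} (hℓ : ℓ.Prime)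
    (hA : A.LiesOverPrime ℓ) {n : ℕ} (hn : ¬ ℓ ∣ n) : (n : kA A) ≠ 0 := by
  intro h
  have hℓA : (ℓ : Kb) ∈ A := natCast_mem A ℓ
  have hres : IsLocalRing.residue A (ℓ : A) = 0 := by
    rw [IsLocalRing.residue_eq_zero_iff, IsLocalRing.mem_maximalIdeal, mem_nonunits_iff]
    intro hu
    have h1 : (ℓ : Kb) ∈ A.nonunits := hA
    rw [ValuationSubring.mem_nonunits_iff_exists_mem_maximalIdeal] at h1
    obtain ⟨ha, hm⟩ := h1
    rw [IsLocalRing.mem_maximalIdeal, mem_nonunits_iff] at hm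
    apply hm
    have : (⟨(ℓ : Kb), ha⟩ : A) = (ℓ : A) := Subtype.ext (by simp)
    rw [this]; exact hu
  have hℓk : (ℓ : kA A) = 0 := by rw [← hres, map_natCast]
  have hcop : Nat.Coprime ℓ n := (Nat.Prime.coprime_iff_not_dvd hℓ).mpr hn
  have hb := Nat.gcd_eq_gcd_ab ℓ n
  rw [hcop.gcd_eq_one] at hb
  have hb' := congrArg (Int.cast : ℤ → kA A) hb
  push_cast at hb'
  rw [hℓk, h, zero_mul, zero_mul, add_zero] at hb'
  exact one_ne_zero hb'

section Tower

variable {N N' : ℕ} (h : N ∣ N')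

/-- the inclusion `ℚ̄(X₀(N)) → ℚ̄(X₀(N'))`. -/
noncomputable def inclFN : FN N →ₐ[Kb] FN N' := IntermediateField.inclusion (FN_le_of_dvd h)

theorem coe_inclFN (f : FN N) : ((inclFN h f : FN N') : LaurentSeries Kb) = f :=
  IntermediateField.coe_inclusion (FN_le_of_dvd h) f

theorem inclFN_jBar : inclFN h (jBar N) = jBar N' := by
  apply Subtype.ext
  rw [coe_inclFN, coe_jBar, coe_jBar]

theorem isAlgebraic_inclFN [NeZero N'] (y : FN N') :
    ∃ p : (FN N)[X], p ≠ 0 ∧ Polynomial.eval₂ (inclFN h).toRingHom y p = 0 := by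
  haveI := (finrank_modularFunctionFieldBar N').1
  have hy : IsAlgebraic Kb⟮jBar N'⟯ y :=
    (Algebra.IsAlgebraic.of_finite Kb⟮jBar N'⟯ (FN N')).isAlgebraic y
  obtain ⟨p, hp0, hp⟩ := hy
  have hmap : (Kb⟮jBar N⟯).map (inclFN h) = Kb⟮jBar N'⟯ := by
    rw [IntermediateField.adjoin_map, Set.image_singleton, inclFN_jBar]
  have hex : ∀ c : Kb⟮jBar N'⟯, ∃ c' : FN N, inclFN h c' = (c : FN N') := by
    intro c
    have hc : (c : FN N') ∈ (Kb⟮jBar N⟯).map (inclFN h) := by rw [hmap]; exact c.2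
    obtain ⟨c', -, hc'⟩ := (IntermediateField.mem_map _).mp hc
    exact ⟨c', hc'⟩
  choose g hg using hex
  refine ⟨∑ n ∈ p.support, Polynomial.monomial n (g (p.coeff n)), ?_, ?_⟩
  · intro h0
    apply hp0
    refine Polynomial.ext fun n => ?_
    have h1 := congrArg (fun q => q.coeff n) h0
    simp only [Polynomial.finsetSum_coeff, Polynomial.coeff_monomial, Polynomial.coeff_zero] at h1
    rw [Finset.sum_ite_eq'] at h1
    by_cases hn : n ∈ p.support
    · rw [if_pos hn] at h1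
      have h2 := hg (p.coeff n)
      rw [h1, map_zero] at h2
      rw [Polynomial.coeff_zero]
      exact Subtype.ext h2.symm
    · rw [Polynomial.notMem_support_iff.mp hn, Polynomial.coeff_zero]
  · rw [Polynomial.eval₂_finsetSum]
    rw [Polynomial.aeval_def, Polynomial.eval₂_eq_sum, Polynomial.sum_def] at hp
    rw [← hp]
    refine Finset.sum_congr rfl fun n _ => ?_
    rw [Polynomial.eval₂_monomial]
    congr 1
    exact hg (p.coeff n)

end Tower

/-- **KLM.** `ℓ ∤ N m`, `u ∈ ℚ̄(X₀(N))^×` with `m ∣ ord_P u` for all places and `u ≡ 1` modulo the maximal ideal of `A` (on `q`-expansions).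
Then `u` is an `m`-th power.
Proof: `N' = 4N` (`ℓ` odd) or `9N` (`ℓ = 2`); Gauss setting `S'` at level `N'` (MG), coordinate `x` (HH), DP for the hypothesis on `ord`, abstract KL at
level `N'`, DW to come back to level `N`. -/
theorem KL_modular (N : ℕ) [NeZero N] {ℓ : ℕ} (hℓ : ℓ.Prime) (hℓN : ¬ ℓ ∣ N)
    (A : ValuationSubring Kb) (hA : A.LiesOverPrime ℓ) (m : ℕ) (hm : ¬ ℓ ∣ m) (u : FN N)
    (hord : ∀ P : Place Kb (FN N), (m : ℤ) ∣ P.ord u) (Y₁ Y₂ : LaurentSeries A)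
    (hY : coeffMap (IsLocalRing.residue A) Y₁ = coeffMap (IsLocalRing.residue A) Y₂)
    (hY0 : coeffMap (IsLocalRing.residue A) Y₂ ≠ 0)
    (huY : (u : LaurentSeries Kb) * coeffMap A.subtype Y₂ = coeffMap A.subtype Y₁) :
    ∃ w : FN N, w ^ m = u := by
  haveI := isAlgClosed_kA A
  -- the auxiliary level
  obtain ⟨N', hN'0, hNN', hℓN', hx⟩ : ∃ N' : ℕ, N' ≠ 0 ∧ N ∣ N' ∧ ¬ ℓ ∣ N' ∧
      ∀ (_ : NeZero N') (S : RedSetting Kb (FN N') (kA A) (modularFunctionFieldFullC (kA A) N')),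
        IsGauss A N' S → ∃ x : FN N', S.Coord x ∧ S.BranchHyp x ∧ S.BranchHyp x⁻¹ := by
    by_cases h2 : ℓ = 2
    · subst h2
      have h9 : ¬ 2 ∣ 9 * N := by
        intro h
        rcases (Nat.Prime.dvd_mul hℓ).mp h with h | h
        · omega
        · exact hℓN h
      exact ⟨9 * N, mul_ne_zero (by norm_num) (NeZero.ne N), Dvd.intro_left 9 rfl, h9,
        fun _ S hS => exists_coord_two A hA (9 * N) (Dvd.intro N rfl) h9 S hS⟩
    · have h4 : ¬ ℓ ∣ 4 * N := by
        intro h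
        rcases (Nat.Prime.dvd_mul hℓ).mp h with h | h
        · have : ℓ ∣ 2 ^ 2 := by simpa using h
          exact h2 ((Nat.prime_dvd_prime_iff_eq hℓ Nat.prime_two).mp (hℓ.dvd_of_dvd_pow this))
        · exact hℓN h
      exact ⟨4 * N, mul_ne_zero (by norm_num) (NeZero.ne N), Dvd.intro_left 4 rfl, h4,
        fun _ S hS => exists_coord_odd A hℓ hA h2 (4 * N) (Dvd.intro N rfl) h4 S hS⟩
  haveI : NeZero N' := ⟨hN'0⟩
  have hN'k : (N' : kA A) ≠ 0 := natCast_kA_ne_zero A hℓ hA hℓN'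
  have hmk : (m : kA A) ≠ 0 := natCast_kA_ne_zero A hℓ hA hm
  obtain ⟨S, hS⟩ := exists_gaussSetting A N' hN'k
  obtain ⟨x, hxc, H0, Hinf⟩ := hx inferInstance S hS
  set u' : FN N' := inclFN hNN' u with hu'
  have huY' : (u' : LaurentSeries Kb) * coeffMap A.subtype Y₂ = coeffMap A.subtype Y₁ := huY
  have huV : u' ∈ S.V := (hS.mem_iff u').mpr ⟨Y₁, Y₂, hY0, huY'⟩
  have hu1 : S.rd u' = 1 := by
    apply Subtype.ext
    have := hS.rd_mul u' Y₁ Y₂ hY0 huY'
    rw [hY] at this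
    exact mul_right_cancel₀ hY0 (this.trans (one_mul _).symm)
  have hord' : ∀ P' : Place Kb (FN N'), (m : ℤ) ∣ P'.ord u' := by
    letI := (inclFN hNN').toRingHom.toAlgebra
    haveI : IsScalarTower Kb (FN N) (FN N') := IsScalarTower.of_algebraMap_eq fun _ => rfl
    haveI : Algebra.IsAlgebraic (FN N) (FN N') := ⟨fun y => by
      obtain ⟨p, hp0, hp⟩ := isAlgebraic_inclFN hNN' y
      exact ⟨p, hp0, hp⟩⟩
    exact fun P' => dvd_ord_algebraMap u (m : ℤ) hord P'
  obtain ⟨w, hw⟩ := S.KL (isFF_FN N') hxc H0 Hinf hmk huV hu1 hord'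
  have hwF : (w : LaurentSeries Kb) ∈ FN N :=
    mem_FN_of_pow_eq A hNN' hN'k hmk (u : LaurentSeries Kb) (w : LaurentSeries Kb) u.2 w.2
      (by
        have := congrArg (fun z : FN N' => (z : LaurentSeries Kb)) hw
        rw [hu'] at this
        simpa [coe_inclFN] using this) Y₁ Y₂ hY hY0 huY
  refine ⟨⟨w, hwF⟩, Subtype.ext ?_⟩
  have := congrArg (fun z : FN N' => (z : LaurentSeries Kb)) hw
  rw [hu'] at this
  simpa [coe_inclFN] using this

end Fermat.Agent.S18
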