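import Fermat.Agent.S18.KLModular
import Fermat.Agent.S24.Principal
import Fermat.Agent.S24.Expand
import Fermat.Statements.S18

/-!
# S18, piece W: from the Kummer lemma to the frozen statement
(`Fermat/Agent/S18.lean` itself will be created only when everything is sorry-free.)
-/

set_option autoImplicit false

namespace Fermat.Agent.S18

open Polynomial IntermediateField Fermat.Agent.S24 ModularCurve AlgebraicCurve

section WConst

open IsDedekindDomain
open scoped IntermediateField.algebraAdjoinAdjoin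

variable {K F : Type*} [Field K] [Field F] [Algebra K F]

theorem wc_isPrincipalIdealRing_polyRing {y : F} (hy : Transcendental K y) :
    IsPrincipalIdealRing (polyRing K y) :=
  IsPrincipalIdealRing.of_surjective
    (Polynomial.algEquivOfTranscendental K y hy).toRingEquiv.toRingHom
    (Polynomial.algEquivOfTranscendental K y hy).surjective

theorem wc_isDedekindDomain_intRing {y : F} (hy : Transcendental K y) [FiniteDimensional K⟮y⟯ F]
    [Algebra.IsSeparable K⟮y⟯ F] : IsDedekindDomain (intRing K y) := by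
  have := wc_isPrincipalIdealRing_polyRing hy
  exact integralClosure.isDedekindDomain (polyRing K y) K⟮y⟯ F

theorem wc_isFractionRing_intRing {y : F} [FiniteDimensional K⟮y⟯ F] :
    IsFractionRing (intRing K y) F :=
  integralClosure.isFractionRing_of_finite_extension K⟮y⟯ F

/-- an element which is regular wherever `y` is regular is integral over `K[y]` (separable case, any characteristic). -/
theorem wc_mem_intRing_of_forall {y : F} (hy : Transcendental K y)
    [FiniteDimensional K⟮y⟯ F] [Algebra.IsSeparable K⟮y⟯ F] {z : F}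
    (hz : ∀ v : Place K F, y ∈ v.toValuationSubring → z ∈ v.toValuationSubring) :
    z ∈ intRing K y := by
  have := wc_isDedekindDomain_intRing (K := K) hy
  have := wc_isFractionRing_intRing (K := K) (y := y)
  have h := HeightOneSpectrum.mem_integers_of_valuation_le_one (R := intRing K y) F z (fun P => by
    have h1 := hz (Place.ofHeightOneSpectrum (K := K) (F := F) P) (by
      rw [Place.ofHeightOneSpectrum_toValuationSubring, Valuation.mem_valuationSubring_iff]
      exact P.valuation_le_one (genInt K y))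
    rw [Place.ofHeightOneSpectrum_toValuationSubring, Valuation.mem_valuationSubring_iff] at h1
    exact h1)
  obtain ⟨b, hb⟩ := h
  rw [← hb]
  exact b.2

/-- `K[y] ∩ K[1/y] = K`. -/
theorem wc_polyRing_inter {y : F} (hy : Transcendental K y) {a : F} (h1 : a ∈ polyRing K y)
    (h2 : a ∈ polyRing K y⁻¹) : ∃ c : K, a = algebraMap K F c := by
  have hy0 : y ≠ 0 := by
    rintro rfl
    exact hy isAlgebraic_zero
  rw [polyRing, Algebra.adjoin_singleton_eq_range_aeval, AlgHom.mem_range] at h1 h2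
  obtain ⟨p, rfl⟩ := h1
  obtain ⟨q, hq⟩ := h2
  have h3 : aeval y (reflect q.natDegree q) = aeval y (X ^ q.natDegree * p) := by
    rw [PD.aeval_reflect hy0 _ q le_rfl, map_mul, map_pow, aeval_X]
    congr 1
  have h4 : reflect q.natDegree q = X ^ q.natDegree * p :=
    (transcendental_iff_injective.mp hy) h3
  have h5 : p.natDegree = 0 := by
    by_cases hp : p = 0
    · rw [hp, natDegree_zero]
    have h6 : (X ^ q.natDegree * p).natDegree = q.natDegree + p.natDegree := by
      rw [natDegree_mul (pow_ne_zero _ X_ne_zero) hp, natDegree_X_pow]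
    have h7 : (reflect q.natDegree q).natDegree ≤ q.natDegree := by
      have := natDegree_reflect_le (N := q.natDegree) (p := q)
      simpa using this
    rw [h4, h6] at h7
    omega
  rw [eq_C_of_natDegree_eq_zero h5]
  exact ⟨p.coeff 0, by simp⟩

/-- the coefficients (in `F`) of the minimal polynomial over `K(y)` of an element integral over `K[y]` lie in `K[y]`. -/
theorem wc_coeff_minpoly_mem {y : F} (hy : Transcendental K y) {f : F} (hf : f ∈ intRing K y)
    (n : ℕ) : algebraMap K⟮y⟯ F ((minpoly K⟮y⟯ f).coeff n) ∈ polyRing K y := by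
  have := wc_isPrincipalIdealRing_polyRing hy
  have h := minpoly.isIntegrallyClosed_eq_field_fractions' K⟮y⟯
    (hf : IsIntegral (polyRing K y) f)
  rw [h, coeff_map]
  exact ((minpoly (polyRing K y) f).coeff n).2

theorem wc_minpoly_congr {E E' : IntermediateField K F} (h : E = E') (f : F) :
    (minpoly E f).map (algebraMap E F) = (minpoly E' f).map (algebraMap E' F) := by
  subst h; rfl

/-- an element integral over `K[y]` and over `K[1/y]` is constant. -/
theorem wc_const_of_mem_inter [IsAlgClosed K] {y : F} (hy : Transcendental K y) {f : F}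
    (h1 : f ∈ intRing K y) (h2 : f ∈ intRing K y⁻¹) : ∃ c : K, f = algebraMap K F c := by
  have hintE : IsIntegral K⟮y⟯ f := (h1 : IsIntegral (polyRing K y) f).tower_top
  have hc : ∀ n, ((minpoly K⟮y⟯ f).map (algebraMap K⟮y⟯ F)).coeff n ∈
      (algebraMap K F).range := by
    intro n
    obtain ⟨c, hc⟩ := wc_polyRing_inter hy
      (a := ((minpoly K⟮y⟯ f).map (algebraMap K⟮y⟯ F)).coeff n)
      (by rw [coeff_map]; exact wc_coeff_minpoly_mem hy h1 n)
      (by
        rw [wc_minpoly_congr (adjoin_inv_eq (K := K) y).symm, coeff_map]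
        exact wc_coeff_minpoly_mem (transcendental_inv hy) h2 n)
    exact ⟨c, hc.symm⟩
  have hlift : (minpoly K⟮y⟯ f).map (algebraMap K⟮y⟯ F) ∈ Polynomial.lifts (algebraMap K F) :=
    (lifts_iff_coeff_lifts _).mpr hc
  obtain ⟨P₀, hP₀, -, hmonic⟩ := lifts_and_degree_eq_and_monic hlift
    ((minpoly.monic hintE).map _)
  have hint : IsIntegral K f := by
    refine ⟨P₀, hmonic, ?_⟩
    rw [← eval_map, hP₀, eval_map, ← aeval_def, minpoly.aeval]
  obtain ⟨c, hc⟩ := hint.mem_range_algebraMap_of_minpoly_splits (K := K) (IsAlgClosed.splits _)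
  exact ⟨c, hc.symm⟩

/-- **No zeros and no poles ⟹ constant** (function field with a separating coordinate `y`, any characteristic). -/
theorem wc_const_of_ord_eq_zero [IsAlgClosed K] {y : F} (hy : Transcendental K y)
    [FiniteDimensional K⟮y⟯ F] [Algebra.IsSeparable K⟮y⟯ F] {f : F} (hf : f ≠ 0)
    (h : ∀ Q : Place K F, Q.ord f = 0) : ∃ c : K, f = algebraMap K F c := by
  have hmem : ∀ v : Place K F, f ∈ v.toValuationSubring := fun v =>
    (ord_nonneg_iff v hf).mp (h v).ge
  have : FiniteDimensional K⟮y⁻¹⟯ F := by rw [adjoin_inv_eq]; infer_instance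
  have : Algebra.IsSeparable K⟮y⁻¹⟯ F := by rw [adjoin_inv_eq]; infer_instance
  exact wc_const_of_mem_inter hy (wc_mem_intRing_of_forall hy fun v _ => hmem v)
    (wc_mem_intRing_of_forall (transcendental_inv hy) fun v _ => hmem v)

end WConst

/-- **W1.** A function on `X₀(N)` over `k` (algebraically closed, `N ≠ 0` in `k`) without zeros and poles is constant.
Proof: `F_k / k(j̄)` is finite separable (SEP), so the integral closures `O`, `O'` of `k[j̄]`, `k[1/j̄]` are Dedekind with fraction field `F_k`; their primes give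
places (`Place.ofHeightOneSpectrum`); `ord = 0` everywhere ⟹ `f ∈ O ∩ O'`; the minimal polynomial of `f` over `k(j̄)` has coefficients in
`k[j̄] ∩ k[1/j̄] = k`; `k` is algebraically closed. -/
theorem const_of_ord_eq_zero (k : Type) [Field k] [IsAlgClosed k] (N : ℕ) [NeZero N]
    (hN : (N : k) ≠ 0) (f : modularFunctionFieldFullC k N) (hf : f ≠ 0)
    (h : ∀ Q : Place k (modularFunctionFieldFullC k N), Q.ord f = 0) :
    ∃ c : k, f = algebraMap k _ c := by
  have hy : Transcendental k (jFullC k N) := transcendental_jFullC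
  have hfin := (finrank_modularFunctionFieldFullC k N hN).1
  have halg : Algebra.IsAlgebraic k⟮jFullC k N⟯ (modularFunctionFieldFullC k N) :=
    Algebra.IsAlgebraic.of_finite _ _
  have hsep : Algebra.IsSeparable k⟮jFullC k N⟯ (modularFunctionFieldFullC k N) :=
    isSeparable_of_coeff (modularFunctionFieldFullC k N) (jFullC k N) (-1) (by simp) (by
      show (jqModC k).coeff (-1) ≠ 0
      rw [coeff_jqModC_neg_one]; exact one_ne_zero)
  exact wc_const_of_ord_eq_zero hy hf h

/-- **W2.** Every element of `F_k` is a quotient of reductions of integral series lying in `F_{ℚ̄}`. -/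
theorem exists_integral_lift (A : ValuationSubring Kb) (N : ℕ) [NeZero N]
    (g : LaurentSeries (kA A)) (hg : g ∈ modularFunctionFieldFullC (kA A) N) :
    ∃ Y₁ Y₂ : LaurentSeries A, coeffMap A.subtype Y₁ ∈ FN N ∧ coeffMap A.subtype Y₂ ∈ FN N ∧
      coeffMap (IsLocalRing.residue A) Y₁ ∈ modularFunctionFieldFullC (kA A) N ∧
      coeffMap (IsLocalRing.residue A) Y₂ ∈ modularFunctionFieldFullC (kA A) N ∧
      coeffMap (IsLocalRing.residue A) Y₂ ≠ 0 ∧
      g * coeffMap (IsLocalRing.residue A) Y₂ = coeffMap (IsLocalRing.residue A) Y₁ := by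
  induction hg using IntermediateField.adjoin_induction with
  | mem x hx =>
    obtain ⟨d, hd, hdN, rfl⟩ := hx
    have := hd
    refine ⟨qExpand A d (jqModC A), 1, ?_, by rw [map_one]; exact one_mem _, ?_,
      by rw [map_one]; exact one_mem _, by rw [map_one]; exact one_ne_zero, ?_⟩
    · rw [coeffMap_qExpand, coeffMap_jqModC]
      show _ ∈ modularFunctionFieldBar N
      rw [modularFunctionFieldBar_eq]
      exact jqModCd_mem_full _ N hdN
    · rw [coeffMap_qExpand, coeffMap_jqModC]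
      exact jqModCd_mem_full _ N hdN
    · rw [map_one, mul_one, coeffMap_qExpand, coeffMap_jqModC]
  | algebraMap cb =>
    obtain ⟨c, rfl⟩ := IsLocalRing.residue_surjective cb
    refine ⟨HahnSeries.single 0 c, 1, ?_, by rw [map_one]; exact one_mem _, ?_,
      by rw [map_one]; exact one_mem _, by rw [map_one]; exact one_ne_zero, ?_⟩
    · rw [coeffMap_single, ← algebraMap_laurentSeries_eq_single]
      exact IntermediateField.algebraMap_mem _ _
    · rw [coeffMap_single, ← algebraMap_laurentSeries_eq_single]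
      exact IntermediateField.algebraMap_mem _ _
    · rw [map_one, mul_one, coeffMap_single, ← algebraMap_laurentSeries_eq_single]
  | add x y _ _ hx hy =>
    obtain ⟨Y₁, Y₂, h₁, h₂, k₁, k₂, n₂, e⟩ := hx
    obtain ⟨Y₁', Y₂', h₁', h₂', k₁', k₂', n₂', e'⟩ := hy
    refine ⟨Y₁ * Y₂' + Y₁' * Y₂, Y₂ * Y₂', ?_, ?_, ?_, ?_, ?_, ?_⟩
    · rw [map_add, map_mul, map_mul]; exact add_mem (mul_mem h₁ h₂') (mul_mem h₁' h₂)
    · rw [map_mul]; exact mul_mem h₂ h₂'
    · rw [map_add, map_mul, map_mul]; exact add_mem (mul_mem k₁ k₂') (mul_mem k₁' k₂)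
    · rw [map_mul]; exact mul_mem k₂ k₂'
    · rw [map_mul]; exact mul_ne_zero n₂ n₂'
    · rw [map_add, map_mul, map_mul, map_mul, ← e, ← e']; ring
  | inv x _ hx =>
    obtain ⟨Y₁, Y₂, h₁, h₂, k₁, k₂, n₂, e⟩ := hx
    by_cases hx0 : x = 0
    · refine ⟨0, 1, by rw [map_zero]; exact zero_mem _, by rw [map_one]; exact one_mem _,
        by rw [map_zero]; exact zero_mem _,
        by rw [map_one]; exact one_mem _, by rw [map_one]; exact one_ne_zero, ?_⟩
      rw [hx0, inv_zero, zero_mul, map_zero]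
    · refine ⟨Y₂, Y₁, h₂, h₁, k₂, k₁, by rw [← e]; exact mul_ne_zero hx0 n₂, ?_⟩
      rw [← e, ← mul_assoc, inv_mul_cancel₀ hx0, one_mul]
  | mul x y _ _ hx hy =>
    obtain ⟨Y₁, Y₂, h₁, h₂, k₁, k₂, n₂, e⟩ := hx
    obtain ⟨Y₁', Y₂', h₁', h₂', k₁', k₂', n₂', e'⟩ := hy
    refine ⟨Y₁ * Y₁', Y₂ * Y₂', ?_, ?_, ?_, ?_, ?_, ?_⟩
    · rw [map_mul]; exact mul_mem h₁ h₁'
    · rw [map_mul]; exact mul_mem h₂ h₂'
    · rw [map_mul]; exact mul_mem k₁ k₁'
    · rw [map_mul]; exact mul_mem k₂ k₂'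
    · rw [map_mul]; exact mul_ne_zero n₂ n₂'
    · rw [map_mul, map_mul, ← e, ← e']; ring

/-- the divisor of a nonzero function of `ℚ̄(X₀(N))`. -/
theorem w_exists_div (N : ℕ) [NeZero N] (f : FN N) (hf : f ≠ 0) :
    ∃ D : Divisor Kb (FN N), ∀ P, D P = P.ord f := by
  classical
  have hfin := (isFF_FN N).finite_ord_ne_zero hf
  exact ⟨Finsupp.ofSupportFinite (fun P => P.ord f) hfin, fun P => rfl⟩

theorem w_coeffMap_subtype_ne_zero (A : ValuationSubring Kb) {Z : LaurentSeries A}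
    (h : coeffMap (IsLocalRing.residue A) Z ≠ 0) : coeffMap A.subtype Z ≠ 0 := by
  intro h0
  apply h
  have : Z = 0 := by
    ext n
    have := congrArg (fun s => s.coeff n) h0
    simpa using this
  rw [this, map_zero]

/-- `D = div (Z₁/Z₂)` and `r_* D = div (Z̄₁/Z̄₂)` for integral series `Z₁, Z₂` with nonzero reductions. -/
def WIsQuot (A : ValuationSubring Kb) (N : ℕ) [NeZero N]
    (r : Place Kb (FN N) → Place (kA A) (modularFunctionFieldFullC (kA A) N))
    (D : Divisor Kb (FN N)) : Prop :=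
  ∃ (Z₁ Z₂ : LaurentSeries A) (h₁ : coeffMap A.subtype Z₁ ∈ FN N)
    (h₂ : coeffMap A.subtype Z₂ ∈ FN N)
    (k₁ : coeffMap (IsLocalRing.residue A) Z₁ ∈ modularFunctionFieldFullC (kA A) N)
    (k₂ : coeffMap (IsLocalRing.residue A) Z₂ ∈ modularFunctionFieldFullC (kA A) N),
    coeffMap (IsLocalRing.residue A) Z₁ ≠ 0 ∧ coeffMap (IsLocalRing.residue A) Z₂ ≠ 0 ∧
    (∀ P, D P = P.ord (⟨_, h₁⟩ : FN N) - P.ord (⟨_, h₂⟩ : FN N)) ∧
    ∀ Q, Finsupp.mapDomain r D Q =
      Q.ord (⟨_, k₁⟩ : modularFunctionFieldFullC (kA A) N) -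
        Q.ord (⟨_, k₂⟩ : modularFunctionFieldFullC (kA A) N)

theorem w_isQuot_of_mem_closure (A : ValuationSubring Kb) (N : ℕ) [NeZero N]
    (r : Place Kb (FN N) → Place (kA A) (modularFunctionFieldFullC (kA A) N))
    (hr : IsPlaceReductionAlong A (IsLocalRing.residue A) N r)
    (D : Divisor Kb (FN N))
    (hD : D ∈ AddSubgroup.closure (integralPrincipalDivisors A (IsLocalRing.residue A) N)) :
    WIsQuot A N r D := by
  induction hD using AddSubgroup.closure_induction with
  | mem E hE =>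
    obtain ⟨y, hy, hyk, hne, hDy⟩ := hE
    refine ⟨y, 1, hy, by rw [map_one]; exact one_mem _, hyk, by rw [map_one]; exact one_mem _,
      hne, by rw [map_one]; exact one_ne_zero, fun P => ?_, fun Q => ?_⟩
    · have h1 : (⟨coeffMap A.subtype 1, by rw [map_one]; exact one_mem _⟩ : FN N) = 1 :=
        Subtype.ext (map_one _)
      rw [h1, Place.ord_one, sub_zero]
      exact hDy P
    · have h1 : (⟨coeffMap (IsLocalRing.residue A) 1, by rw [map_one]; exact one_mem _⟩ :
          modularFunctionFieldFullC (kA A) N) = 1 := Subtype.ext (map_one _)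
      rw [h1, Place.ord_one, sub_zero]
      exact hr.2 y hy hyk hne E hDy Q
  | zero =>
    refine ⟨1, 1, by rw [map_one]; exact one_mem _, by rw [map_one]; exact one_mem _,
      by rw [map_one]; exact one_mem _, by rw [map_one]; exact one_mem _,
      by rw [map_one]; exact one_ne_zero, by rw [map_one]; exact one_ne_zero,
      fun P => by simp, fun Q => by simp⟩
  | add E E' _ _ hE hE' =>
    obtain ⟨Z₁, Z₂, h₁, h₂, k₁, k₂, n₁, n₂, hP, hQ⟩ := hE
    obtain ⟨Z₁', Z₂', h₁', h₂', k₁', k₂', n₁', n₂', hP', hQ'⟩ := hE'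
    refine ⟨Z₁ * Z₁', Z₂ * Z₂', by rw [map_mul]; exact mul_mem h₁ h₁',
      by rw [map_mul]; exact mul_mem h₂ h₂', by rw [map_mul]; exact mul_mem k₁ k₁',
      by rw [map_mul]; exact mul_mem k₂ k₂', by rw [map_mul]; exact mul_ne_zero n₁ n₁',
      by rw [map_mul]; exact mul_ne_zero n₂ n₂', fun P => ?_, fun Q => ?_⟩
    · have e1 : (⟨coeffMap A.subtype (Z₁ * Z₁'), by rw [map_mul]; exact mul_mem h₁ h₁'⟩ : FN N)
          = ⟨_, h₁⟩ * ⟨_, h₁'⟩ := Subtype.ext (map_mul _ _ _)
      have e2 : (⟨coeffMap A.subtype (Z₂ * Z₂'), by rw [map_mul]; exact mul_mem h₂ h₂'⟩ : FN N)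
          = ⟨_, h₂⟩ * ⟨_, h₂'⟩ := Subtype.ext (map_mul _ _ _)
      rw [e1, e2, Place.ord_mul, Place.ord_mul, Finsupp.add_apply, hP, hP']
      · ring
      all_goals
        intro h0
        have := congrArg Subtype.val h0
        first
          | exact w_coeffMap_subtype_ne_zero A n₁ this
          | exact w_coeffMap_subtype_ne_zero A n₂ this
          | exact w_coeffMap_subtype_ne_zero A n₁' this
          | exact w_coeffMap_subtype_ne_zero A n₂' this
    · have e1 : (⟨coeffMap (IsLocalRing.residue A) (Z₁ * Z₁'),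
          by rw [map_mul]; exact mul_mem k₁ k₁'⟩ : modularFunctionFieldFullC (kA A) N)
          = ⟨_, k₁⟩ * ⟨_, k₁'⟩ := Subtype.ext (map_mul _ _ _)
      have e2 : (⟨coeffMap (IsLocalRing.residue A) (Z₂ * Z₂'),
          by rw [map_mul]; exact mul_mem k₂ k₂'⟩ : modularFunctionFieldFullC (kA A) N)
          = ⟨_, k₂⟩ * ⟨_, k₂'⟩ := Subtype.ext (map_mul _ _ _)
      rw [e1, e2, Place.ord_mul, Place.ord_mul, Finsupp.mapDomain_add, Finsupp.add_apply, hQ, hQ']
      · ring
      all_goals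
        intro h0
        have := congrArg Subtype.val h0
        first
          | exact n₁ this
          | exact n₂ this
          | exact n₁' this
          | exact n₂' this
  | neg E _ hE =>
    obtain ⟨Z₁, Z₂, h₁, h₂, k₁, k₂, n₁, n₂, hP, hQ⟩ := hE
    refine ⟨Z₂, Z₁, h₂, h₁, k₂, k₁, n₂, n₁, fun P => ?_, fun Q => ?_⟩
    · rw [Finsupp.neg_apply, hP]; ring
    · rw [← Finsupp.mapDomain.addMonoidHom_apply, map_neg, Finsupp.mapDomain.addMonoidHom_apply,
        Finsupp.neg_apply, hQ]; ring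


theorem w_natCast_ne_zero (A : ValuationSubring Kb) {ℓ N : ℕ} (hℓ : ℓ.Prime)
    (hA : A.LiesOverPrime ℓ) (hℓN : ¬ ℓ ∣ N) : (N : kA A) ≠ 0 := by
  intro hN
  have hl : (ℓ : kA A) = 0 := by
    obtain ⟨ha, hmem⟩ := ValuationSubring.mem_nonunits_iff_exists_mem_maximalIdeal.mp hA
    have h1 : IsLocalRing.residue A ⟨(ℓ : Kb), ha⟩ = 0 :=
      (IsLocalRing.residue_eq_zero_iff _).mpr hmem
    have h2 : (⟨(ℓ : Kb), ha⟩ : A) = (ℓ : A) := Subtype.ext (by simp)
    rw [h2, map_natCast] at h1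
    exact h1
  have hc : IsCoprime (ℓ : ℤ) (N : ℤ) :=
    Nat.isCoprime_iff_coprime.mpr ((Nat.Prime.coprime_iff_not_dvd hℓ).mpr hℓN)
  obtain ⟨a, b, hab⟩ := hc
  have := congrArg (Int.cast : ℤ → kA A) hab
  push_cast at this
  rw [hl, hN] at this
  simp at this

/-- **W (main).**
`z = [D]`, `m D = div u₀`, `r_* D = div ḡ`.  W2: `ḡ = Ȳ₁/Ȳ₂`; `D' = D - div Y₁ + div Y₂` (divisors exist: S24 `IsFF.finite_ord_ne_zero`), `r_* D' = 0` by
`IsPlaceReductionAlong`.  `m D'` is principal, so by `PrincipalGeneratedByIntegral` `m D' = ∑ ± div y_i = div (Z₁/Z₂)` with `Z₁, Z₂` products of integral series with nonzero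
reductions in `F_k`; `div (Z̄₁/Z̄₂) = r_*(m D') = 0`, so `Z̄₁ = c̄ Z̄₂` (W1); replace `Z₂` by `c Z₂`.  KLM for `u = Z₁/Z₂`: `u = w^m`, `m (D' - div w) = 0`, `D' = div w`, `z = 0`. -/
theorem main (N : ℕ) [NeZero N] {ℓ : ℕ}
    [Fact ℓ.Prime] (hℓN : ¬ ℓ ∣ N) (A : ValuationSubring (AlgebraicClosure ℚ)) (hA : A.LiesOverPrime ℓ)
    (h : ModularCurve.ReductionInputsModL A N) (m : ℕ) (hm : ¬ ℓ ∣ m) (z : ModularCurve.JZero N)
    (hmz : m • z = 0) (hz : ModularCurve.reductionModL A N z = 0) :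
    z = 0 := by
  classical
  have hℓ : ℓ.Prime := Fact.out
  have hm0 : m ≠ 0 := fun h0 => hm (h0 ▸ dvd_zero ℓ)
  have hNk : (N : kA A) ≠ 0 := w_natCast_ne_zero A hℓ hA hℓN
  have := isAlgClosed_kA A
  obtain ⟨D, rfl⟩ := Pic0.mk_surjective z
  set r := placeReductionModL h with hrdef
  have hr : IsPlaceReductionAlong A (IsLocalRing.residue A) N r :=
    isPlaceReductionModL_placeReductionModL h
  have hgen : PrincipalGeneratedByIntegral A (IsLocalRing.residue A) N := h.choose_spec.2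
  -- `m • D` is principal
  have hmD : m • (D : Divisor Kb (FN N)) ∈ Divisor.principal (K := Kb) (F := FN N) := by
    have h1 : Pic0.mk (m • D) = 0 := hmz
    rw [Pic0.mk, QuotientAddGroup.eq_zero_iff, AddSubgroup.mem_addSubgroupOf] at h1
    simpa using h1
  -- `r_* D` is principal
  rw [reductionModL_mk h] at hz
  have hrD : Finsupp.mapDomain r (D : Divisor Kb (FN N)) ∈
      Divisor.principal (K := kA A) (F := modularFunctionFieldFullC (kA A) N) := by
    rw [Pic0.mk, QuotientAddGroup.eq_zero_iff, AddSubgroup.mem_addSubgroupOf] at hz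
    exact hz
  obtain ⟨g, hg0, hg⟩ := hrD
  obtain ⟨Y₁, Y₂, hY₁, hY₂, kY₁, kY₂, nY₂, hgY⟩ := exists_integral_lift A N g g.2
  have nY₁ : coeffMap (IsLocalRing.residue A) Y₁ ≠ 0 := by
    rw [← hgY]
    exact mul_ne_zero (fun h0 => hg0 (Subtype.ext h0)) nY₂
  have hy₁0 : (⟨_, hY₁⟩ : FN N) ≠ 0 := fun h0 =>
    w_coeffMap_subtype_ne_zero A nY₁ (congrArg Subtype.val h0)
  have hy₂0 : (⟨_, hY₂⟩ : FN N) ≠ 0 := fun h0 =>
    w_coeffMap_subtype_ne_zero A nY₂ (congrArg Subtype.val h0)
  obtain ⟨E₁, hE₁⟩ := w_exists_div N ⟨_, hY₁⟩ hy₁0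
  obtain ⟨E₂, hE₂⟩ := w_exists_div N ⟨_, hY₂⟩ hy₂0
  have hrE₁ := hr.2 Y₁ hY₁ kY₁ nY₁ E₁ hE₁
  have hrE₂ := hr.2 Y₂ hY₂ kY₂ nY₂ E₂ hE₂
  have hE₁p : E₁ ∈ Divisor.principal (K := Kb) (F := FN N) := ⟨_, hy₁0, hE₁⟩
  have hE₂p : E₂ ∈ Divisor.principal (K := Kb) (F := FN N) := ⟨_, hy₂0, hE₂⟩
  obtain ⟨D', hD'⟩ : ∃ D' : Divisor Kb (FN N), D' = (D : Divisor Kb (FN N)) - E₁ + E₂ := ⟨_, rfl⟩
  have hrD' : Finsupp.mapDomain r D' = 0 := by
    ext Q
    rw [hD', Finsupp.mapDomain_add, Finsupp.mapDomain_sub, Finsupp.add_apply, Finsupp.sub_apply,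
      hg, hrE₁, hrE₂]
    have e : (⟨_, kY₁⟩ : modularFunctionFieldFullC (kA A) N) = g * ⟨_, kY₂⟩ :=
      Subtype.ext hgY.symm
    rw [e, Place.ord_mul _ hg0 (fun h0 => nY₂ (congrArg Subtype.val h0))]
    simp
  have hmD' : m • D' ∈ Divisor.principal (K := Kb) (F := FN N) := by
    rw [hD', smul_add, smul_sub]
    exact add_mem (sub_mem hmD (nsmul_mem hE₁p m)) (nsmul_mem hE₂p m)
  obtain ⟨Z₁, Z₂, h₁, h₂, k₁, k₂, n₁, n₂, hP, hQ⟩ :=
    w_isQuot_of_mem_closure A N r hr _ (hgen hmD')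
  -- the reduction of `Z₁/Z₂` has neither zeros nor poles
  have hk₁0 : (⟨_, k₁⟩ : modularFunctionFieldFullC (kA A) N) ≠ 0 := fun h0 =>
    n₁ (congrArg Subtype.val h0)
  have hk₂0 : (⟨_, k₂⟩ : modularFunctionFieldFullC (kA A) N) ≠ 0 := fun h0 =>
    n₂ (congrArg Subtype.val h0)
  have hordk : ∀ Q : Place (kA A) (modularFunctionFieldFullC (kA A) N),
      Q.ord ((⟨_, k₁⟩ : modularFunctionFieldFullC (kA A) N) *
        (⟨_, k₂⟩ : modularFunctionFieldFullC (kA A) N)⁻¹) = 0 := by
    intro Q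
    rw [Place.ord_mul _ hk₁0 (inv_ne_zero hk₂0), Place.ord_inv]
    have := hQ Q
    rw [Finsupp.mapDomain_smul, hrD', smul_zero, Finsupp.zero_apply] at this
    omega
  obtain ⟨cb, hcb⟩ := const_of_ord_eq_zero (kA A) N hNk _
    (mul_ne_zero hk₁0 (inv_ne_zero hk₂0)) hordk
  obtain ⟨c, rfl⟩ := IsLocalRing.residue_surjective cb
  have hcb0 : IsLocalRing.residue A c ≠ 0 := by
    intro h0
    rw [h0, map_zero] at hcb
    exact mul_ne_zero hk₁0 (inv_ne_zero hk₂0) hcb
  have hc0 : (c : Kb) ≠ 0 := by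
    intro h0
    apply hcb0
    have : c = 0 := Subtype.ext h0
    rw [this, map_zero]
  have hres : coeffMap (IsLocalRing.residue A) Z₁ =
      coeffMap (IsLocalRing.residue A) (HahnSeries.single 0 c * Z₂) := by
    rw [map_mul, coeffMap_single, ← algebraMap_laurentSeries_eq_single]
    have h1 : (⟨_, k₁⟩ : modularFunctionFieldFullC (kA A) N) =
        algebraMap (kA A) _ (IsLocalRing.residue A c) * ⟨_, k₂⟩ := by
      rw [← hcb, mul_assoc, inv_mul_cancel₀ hk₂0, mul_one]
    exact congrArg Subtype.val h1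
  have hres0 : coeffMap (IsLocalRing.residue A) (HahnSeries.single 0 c * Z₂) ≠ 0 := by
    rw [← hres]; exact n₁
  have hz₁0 : (⟨_, h₁⟩ : FN N) ≠ 0 := fun h0 =>
    w_coeffMap_subtype_ne_zero A n₁ (congrArg Subtype.val h0)
  have hz₂0 : (⟨_, h₂⟩ : FN N) ≠ 0 := fun h0 =>
    w_coeffMap_subtype_ne_zero A n₂ (congrArg Subtype.val h0)
  have hcF0 : algebraMap Kb (FN N) (c : Kb) ≠ 0 := by
    rw [Ne, map_eq_zero]; exact hc0
  obtain ⟨u, hu⟩ : ∃ u : FN N, u = (⟨_, h₁⟩ : FN N) * (algebraMap Kb (FN N) (c : Kb) * ⟨_, h₂⟩)⁻¹ :=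
    ⟨_, rfl⟩
  have hu0 : u ≠ 0 := by
    rw [hu]; exact mul_ne_zero hz₁0 (inv_ne_zero (mul_ne_zero hcF0 hz₂0))
  have hordu : ∀ P : Place Kb (FN N), P.ord u = m * D' P := by
    intro P
    rw [hu, Place.ord_mul _ hz₁0 (inv_ne_zero (mul_ne_zero hcF0 hz₂0)), Place.ord_inv,
      Place.ord_mul _ hcF0 hz₂0, ord_algebraMap]
    have := hP P
    rw [Finsupp.smul_apply, nsmul_eq_mul] at this
    rw [this]; ring
  have huY : (u : LaurentSeries Kb) * coeffMap A.subtype (HahnSeries.single 0 c * Z₂) =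
      coeffMap A.subtype Z₁ := by
    have h1 : u * (algebraMap Kb (FN N) (c : Kb) * ⟨_, h₂⟩) = ⟨_, h₁⟩ := by
      rw [hu, mul_assoc, inv_mul_cancel₀ (mul_ne_zero hcF0 hz₂0), mul_one]
    have h2 : (u : LaurentSeries Kb) * (algebraMap Kb (LaurentSeries Kb) (c : Kb) *
        coeffMap A.subtype Z₂) = coeffMap A.subtype Z₁ := congrArg Subtype.val h1
    have h3 : HahnSeries.single 0 (A.subtype c) = algebraMap Kb (LaurentSeries Kb) (c : Kb) :=
      (algebraMap_laurentSeries_eq_single Kb _).symm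
    rw [map_mul, coeffMap_single, h3, h2]
  obtain ⟨w, hw⟩ := KL_modular N hℓ hℓN A hA m hm u (fun P => ⟨D' P, hordu P⟩) Z₁
    (HahnSeries.single 0 c * Z₂) hres hres0 huY
  have hw0 : w ≠ 0 := by
    intro h0
    rw [h0, zero_pow hm0] at hw
    exact hu0 hw.symm
  have hD'w : ∀ P : Place Kb (FN N), D' P = P.ord w := by
    intro P
    have h1 := hordu P
    rw [← hw, ← zpow_natCast, Place.ord_zpow] at h1
    exact (mul_left_cancel₀ (Nat.cast_ne_zero.mpr hm0) h1).symm
  have hD'p : D' ∈ Divisor.principal (K := Kb) (F := FN N) := ⟨w, hw0, hD'w⟩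
  have hDp : (D : Divisor Kb (FN N)) ∈ Divisor.principal (K := Kb) (F := FN N) := by
    have : (D : Divisor Kb (FN N)) = D' + E₁ - E₂ := by rw [hD']; abel
    rw [this]
    exact sub_mem (add_mem hD'p hE₁p) hE₂p
  rw [Pic0.mk, QuotientAddGroup.eq_zero_iff, AddSubgroup.mem_addSubgroupOf]
  exact hDp

end Fermat.Agent.S18
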