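import Fermat.Agent.S24.Fundamental

/-!
# S18, pieces HB2, HB3: the abstract (function field) part

`F / K` a function field over an algebraically closed field of characteristic zero, `j, a, b ∈ F` with the
relations of the Hauptmoduln of `X₀(2)`, `X₀(3)`, and the fibre counts of `j`.  Then `a` is unramified
outside `{∞, 0, -64}` resp. `{∞, 0, -27}`.
-/

set_option autoImplicit false

namespace Fermat.Agent.S18.HB

open Polynomial IntermediateField Fermat.Agent.S24 AlgebraicCurve

variable {K F : Type*} [Field K] [Field F] [Algebra K F]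

local notation "ι" => algebraMap K F

theorem ne_const {a : F} (ha : Transcendental K a) (σ : K) : a - ι σ ≠ 0 := by
  intro h
  rw [sub_eq_zero] at h
  rw [h] at ha
  exact ha (isAlgebraic_algebraMap σ)

theorem ne_zero_of_trans {a : F} (ha : Transcendental K a) : a ≠ 0 := by
  rintro rfl
  exact ha isAlgebraic_zero

/-- if `e * #zeros = degree` and all zeros have multiplicity `≥ e` then all have multiplicity `e`. -/
theorem ord_eq_of_mul_card [IsAlgClosed K] [CharZero K] (hFF : IsFF K F) {y : F}
    (hy : Transcendental K y) (e : ℕ) (hcard : e * (zerosOf K y).ncard = Module.finrank K⟮y⟯ F)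
    (hle : ∀ v ∈ zerosOf K y, (e : ℤ) ≤ v.ord y) (v : Place K F) (hv : v ∈ zerosOf K y) :
    v.ord y = e := by
  classical
  have hy0 : y ≠ 0 := ne_zero_of_trans hy
  have hfin := IsFF.zerosOf_finite hFF hy0
  have hsum := IsFF.sum_ord_zerosOf hFF hy
  rw [finsum_mem_eq_finite_toFinset_sum _ hfin, ← hcard, Set.ncard_eq_toFinset_card _ hfin] at hsum
  have h0 : ∑ w ∈ hfin.toFinset, (w.ord y - e) = 0 := by
    rw [Finset.sum_sub_distrib, hsum]
    simp [mul_comm]
  have h1 := (Finset.sum_eq_zero_iff_of_nonneg (fun w hw => by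
    have := hle w ((Set.Finite.mem_toFinset hfin).mp hw)
    omega)).mp h0 v ((Set.Finite.mem_toFinset hfin).mpr hv)
  omega

/-- if all zeros are simple their number is the degree. -/
theorem card_eq_of_ord_le_one [IsAlgClosed K] [CharZero K] (hFF : IsFF K F) {y : F}
    (hy : Transcendental K y) (h : ∀ v ∈ zerosOf K y, v.ord y ≤ 1) :
    (zerosOf K y).ncard = Module.finrank K⟮y⟯ F := by
  classical
  have hy0 : y ≠ 0 := ne_zero_of_trans hy
  have hfin := IsFF.zerosOf_finite hFF hy0
  have hsum := IsFF.sum_ord_zerosOf hFF hy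
  rw [finsum_mem_eq_finite_toFinset_sum _ hfin] at hsum
  have h1 : ∑ w ∈ hfin.toFinset, w.ord y = ∑ w ∈ hfin.toFinset, (1 : ℤ) := by
    refine Finset.sum_congr rfl fun w hw => ?_
    have hw' : w ∈ zerosOf K y := (Set.Finite.mem_toFinset hfin).mp hw
    have h2 : 0 < w.ord y := hw'
    have h3 := h w hw'
    omega
  rw [h1] at hsum
  rw [Set.ncard_eq_toFinset_card _ hfin]
  have : ((hfin.toFinset.card : ℕ) : ℤ) = (Module.finrank K⟮y⟯ F : ℤ) := by
    rw [← hsum]; simp
  exact_mod_cast this

/-- the position of a place with respect to the coordinate `a`. -/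
theorem tri [IsAlgClosed K] (hFF : IsFF K F) {a : F} (ha : Transcendental K a) (v : Place K F) :
    (v.ord a < 0 ∧ ∀ σ : K, v.ord (a - ι σ) = v.ord a) ∨
      (∃ τ : K, 0 < v.ord (a - ι τ) ∧ ∀ σ : K, σ ≠ τ → v.ord (a - ι σ) = 0) := by
  have ha0 := ne_zero_of_trans ha
  rcases lt_or_ge (v.ord a) 0 with h | h
  · left
    refine ⟨h, fun σ => ?_⟩
    rcases eq_or_ne σ 0 with rfl | hσ
    · simp
    · rw [sub_eq_add_neg]
      apply ord_add_eq_of_lt v ha0 (by simpa using hσ)
      rw [ord_neg, ord_algebraMap]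
      exact h
  · right
    obtain ⟨τ, hτ⟩ := hFF.exists_residue v ((ord_nonneg_iff v ha0).mp h)
    rcases hτ with hτ | hτ
    · exact absurd (sub_eq_zero.mpr hτ) (ne_const ha τ)
    · refine ⟨τ, hτ, fun σ hσ => ?_⟩
      have : a - ι σ = ι (τ - σ) + (a - ι τ) := by rw [map_sub]; ring
      rw [this, ord_add_eq_of_lt v (by simpa [sub_eq_zero] using hσ.symm) (ne_const ha τ)
        (by rw [ord_algebraMap]; exact hτ), ord_algebraMap]

theorem tri_at {a : F} (ha : Transcendental K a) (v : Place K F) {τ : K}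
    (hτ : 0 < v.ord (a - ι τ)) (σ : K) (hσ : σ ≠ τ) : v.ord (a - ι σ) = 0 := by
  have : a - ι σ = ι (τ - σ) + (a - ι τ) := by rw [map_sub]; ring
  rw [this, ord_add_eq_of_lt v (by simpa [sub_eq_zero] using hσ.symm) (ne_const ha τ)
    (by rw [ord_algebraMap]; exact hτ), ord_algebraMap]

theorem mem_of_pos {a : F} (ha : Transcendental K a) (v : Place K F) {τ : K}
    (hτ : 0 < v.ord (a - ι τ)) : a ∈ v.toValuationSubring := by
  have h1 : a - ι τ ∈ v.toValuationSubring := (ord_nonneg_iff v (ne_const ha τ)).mp hτ.le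
  have : a = (a - ι τ) + ι τ := by ring
  rw [this]
  exact add_mem h1 (v.algebraMap_mem' τ)

theorem finrank_sub (a : F) (τ : K) :
    Module.finrank K⟮a - ι τ⟯ F = Module.finrank K⟮a⟯ F := by
  rw [adjoin_sub_algebraMap_eq]

/-- **HB2, abstract form.** -/
theorem hb2 [IsAlgClosed K] [CharZero K] (hFF : IsFF K F) (j a w : F) (ψ : ℕ)
    (hj : Transcendental K j) (ha : Transcendental K a)
    (hψ : Module.finrank K⟮j⟯ F = ψ)
    (hgen : ∀ c : K, c ≠ 0 → c ≠ 1728 → (zerosOf K (j - ι c)).ncard = ψ)
    (h0 : 3 * (zerosOf K j).ncard = ψ)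
    (h1728 : 2 * (zerosOf K (j - ι 1728)).ncard = ψ)
    (hA : j * a ^ 2 = (a + 256) ^ 3)
    (hw : w ^ 2 = a * (a + 64) * (a + 16) ^ 2)
    (τ : K) (hτ0 : τ ≠ 0) (hτ64 : τ ≠ -64) :
    (zerosOf K (a - ι τ)).ncard = Module.finrank K⟮a⟯ F := by
  rw [← finrank_sub a τ]
  apply card_eq_of_ord_le_one hFF (transcendental_sub_algebraMap ha τ)
  intro v hv
  have hv' : 0 < v.ord (a - ι τ) := hv
  have ha0 := ne_zero_of_trans ha
  have hj0 := ne_zero_of_trans hj
  have hat := tri_at ha v hv'
  have hamem := mem_of_pos ha v hv'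
  have e0 : a = a - ι 0 := by simp
  have e256 : a + 256 = a - ι (-256) := by rw [map_neg, map_ofNat]; ring
  have e64 : a + 64 = a - ι (-64) := by rw [map_neg, map_ofNat]; ring
  have e16 : a + 16 = a - ι (-16) := by rw [map_neg, map_ofNat]; ring
  have e512 : a - 512 = a - ι 512 := by rw [map_ofNat]
  have hva : v.ord a = 0 := by
    have := hat 0 hτ0.symm
    rwa [← e0] at this
  obtain ⟨c, hc⟩ : ∃ c : K, c * τ ^ 2 = (τ + 256) ^ 3 :=
    ⟨(τ + 256) ^ 3 / τ ^ 2, by field_simp⟩
  by_cases hc0 : c = 0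
  · -- `τ = -256`
    have hτ : τ = -256 := by
      rw [hc0, zero_mul] at hc
      have := pow_eq_zero_iff (three_ne_zero) |>.mp hc.symm
      linear_combination this
    have heq : ∀ u : Place K F, u.ord j + 2 * u.ord a = 3 * u.ord (a - ι (-256)) := by
      intro u
      have := congrArg u.ord hA
      rw [u.ord_mul hj0 (pow_ne_zero _ ha0), ord_pow, ord_pow, e256] at this
      exact_mod_cast this
    have hall : ∀ u ∈ zerosOf K j, ((3 : ℕ) : ℤ) ≤ u.ord j := by
      intro u hu
      have hu' : 0 < u.ord j := hu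
      have h1 := heq u
      rcases tri hFF ha u with ⟨h2, h3⟩ | ⟨τ', h2, h3⟩
      · rw [h3] at h1
        omega
      · by_cases h4 : τ' = -256
        · have h5 := h3 0 (by rw [h4]; norm_num)
          rw [← e0] at h5
          push_cast
          omega
        · have h5 := h3 (-256) (Ne.symm h4)
          have h6 : 0 ≤ u.ord a := (ord_nonneg_iff u ha0).mpr (mem_of_pos ha u h2)
          omega
    have h3 := heq v
    rw [← hτ, hva] at h3
    have hvj : v ∈ zerosOf K j := by
      show 0 < v.ord j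
      omega
    have := ord_eq_of_mul_card hFF hj 3 (by rw [h0, hψ]) hall v hvj
    push_cast at this
    omega
  by_cases hc1 : c = 1728
  · -- `τ = 512`
    have hτ : τ = 512 := by
      rw [hc1] at hc
      have h1 : (τ + 64) * (τ - 512) ^ 2 = 0 := by linear_combination -hc
      rcases mul_eq_zero.mp h1 with h | h
      · exact absurd (by linear_combination h) hτ64
      · have := pow_eq_zero_iff (two_ne_zero) |>.mp h
        linear_combination this
    have hj' := transcendental_sub_algebraMap hj (1728 : K)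
    have hj'0 := ne_zero_of_trans hj'
    have hA' : (j - ι 1728) * a ^ 2 = (a - ι (-64)) * (a - ι 512) ^ 2 := by
      rw [← e64, ← e512, map_ofNat]
      linear_combination hA
    have heq : ∀ u : Place K F, u.ord (j - ι 1728) + 2 * u.ord a =
        u.ord (a - ι (-64)) + 2 * u.ord (a - ι 512) := by
      intro u
      have := congrArg u.ord hA'
      rw [u.ord_mul hj'0 (pow_ne_zero _ ha0), ord_pow,
        u.ord_mul (ne_const ha _) (pow_ne_zero _ (ne_const ha _)), ord_pow] at this
      exact_mod_cast this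
    have hw0 : w ≠ 0 := by
      rintro rfl
      rw [e64, e16] at hw
      have : a * (a - ι (-64)) * (a - ι (-16)) ^ 2 ≠ 0 :=
        mul_ne_zero (mul_ne_zero ha0 (ne_const ha _)) (pow_ne_zero _ (ne_const ha _))
      exact this (by rw [← hw]; ring)
    have heven : ∀ u : Place K F, 2 * u.ord w =
        u.ord a + u.ord (a - ι (-64)) + 2 * u.ord (a - ι (-16)) := by
      intro u
      have := congrArg u.ord hw
      rw [e64, e16, ord_pow, u.ord_mul (mul_ne_zero ha0 (ne_const ha _))
        (pow_ne_zero _ (ne_const ha _)), u.ord_mul ha0 (ne_const ha _), ord_pow] at this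
      exact_mod_cast this
    have hall : ∀ u ∈ zerosOf K (j - ι 1728), ((2 : ℕ) : ℤ) ≤ u.ord (j - ι 1728) := by
      intro u hu
      have hu' : 0 < u.ord (j - ι 1728) := hu
      have h1 := heq u
      have h1' := heven u
      push_cast
      rcases tri hFF ha u with ⟨h2, h3⟩ | ⟨τ', h2, h3⟩
      · rw [h3, h3] at h1
        omega
      · have h6 : 0 ≤ u.ord a := (ord_nonneg_iff u ha0).mpr (mem_of_pos ha u h2)
        by_cases h4 : τ' = -64
        · have h5 := h3 0 (by rw [h4]; norm_num)
          rw [← e0] at h5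
          have h7 := h3 512 (by rw [h4]; norm_num)
          have h8 := h3 (-16) (by rw [h4]; norm_num)
          omega
        · have h5 := h3 (-64) (Ne.symm h4)
          by_cases h9 : τ' = 512
          · have h5' := h3 0 (by rw [h9]; norm_num)
            rw [← e0] at h5'
            omega
          · have h10 := h3 512 (Ne.symm h9)
            omega
    have h3 := heq v
    have h4 := hat (-64) (Ne.symm hτ64)
    rw [hva, h4, ← hτ] at h3
    have hvj : v ∈ zerosOf K (j - ι 1728) := by
      show 0 < v.ord (j - ι 1728)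
      omega
    have := ord_eq_of_mul_card hFF hj' 2 (by rw [h1728, finrank_sub, hψ]) hall v hvj
    push_cast at this
    omega
  · -- generic case
    have hj' := transcendental_sub_algebraMap hj c
    have hj'0 := ne_zero_of_trans hj'
    obtain ⟨C, hC⟩ : ∃ C : F, C = ι c := ⟨_, rfl⟩
    obtain ⟨T, hT⟩ : ∃ T : F, T = ι τ := ⟨_, rfl⟩
    rw [← hT] at hv' ⊢
    rw [← hC] at hj' hj'0
    have hc' : C * T ^ 2 = (T + 256) ^ 3 := by
      have := congrArg ι hc
      rw [map_mul, map_pow, map_pow, map_add, map_ofNat, ← hC, ← hT] at this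
      exact this
    set H : F := a ^ 2 + (768 - C + T) * a + (196608 + T * (768 - C + T)) with hH
    have key : (j - C) * a ^ 2 = (a - T) * H := by
      rw [hH]
      linear_combination hA - hc'
    have hH0 : H ≠ 0 := by
      intro h
      rw [h, mul_zero] at key
      exact (mul_ne_zero hj'0 (pow_ne_zero _ ha0)) key
    have hCm : C ∈ v.toValuationSubring := hC ▸ v.algebraMap_mem' c
    have hTm : T ∈ v.toValuationSubring := hT ▸ v.algebraMap_mem' τ
    have hHm : H ∈ v.toValuationSubring := by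
      rw [hH]
      exact add_mem (add_mem (pow_mem hamem 2) (mul_mem (add_mem (sub_mem (ofNat_mem _ _) hCm) hTm)
        hamem)) (add_mem (ofNat_mem _ _) (mul_mem hTm (add_mem (sub_mem (ofNat_mem _ _) hCm) hTm)))
    have hHo : 0 ≤ v.ord H := (ord_nonneg_iff v hH0).mpr hHm
    have h3 := congrArg v.ord key
    rw [v.ord_mul hj'0 (pow_ne_zero _ ha0), ord_pow, hva, v.ord_mul (hT ▸ ne_const ha τ) hH0] at h3
    have hvj : v ∈ zerosOf K (j - C) := by
      show 0 < v.ord (j - C)
      omega
    have := ord_eq_of_mul_card hFF hj' 1 (by rw [one_mul, hC, hgen c hc0 hc1, finrank_sub, hψ])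
      (fun u hu => by
        have : 0 < u.ord (j - C) := hu
        push_cast
        omega) v hvj
    push_cast at this
    omega

/-- **HB3, abstract form.** -/
theorem hb3 [IsAlgClosed K] [CharZero K] (hFF : IsFF K F) (j a n d : F) (ψ : ℕ)
    (hj : Transcendental K j) (ha : Transcendental K a)
    (hψ : Module.finrank K⟮j⟯ F = ψ)
    (hgen : ∀ c : K, c ≠ 0 → c ≠ 1728 → (zerosOf K (j - ι c)).ncard = ψ)
    (h0 : 3 * (zerosOf K j).ncard = ψ)
    (h1728 : 2 * (zerosOf K (j - ι 1728)).ncard = ψ)
    (hA : j * a ^ 3 = (a + 27) * (a + 243) ^ 3)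
    (hnd : a * n ^ 3 = (a + 27) * d ^ 3) (hd : d ≠ 0)
    (τ : K) (hτ0 : τ ≠ 0) (hτ27 : τ ≠ -27) :
    (zerosOf K (a - ι τ)).ncard = Module.finrank K⟮a⟯ F := by
  rw [← finrank_sub a τ]
  apply card_eq_of_ord_le_one hFF (transcendental_sub_algebraMap ha τ)
  intro v hv
  have hv' : 0 < v.ord (a - ι τ) := hv
  have ha0 := ne_zero_of_trans ha
  have hj0 := ne_zero_of_trans hj
  have hat := tri_at ha v hv'
  have hamem := mem_of_pos ha v hv'
  have e0 : a = a - ι 0 := by simp
  have e27 : a + 27 = a - ι (-27) := by rw [map_neg, map_ofNat]; ring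
  have e243 : a + 243 = a - ι (-243) := by rw [map_neg, map_ofNat]; ring
  have hva : v.ord a = 0 := by
    have := hat 0 hτ0.symm
    rwa [← e0] at this
  obtain ⟨c, hc⟩ : ∃ c : K, c * τ ^ 3 = (τ + 27) * (τ + 243) ^ 3 :=
    ⟨(τ + 27) * (τ + 243) ^ 3 / τ ^ 3, by field_simp⟩
  by_cases hc0 : c = 0
  · -- `τ = -243`
    have hτ : τ = -243 := by
      rw [hc0, zero_mul] at hc
      rcases mul_eq_zero.mp hc.symm with h | h
      · exact absurd (by linear_combination h) hτ27
      · have := pow_eq_zero_iff (three_ne_zero) |>.mp h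
        linear_combination this
    have hn : n ≠ 0 := by
      rintro rfl
      have : (a + 27) * d ^ 3 ≠ 0 := mul_ne_zero (e27 ▸ ne_const ha _) (pow_ne_zero _ hd)
      exact this (by rw [← hnd]; ring)
    have heq : ∀ u : Place K F, u.ord j + 3 * u.ord a =
        u.ord (a - ι (-27)) + 3 * u.ord (a - ι (-243)) := by
      intro u
      have := congrArg u.ord hA
      rw [e27, e243, u.ord_mul hj0 (pow_ne_zero _ ha0), ord_pow,
        u.ord_mul (ne_const ha _) (pow_ne_zero _ (ne_const ha _)), ord_pow] at this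
      exact_mod_cast this
    have hdiv : ∀ u : Place K F, u.ord a + 3 * u.ord n = u.ord (a - ι (-27)) + 3 * u.ord d := by
      intro u
      have := congrArg u.ord hnd
      rw [e27, u.ord_mul ha0 (pow_ne_zero _ hn), ord_pow,
        u.ord_mul (ne_const ha _) (pow_ne_zero _ hd), ord_pow] at this
      exact_mod_cast this
    have hall : ∀ u ∈ zerosOf K j, ((3 : ℕ) : ℤ) ≤ u.ord j := by
      intro u hu
      have hu' : 0 < u.ord j := hu
      have h1 := heq u
      have h1' := hdiv u
      push_cast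
      rcases tri hFF ha u with ⟨h2, h3⟩ | ⟨τ', h2, h3⟩
      · rw [h3, h3] at h1
        omega
      · have h6 : 0 ≤ u.ord a := (ord_nonneg_iff u ha0).mpr (mem_of_pos ha u h2)
        by_cases h4 : τ' = -27
        · have h5 := h3 0 (by rw [h4]; norm_num)
          rw [← e0] at h5
          have h7 := h3 (-243) (by rw [h4]; norm_num)
          omega
        · have h5 := h3 (-27) (Ne.symm h4)
          by_cases h9 : τ' = -243
          · have h5' := h3 0 (by rw [h9]; norm_num)
            rw [← e0] at h5'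
            omega
          · have h10 := h3 (-243) (Ne.symm h9)
            omega
    have h3 := heq v
    have h4 := hat (-27) (Ne.symm hτ27)
    rw [hva, h4, ← hτ] at h3
    have hvj : v ∈ zerosOf K j := by
      show 0 < v.ord j
      omega
    have := ord_eq_of_mul_card hFF hj 3 (by rw [h0, hψ]) hall v hvj
    push_cast at this
    omega
  by_cases hc1 : c = 1728
  · -- `τ² - 486 τ - 19683 = 0`
    have hτ : τ ^ 2 - 486 * τ - 19683 = 0 := by
      rw [hc1] at hc
      have h1 : (τ ^ 2 - 486 * τ - 19683) ^ 2 = 0 := by linear_combination -hc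
      exact pow_eq_zero_iff (two_ne_zero) |>.mp h1
    have hτ'0 : 486 - τ ≠ 0 := by
      intro h
      have : (19683 : K) = 0 := by linear_combination -hτ - τ * h
      norm_num at this
    have hj' := transcendental_sub_algebraMap hj (1728 : K)
    have hj'0 := ne_zero_of_trans hj'
    have hA' : (j - ι 1728) * a ^ 3 = ((a - ι τ) * (a - ι (486 - τ))) ^ 2 := by
      have h1 : (a - ι τ) * (a - ι (486 - τ)) = a ^ 2 - 486 * a - 19683 := by
        have := congrArg ι hτ
        rw [map_sub, map_sub, map_mul, map_pow, map_ofNat, map_ofNat, map_zero] at this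
        rw [map_sub, map_ofNat]
        linear_combination -this
      rw [h1, map_ofNat]
      linear_combination hA
    have heq : ∀ u : Place K F, u.ord (j - ι 1728) + 3 * u.ord a =
        2 * (u.ord (a - ι τ) + u.ord (a - ι (486 - τ))) := by
      intro u
      have := congrArg u.ord hA'
      rw [u.ord_mul hj'0 (pow_ne_zero _ ha0), ord_pow, ord_pow,
        u.ord_mul (ne_const ha _) (ne_const ha _)] at this
      exact_mod_cast this
    have hall : ∀ u ∈ zerosOf K (j - ι 1728), ((2 : ℕ) : ℤ) ≤ u.ord (j - ι 1728) := by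
      intro u hu
      have hu' : 0 < u.ord (j - ι 1728) := hu
      have h1 := heq u
      push_cast
      rcases tri hFF ha u with ⟨h2, h3⟩ | ⟨τ', h2, h3⟩
      · rw [h3, h3] at h1
        omega
      · have h6 : 0 ≤ u.ord a := (ord_nonneg_iff u ha0).mpr (mem_of_pos ha u h2)
        by_cases h4 : τ' = 0
        · have h5 := h3 τ (by rw [h4]; exact hτ0)
          have h7 := h3 (486 - τ) (by rw [h4]; exact hτ'0)
          omega
        · have h5 := h3 0 (Ne.symm h4)
          rw [← e0] at h5
          omega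
    have h3 := heq v
    rw [hva] at h3
    have h4 : 0 ≤ v.ord (a - ι (486 - τ)) :=
      (ord_nonneg_iff v (ne_const ha _)).mpr (sub_mem hamem (v.algebraMap_mem' _))
    have hvj : v ∈ zerosOf K (j - ι 1728) := by
      show 0 < v.ord (j - ι 1728)
      omega
    have := ord_eq_of_mul_card hFF hj' 2 (by rw [h1728, finrank_sub, hψ]) hall v hvj
    push_cast at this
    omega
  · -- generic case
    have hj' := transcendental_sub_algebraMap hj c
    have hj'0 := ne_zero_of_trans hj'
    obtain ⟨C, hC⟩ : ∃ C : F, C = ι c := ⟨_, rfl⟩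
    obtain ⟨T, hT⟩ : ∃ T : F, T = ι τ := ⟨_, rfl⟩
    rw [← hT] at hv' ⊢
    rw [← hC] at hj' hj'0
    have hc' : C * T ^ 3 = (T + 27) * (T + 243) ^ 3 := by
      have := congrArg ι hc
      rw [map_mul, map_pow, map_mul, map_pow, map_add, map_add, map_ofNat, map_ofNat, ← hC, ← hT]
        at this
      exact this
    set H : F := a ^ 3 + (756 - C + T) * a ^ 2 + (196830 + T * (756 - C + T)) * a +
      (19131876 + T * (196830 + T * (756 - C + T))) with hH
    have key : (j - C) * a ^ 3 = (a - T) * H := by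
      rw [hH]
      linear_combination hA - hc'
    have hH0 : H ≠ 0 := by
      intro h
      rw [h, mul_zero] at key
      exact (mul_ne_zero hj'0 (pow_ne_zero _ ha0)) key
    have hCm : C ∈ v.toValuationSubring := hC ▸ v.algebraMap_mem' c
    have hTm : T ∈ v.toValuationSubring := hT ▸ v.algebraMap_mem' τ
    have hm1 : 756 - C + T ∈ v.toValuationSubring := add_mem (sub_mem (ofNat_mem _ _) hCm) hTm
    have hm2 : 196830 + T * (756 - C + T) ∈ v.toValuationSubring :=
      add_mem (ofNat_mem _ _) (mul_mem hTm hm1)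
    have hHm : H ∈ v.toValuationSubring := by
      rw [hH]
      exact add_mem (add_mem (add_mem (pow_mem hamem 3) (mul_mem hm1 (pow_mem hamem 2)))
        (mul_mem hm2 hamem)) (add_mem (ofNat_mem _ _) (mul_mem hTm hm2))
    have hHo : 0 ≤ v.ord H := (ord_nonneg_iff v hH0).mpr hHm
    have h3 := congrArg v.ord key
    rw [v.ord_mul hj'0 (pow_ne_zero _ ha0), ord_pow, hva, v.ord_mul (hT ▸ ne_const ha τ) hH0] at h3
    have hvj : v ∈ zerosOf K (j - C) := by
      show 0 < v.ord (j - C)
      omega
    have := ord_eq_of_mul_card hFF hj' 1 (by rw [one_mul, hC, hgen c hc0 hc1, finrank_sub, hψ])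
      (fun u hu => by
        have : 0 < u.ord (j - C) := hu
        push_cast
        omega) v hvj
    push_cast at this
    omega

/-- from the modular equation between `a = t₂(q)` and `b = t₂(q²)` to the square relation. -/
theorem hb2_rel {a b : F} (h : (a + 16) ^ 3 * b ^ 2 = (b + 256) ^ 3 * a) (hab : a * b ≠ 4096) :
    (2 * b - a ^ 2 - 48 * a) ^ 2 = a * (a + 64) * (a + 16) ^ 2 := by
  have h1 : (a * b - 4096) * (a ^ 2 * b + 48 * a * b + 4096 * a - b ^ 2) = 0 := by
    linear_combination h
  have h2 : a ^ 2 * b + 48 * a * b + 4096 * a - b ^ 2 = 0 :=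
    (mul_eq_zero.mp h1).resolve_left (sub_ne_zero.mpr hab)
  linear_combination (-4) * h2

/-- from the modular equation between `a = t₃(q)` and `b = t₃(q³)` to the cube relation. -/
theorem hb3_rel [CharZero K] {a b : F} (ha : Transcendental K a)
    (h : (a + 27) * (a + 3) ^ 3 * b ^ 3 = (b + 27) * (b + 243) ^ 3 * a) (hab : a * b ≠ 729) :
    a * (-a ^ 2 * b - 27 * a * b + 729 * a - 108 * b - 6561) ^ 3 =
      (a + 27) * (-a ^ 2 * b - 18 * a * b - 1458 * a - 27 * b) ^ 3 ∧
      -a ^ 2 * b - 18 * a * b - 1458 * a - 27 * b ≠ 0 := by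
  have h1 : (a * b - 729) * (a ^ 3 * b ^ 2 + 36 * a ^ 2 * b ^ 2 + 729 * a ^ 2 * b + 270 * a * b ^ 2
      + 26244 * a * b + 531441 * a - b ^ 3) = 0 := by
    linear_combination h
  have h2 : a ^ 3 * b ^ 2 + 36 * a ^ 2 * b ^ 2 + 729 * a ^ 2 * b + 270 * a * b ^ 2
      + 26244 * a * b + 531441 * a - b ^ 3 = 0 :=
    (mul_eq_zero.mp h1).resolve_left (sub_ne_zero.mpr hab)
  have h3 : a * (-a ^ 2 * b - 27 * a * b + 729 * a - 108 * b - 6561) ^ 3 =
      (a + 27) * (-a ^ 2 * b - 18 * a * b - 1458 * a - 27 * b) ^ 3 := by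
    linear_combination (6561 * a ^ 3 + 137781 * a ^ 2 + 177147 * a - 531441) * h2
  refine ⟨h3, fun hd => ?_⟩
  have ha0 := ne_zero_of_trans ha
  rw [hd] at h3
  have hn : -a ^ 2 * b - 27 * a * b + 729 * a - 108 * b - 6561 = 0 := by
    have : a * (-a ^ 2 * b - 27 * a * b + 729 * a - 108 * b - 6561) ^ 3 = 0 := by
      rw [h3]; ring
    exact pow_eq_zero_iff (three_ne_zero) |>.mp ((mul_eq_zero.mp this).resolve_left ha0)
  -- eliminate `b`
  have hpoly : a ^ 3 + 21 * a ^ 2 + 27 * a - 81 = 0 := by
    have : CharZero F := charZero_of_injective_algebraMap (algebraMap K F).injective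
    have h2187 : (2187 : F) ≠ 0 := by norm_num
    apply mul_left_cancel₀ h2187
    linear_combination (a ^ 2 + 18 * a + 27) * hn - (a ^ 2 + 18 * a + 27 + 9 * a + 81) * hd
  apply ha
  refine ⟨X ^ 3 + C 21 * X ^ 2 + C 27 * X - C 81, ?_, ?_⟩
  · have h3 : (X ^ 3 + C 21 * X ^ 2 + C 27 * X - C 81 : K[X]).natDegree = 3 := by
      compute_degree!
    intro h0
    rw [h0] at h3
    simp at h3
  · simp only [map_add, map_sub, map_mul, map_pow, aeval_X, aeval_C, map_ofNat]
    exact hpoly

end Fermat.Agent.S18.HB
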