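import Mathlib
import Fermat.Agent.S24.Defs

/-!
# S18: the abstract reduction setting (definitions only; no sorry in this file)

`(K, A, k)`: a field with a valuation ring and its residue field;
`(F, V, Fb)`: an extension field with a valuation ring `V` above `A`, same value group, residue field `Fb`.
`intRing K x` (from S24.Defs) is the integral closure of `K[x]` in `F`.
-/

set_option autoImplicit false

namespace Fermat.Agent.S18

open Polynomial IntermediateField Fermat.Agent.S24

/-- The reduction setting. -/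
structure RedSetting (K F k Fb : Type*) [Field K] [Field F] [Algebra K F] [Field k] [Field Fb]
    [Algebra k Fb] where
  A : ValuationSubring K
  V : ValuationSubring F
  resA : A →+* k
  red : V →+* Fb
  resA_surj : Function.Surjective resA
  red_surj : Function.Surjective red
  map_mem : ∀ c : K, c ∈ A → algebraMap K F c ∈ V
  compat : ∀ (c : K) (hc : c ∈ A),
    red ⟨algebraMap K F c, map_mem c hc⟩ = algebraMap k Fb (resA ⟨c, hc⟩)
  /-- same value group -/
  scale : ∀ f : F, f ≠ 0 → ∃ c : K, c ≠ 0 ∧ algebraMap K F c * f ∈ V ∧ (algebraMap K F c * f)⁻¹ ∈ V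

section
variable {K F k Fb : Type*} [Field K] [Field F] [Algebra K F] [Field k] [Field Fb] [Algebra k Fb]

open Classical in
/-- reduction as a total function (junk value `0` outside `V`). -/
noncomputable def RedSetting.rd (S : RedSetting K F k Fb) (f : F) : Fb :=
  if h : f ∈ S.V then S.red ⟨f, h⟩ else 0

open Classical in
/-- reduction of constants as a total function (junk value `0` outside `A`). -/
noncomputable def RedSetting.rc (S : RedSetting K F k Fb) (c : K) : k :=
  if h : c ∈ S.A then S.resA ⟨c, h⟩ else 0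

/-- `x` is a good coordinate: `x̄` is transcendental, `[F : K(x)] = [Fb : k(x̄)] < ∞`, separable
residue extension. -/
structure RedSetting.Coord (S : RedSetting K F k Fb) (x : F) : Prop where
  mem : x ∈ S.V
  trans : Transcendental k (S.rd x)
  fin : FiniteDimensional K⟮x⟯ F
  finb : FiniteDimensional k⟮S.rd x⟯ Fb
  finrank_eq : Module.finrank K⟮x⟯ F = Module.finrank k⟮S.rd x⟯ Fb
  sep : Algebra.IsSeparable k⟮S.rd x⟯ Fb

/-- Hypothesis (H): in every residue disc of the `x`-line there is at most one branch point. -/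
def RedSetting.BranchHyp (S : RedSetting K F k Fb) (x : F) : Prop :=
  ∀ cb : k, ∃ b₀ : K, b₀ ∈ S.A ∧ S.rc b₀ = cb ∧ ∀ b : K, b ∈ S.A → S.rc b = cb → b ≠ b₀ →
    (zerosOf K (x - algebraMap K F b)).ncard = Module.finrank K⟮x⟯ F

/-- The conclusion of the good reduction criterion: the reduction of the integral closure of `K[x]`
is the integral closure of `k[x̄]`. -/
def RedSetting.NormalRed (S : RedSetting K F k Fb) (x : F) : Prop :=
  ∀ hb : Fb, hb ∈ intRing k (S.rd x) → ∃ h : F, h ∈ intRing K x ∧ h ∈ S.V ∧ S.rd h = hb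

end

section
variable (K : Type*) {F : Type*} [Field K] [Field F] [Algebra K F]

/-- `L(a,b) = {h : x^a h ∈ O₀, x^{-b} h ∈ O_∞}` = `L(a (x)₀ + b (x)_∞)`. -/
def Lsp (x : F) (a b : ℕ) : Submodule K F where
  carrier := {h | x ^ a * h ∈ intRing K x ∧ x⁻¹ ^ b * h ∈ intRing K x⁻¹}
  add_mem' := by
    rintro f g ⟨hf, hf'⟩ ⟨hg, hg'⟩
    exact ⟨by rw [mul_add]; exact add_mem hf hg, by rw [mul_add]; exact add_mem hf' hg'⟩
  zero_mem' := ⟨by rw [mul_zero]; exact zero_mem _, by rw [mul_zero]; exact zero_mem _⟩
  smul_mem' := by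
    rintro c f ⟨hf, hf'⟩
    have key : ∀ (y : F) (g : F), g ∈ intRing K y → c • g ∈ intRing K y := by
      intro y g hg
      rw [Algebra.smul_def]
      refine mul_mem ?_ hg
      have : algebraMap K F c = algebraMap (polyRing K y) F (algebraMap K (polyRing K y) c) := rfl
      rw [this]
      exact Subalgebra.algebraMap_mem _ _
    exact ⟨by rw [mul_smul_comm]; exact key _ _ hf, by rw [mul_smul_comm]; exact key _ _ hf'⟩

variable {K} in
theorem mem_Lsp {x : F} {a b : ℕ} {h : F} :
    h ∈ Lsp K x a b ↔ x ^ a * h ∈ intRing K x ∧ x⁻¹ ^ b * h ∈ intRing K x⁻¹ := Iff.rfl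

/-- the `K[x]`-span of a family, as a `K`-subspace. -/
def polySpan {ι : Type*} [Fintype ι] (x : F) (e : ι → F) : Submodule K F where
  carrier := {h | ∃ p : ι → K[X], h = ∑ i, aeval x (p i) * e i}
  add_mem' := by
    rintro _ _ ⟨p, rfl⟩ ⟨q, rfl⟩
    exact ⟨p + q, by simp [add_mul, Finset.sum_add_distrib]⟩
  zero_mem' := ⟨0, by simp⟩
  smul_mem' := by
    rintro c _ ⟨p, rfl⟩
    exact ⟨fun i => C c * p i, by simp [Finset.mul_sum, Algebra.smul_def, mul_assoc]⟩

/-- linear independence over `K[x]` (equivalently over `K(x)`). -/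
def PolyIndep {ι : Type*} [Fintype ι] (x : F) (e : ι → F) : Prop :=
  ∀ p : ι → K[X], ∑ i, aeval x (p i) * e i = 0 → p = 0

end

end Fermat.Agent.S18
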