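import Mathlib
import Fermat.Agent.S18.Setting

/-!
# S18: the core of the Kummer lemma by a dimension count

No iteration, no completeness, no Nullstellensatz.  See `core_dim` at the end of the file.
-/

set_option autoImplicit false

namespace Fermat.Agent.S18

open Polynomial IntermediateField Fermat.Agent.S24 Module

namespace CoreDim

section rd
variable {K F k Fb : Type*} [Field K] [Field F] [Algebra K F] [Field k] [Field Fb] [Algebra k Fb]
variable (S : RedSetting K F k Fb)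

theorem rd_of_mem {f : F} (h : f ∈ S.V) : S.rd f = S.red ⟨f, h⟩ := by
  rw [RedSetting.rd, dif_pos h]

theorem rc_of_mem {c : K} (h : c ∈ S.A) : S.rc c = S.resA ⟨c, h⟩ := by
  rw [RedSetting.rc, dif_pos h]

theorem rd_add {f g : F} (hf : f ∈ S.V) (hg : g ∈ S.V) : S.rd (f + g) = S.rd f + S.rd g := by
  rw [rd_of_mem S hf, rd_of_mem S hg, rd_of_mem S (add_mem hf hg), ← map_add]; rfl

theorem rd_mul {f g : F} (hf : f ∈ S.V) (hg : g ∈ S.V) : S.rd (f * g) = S.rd f * S.rd g := by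
  rw [rd_of_mem S hf, rd_of_mem S hg, rd_of_mem S (mul_mem hf hg), ← map_mul]; rfl

theorem rd_neg {f : F} (hf : f ∈ S.V) : S.rd (-f) = - S.rd f := by
  rw [rd_of_mem S hf, rd_of_mem S (neg_mem hf), ← map_neg]; rfl

theorem rd_sub {f g : F} (hf : f ∈ S.V) (hg : g ∈ S.V) : S.rd (f - g) = S.rd f - S.rd g := by
  rw [sub_eq_add_neg, rd_add S hf (neg_mem hg), rd_neg S hg, sub_eq_add_neg]

theorem rd_one : S.rd 1 = 1 := by
  rw [rd_of_mem S (one_mem _)]; exact map_one S.red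

theorem rd_zero : S.rd 0 = 0 := by
  rw [rd_of_mem S (zero_mem _)]; exact map_zero S.red

theorem rd_pow {f : F} (hf : f ∈ S.V) (n : ℕ) : S.rd (f ^ n) = S.rd f ^ n := by
  induction n with
  | zero => simp [rd_one]
  | succ n ih => rw [pow_succ, rd_mul S (pow_mem hf n) hf, ih, pow_succ]

theorem rd_sum {ι : Type*} (s : Finset ι) (f : ι → F) (hf : ∀ i ∈ s, f i ∈ S.V) :
    S.rd (∑ i ∈ s, f i) = ∑ i ∈ s, S.rd (f i) := by
  classical
  induction s using Finset.induction_on with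
  | empty => simp [rd_zero]
  | insert a s ha ih =>
    rw [Finset.sum_insert ha, Finset.sum_insert ha,
      rd_add S (hf a (Finset.mem_insert_self a s))
        (sum_mem fun i hi => hf i (Finset.mem_insert_of_mem hi)),
      ih fun i hi => hf i (Finset.mem_insert_of_mem hi)]

theorem rd_algebraMap {c : K} (hc : c ∈ S.A) :
    S.rd (algebraMap K F c) = algebraMap k Fb (S.rc c) := by
  rw [rd_of_mem S (S.map_mem c hc), rc_of_mem S hc, S.compat c hc]

/-- a unit of `V` has nonzero reduction. -/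
theorem rd_ne_zero_of_inv_mem {f : F} (hf : f ∈ S.V) (hf' : f⁻¹ ∈ S.V) (h0 : f ≠ 0) :
    S.rd f ≠ 0 := by
  intro h
  have h1 : S.rd (f * f⁻¹) = 0 := by rw [rd_mul S hf hf', h, zero_mul]
  rw [mul_inv_cancel₀ h0, rd_one] at h1
  exact one_ne_zero h1

/-- an element of `V` with nonzero reduction is a unit of `V`. -/
theorem inv_mem_of_rd_ne_zero {f : F} (hf : f ∈ S.V) (h : S.rd f ≠ 0) : f⁻¹ ∈ S.V := by
  -- `red` is surjective, pick `g` with `red g = (rd f)⁻¹`; `1 - f g` is in the kernel; if `f` were not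
  -- a unit, `f g` would be a non-unit, so `1 - f g` a unit with zero reduction.
  by_contra hinv
  obtain ⟨g, hg⟩ := S.red_surj (S.rd f)⁻¹
  have hf0 : f ≠ 0 := by
    rintro rfl
    exact h (rd_zero S)
  have hfg : S.rd (1 - f * g) = 0 := by
    rw [rd_sub S (one_mem _) (mul_mem hf g.2), rd_one, rd_mul S hf g.2, rd_of_mem S g.2]
    have : S.red ⟨(g : F), g.2⟩ = (S.rd f)⁻¹ := hg
    rw [this, mul_inv_cancel₀ h, sub_self]
  have hmem : (1 - f * (g : F)) ∈ S.V := sub_mem (one_mem _) (mul_mem hf g.2)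
  -- `1 - f g` is a unit
  have hunit : (1 - f * (g : F))⁻¹ ∈ S.V := by
    by_contra hn
    -- both `f g` and `1 - f g` non-units in the local ring `V`
    have h1 : (⟨f * g, mul_mem hf g.2⟩ : S.V) ∈ IsLocalRing.maximalIdeal S.V := by
      rw [IsLocalRing.mem_maximalIdeal, mem_nonunits_iff]
      intro hu
      obtain ⟨w, hw⟩ := hu.exists_right_inv
      have hw' : f * g * (w : F) = 1 := congrArg Subtype.val hw
      apply hinv
      have : f⁻¹ = g * w := by
        field_simp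
        linear_combination -hw'
      rw [this]
      exact mul_mem g.2 w.2
    have h2 : (⟨1 - f * g, hmem⟩ : S.V) ∈ IsLocalRing.maximalIdeal S.V := by
      rw [IsLocalRing.mem_maximalIdeal, mem_nonunits_iff]
      intro hu
      obtain ⟨w, hw⟩ := hu.exists_right_inv
      have hw' : (1 - f * g) * (w : F) = 1 := congrArg Subtype.val hw
      apply hn
      have : (1 - f * (g : F))⁻¹ = w := by
        rw [inv_eq_iff_eq_inv]
        exact eq_inv_of_mul_eq_one_left hw'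
      rw [this]
      exact w.2
    have h3 := add_mem h1 h2
    have h4 : (⟨f * g, mul_mem hf g.2⟩ : S.V) + ⟨1 - f * g, hmem⟩ = 1 := by
      apply Subtype.ext
      show f * g + (1 - f * g) = 1
      ring
    rw [h4] at h3
    exact (Ideal.ne_top_iff_one _).1 (IsLocalRing.maximalIdeal.isMaximal S.V).ne_top h3
  have hne : (1 - f * (g : F)) ≠ 0 := by
    intro h0
    apply hinv
    have : f⁻¹ = g := by
      field_simp
      linear_combination h0
    rw [this]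
    exact g.2
  exact rd_ne_zero_of_inv_mem S hmem hunit hne hfg

theorem rd_inv {f : F} (hf : f ∈ S.V) (h : S.rd f ≠ 0) : S.rd f⁻¹ = (S.rd f)⁻¹ := by
  have hf0 : f ≠ 0 := by
    rintro rfl
    exact h (rd_zero S)
  have h1 : S.rd (f * f⁻¹) = S.rd f * S.rd f⁻¹ := rd_mul S hf (inv_mem_of_rd_ne_zero S hf h)
  rw [mul_inv_cancel₀ hf0, rd_one] at h1
  exact eq_inv_of_mul_eq_one_right h1.symm

/-- The reduction of a `K`-subspace of `F`. -/
def redSub (W : Submodule K F) : Submodule k Fb where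
  carrier := {y | ∃ w ∈ W, w ∈ S.V ∧ S.rd w = y}
  add_mem' := by
    rintro _ _ ⟨w, hw, hwV, rfl⟩ ⟨w', hw', hwV', rfl⟩
    exact ⟨w + w', add_mem hw hw', add_mem hwV hwV', rd_add S hwV hwV'⟩
  zero_mem' := ⟨0, zero_mem _, zero_mem _, rd_zero S⟩
  smul_mem' := by
    rintro c _ ⟨w, hw, hwV, rfl⟩
    obtain ⟨a, rfl⟩ := S.resA_surj c
    refine ⟨(a : K) • w, W.smul_mem _ hw, ?_, ?_⟩
    · rw [Algebra.smul_def]; exact mul_mem (S.map_mem _ a.2) hwV
    · rw [Algebra.smul_def, rd_mul S (S.map_mem _ a.2) hwV, rd_algebraMap S a.2, rc_of_mem S a.2,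
        Algebra.smul_def]

theorem mem_redSub {W : Submodule K F} {y : Fb} :
    y ∈ redSub S W ↔ ∃ w ∈ W, w ∈ S.V ∧ S.rd w = y := Iff.rfl

theorem redSub_mono {W W' : Submodule K F} (h : W ≤ W') : redSub S W ≤ redSub S W' := by
  rintro _ ⟨w, hw, hwV, rfl⟩
  exact ⟨w, h hw, hwV, rfl⟩

end rd

section Lsp
variable {K F : Type*} [Field K] [Field F] [Algebra K F]

theorem self_mem_intRing (y : F) : y ∈ intRing K y := by
  have : y = algebraMap (polyRing K y) F ⟨y, Algebra.self_mem_adjoin_singleton K y⟩ := rfl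
  rw [this]
  exact Subalgebra.algebraMap_mem _ _

theorem algebraMap_mem_intRing (y : F) (c : K) : algebraMap K F c ∈ intRing K y := by
  have : algebraMap K F c = algebraMap (polyRing K y) F (algebraMap K (polyRing K y) c) := rfl
  rw [this]
  exact Subalgebra.algebraMap_mem _ _

theorem root_mem_intRing {y f : F} {n : ℕ} (hn : 0 < n) (h : f ^ n ∈ intRing K y) :
    f ∈ intRing K y :=
  IsIntegral.of_pow hn h

theorem Lsp_root {x h : F} {a b n : ℕ} (hn : 0 < n) (hh : h ^ n ∈ Lsp K x (n * a) (n * b)) :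
    h ∈ Lsp K x a b := by
  obtain ⟨h1, h2⟩ := hh
  refine ⟨root_mem_intRing hn ?_, root_mem_intRing hn ?_⟩
  · rw [mul_pow, ← pow_mul, mul_comm a n]; exact h1
  · rw [mul_pow, ← pow_mul, mul_comm b n]; exact h2

theorem Lsp_mul {x f g : F} {a b a' b' : ℕ} (hf : f ∈ Lsp K x a b) (hg : g ∈ Lsp K x a' b') :
    f * g ∈ Lsp K x (a + a') (b + b') := by
  refine ⟨?_, ?_⟩
  · have := mul_mem hf.1 hg.1
    convert this using 1
    ring
  · have := mul_mem hf.2 hg.2
    convert this using 1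
    ring

theorem one_mem_Lsp (x : F) (a b : ℕ) : (1 : F) ∈ Lsp K x a b :=
  ⟨by rw [mul_one]; exact pow_mem (self_mem_intRing x) a,
   by rw [mul_one]; exact pow_mem (self_mem_intRing x⁻¹) b⟩

theorem Lsp_pow {x f : F} {a b : ℕ} (hf : f ∈ Lsp K x a b) (n : ℕ) :
    f ^ n ∈ Lsp K x (n * a) (n * b) := by
  induction n with
  | zero => simpa using one_mem_Lsp (K := K) x 0 0
  | succ n ih =>
    rw [pow_succ, Nat.succ_mul, Nat.succ_mul]
    exact Lsp_mul ih hf

theorem Lsp_mono {x : F} {a b a' b' : ℕ} (ha : a ≤ a') (hb : b ≤ b') :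
    Lsp K x a b ≤ Lsp K x a' b' := by
  intro f hf
  obtain ⟨c, rfl⟩ := Nat.exists_eq_add_of_le ha
  obtain ⟨d, rfl⟩ := Nat.exists_eq_add_of_le hb
  have := Lsp_mul hf (one_mem_Lsp (K := K) x c d)
  rwa [mul_one] at this

/-- `X(a,b) = {f : u f^m ∈ L(ma, mb)}`: a `K`-subspace because `intRing` is integrally closed. -/
theorem mixed_mem {x u f g : F} {m a b : ℕ} (hm : 0 < m)
    (hf : u * f ^ m ∈ Lsp K x (m * a) (m * b)) (hg : u * g ^ m ∈ Lsp K x (m * a) (m * b))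
    {i : ℕ} (hi : i ≤ m) : u * (f ^ i * g ^ (m - i)) ∈ Lsp K x (m * a) (m * b) := by
  apply Lsp_root hm
  have h1 := Lsp_mul (Lsp_pow hf i) (Lsp_pow hg (m - i))
  have e1 : (u * (f ^ i * g ^ (m - i))) ^ m = (u * f ^ m) ^ i * (u * g ^ m) ^ (m - i) := by
    obtain ⟨j, rfl⟩ := Nat.exists_eq_add_of_le hi
    simp only [Nat.add_sub_cancel_left]
    ring
  have e2 : ∀ c : ℕ, i * (m * c) + (m - i) * (m * c) = m * (m * c) := by
    intro c
    rw [← Nat.add_mul, Nat.add_sub_cancel' hi]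
  rw [e1, ← e2 a, ← e2 b]
  exact h1

/-- `X(a,b) = {f : u f^m ∈ L(ma, mb)}`. -/
def Xsp (K : Type*) {F : Type*} [Field K] [Field F] [Algebra K F] (x u : F) (m : ℕ) (hm : 0 < m)
    (a b : ℕ) : Submodule K F where
  carrier := {f | u * f ^ m ∈ Lsp K x (m * a) (m * b)}
  add_mem' := by
    intro f g hf hg
    show u * (f + g) ^ m ∈ Lsp K x (m * a) (m * b)
    rw [add_pow, Finset.mul_sum]
    refine sum_mem fun i hi => ?_
    have hi' : i ≤ m := Nat.lt_succ_iff.1 (Finset.mem_range.1 hi)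
    have := (Lsp K x (m * a) (m * b)).smul_mem ((m.choose i : ℕ) : K) (mixed_mem hm hf hg hi')
    convert this using 1
    rw [Algebra.smul_def, map_natCast]
    ring
  zero_mem' := by
    show u * 0 ^ m ∈ Lsp K x (m * a) (m * b)
    rw [zero_pow hm.ne', mul_zero]
    exact zero_mem _
  smul_mem' := by
    intro c f hf
    show u * (c • f) ^ m ∈ Lsp K x (m * a) (m * b)
    have := (Lsp K x (m * a) (m * b)).smul_mem (c ^ m) hf
    convert this using 1
    rw [_root_.smul_pow, mul_smul_comm]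

theorem mem_Xsp {x u : F} {m : ℕ} {hm : 0 < m} {a b : ℕ} {f : F} :
    f ∈ Xsp K x u m hm a b ↔ u * f ^ m ∈ Lsp K x (m * a) (m * b) := Iff.rfl

theorem Xsp_mono {x u : F} {m : ℕ} {hm : 0 < m} {a b a' b' : ℕ} (ha : a ≤ a') (hb : b ≤ b') :
    Xsp K x u m hm a b ≤ Xsp K x u m hm a' b' := fun _ hf =>
  Lsp_mono (Nat.mul_le_mul_left m ha) (Nat.mul_le_mul_left m hb) hf

/-- `X(a,b)` is finite dimensional if `L(ma,mb)` is. -/
theorem Xsp_finite {x u : F} (hu : u ≠ 0) {m : ℕ} {hm : 0 < m} {a b : ℕ}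
    [FiniteDimensional K (Lsp K x (m * a) (m * b))] :
    FiniteDimensional K (Xsp K x u m hm a b) := by
  by_cases h0 : Xsp K x u m hm a b = ⊥
  · rw [h0]; infer_instance
  obtain ⟨f0, hf0, hne⟩ := (Submodule.ne_bot_iff _).1 h0
  -- `f ↦ u f0^(m-1) f`
  let φ : F →ₗ[K] F := LinearMap.mulLeft K (u * f0 ^ (m - 1))
  have hφ : ∀ f ∈ Xsp K x u m hm a b, φ f ∈ Lsp K x (m * a) (m * b) := by
    intro f hf
    have := mixed_mem hm hf hf0 (i := 1) hm
    show u * f0 ^ (m - 1) * f ∈ _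
    convert this using 1
    ring
  have hinj : Function.Injective (φ.restrict hφ) := by
    intro f g hfg
    have h1 : u * f0 ^ (m - 1) * (f : F) = u * f0 ^ (m - 1) * (g : F) := congrArg Subtype.val hfg
    exact Subtype.ext (mul_left_cancel₀ (mul_ne_zero hu (pow_ne_zero _ hne)) h1)
  exact FiniteDimensional.of_injective (φ.restrict hφ) hinj

end Lsp

section main
variable {K F k Fb : Type*} [Field K] [Field F] [Algebra K F] [Field k] [Field Fb] [Algebra k Fb]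
variable (S : RedSetting K F k Fb)

/-- IntRed for `Lsp`. -/
theorem rd_mem_Lsp {x : F} (hx : x ∈ S.V) (hx0 : S.rd x ≠ 0)
    (int0 : ∀ h ∈ intRing K x, h ∈ S.V → S.rd h ∈ intRing k (S.rd x))
    (intI : ∀ h ∈ intRing K x⁻¹, h ∈ S.V → S.rd h ∈ intRing k (S.rd x)⁻¹)
    {a b : ℕ} {h : F} (hh : h ∈ Lsp K x a b) (hV : h ∈ S.V) : S.rd h ∈ Lsp k (S.rd x) a b := by
  have hxi := inv_mem_of_rd_ne_zero S hx hx0
  refine ⟨?_, ?_⟩
  · have := int0 _ hh.1 (mul_mem (pow_mem hx a) hV)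
    rwa [rd_mul S (pow_mem hx a) hV, rd_pow S hx] at this
  · have := intI _ hh.2 (mul_mem (pow_mem hxi b) hV)
    rwa [rd_mul S (pow_mem hxi b) hV, rd_pow S hxi, rd_inv S hx hx0] at this

theorem rd_mem_of_Xsp {x : F} (hx : x ∈ S.V) (hx0 : S.rd x ≠ 0)
    (int0 : ∀ h ∈ intRing K x, h ∈ S.V → S.rd h ∈ intRing k (S.rd x))
    (intI : ∀ h ∈ intRing K x⁻¹, h ∈ S.V → S.rd h ∈ intRing k (S.rd x)⁻¹)
    {m : ℕ} {hm : 0 < m} {u : F} (huV : u ∈ S.V) (hu1 : S.rd u = 1)
    {a b : ℕ} {f : F} (hf : f ∈ Xsp K x u m hm a b) (hV : f ∈ S.V) :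
    S.rd f ∈ Lsp k (S.rd x) a b := by
  apply Lsp_root hm
  have := rd_mem_Lsp S hx hx0 int0 intI (mem_Xsp.1 hf) (mul_mem huV (pow_mem hV m))
  rwa [rd_mul S huV (pow_mem hV m), hu1, one_mul, rd_pow S hV] at this

/-- **The core of the Kummer lemma, by a dimension count.**
`u ≡ 1` with `div u ∈ m Div` (encoded in the Riemann inequality `riem` for the spaces
`X(a,b) = {f : u f^m ∈ L(ma,mb)} = L(D + a (x)₀ + b (x)_∞)`, `m D = div u`) is an `m`-th power up to a
constant. -/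
theorem core_dim {x : F} (hx : x ∈ S.V) (hx0 : S.rd x ≠ 0)
    (int0 : ∀ h ∈ intRing K x, h ∈ S.V → S.rd h ∈ intRing k (S.rd x))
    (intI : ∀ h ∈ intRing K x⁻¹, h ∈ S.V → S.rd h ∈ intRing k (S.rd x)⁻¹)
    (dimRed : ∀ W : Submodule K F, FiniteDimensional K W → finrank k (redSub S W) = finrank K W)
    (const : ∀ h ∈ Lsp K x 0 0, ∃ c : K, h = algebraMap K F c)
    (constb : ∀ h ∈ Lsp k (S.rd x) 0 0, ∃ c : k, h = algebraMap k Fb c)
    (fin : ∀ a b, FiniteDimensional K (Lsp K x a b))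
    (finb : ∀ a b, FiniteDimensional k (Lsp k (S.rd x) a b))
    (good : ∃ n₀, ∀ n, n₀ ≤ n → finrank k (Lsp k (S.rd x) 0 n) ≤ finrank K (Lsp K x 0 n) ∧
        finrank k (Lsp k (S.rd x) n 0) ≤ finrank K (Lsp K x n 0))
    {m : ℕ} (hm : 0 < m) (hmk : (m : k) ≠ 0) {u : F} (hu : u ≠ 0) (huV : u ∈ S.V)
    (hu1 : S.rd u = 1)
    (riem : ∃ n₁, ∀ n, n₁ ≤ n → finrank K (Lsp K x 0 n) ≤ finrank K (Xsp K x u m hm 0 n) ∧
        finrank K (Lsp K x n 0) ≤ finrank K (Xsp K x u m hm n 0)) :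
    ∃ h : F, h ≠ 0 ∧ ∃ c : K, u * h ^ m = algebraMap K F c := by
  classical
  by_contra hcon
  push Not at hcon
  obtain ⟨n₀, hn₀⟩ := good
  obtain ⟨n₁, hn₁⟩ := riem
  obtain ⟨n, hnn0, hnn1⟩ : ∃ n, n₀ ≤ n ∧ n₁ ≤ n := ⟨max n₀ n₁, le_max_left _ _, le_max_right _ _⟩
  have hmn0 : n₀ ≤ m * n := le_trans hnn0 (Nat.le_mul_of_pos_left n hm)
  set xb := S.rd x with hxb
  set V1 := Xsp K x u m hm 0 n with hV1
  set V2 := Xsp K x u m hm n 0 with hV2
  have fV1 : FiniteDimensional K V1 := by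
    have := fin (m * 0) (m * n)
    exact Xsp_finite hu
  have fV2 : FiniteDimensional K V2 := by
    have := fin (m * n) (m * 0)
    exact Xsp_finite hu
  have hredX : ∀ {a b : ℕ} {f : F}, f ∈ Xsp K x u m hm a b → f ∈ S.V → S.rd f ∈ Lsp k xb a b :=
    fun hf hV => rd_mem_of_Xsp S hx hx0 int0 intI huV hu1 hf hV
  have hredL : ∀ {a b : ℕ} {f : F}, f ∈ Lsp K x a b → f ∈ S.V → S.rd f ∈ Lsp k xb a b :=
    fun hf hV => rd_mem_Lsp S hx hx0 int0 intI hf hV
  -- `V1 ⊓ V2 = ⊥`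
  have hinf : V1 ⊓ V2 = ⊥ := by
    rw [Submodule.eq_bot_iff]
    rintro f ⟨h1, h2⟩
    by_contra hf
    have h1' := (mem_Xsp.1 h1).1
    have h2' := (mem_Xsp.1 h2).2
    rw [Nat.mul_zero] at h1' h2'
    obtain ⟨c, hc⟩ := const _ (mem_Lsp.2 ⟨h1', h2'⟩)
    exact hcon f hf c hc
  -- reductions of `V1`, `V2`
  have hR1le : redSub S V1 ≤ Lsp k xb 0 n := by
    rintro _ ⟨f, hf, hfV, rfl⟩
    exact hredX hf hfV
  have hR2le : redSub S V2 ≤ Lsp k xb n 0 := by
    rintro _ ⟨f, hf, hfV, rfl⟩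
    exact hredX hf hfV
  have hR1 : redSub S V1 = Lsp k xb 0 n := by
    have := finb 0 n
    apply Submodule.eq_of_le_of_finrank_le hR1le
    rw [dimRed V1 fV1]
    exact le_trans (hn₀ n hnn0).1 (hn₁ n hnn1).1
  have hR2 : redSub S V2 = Lsp k xb n 0 := by
    have := finb n 0
    apply Submodule.eq_of_le_of_finrank_le hR2le
    rw [dimRed V2 fV2]
    exact le_trans (hn₀ n hnn0).2 (hn₁ n hnn1).2
  have d1 : finrank k (Lsp k xb 0 n) = finrank K V1 := by rw [← hR1, dimRed V1 fV1]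
  have d2 : finrank k (Lsp k xb n 0) = finrank K V2 := by rw [← hR2, dimRed V2 fV2]
  -- reductions of `L(0,mn)`, `L(mn,0)`
  have hB1 : redSub S (Lsp K x 0 (m * n)) = Lsp k xb 0 (m * n) := by
    have := finb 0 (m * n)
    apply Submodule.eq_of_le_of_finrank_le
    · rintro _ ⟨f, hf, hfV, rfl⟩
      exact hredL hf hfV
    · rw [dimRed _ (fin _ _)]
      exact (hn₀ _ hmn0).1
  have hB2 : redSub S (Lsp K x (m * n) 0) = Lsp k xb (m * n) 0 := by
    have := finb (m * n) 0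
    apply Submodule.eq_of_le_of_finrank_le
    · rintro _ ⟨f, hf, hfV, rfl⟩
      exact hredL hf hfV
    · rw [dimRed _ (fin _ _)]
      exact (hn₀ _ hmn0).2
  have b1 : finrank k (Lsp k xb 0 (m * n)) = finrank K (Lsp K x 0 (m * n)) := by
    rw [← hB1, dimRed _ (fin _ _)]
  have b2 : finrank k (Lsp k xb (m * n) 0) = finrank K (Lsp K x (m * n) 0) := by
    rw [← hB2, dimRed _ (fin _ _)]
  -- the element `p`
  have hlt : finrank k ↥(Lsp k xb 0 n ⊔ Lsp k xb n 0) < finrank k ↥(redSub S (V1 ⊔ V2)) := by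
    rw [dimRed (V1 ⊔ V2) inferInstance]
    have e1 := Submodule.finrank_sup_add_finrank_inf_eq V1 V2
    rw [hinf, finrank_bot, add_zero] at e1
    have := finb 0 n
    have := finb n 0
    have e2 := Submodule.finrank_sup_add_finrank_inf_eq (Lsp k xb 0 n) (Lsp k xb n 0)
    have e3 : 0 < finrank k ↥(Lsp k xb 0 n ⊓ Lsp k xb n 0) := by
      apply finrank_pos_iff_exists_ne_zero.2
      refine ⟨⟨1, one_mem_Lsp _ _ _, one_mem_Lsp _ _ _⟩, ?_⟩
      intro h
      exact one_ne_zero (congrArg Subtype.val h)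
    omega
  have hnle : ¬ redSub S (V1 ⊔ V2) ≤ Lsp k xb 0 n ⊔ Lsp k xb n 0 := by
    intro hle
    have := finb 0 n
    have := finb n 0
    exact absurd (Submodule.finrank_mono hle) (not_le.2 hlt)
  obtain ⟨pb, hpb, hpb'⟩ := SetLike.not_le_iff_exists.1 hnle
  obtain ⟨p, hp, hpV, rfl⟩ := hpb
  have hpnn : S.rd p ∈ Lsp k xb n n :=
    hredX (sup_le (Xsp_mono (Nat.zero_le _) le_rfl) (Xsp_mono le_rfl (Nat.zero_le _)) hp) hpV
  obtain ⟨p1, hp1, p2, hp2, rfl⟩ := Submodule.mem_sup.1 hp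
  have hp1V : p1 ∉ S.V := by
    intro h1
    have h2 : p2 ∈ S.V := by
      have := sub_mem hpV h1
      simpa using this
    apply hpb'
    rw [rd_add S h1 h2]
    exact Submodule.add_mem_sup (hR1le ⟨p1, hp1, h1, rfl⟩) (hR2le ⟨p2, hp2, h2, rfl⟩)
  have hp10 : p1 ≠ 0 := by
    rintro rfl
    exact hp1V (zero_mem _)
  obtain ⟨c, hc0, hcV, hcV'⟩ := S.scale p1 hp10
  set C := algebraMap K F c with hC
  have hC0 : C ≠ 0 := by
    rw [hC]
    exact (_root_.map_ne_zero _).2 hc0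
  have hp1inv : p1⁻¹ ∈ S.V := (S.V.mem_or_inv_mem p1).resolve_left hp1V
  have hCV : C ∈ S.V := by
    have := mul_mem hcV hp1inv
    rwa [mul_assoc, mul_inv_cancel₀ hp10, mul_one] at this
  have hCrd : S.rd C = 0 := by
    by_contra hne
    have := inv_mem_of_rd_ne_zero S hCV hne
    apply hp1V
    have h3 := mul_mem this hcV
    rwa [← mul_assoc, inv_mul_cancel₀ hC0, one_mul] at h3
  have hy1ne : S.rd (C * p1) ≠ 0 := rd_ne_zero_of_inv_mem S hcV hcV' (mul_ne_zero hC0 hp10)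
  have hCp : S.rd (C * (p1 + p2)) = 0 := by rw [rd_mul S hCV hpV, hCrd, zero_mul]
  have hy2V : C * p2 ∈ S.V := by
    have := sub_mem (mul_mem hCV hpV) hcV
    have e : C * (p1 + p2) - C * p1 = C * p2 := by ring
    rwa [e] at this
  have hy2 : S.rd (C * p2) = - S.rd (C * p1) := by
    have e : C * p2 = C * (p1 + p2) - C * p1 := by ring
    rw [e, rd_sub S (mul_mem hCV hpV) hcV, hCp, zero_sub]
  have hy1mem : C * p1 ∈ V1 := by
    have := V1.smul_mem c hp1
    rwa [Algebra.smul_def] at this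
  have hy2mem : C * p2 ∈ V2 := by
    have := V2.smul_mem c hp2
    rwa [Algebra.smul_def] at this
  have hy1R1 : S.rd (C * p1) ∈ Lsp k xb 0 n := hR1le ⟨_, hy1mem, hcV, rfl⟩
  have hy1R2 : S.rd (C * p1) ∈ Lsp k xb n 0 := by
    have : S.rd (C * p2) ∈ Lsp k xb n 0 := hR2le ⟨_, hy2mem, hy2V, rfl⟩
    rw [hy2] at this
    simpa using neg_mem this
  obtain ⟨e, he⟩ := constb _ (mem_Lsp.2 ⟨hy1R1.1, hy1R2.2⟩)
  have he0 : e ≠ 0 := by
    rintro rfl
    rw [map_zero] at he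
    exact hy1ne he
  obtain ⟨a, ha⟩ := S.resA_surj e⁻¹
  set Aa := algebraMap K F (a : K) with hAa
  have hAaV : Aa ∈ S.V := S.map_mem _ a.2
  have hAard : S.rd Aa = algebraMap k Fb e⁻¹ := by
    rw [hAa, rd_algebraMap S a.2, rc_of_mem S a.2]
    exact congrArg _ ha
  have ha0 : (a : K) ≠ 0 := by
    intro h0
    have : a = 0 := Subtype.ext h0
    rw [this, map_zero] at ha
    exact inv_ne_zero he0 ha.symm
  have hAa0 : Aa ≠ 0 := by
    rw [hAa]
    exact (_root_.map_ne_zero _).2 ha0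
  set u1 := Aa * (C * p1) with hu1def
  set u2 := -(Aa * (C * p2)) with hu2def
  have hu1V : u1 ∈ S.V := mul_mem hAaV hcV
  have hu2V : u2 ∈ S.V := neg_mem (mul_mem hAaV hy2V)
  have hee : algebraMap k Fb e⁻¹ * algebraMap k Fb e = 1 := by
    rw [← map_mul, inv_mul_cancel₀ he0, map_one]
  have hu1rd : S.rd u1 = 1 := by
    rw [hu1def, rd_mul S hAaV hcV, hAard, he, hee]
  have hu2rd : S.rd u2 = 1 := by
    rw [hu2def, rd_neg S (mul_mem hAaV hy2V), rd_mul S hAaV hy2V, hAard, hy2, he, mul_neg, neg_neg,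
      hee]
  have hu1mem : u1 ∈ V1 := by
    have := V1.smul_mem (a : K) hy1mem
    rwa [Algebra.smul_def] at this
  have hu2mem : u2 ∈ V2 := by
    have := V2.smul_mem (a : K) hy2mem
    rw [Algebra.smul_def] at this
    exact neg_mem this
  set Sg := ∑ i ∈ Finset.range m, u1 ^ i * u2 ^ (m - 1 - i) with hSg
  set T := (p1 + p2) * u * Sg with hT
  have hsumV : ∀ i ∈ Finset.range m, u1 ^ i * u2 ^ (m - 1 - i) ∈ S.V :=
    fun i _ => mul_mem (pow_mem hu1V _) (pow_mem hu2V _)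
  have hSgV : Sg ∈ S.V := sum_mem hsumV
  have hrdsum : S.rd Sg = (m : Fb) := by
    rw [hSg, rd_sum S _ _ hsumV]
    have : ∀ i ∈ Finset.range m, S.rd (u1 ^ i * u2 ^ (m - 1 - i)) = 1 := by
      intro i _
      rw [rd_mul S (pow_mem hu1V _) (pow_mem hu2V _), rd_pow S hu1V, rd_pow S hu2V, hu1rd, hu2rd]
      simp
    rw [Finset.sum_congr rfl this]
    simp
  have hTV : T ∈ S.V := mul_mem (mul_mem hpV huV) hSgV
  have hrdT : S.rd T = S.rd (p1 + p2) * (m : Fb) := by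
    rw [hT, rd_mul S (mul_mem hpV huV) hSgV, rd_mul S hpV huV, hu1, mul_one, hrdsum]
  set W := Lsp K x 0 (m * n) ⊔ Lsp K x (m * n) 0 with hW
  have hTW : T ∈ W := by
    have h1 : u * u1 ^ m ∈ Lsp K x 0 (m * n) := by
      have := mem_Xsp.1 hu1mem
      rwa [Nat.mul_zero] at this
    have h2 : u * u2 ^ m ∈ Lsp K x (m * n) 0 := by
      have := mem_Xsp.1 hu2mem
      rwa [Nat.mul_zero] at this
    have h3 : u * u1 ^ m - u * u2 ^ m ∈ W := by
      rw [sub_eq_add_neg]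
      exact Submodule.add_mem_sup h1 (neg_mem h2)
    have h4 := W.smul_mem ((a : K) * c)⁻¹ h3
    convert h4 using 1
    rw [Algebra.smul_def, map_inv₀, map_mul, eq_inv_mul_iff_mul_eq₀ (mul_ne_zero hAa0 hC0)]
    have hgeo : Sg * (u1 - u2) = u1 ^ m - u2 ^ m := geom_sum₂_mul u1 u2 m
    have hdiff : u1 - u2 = Aa * C * (p1 + p2) := by
      rw [hu1def, hu2def]; ring
    rw [hT, ← mul_sub, ← hgeo, hdiff]
    ring
  -- the reduction of `W`
  have hWle : redSub S W ≤ Lsp k xb 0 (m * n) ⊔ Lsp k xb (m * n) 0 := by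
    have hle : Lsp k xb 0 (m * n) ⊔ Lsp k xb (m * n) 0 ≤ redSub S W :=
      sup_le (hB1 ▸ redSub_mono S le_sup_left) (hB2 ▸ redSub_mono S le_sup_right)
    have := finb (m * n) (m * n)
    have := finb 0 (m * n)
    have := finb (m * n) 0
    have := fin 0 (m * n)
    have := fin (m * n) 0
    have hfinW : FiniteDimensional k (redSub S W) := by
      apply Submodule.finiteDimensional_of_le (S₂ := Lsp k xb (m * n) (m * n))
      rintro _ ⟨f, hf, hfV, rfl⟩
      exact hredL (sup_le (Lsp_mono (Nat.zero_le _) le_rfl) (Lsp_mono le_rfl (Nat.zero_le _)) hf) hfV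
    refine (Submodule.eq_of_le_of_finrank_le hle ?_).ge
    rw [dimRed W inferInstance]
    have e4 := Submodule.finrank_sup_add_finrank_inf_eq (Lsp K x 0 (m * n)) (Lsp K x (m * n) 0)
    rw [← hW] at e4
    have e5 := Submodule.finrank_sup_add_finrank_inf_eq (Lsp k xb 0 (m * n)) (Lsp k xb (m * n) 0)
    have e6 : 0 < finrank K ↥(Lsp K x 0 (m * n) ⊓ Lsp K x (m * n) 0) := by
      apply finrank_pos_iff_exists_ne_zero.2
      refine ⟨⟨1, one_mem_Lsp _ _ _, one_mem_Lsp _ _ _⟩, ?_⟩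
      intro h
      exact one_ne_zero (congrArg Subtype.val h)
    have e7 : finrank k ↥(Lsp k xb 0 (m * n) ⊓ Lsp k xb (m * n) 0) ≤ 1 := by
      have hle1 : Lsp k xb 0 (m * n) ⊓ Lsp k xb (m * n) 0 ≤ Submodule.span k {(1 : Fb)} := by
        rintro f ⟨h1, h2⟩
        obtain ⟨c', hc'⟩ := constb f (mem_Lsp.2 ⟨h1.1, h2.2⟩)
        rw [Submodule.mem_span_singleton]
        exact ⟨c', by rw [hc', Algebra.smul_def, mul_one]⟩
      calc finrank k ↥(Lsp k xb 0 (m * n) ⊓ Lsp k xb (m * n) 0)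
          ≤ finrank k ↥(Submodule.span k {(1 : Fb)}) := Submodule.finrank_mono hle1
        _ = 1 := finrank_span_singleton one_ne_zero
    omega
  obtain ⟨a1, ha1, a2, ha2, hsum⟩ := Submodule.mem_sup.1 (hWle ⟨T, hTW, hTV, rfl⟩)
  have ha1eq : a1 = S.rd (p1 + p2) * (m : Fb) - a2 := by
    rw [← hrdT, ← hsum]; ring
  have ha2eq : a2 = S.rd (p1 + p2) * (m : Fb) - a1 := by
    rw [← hrdT, ← hsum]; ring
  have ha1' : a1 ∈ Lsp k xb 0 n := by
    refine mem_Lsp.2 ⟨ha1.1, ?_⟩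
    have e : xb⁻¹ ^ n * a1 = (m : Fb) * (xb⁻¹ ^ n * S.rd (p1 + p2)) - xb⁻¹ ^ n * (xb⁻¹ ^ 0 * a2) := by
      rw [ha1eq]; ring
    rw [e]
    exact sub_mem (mul_mem (natCast_mem _ m) hpnn.2)
      (mul_mem (pow_mem (self_mem_intRing _) n) ha2.2)
  have ha2' : a2 ∈ Lsp k xb n 0 := by
    refine mem_Lsp.2 ⟨?_, ha2.2⟩
    have e : xb ^ n * a2 = (m : Fb) * (xb ^ n * S.rd (p1 + p2)) - xb ^ n * (xb ^ 0 * a1) := by
      rw [ha2eq]; ring
    rw [e]
    exact sub_mem (mul_mem (natCast_mem _ m) hpnn.1)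
      (mul_mem (pow_mem (self_mem_intRing _) n) ha1.1)
  apply hpb'
  have hfinal : S.rd (p1 + p2) = (m : k)⁻¹ • (a1 + a2) := by
    rw [hsum, hrdT, Algebra.smul_def, map_inv₀, map_natCast]
    have : (m : Fb) ≠ 0 := by
      rw [← map_natCast (algebraMap k Fb)]
      exact (_root_.map_ne_zero _).2 hmk
    field_simp
  rw [hfinal]
  exact Submodule.smul_mem _ _ (Submodule.add_mem_sup ha1' ha2')

end main

end CoreDim

end Fermat.Agent.S18
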