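import Fermat.Agent.S18.Basic

/-!
# S18, piece DW (abstract part): descent of an `m`-th root along an extension with the same residue degree
-/

set_option autoImplicit false

namespace Fermat.Agent.S18

open Polynomial

namespace DW

variable {K k F F' Fb Fb' : Type*} [Field K] [Field k] [Field F] [Field F'] [Field Fb] [Field Fb']
  [Algebra K F] [Algebra K F'] [Algebra k Fb] [Algebra k Fb'] [Algebra F F'] [Algebra Fb Fb']

/-- a finite nonzero family in a valued field has an entry of maximal valuation. -/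
theorem exists_max {E : Type*} [Field E] (V : ValuationSubring E) {ι : Type*} [Finite ι]
    (c : ι → E) (hc : c ≠ 0) : ∃ i₀, c i₀ ≠ 0 ∧ ∀ i, (c i₀)⁻¹ * c i ∈ V := by
  obtain ⟨j, hj⟩ : ∃ j, c j ≠ 0 := by
    by_contra hcon
    push Not at hcon
    exact hc (funext hcon)
  have : Nonempty ι := ⟨j⟩
  obtain ⟨i₀, hi₀⟩ := Finite.exists_max (fun i => V.valuation (c i))
  have hv0 : V.valuation (c i₀) ≠ 0 := by
    have h1 : V.valuation (c j) ≠ 0 := (Valuation.ne_zero_iff _).mpr hj
    exact (lt_of_lt_of_le (zero_lt_iff.mpr h1) (hi₀ j)).ne'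
  have ha0 : c i₀ ≠ 0 := (Valuation.ne_zero_iff _).mp hv0
  refine ⟨i₀, ha0, fun i => ?_⟩
  rw [← ValuationSubring.valuation_le_one_iff, map_mul, map_inv₀]
  exact (inv_mul_le_one₀ (zero_lt_iff.mpr hv0)).mpr (hi₀ i)

variable (S : RedSetting K F k Fb) (S' : RedSetting K F' k Fb')

/-- compatibility of two reduction settings along `F → F'`, `Fb → Fb'`. -/
structure Compat : Prop where
  mem_iff : ∀ f : F, algebraMap F F' f ∈ S'.V ↔ f ∈ S.V
  rd_map : ∀ f : F, f ∈ S.V → S'.rd (algebraMap F F' f) = algebraMap Fb Fb' (S.rd f)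

variable {S S'}

/-- reduction of a combination with coefficients in `V`. -/
theorem rd_comb (h : Compat S S') {ι : Type*} [Fintype ι] (e : ι → F') (he : ∀ i, e i ∈ S'.V)
    (c : ι → F) (hc : ∀ i, c i ∈ S.V) :
    (∑ i, c i • e i) ∈ S'.V ∧ S'.rd (∑ i, c i • e i) = ∑ i, S.rd (c i) • S'.rd (e i) := by
  have h1 : ∀ i ∈ Finset.univ, c i • e i ∈ S'.V := fun i _ => by
    rw [Algebra.smul_def]
    exact mul_mem ((h.mem_iff _).mpr (hc i)) (he i)
  refine ⟨sum_mem h1, ?_⟩
  rw [S'.rd_sum _ _ h1]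
  refine Finset.sum_congr rfl fun i _ => ?_
  rw [Algebra.smul_def, S'.rd_mul ((h.mem_iff _).mpr (hc i)) (he i), h.rd_map _ (hc i),
    Algebra.smul_def]

/-- **orthonormality**: if the reductions of the `e i` are independent then a combination lies in `V'`
only if all the coefficients lie in `V`. -/
theorem coeff_mem (h : Compat S S') {ι : Type*} [Fintype ι] (e : ι → F') (he : ∀ i, e i ∈ S'.V)
    (hli : LinearIndependent Fb (fun i => S'.rd (e i))) (c : ι → F)
    (hc : (∑ i, c i • e i) ∈ S'.V) : ∀ i, c i ∈ S.V := by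
  by_cases hc0 : c = 0
  · intro i; rw [hc0]; exact zero_mem _
  obtain ⟨i₀, hi₀, hmax⟩ := exists_max S.V c hc0
  by_cases hV : c i₀ ∈ S.V
  · intro i
    have : c i = c i₀ * ((c i₀)⁻¹ * c i) := by rw [← mul_assoc, mul_inv_cancel₀ hi₀, one_mul]
    rw [this]
    exact mul_mem hV (hmax i)
  exfalso
  have hinv : (c i₀)⁻¹ ∈ S.V := (S.V.mem_or_inv_mem _).resolve_left hV
  have hinv0 : S.rd (c i₀)⁻¹ = 0 := (S.rd_eq_zero_iff hinv).mpr (Or.inr (by rwa [inv_inv]))
  obtain ⟨-, h2⟩ := rd_comb h e he (fun i => (c i₀)⁻¹ * c i) hmax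
  have h3 : (∑ i, ((c i₀)⁻¹ * c i) • e i) = algebraMap F F' (c i₀)⁻¹ * ∑ i, c i • e i := by
    rw [Finset.mul_sum]
    refine Finset.sum_congr rfl fun i _ => ?_
    rw [mul_smul, Algebra.smul_def]
  rw [h3, S'.rd_mul ((h.mem_iff _).mpr hinv) hc, h.rd_map _ hinv, hinv0, map_zero, zero_mul] at h2
  have h4 := (Fintype.linearIndependent_iff.mp hli) _ h2.symm i₀
  rw [inv_mul_cancel₀ hi₀, S.rd_one] at h4
  exact one_ne_zero h4

/-- lifts of an independent family are independent. -/
theorem linearIndependent_of_rd (h : Compat S S') {ι : Type*} [Fintype ι] (e : ι → F')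
    (he : ∀ i, e i ∈ S'.V) (hli : LinearIndependent Fb (fun i => S'.rd (e i))) :
    LinearIndependent F e := by
  rw [Fintype.linearIndependent_iff]
  intro c hc
  by_contra hcon
  have hc0 : c ≠ 0 := fun h0 => hcon (fun i => by rw [h0]; rfl)
  obtain ⟨i₀, hi₀, hmax⟩ := exists_max S.V c hc0
  obtain ⟨-, h2⟩ := rd_comb h e he (fun i => (c i₀)⁻¹ * c i) hmax
  have h3 : (∑ i, ((c i₀)⁻¹ * c i) • e i) = algebraMap F F' (c i₀)⁻¹ * ∑ i, c i • e i := by
    rw [Finset.mul_sum]
    refine Finset.sum_congr rfl fun i _ => ?_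
    rw [mul_smul, Algebra.smul_def]
  rw [h3, hc, mul_zero, S'.rd_zero] at h2
  have h4 := (Fintype.linearIndependent_iff.mp hli) _ h2.symm i₀
  rw [inv_mul_cancel₀ hi₀, S.rd_one] at h4
  exact one_ne_zero h4

/-- **Abstract DW.** `[F' : F] = [Fb' : Fb]`; `w ∈ V'` reduces into `Fb^×`, `w ^ m ∈ F`, `m` invertible in `Fb`.
Then `w ∈ F`. -/
theorem descent (h : Compat S S') [FiniteDimensional F F']
    (hdeg : Module.finrank F F' = Module.finrank Fb Fb')
    {w : F'} (hw : w ∈ S'.V) {ωb : Fb} (hω : S'.rd w = algebraMap Fb Fb' ωb) (hω0 : ωb ≠ 0)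
    {m : ℕ} (hm : (m : Fb) ≠ 0) {u : F} (hwu : w ^ m = algebraMap F F' u) :
    ∃ w₀ : F, algebraMap F F' w₀ = w := by
  classical
  have hm0 : m ≠ 0 := by
    rintro rfl
    exact hm Nat.cast_zero
  have hpos : 0 < Module.finrank Fb Fb' := hdeg ▸ Module.finrank_pos
  have : FiniteDimensional Fb Fb' := Module.finite_of_finrank_pos hpos
  obtain ⟨δ, hδ⟩ : ∃ δ, δ = Module.finrank Fb Fb' := ⟨_, rfl⟩
  let bb : Module.Basis (Fin δ) Fb Fb' := (Module.finBasis Fb Fb').reindex (finCongr hδ.symm)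
  choose e he hebb using fun i => S'.exists_rd_eq (bb i)
  have hli : LinearIndependent Fb (fun i => S'.rd (e i)) := by
    have : (fun i => S'.rd (e i)) = bb := funext hebb
    rw [this]; exact bb.linearIndependent
  have hliF := linearIndependent_of_rd h e he hli
  have : Nonempty (Fin δ) := ⟨⟨0, hδ ▸ hpos⟩⟩
  let b : Module.Basis (Fin δ) F F' :=
    basisOfLinearIndependentOfCardEqFinrank hliF (by rw [Fintype.card_fin, hdeg, hδ])
  have hb : ∀ i, b i = e i := fun i => by
    simp only [b, coe_basisOfLinearIndependentOfCardEqFinrank]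
  obtain ⟨M, hM⟩ : ∃ M, M = Algebra.leftMulMatrix b w := ⟨_, rfl⟩
  have hMe : ∀ j, w * e j = ∑ i, M i j • e i := by
    intro j
    rw [← hb j, ← b.sum_repr (w * b j)]
    refine Finset.sum_congr rfl fun i _ => ?_
    rw [hM, Algebra.leftMulMatrix_eq_repr_mul, hb i]
  have hMV : ∀ i j, M i j ∈ S.V := fun i j =>
    coeff_mem h e he hli (fun i => M i j) (by rw [← hMe]; exact mul_mem hw (he j)) i
  have hMred : ∀ i j, S.rd (M i j) = if i = j then ωb else 0 := by
    intro i j
    obtain ⟨-, h2⟩ := rd_comb h e he (fun i => M i j) (fun i => hMV i j)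
    rw [← hMe, S'.rd_mul hw (he j), hω] at h2
    have h3 : ∑ i, (S.rd (M i j) - if i = j then ωb else 0) • S'.rd (e i) = 0 := by
      simp only [sub_smul, Finset.sum_sub_distrib, ite_smul, zero_smul, Finset.sum_ite_eq',
        Finset.mem_univ, if_true]
      rw [← h2, Algebra.smul_def, sub_self]
    exact sub_eq_zero.mp ((Fintype.linearIndependent_iff.mp hli) _ h3 i)
  -- integral model of the matrix
  let M₀ : Matrix (Fin δ) (Fin δ) S.V := fun i j => ⟨M i j, hMV i j⟩
  have hM₀ : M₀.map (algebraMap S.V F) = M := rfl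
  have hM₀red : M₀.map S.red = Matrix.diagonal (fun _ => ωb) := by
    ext i j
    rw [Matrix.map_apply, Matrix.diagonal_apply, ← hMred i j, S.rd_of_mem (hMV i j)]
  have hχ : M.charpoly = M₀.charpoly.map (algebraMap S.V F) := by
    rw [← hM₀, Matrix.charpoly_map]
  have hχred : M₀.charpoly.map S.red = (X - C ωb) ^ δ := by
    rw [← Matrix.charpoly_map, hM₀red, Matrix.charpoly_diagonal, Finset.prod_const,
      Finset.card_univ, Fintype.card_fin]
  have hint : IsIntegral F w := Algebra.IsIntegral.isIntegral w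
  have hχw : aeval w M.charpoly = 0 := by
    have h1 := Matrix.aeval_self_charpoly M
    rw [hM, Polynomial.aeval_algHom_apply] at h1
    rw [hM]
    exact (Algebra.leftMulMatrix_injective b) (h1.trans (map_zero _).symm)
  have hμχ : minpoly F w ∣ M.charpoly := minpoly.dvd F w hχw
  have huV : u ∈ S.V := (h.mem_iff u).mp (hwu ▸ pow_mem hw m)
  have hμu : minpoly F w ∣ X ^ m - C u := minpoly.dvd F w (by simp [hwu])
  have hinj : Function.Injective (algebraMap S.V F) := Subtype.val_injective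
  obtain ⟨μ₀, hμ₀⟩ := IsIntegrallyClosed.eq_map_mul_C_of_dvd F (M₀.charpoly_monic)
    (g := minpoly F w) (by rw [← hχ]; exact hμχ)
  rw [(minpoly.monic hint).leadingCoeff, C_1, mul_one] at hμ₀
  have hμ₀m : μ₀.Monic := monic_of_injective hinj (by rw [hμ₀]; exact minpoly.monic hint)
  have hd1 : μ₀ ∣ M₀.charpoly :=
    (M₀.charpoly_monic).dvd_of_fraction_map_dvd_fraction_map (K := F) hμ₀m
      (by rw [hμ₀, ← hχ]; exact hμχ)
  have hd2 : μ₀ ∣ X ^ m - C (⟨u, huV⟩ : S.V) :=
    (monic_X_pow_sub_C _ hm0).dvd_of_fraction_map_dvd_fraction_map (K := F) hμ₀m (by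
      rw [hμ₀, Polynomial.map_sub, Polynomial.map_pow, map_X, map_C]
      exact hμu)
  have hr1 : μ₀.map S.red ∣ (X - C ωb) ^ δ := hχred ▸ Polynomial.map_dvd S.red hd1
  have hr2 : μ₀.map S.red ∣ X ^ m - C (S.rd u) := by
    have := Polynomial.map_dvd S.red hd2
    rwa [Polynomial.map_sub, Polynomial.map_pow, map_X, map_C, ← S.rd_of_mem huV] at this
  have hu0 : S.rd u ≠ 0 := by
    intro h0
    have h1 := h.rd_map u huV
    rw [← hwu, S'.rd_pow hw, hω, h0, map_zero] at h1
    exact hω0 ((map_eq_zero _).mp (pow_eq_zero_iff hm0 |>.mp h1))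
  have hsep : (μ₀.map S.red).Separable := (separable_X_pow_sub_C _ hm hu0).of_dvd hr2
  obtain ⟨j, -, hj⟩ := (dvd_prime_pow (prime_X_sub_C ωb) δ).mp hr1
  have hsep' : ((X - C ωb) ^ j).Separable := hsep.of_dvd hj.symm.dvd
  have hj1 : j ≤ 1 := by
    by_contra hcon
    have := (Separable.of_pow (not_isUnit_X_sub_C ωb) (by omega) hsep').2
    omega
  have hdegμ : (minpoly F w).natDegree = j := by
    rw [← hμ₀, natDegree_map_eq_of_injective hinj, ← hμ₀m.natDegree_map S.red,
      natDegree_eq_of_degree_eq (degree_eq_degree_of_associated hj), natDegree_pow,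
      natDegree_X_sub_C, mul_one]
  have hpos' := minpoly.natDegree_pos hint
  have hdeg1 : (minpoly F w).degree = 1 := by
    rw [degree_eq_natDegree (minpoly.ne_zero hint)]
    have : (minpoly F w).natDegree = 1 := by omega
    rw [this]; rfl
  obtain ⟨w₀, hw₀⟩ := minpoly.mem_range_of_degree_eq_one F w hdeg1
  exact ⟨w₀, hw₀⟩

end DW

end Fermat.Agent.S18
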