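import Fermat.Agent.S18.OrderRed

/-!
# S18, piece DE: `dim L̄(a,b) = dim L(a,b)` for `a + b ≫ 0`  ("the genus does not drop")
-/

set_option autoImplicit false

namespace Fermat.Agent.S18

open Polynomial IntermediateField Fermat.Agent.S24 Matrix

theorem de_aeval_mem {E L : Type*} [Field E] [Field L] [Algebra E L] (M : IntermediateField E L)
    {z : L} (hz : z ∈ M) (p : E[X]) : aeval z p ∈ M := by
  have h := IntermediateField.aeval_coe M (⟨z, hz⟩ : M) p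
  change aeval z p = _ at h
  rw [h]
  exact Subtype.property _

/-- two matrices with entries in `E(y)` which agree on a `E[y]`-independent family are equal. -/
theorem de_matrix_ext {E L : Type*} [Field E] [Field L] [Algebra E L] {y : L}
    (hy : Transcendental E y) {μ : ℕ} (e : Fin μ → L) (hind : PolyIndep E y e)
    (M N : Matrix (Fin μ) (Fin μ) L) (hM : ∀ i j, M i j ∈ E⟮y⟯) (hN : ∀ i j, N i j ∈ E⟮y⟯)
    (h' : M *ᵥ e = N *ᵥ e) : M = N := by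
  have hli := linearIndependent_of_polyIndep hy e hind
  have h : ∀ i, ∑ j, M i j * e j = ∑ j, N i j * e j := fun i => congrFun h' i
  ext i j
  have h1 : ∑ j, (⟨M i j - N i j, sub_mem (hM i j) (hN i j)⟩ : E⟮y⟯) • e j = 0 := by
    have h2 : ∀ j, (⟨M i j - N i j, sub_mem (hM i j) (hN i j)⟩ : E⟮y⟯) • e j
        = M i j * e j - N i j * e j := by
      intro j
      rw [← sub_mul]
      rfl
    simp only [h2]
    rw [Finset.sum_sub_distrib, h i, sub_self]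
  have h3 := (Fintype.linearIndependent_iff.mp hli) _ h1 j
  have h4 := congrArg Subtype.val h3
  exact sub_eq_zero.mp h4

theorem de_pow_eq {E L : Type*} [Field E] [Field L] [Algebra E L] {y : L}
    (hy : Transcendental E y) {c d : E} (hc : c ≠ 0) {m n : ℕ}
    (h : algebraMap E L c * y ^ m = algebraMap E L d * y ^ n) : m = n := by
  have h1 : aeval y (C c * X ^ m - C d * X ^ n) = 0 := by
    simp only [map_sub, map_mul, aeval_C, map_pow, aeval_X]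
    rw [h, sub_self]
  have h2 := (transcendental_iff.mp hy) _ h1
  by_contra hne
  have h3 := congrArg (fun p => p.coeff m) h2
  simp only [coeff_sub, coeff_C_mul, coeff_X_pow, coeff_zero] at h3
  rw [if_pos trivial, if_neg hne] at h3
  simp at h3
  exact hc h3

variable {K F k Fb : Type*} [Field K] [Field F] [Algebra K F] [Field k] [Field Fb] [Algebra k Fb]
variable (S : RedSetting K F k Fb)

/-- determinants commute with reduction. -/
theorem RedSetting.de_rd_det {μ : ℕ} (M : Matrix (Fin μ) (Fin μ) F) (hM : ∀ i j, M i j ∈ S.V) :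
    M.det ∈ S.V ∧ S.rd M.det = (M.map S.rd).det := by
  let M' : Matrix (Fin μ) (Fin μ) S.V := fun i j => ⟨M i j, hM i j⟩
  have h1 : M = S.V.subtype.mapMatrix M' := by
    ext i j
    rfl
  have h2 : M.det = S.V.subtype M'.det := by
    rw [RingHom.map_det, ← h1]
  have h3 : M.det ∈ S.V := by
    rw [h2]
    exact Subtype.property _
  refine ⟨h3, ?_⟩
  have h4 : S.rd M.det = S.red M'.det := by
    rw [S.rd_of_mem h3]
    congr 1
    exact Subtype.ext h2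
  rw [h4, RingHom.map_det]
  congr 1
  ext i j
  exact (S.rd_of_mem (hM i j)).symm

theorem RedSetting.de_common_denom {x : F} (hx : S.Coord x) {μ : ℕ}
    (hμ : Module.finrank K⟮x⟯ F = μ) (e : Fin μ → F)
    (he : ∀ i, e i ∈ S.V) (hind : PolyIndep k (S.rd x) (fun i => S.rd (e i))) (G : Finset F) :
    ∃ q : K[X], (∀ n, q.coeff n ∈ S.A) ∧ S.rp q ≠ 0 ∧
      ∀ g ∈ G, ∃ p : Fin μ → K[X], aeval x q * g = ∑ i, aeval x (p i) * e i := by
  subst hμ
  exact S.exists_common_denom hx e he hind G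

theorem RedSetting.de_core [IsAlgClosed K] {x : F} (hx : S.Coord x) {μ : ℕ}
    (hμ : Module.finrank K⟮x⁻¹⟯ F = μ)
    (o o' : Fin μ → F) (ho : IsIntBasis (K := K) x o) (ho' : IsIntBasis (K := K) x⁻¹ o')
    (e e' : Fin μ → Fb) (he : IsIntBasis (K := k) (S.rd x) e)
    (he' : IsIntBasis (K := k) (S.rd x)⁻¹ e')
    (h0 : S.NormalRed x) (hinf : S.NormalRed x⁻¹)
    (a s : ℕ) (G : Matrix (Fin μ) (Fin μ) K[X]) (c : K) (hdet : G.det = C c * X ^ s)
    (hG : ∀ i, o i = x ^ a * ∑ j, aeval x⁻¹ (G i j) * o' j)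
    (ab sb : ℕ) (Gb : Matrix (Fin μ) (Fin μ) k[X]) (cb : k) (hcb : cb ≠ 0)
    (hdetb : Gb.det = C cb * X ^ sb)
    (hGb : ∀ i, e i = (S.rd x) ^ ab * ∑ j, aeval (S.rd x)⁻¹ (Gb i j) * e' j) :
    s + ab * μ = sb + a * μ := by
  classical
  have hy : S.Coord x⁻¹ := RedSetting.Coord.inv S hx
  have hrdy : S.rd x⁻¹ = (S.rd x)⁻¹ := RedSetting.Coord.rd_inv S hx
  have htrKy : Transcendental K x⁻¹ := S.transcendental_of_rd hy.mem hy.trans
  have htrk := hx.trans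
  have htrky : Transcendental k (S.rd x)⁻¹ := hrdy ▸ hy.trans
  have hX0 : S.rd x ≠ 0 := fun h => by
    rw [h] at htrk
    exact htrk isAlgebraic_zero
  -- lifts
  have heint : ∀ i, e i ∈ intRing k (S.rd x) := fun i => (he.2 _).mpr (nc_self_mem i)
  have he'int : ∀ i, e' i ∈ intRing k (S.rd x⁻¹) := fun i => by
    rw [hrdy]; exact (he'.2 _).mpr (nc_self_mem i)
  choose b hbint hbV hbrd using fun i => h0 (e i) (heint i)
  choose b' hb'int hb'V hb'rd using fun i => hinf (e' i) (he'int i)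
  have hbfun : (fun i => S.rd (b i)) = e := _root_.funext hbrd
  have hb'fun : (fun i => S.rd (b' i)) = e' := _root_.funext hb'rd
  have hind' : PolyIndep k (S.rd x⁻¹) (fun i => S.rd (b' i)) := by
    rw [hb'fun, hrdy]; exact he'.1
  have hRB : S.IsRedBasis x b := ⟨hbint, hbV, by rw [hbfun]; exact he.1, fun h hh hV => by
    rw [hbfun]; exact (he.2 _).mp (S.rd_mem_intRing hx hV hh)⟩
  have hRB' : S.IsRedBasis x⁻¹ b' := ⟨hb'int, hb'V, hind', fun h hh hV => by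
    have h1 := S.rd_mem_intRing hy hV hh
    rw [hb'fun]
    rw [hrdy] at h1 ⊢
    exact (he'.2 _).mp h1⟩
  choose G₁ hG₁ using fun i => (ho.2 _).mp (hbint i)
  choose G₂ hG₂ using fun i => (ho'.2 _).mp (hb'int i)
  have hdet₁ : ∀ c ∈ S.A, (Matrix.of G₁).det.eval c ≠ 0 := fun c hc =>
    S.det_eval_ne_zero hx b o hRB ho (Matrix.of G₁) hG₁ hc
  have hdet₂ : ∀ c ∈ S.A, (Matrix.of G₂).det.eval c ≠ 0 := fun c hc =>
    S.det_eval_ne_zero hy b' o' hRB' ho' (Matrix.of G₂) hG₂ hc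
  have hne₁ : (Matrix.of G₁).det ≠ 0 := fun h => hdet₁ 0 (zero_mem _) (by rw [h, eval_zero])
  have hne₂ : (Matrix.of G₂).det ≠ 0 := fun h => hdet₂ 0 (zero_mem _) (by rw [h, eval_zero])
  obtain ⟨c₁, I₁, hc₁, hI₁, hI₁A, hI₁1⟩ := S.exists_eq_C_mul_of_no_root hne₁ hdet₁
  obtain ⟨c₂, I₂, hc₂, hI₂, hI₂A, hI₂1⟩ := S.exists_eq_C_mul_of_no_root hne₂ hdet₂
  -- common denominator
  obtain ⟨q, hqA, hq0, hq⟩ := S.de_common_denom hy hμ b' hb'V hind' (Finset.univ.image b)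
  choose P hP using fun i => hq (b i) (Finset.mem_image_of_mem b (Finset.mem_univ i))
  have hPA : ∀ i j n, (P i j).coeff n ∈ S.A := fun i =>
    S.coeff_mem_of_sum_mem hy.mem b' hb'V hind' (P i) (by
      rw [← hP i]; exact mul_mem (S.aeval_mem hy.mem hqA) (hbV i))
  -- the matrices over `F`
  let MP : Matrix (Fin μ) (Fin μ) F := fun i j => aeval x⁻¹ (P i j)
  let M2 : Matrix (Fin μ) (Fin μ) F := fun i j => aeval x⁻¹ (G₂ i j)
  let M1 : Matrix (Fin μ) (Fin μ) F := fun i j => aeval x (G₁ i j)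
  let MG : Matrix (Fin μ) (Fin μ) F := fun i j => aeval x⁻¹ (G i j)
  let MGb : Matrix (Fin μ) (Fin μ) Fb := fun i j => aeval (S.rd x)⁻¹ (Gb i j)
  have hMPV : ∀ i j, MP i j ∈ S.V := fun i j => S.aeval_mem hy.mem (hPA i j)
  have hMPrd : ∀ i j, (MP.map S.rd) i j = aeval (S.rd x)⁻¹ (S.rp (P i j)) := fun i j => by
    change S.rd (aeval x⁻¹ (P i j)) = _
    rw [S.rd_aeval hy.mem (hPA i j), hrdy]
  set Q : Fb := aeval (S.rd x)⁻¹ (S.rp q) with hQ
  have hQ0 : Q ≠ 0 := fun h => hq0 ((transcendental_iff.mp htrky) _ h)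
  -- the `k`-side
  have hk1 : MP.map S.rd = (Q * S.rd x ^ ab) • MGb := by
    refine de_matrix_ext htrky e' he'.1 _ _ ?_ ?_ ?_
    · intro i j
      rw [hMPrd]
      exact de_aeval_mem _ (mem_adjoin_simple_self _ _) _
    · intro i j
      rw [Matrix.smul_apply, smul_eq_mul]
      refine mul_mem (mul_mem (de_aeval_mem _ (mem_adjoin_simple_self _ _) _) (pow_mem ?_ _))
        (de_aeval_mem _ (mem_adjoin_simple_self _ _) _)
      have := inv_mem (mem_adjoin_simple_self k (S.rd x)⁻¹)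
      rwa [inv_inv] at this
    · funext i
      rw [Matrix.smul_mulVec]
      change ∑ j, (MP.map S.rd) i j * e' j = (Q * S.rd x ^ ab) * ∑ j, MGb i j * e' j
      have h1 := (S.rd_sum_aeval hy.mem b' hb'V (P i) (hPA i)).2
      rw [← hP i, S.rd_mul (S.aeval_mem hy.mem hqA) (hbV i), S.rd_aeval hy.mem hqA, hbrd, hrdy]
        at h1
      simp only [hMPrd]
      simp only [hb'rd] at h1
      rw [← h1, mul_assoc, ← hGb i]
  have hk2 : (MP.map S.rd).det = (Q * S.rd x ^ ab) ^ μ * (algebraMap k Fb cb * (S.rd x)⁻¹ ^ sb) := by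
    rw [hk1, Matrix.det_smul, Fintype.card_fin]
    congr 1
    have h1 : MGb = (aeval (S.rd x)⁻¹ : k[X] →ₐ[k] Fb).mapMatrix Gb := rfl
    rw [h1, ← AlgHom.map_det, hdetb, map_mul, aeval_C, map_pow, aeval_X]
  -- the `K`-side
  have hb' : b' = M2 *ᵥ o' := _root_.funext hG₂
  have hb : b = M1 *ᵥ o := _root_.funext hG₁
  have ho_ : o = x ^ a • (MG *ᵥ o') := _root_.funext hG
  have hPb : aeval x⁻¹ q • b = MP *ᵥ b' := _root_.funext hP
  have hxmem : x ∈ K⟮x⁻¹⟯ := by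
    have := inv_mem (mem_adjoin_simple_self K x⁻¹)
    rwa [inv_inv] at this
  have hK1 : MP * M2 = (aeval x⁻¹ q * x ^ a) • (M1 * MG) := by
    refine de_matrix_ext htrKy o' ho'.1 _ _ ?_ ?_ ?_
    · intro i j
      rw [Matrix.mul_apply]
      exact sum_mem fun l _ => mul_mem (de_aeval_mem _ (mem_adjoin_simple_self _ _) _)
        (de_aeval_mem _ (mem_adjoin_simple_self _ _) _)
    · intro i j
      rw [Matrix.smul_apply, smul_eq_mul, Matrix.mul_apply]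
      exact mul_mem (mul_mem (de_aeval_mem _ (mem_adjoin_simple_self _ _) _) (pow_mem hxmem _))
        (sum_mem fun l _ => mul_mem (de_aeval_mem _ hxmem _)
          (de_aeval_mem _ (mem_adjoin_simple_self _ _) _))
    · rw [← Matrix.mulVec_mulVec, ← hb', ← hPb, Matrix.smul_mulVec, ← Matrix.mulVec_mulVec,
        mul_smul, ← Matrix.mulVec_smul, ← ho_, ← hb]
  have hK2 : MP.det * (algebraMap K F c₂ * aeval x⁻¹ I₂) =
      (aeval x⁻¹ q * x ^ a) ^ μ * ((algebraMap K F c₁ * aeval x I₁) *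
        (algebraMap K F c * x⁻¹ ^ s)) := by
    have h1 := congrArg Matrix.det hK1
    rw [Matrix.det_mul, Matrix.det_smul, Fintype.card_fin, Matrix.det_mul] at h1
    have h2 : M2 = (aeval x⁻¹ : K[X] →ₐ[K] F).mapMatrix (Matrix.of G₂) := rfl
    have h3 : M1 = (aeval x : K[X] →ₐ[K] F).mapMatrix (Matrix.of G₁) := rfl
    have h4 : MG = (aeval x⁻¹ : K[X] →ₐ[K] F).mapMatrix G := rfl
    rw [h2, h3, h4, ← AlgHom.map_det, ← AlgHom.map_det, ← AlgHom.map_det, hI₂, hI₁, hdet] at h1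
    simpa only [map_mul, aeval_C, map_pow, aeval_X] using h1
  -- units
  obtain ⟨hdetV, hdetrd⟩ := S.de_rd_det MP hMPV
  set U₁ : F := MP.det * aeval x⁻¹ I₂ with hU₁
  set U₂ : F := (aeval x⁻¹ q * x ^ a) ^ μ * aeval x I₁ * x⁻¹ ^ s with hU₂
  have hU₁V : U₁ ∈ S.V := mul_mem hdetV (S.aeval_mem hy.mem hI₂A)
  have hU₁rd : S.rd U₁ = (Q * S.rd x ^ ab) ^ μ * (algebraMap k Fb cb * (S.rd x)⁻¹ ^ sb) := by
    rw [hU₁, S.rd_mul hdetV (S.aeval_mem hy.mem hI₂A), S.rd_aeval hy.mem hI₂A, hI₂1, map_one,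
      mul_one, hdetrd, hk2]
  have hqxV : aeval x⁻¹ q * x ^ a ∈ S.V := mul_mem (S.aeval_mem hy.mem hqA) (pow_mem hx.mem _)
  have hU₂V : U₂ ∈ S.V :=
    mul_mem (mul_mem (pow_mem hqxV _) (S.aeval_mem hx.mem hI₁A)) (pow_mem hy.mem _)
  have hU₂rd : S.rd U₂ = (Q * S.rd x ^ a) ^ μ * (S.rd x)⁻¹ ^ s := by
    rw [hU₂, S.rd_mul (mul_mem (pow_mem hqxV _) (S.aeval_mem hx.mem hI₁A)) (pow_mem hy.mem _),
      S.rd_mul (pow_mem hqxV _) (S.aeval_mem hx.mem hI₁A), S.rd_aeval hx.mem hI₁A, hI₁1, map_one,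
      mul_one, S.rd_pow hqxV, S.rd_mul (S.aeval_mem hy.mem hqA) (pow_mem hx.mem _),
      S.rd_aeval hy.mem hqA, S.rd_pow hx.mem, S.rd_pow hy.mem, hrdy]
  have hU₂rd0 : S.rd U₂ ≠ 0 := by
    rw [hU₂rd]
    exact mul_ne_zero (pow_ne_zero _ (mul_ne_zero hQ0 (pow_ne_zero _ hX0)))
      (pow_ne_zero _ (inv_ne_zero hX0))
  have hU₂0 : U₂ ≠ 0 := by
    intro h
    rw [h, S.rd_zero] at hU₂rd0
    exact hU₂rd0 rfl
  set κ : K := c₂⁻¹ * (c₁ * c) with hκ
  have hrel : U₁ = algebraMap K F κ * U₂ := by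
    have hc₂' : algebraMap K F c₂ ≠ 0 := (_root_.map_ne_zero _).mpr hc₂
    apply mul_left_cancel₀ hc₂'
    rw [hκ, map_mul, map_inv₀, mul_assoc, mul_inv_cancel_left₀ hc₂', map_mul, hU₁, hU₂]
    linear_combination hK2
  have hκV : algebraMap K F κ ∈ S.V := by
    have h1 : algebraMap K F κ = U₁ * U₂⁻¹ := by
      rw [hrel, mul_assoc, mul_inv_cancel₀ hU₂0, mul_one]
    rw [h1]
    exact mul_mem hU₁V (S.inv_mem_of_rd_ne_zero hU₂rd0)
  have hκA : κ ∈ S.A := (S.algebraMap_mem_iff κ).mp hκV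
  have hfin : (Q * S.rd x ^ ab) ^ μ * (algebraMap k Fb cb * (S.rd x)⁻¹ ^ sb) =
      algebraMap k Fb (S.rc κ) * ((Q * S.rd x ^ a) ^ μ * (S.rd x)⁻¹ ^ s) := by
    rw [← hU₁rd, ← hU₂rd, ← S.rd_algebraMap hκA, ← S.rd_mul hκV hU₂V, ← hrel]
  have hfin2 : algebraMap k Fb cb * S.rd x ^ (s + ab * μ) =
      algebraMap k Fb (S.rc κ) * S.rd x ^ (sb + a * μ) := by
    have hQμ : Q ^ μ ≠ 0 := pow_ne_zero _ hQ0
    apply mul_left_cancel₀ hQμ
    have e1 : Q ^ μ * (algebraMap k Fb cb * S.rd x ^ (s + ab * μ)) =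
        ((Q * S.rd x ^ ab) ^ μ * (algebraMap k Fb cb * (S.rd x)⁻¹ ^ sb)) * S.rd x ^ (sb + s) := by
      rw [pow_add, pow_add, mul_pow, inv_pow, ← pow_mul]
      field_simp
    have e2 : Q ^ μ * (algebraMap k Fb (S.rc κ) * S.rd x ^ (sb + a * μ)) =
        (algebraMap k Fb (S.rc κ) * ((Q * S.rd x ^ a) ^ μ * (S.rd x)⁻¹ ^ s)) * S.rd x ^ (sb + s) := by
      rw [pow_add, pow_add, mul_pow, inv_pow, ← pow_mul]
      field_simp
    rw [e1, e2, hfin]
  exact de_pow_eq htrk hcb hfin2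

/-- **DE.**
Proof. `y = x⁻¹`.  `K`-side: integral bases `o` (of `O₀`), `o'` (of `O_∞`), TR: `x^{-a} o = G_o(y) o'`, `det G_o = c y^s`.
`k`-side: `ē, ē'`, `x̄^{-ā} ē = Ḡ_o(ȳ) ē'`, `det Ḡ_o = c̄ ȳ^{s̄}`.  By LD it suffices to show `s + ā μ = s̄ + a μ`.
Lift `ē, ē'` to `b ⊆ O₀ ∩ V`, `b' ⊆ O_∞ ∩ V` (`NormalRed`); they are `IsRedBasis` (IR).  `b = G₁(x) o`, `b' = G₂(y) o'`;
OR2 + PR1: `det G₁ = c₁ I₁`, `det G₂ = c₂ I₂`, `I₁, I₂ ≡ 1`.  Let `T ∈ Mat(F)` with `x^{-ā} b = T b'`: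
`T = x^{a-ā} G₁(x) G_o(y) G₂(y)⁻¹`, so `I₂(y) det T = κ x^{(a-ā)μ - s} I₁(x)`, `κ ∈ K^×`.  By orthonormality (OF1) the entries of
`T` are in `V` and `rd T = Ḡ_o(ȳ)`, so `rd (det T) = c̄ x̄^{-s̄}`.  Reduce: `κ` is a unit and the exponents agree since `x̄` is
transcendental. -/
theorem RedSetting.finrank_Lsp_eq [IsAlgClosed K] [CharZero K] {x : F} (hx : S.Coord x)
    (h0 : S.NormalRed x) (hinf : S.NormalRed x⁻¹) :
    ∃ N₀ : ℕ, ∀ a b : ℕ, N₀ ≤ a + b →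
      FiniteDimensional K (Lsp K x a b) ∧ FiniteDimensional k (Lsp k (S.rd x) a b) ∧
      Module.finrank k (Lsp k (S.rd x) a b) = Module.finrank K (Lsp K x a b) := by
  classical
  have hy : S.Coord x⁻¹ := RedSetting.Coord.inv S hx
  have hrdy : S.rd x⁻¹ = (S.rd x)⁻¹ := RedSetting.Coord.rd_inv S hx
  have htrK : Transcendental K x := S.transcendental_of_rd hx.mem hx.trans
  have htrKy : Transcendental K x⁻¹ := S.transcendental_of_rd hy.mem hy.trans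
  have htrk := hx.trans
  have htrky : Transcendental k (S.rd x)⁻¹ := hrdy ▸ hy.trans
  have i1 := hx.fin
  have i2 := hx.finb
  have i3 := hx.sep
  have i4 := hy.fin
  have i5 : FiniteDimensional k⟮(S.rd x)⁻¹⟯ Fb := hrdy ▸ hy.finb
  have i6 : Algebra.IsSeparable k⟮(S.rd x)⁻¹⟯ Fb := hrdy ▸ hy.sep
  obtain ⟨μ, hμ⟩ : ∃ μ, Module.finrank K⟮x⟯ F = μ := ⟨_, rfl⟩
  have hμ2 : Module.finrank k⟮S.rd x⟯ Fb = μ := by rw [← hx.finrank_eq, hμ]
  have hμ3 : Module.finrank K⟮x⁻¹⟯ F = μ := by rw [adjoin_simple_inv_eq, hμ]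
  have hμ4 : Module.finrank k⟮(S.rd x)⁻¹⟯ Fb = μ := by rw [adjoin_simple_inv_eq, hμ2]
  obtain ⟨o, ho⟩ : ∃ o : Fin μ → F, IsIntBasis (K := K) x o := hμ ▸ exists_isIntBasis htrK
  obtain ⟨o', ho'⟩ : ∃ o : Fin μ → F, IsIntBasis (K := K) x⁻¹ o := hμ3 ▸ exists_isIntBasis htrKy
  obtain ⟨e, he⟩ : ∃ e : Fin μ → Fb, IsIntBasis (K := k) (S.rd x) e :=
    hμ2 ▸ exists_isIntBasis htrk
  obtain ⟨e', he'⟩ : ∃ e : Fin μ → Fb, IsIntBasis (K := k) (S.rd x)⁻¹ e :=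
    hμ4 ▸ exists_isIntBasis htrky
  obtain ⟨a, s, G, c, hc, hdet, hG⟩ := exists_transition htrK o o' ho ho'
  obtain ⟨ab, sb, Gb, cb, hcb, hdetb, hGb⟩ := exists_transition htrk e e' he he'
  have hcore := S.de_core hx hμ3 o o' ho ho' e e' he he' h0 hinf a s G c hdet hG ab sb Gb cb hcb
    hdetb hGb
  obtain ⟨N₁, hN₁⟩ := finrank_Lsp htrK o o' ho ho' G c hc s a hdet hG
  obtain ⟨N₂, hN₂⟩ := finrank_Lsp htrk e e' he he' Gb cb hcb sb ab hdetb hGb
  refine ⟨max N₁ N₂, fun a' b' hab => ?_⟩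
  obtain ⟨f1, g1⟩ := hN₁ a' b' (le_trans (le_max_left _ _) hab)
  obtain ⟨f2, g2⟩ := hN₂ a' b' (le_trans (le_max_right _ _) hab)
  refine ⟨f1, f2, ?_⟩
  omega

end Fermat.Agent.S18
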