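import Fermat.Agent.S18.TameDisc
import Fermat.Agent.S24.Count
import Fermat.Agent.S24.Fundamental

/-!
# S18, piece UN: a fibre with `μ` places is unramified: no nilpotents
-/

set_option autoImplicit false

namespace Fermat.Agent.S18

open Polynomial IntermediateField Fermat.Agent.S24 AlgebraicCurve IsDedekindDomain

variable {K F : Type*} [Field K] [Field F] [Algebra K F]

/-- if `y` has `[F : K(y)]` distinct zeros, they are all simple. -/
theorem un_ord_eq_one [IsAlgClosed K] [CharZero K] (hFF : IsFF K F) {y : F}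
    (hy : Transcendental K y) (hcard : (zerosOf K y).ncard = Module.finrank K⟮y⟯ F)
    (v : Place K F) (hv : v ∈ zerosOf K y) : v.ord y = 1 := by
  classical
  have hy0 : y ≠ 0 := by
    rintro rfl
    exact hy isAlgebraic_zero
  have hfin := IsFF.zerosOf_finite hFF hy0
  have hsum := IsFF.sum_ord_zerosOf hFF hy
  rw [finsum_mem_eq_finite_toFinset_sum _ hfin, ← hcard, Set.ncard_eq_toFinset_card _ hfin,
    Finset.card_eq_sum_ones, Nat.cast_sum] at hsum
  have h0 : ∑ w ∈ hfin.toFinset, (w.ord y - 1) = 0 := by
    rw [Finset.sum_sub_distrib, hsum]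
    simp
  have h1 := (Finset.sum_eq_zero_iff_of_nonneg (fun w hw => by
    have : 0 < w.ord y := (Set.Finite.mem_toFinset hfin).mp hw
    omega)).mp h0 v ((Set.Finite.mem_toFinset hfin).mpr hv)
  omega

/-- **UN.** If `x = c` has `μ = [F : K(x)]` distinct places then `O₀/(x-c)` is reduced.
Proof: `∑_{P ∈ zerosOf (x-c)} ord_P (x-c) = μ` (S24 `IsFF.sum_ord_zerosOf`), so all `ord_P(x-c) = 1`.  If
`r = ∑ a_i o_i`, `r^n ∈ (x-c)O₀`, then `ord_P r ≥ 1` at these `P`, so `r/(x-c)` has `ord ≥ 0` at all places where `x` is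
regular, hence lies in `O₀` (S24.Primes + `mem_integers_of_valuation_le_one`), `= ∑ p_i(x) o_i`; so `a_i = (X-c) p_i`, `a=0`. -/
theorem nilFam_eq_bot [IsAlgClosed K] [CharZero K] (hFF : IsFF K F) {x : F}
    (hx : Transcendental K x) [FiniteDimensional K⟮x⟯ F] {μ : ℕ}
    (hμ : Module.finrank K⟮x⟯ F = μ) (o : Fin μ → F) (ho : IsIntBasis (K := K) x o) (c : K)
    (hcard : (zerosOf K (x - algebraMap K F c)).ncard = μ)
    (N : Submodule K (Fin μ → K)) (hN : NilFam x c o N) : N = ⊥ := by
  classical
  have := isDedekindDomain_intRing (K := K) hx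
  have := isFractionRing_intRing (K := K) hx
  set y : F := x - algebraMap K F c with hy
  have hyt : Transcendental K y := transcendental_sub_algebraMap hx c
  have hy0 : y ≠ 0 := by
    intro h
    rw [h] at hyt
    exact hyt isAlgebraic_zero
  have hcard' : (zerosOf K y).ncard = Module.finrank K⟮y⟯ F := by
    rw [hcard, ← hμ, hy, adjoin_sub_algebraMap_eq]
  have hone := un_ord_eq_one hFF hyt hcard'
  rw [eq_bot_iff]
  intro a ha
  rw [Submodule.mem_bot]
  obtain ⟨n, r, hr, hpow⟩ := hN a ha
  set r₀ : F := ∑ i, algebraMap K F (a i) * o i with hr₀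
  have hrint : r ∈ intRing K x := (ho.2 r).mpr hr
  have hr₀int : r₀ ∈ intRing K x := (ho.2 r₀).mpr ⟨fun i => C (a i), by simp [hr₀]⟩
  have hyint : y ∈ intRing K x := by
    have : y = algebraMap (polyRing K x) F
        (⟨x, Algebra.self_mem_adjoin_singleton K x⟩ - algebraMap K (polyRing K x) c) := rfl
    rw [this]
    exact Subalgebra.algebraMap_mem _ _
  -- `h = r₀ / y` is integral
  have hh : r₀ / y ∈ intRing K x := by
    rcases eq_or_ne r₀ 0 with h0 | h0
    · rw [h0, zero_div]; exact zero_mem _
    have hval : ∀ P : HeightOneSpectrum (intRing K x), P.valuation F (r₀ / y) ≤ 1 := by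
      intro P
      set v := Place.ofHeightOneSpectrum (K := K) (F := F) P with hv
      have hxv : x ∈ v.toValuationSubring := mem_toValuationSubring_ofHeightOneSpectrum P
      have hmem : ∀ b : F, b ∈ intRing K x → b ∈ v.toValuationSubring :=
        fun b hb => primes_intRing_le v hxv ⟨b, hb⟩
      have hdiv0 : r₀ / y ≠ 0 := div_ne_zero h0 hy0
      have hgoal : 0 ≤ v.ord (r₀ / y) := by
        rw [div_eq_mul_inv, v.ord_mul h0 (inv_ne_zero hy0), v.ord_inv]
        have h1 : 0 ≤ v.ord r₀ := (ord_nonneg_iff v h0).mpr (hmem _ hr₀int)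
        have h2 : 0 ≤ v.ord y := (ord_nonneg_iff v hy0).mpr (hmem _ hyint)
        rcases h2.eq_or_lt with h2 | h2
        · omega
        · have h3 : v.ord y = 1 := hone v h2
          have hr0 : r ≠ 0 := by
            rintro rfl
            rw [mul_zero] at hpow
            exact h0 (pow_eq_zero_iff (by
              rintro rfl
              simp at hpow) |>.mp hpow)
          have h4 : 0 ≤ v.ord r := (ord_nonneg_iff v hr0).mpr (hmem _ hrint)
          have h5 := congrArg v.ord hpow
          rw [ord_pow, v.ord_mul hy0 hr0, h3] at h5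
          have h6 : 0 < v.ord r₀ := by
            by_contra hcon
            have : v.ord r₀ = 0 := by omega
            rw [this, mul_zero] at h5
            omega
          omega
      have := (ord_nonneg_iff v hdiv0).mp hgoal
      rw [hv, Place.ofHeightOneSpectrum_toValuationSubring, Valuation.mem_valuationSubring_iff]
        at this
      exact this
    obtain ⟨b, hb⟩ := HeightOneSpectrum.mem_integers_of_valuation_le_one F (r₀ / y) hval
    rw [← hb]
    exact b.2
  obtain ⟨q, hq⟩ := (ho.2 _).mp hh
  have hrel : ∑ i, aeval x (C (a i) - (X - C c) * q i) * o i = 0 := by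
    have h1 : r₀ = y * (r₀ / y) := by field_simp
    have h2 : ∑ i, aeval x (C (a i) - (X - C c) * q i) * o i = r₀ - y * (r₀ / y) := by
      rw [hq, hr₀, Finset.mul_sum, ← Finset.sum_sub_distrib]
      refine Finset.sum_congr rfl fun i _ => ?_
      simp only [map_sub, map_mul, aeval_C, aeval_X, hy]
      ring
    rw [h2, ← h1, sub_self]
  have hzero := ho.1 _ hrel
  funext i
  have hi := congrFun hzero i
  have := congrArg (Polynomial.eval c) hi
  simpa using this

end Fermat.Agent.S18
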