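import Fermat.Agent.S18.OrderRed
import Fermat.Agent.S18.Unram

/-!
# S18, piece GRC: the good reduction criterion (assembly of IB, OR1-3, NR, TD, UN, PR2, NC)
-/

set_option autoImplicit false

namespace Fermat.Agent.S18

open Polynomial IntermediateField Fermat.Agent.S24 Matrix

variable {K F k Fb : Type*} [Field K] [Field F] [Algebra K F] [Field k] [Field Fb] [Algebra k Fb]
variable (S : RedSetting K F k Fb)

theorem grc_aeval_mem_intRing {E L : Type*} [Field E] [Field L] [Algebra E L] (y : L) (p : E[X]) :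
    aeval y p ∈ intRing E y := by
  have h : aeval y p ∈ polyRing E y := mem_polyRing_iff.mpr ⟨p, rfl⟩
  exact (intRing E y).algebraMap_mem ⟨_, h⟩

theorem grc_polySpan_le {E L : Type*} [Field E] [Field L] [Algebra E L] {y : L} {ι ι' : Type*}
    [Fintype ι] [Fintype ι'] {e : ι → L} {e' : ι' → L} (h : ∀ i, e i ∈ polySpan E y e') :
    polySpan E y e ≤ polySpan E y e' := by
  rintro _ ⟨p, rfl⟩
  exact Submodule.sum_mem _ fun i _ => nc_aeval_mul_mem _ (h i)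

/-- **GRC.** Under hypothesis (H) the reduction of the maximal order is the maximal order.

Proof. `μ = [F:K(x)] = [Fb:k(x̄)]`; `o` integral basis of `O₀`, `ē'` of `Ō₀` (IB); `b` from OR1; `b = G o`, `b̄ = Ḡ ē'` (IR).
`Δ_b = (det G)² Δ_o`; by OR3 `Δ_b ∈ A[X]` and `rp Δ_b` is the discriminant polynomial of `b̄`, nonzero (separable).
Fix `c̄`, `b₀` from (H).  For `b ∈ A`, `b̄ = c̄`, `b ≠ b₀`: `Δ_o(b) ≠ 0` (TD + UN), `det G(b) ≠ 0` (OR2).  PR2:
`mult_c̄ (rp Δ_b) ≤ mult_{b₀} Δ_b = mult_{b₀} Δ_o ≤ dim N_K` (TD) `≤ dim N_k` (NR).  NC: `det Ḡ (c̄) ≠ 0`.  As `k` is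
algebraically closed `det Ḡ` is a nonzero constant, so `Ō₀ = ∑ k[x̄] b̄_i`, and `∑ p̄_i(x̄) b̄_i = rd (∑ p_i(x) b_i)`. -/
theorem RedSetting.normalRed [IsAlgClosed K] [CharZero K] [IsAlgClosed k] (hFF : IsFF K F) {x : F}
    (hx : S.Coord x) (H : S.BranchHyp x) : S.NormalRed x := by
  classical
  have htrK : Transcendental K x := S.transcendental_of_rd hx.mem hx.trans
  have htrk := hx.trans
  have := hx.fin
  have := hx.finb
  have := hx.sep
  obtain ⟨μ, hμ⟩ : ∃ μ, Module.finrank K⟮x⟯ F = μ := ⟨_, rfl⟩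
  have hμ' : Module.finrank k⟮S.rd x⟯ Fb = μ := by rw [← hx.finrank_eq, hμ]
  obtain ⟨o, ho⟩ : ∃ o : Fin μ → F, IsIntBasis (K := K) x o := hμ ▸ exists_isIntBasis htrK
  obtain ⟨e', he'⟩ : ∃ e' : Fin μ → Fb, IsIntBasis (K := k) (S.rd x) e' :=
    hμ' ▸ exists_isIntBasis htrk
  obtain ⟨b, hb⟩ : ∃ b : Fin μ → F, S.IsRedBasis x b := hμ ▸ S.exists_isRedBasis hx
  have hoint : ∀ i, o i ∈ intRing K x := fun i => (ho.2 _).mpr (nc_self_mem i)
  have he'int : ∀ i, e' i ∈ intRing k (S.rd x) := fun i => (he'.2 _).mpr (nc_self_mem i)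
  choose G hG using fun i => (ho.2 _).mp (hb.int i)
  choose Gb hGb using fun i => (he'.2 _).mp (S.rd_mem_intRing hx (hb.mem i) (hb.int i))
  obtain ⟨Δo, hΔo⟩ := exists_isDiscPoly htrK o hoint
  have hΔo0 : Δo ≠ 0 := isDiscPoly_ne_zero htrK hμ o ho.1 hΔo
  have hΔb : IsDiscPoly x b ((Matrix.of G).det ^ 2 * Δo) :=
    isDiscPoly_of_matrix htrK b o (Matrix.of G) hG hΔo
  obtain ⟨hΔbA, hΔbrp⟩ := S.isDiscPoly_rp hx hμ b hb hΔb
  have hrp0 : S.rp ((Matrix.of G).det ^ 2 * Δo) ≠ 0 :=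
    isDiscPoly_ne_zero htrk hμ' _ hb.indep hΔbrp
  have hdetG : ∀ c ∈ S.A, (Matrix.of G).det.eval c ≠ 0 := fun c hc =>
    S.det_eval_ne_zero hx b o hb ho (Matrix.of G) hG hc
  have hnoroot : ∀ cb : k, (Matrix.of Gb).det.eval cb ≠ 0 := by
    intro cb
    obtain ⟨b₀, hb₀A, hb₀c, hb₀⟩ := H cb
    have h1 : ∀ b' ∈ S.A, S.rc b' = S.rc b₀ → b' ≠ b₀ →
        ((Matrix.of G).det ^ 2 * Δo).eval b' ≠ 0 := by
      intro b' hb'A hb'c hne
      obtain ⟨N, hN, hle⟩ := tameDisc htrK hμ o ho Δo hΔo b'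
      have hbot := nilFam_eq_bot hFF htrK hμ o ho b'
        (by rw [hb₀ b' hb'A (hb'c.trans hb₀c) hne, hμ]) N hN
      rw [hbot, finrank_bot, Nat.le_zero, rootMultiplicity_eq_zero_iff] at hle
      rw [eval_mul, eval_pow]
      exact mul_ne_zero (pow_ne_zero _ (hdetG b' hb'A)) (fun h0 => hΔo0 (hle h0))
    have h2 := S.rootMultiplicity_rp_le hΔbA hrp0 hb₀A h1
    have hdet0 : (Matrix.of G).det ≠ 0 := by
      intro h0
      have := hdetG b₀ hb₀A
      rw [h0, eval_zero] at this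
      exact this rfl
    have h3 : ((Matrix.of G).det ^ 2 * Δo).rootMultiplicity b₀ = Δo.rootMultiplicity b₀ := by
      rw [rootMultiplicity_mul (mul_ne_zero (pow_ne_zero _ hdet0) hΔo0)]
      have h4 : ((Matrix.of G).det ^ 2).rootMultiplicity b₀ = 0 := by
        rw [rootMultiplicity_eq_zero_iff]
        intro h5
        rw [IsRoot, eval_pow] at h5
        exact absurd (pow_eq_zero_iff (two_ne_zero) |>.mp h5) (hdetG b₀ hb₀A)
      rw [h4, zero_add]
    obtain ⟨N, hN, hle⟩ := tameDisc htrK hμ o ho Δo hΔo b₀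
    obtain ⟨Nk, hNk, hle'⟩ := S.exists_nilFam_rd hx b o hb ho (Matrix.of G) hG hb₀A N hN
    rw [← hb₀c]
    refine normCrit htrk hμ' (fun i => S.rd (b i)) e' he'.1 he'int
      (fun i j => (he'.2 _).mp (mul_mem (he'int i) (he'int j))) (Matrix.of Gb) hGb _ hrp0 hΔbrp
      (S.rc b₀) Nk hNk ?_
    rw [h3] at h2
    exact h2.trans (hle.trans hle')
  have hunit : IsUnit (Matrix.of Gb).det := by
    rw [Polynomial.isUnit_iff_degree_eq_zero]
    by_contra hdeg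
    obtain ⟨c, hc⟩ := IsAlgClosed.exists_root _ hdeg
    exact hnoroot c hc
  have he'b : ∀ j, e' j ∈ polySpan k (S.rd x) (fun i => S.rd (b i)) := by
    intro j
    refine ⟨fun i => (Matrix.of Gb)⁻¹ j i, ?_⟩
    have h1 : (Matrix.of Gb)⁻¹ * Matrix.of Gb = 1 := Matrix.nonsing_inv_mul _ hunit
    have h2 : ∑ i, aeval (S.rd x) ((Matrix.of Gb)⁻¹ j i) * S.rd (b i) =
        ∑ l, aeval (S.rd x) (((Matrix.of Gb)⁻¹ * Matrix.of Gb) j l) * e' l := by
      simp only [hGb, Matrix.mul_apply, map_sum, Finset.mul_sum, Finset.sum_mul, map_mul,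
        Matrix.of_apply]
      rw [Finset.sum_comm]
      refine Finset.sum_congr rfl fun l _ => Finset.sum_congr rfl fun i _ => ?_
      ring
    rw [h2, h1]
    simp [Matrix.one_apply]
  intro hbar hhbar
  obtain ⟨pb, hpb⟩ := grc_polySpan_le he'b ((he'.2 _).mp hhbar)
  choose p hpA hp _ using fun i => S.exists_rp_eq (pb i)
  refine ⟨∑ i, aeval x (p i) * b i, ?_, (S.rd_sum_aeval hx.mem b hb.mem p hpA).1, ?_⟩
  · exact sum_mem fun i _ => mul_mem (grc_aeval_mem_intRing x (p i)) (hb.int i)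
  · rw [(S.rd_sum_aeval hx.mem b hb.mem p hpA).2, hpb]
    simp only [hp]

end Fermat.Agent.S18
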