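import Fermat.Agent.S24.TowerDegree
import Fermat.Agent.S24.MDefs

/-!
# S18, piece MG, auxiliary file: uniform integral family, scaling of polynomial families
-/

set_option autoImplicit false

namespace Fermat.Agent.S18

open Polynomial IntermediateField Fermat.Agent.S24 Fermat.Agent.S28 ModularCurve

/-- the uniform integral family of S28/S24, in `q`-expansion form. -/
theorem gs_family (N : ℕ) (hN : N ≠ 0) :
    ∃ (ι : Type) (_ : Fintype ι) (b : ι → LaurentSeries ℤ),
      ∀ (L : Type) [Field L] [IsAlgClosed L], (N : L) ≠ 0 →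
        (∀ i, coeffMap (Int.castRingHom L) (b i) ∈ modularFunctionFieldFullC L N) ∧
        (∀ P : ι → L[X], ∑ i, aeval (jqModC L) (P i) * coeffMap (Int.castRingHom L) (b i) = 0 →
          ∀ i, P i = 0) ∧
        (∀ x ∈ modularFunctionFieldFullC L N, ∃ d : L[X], d ≠ 0 ∧ ∃ c : ι → L[X],
          aeval (jqModC L) d * x =
            ∑ i, aeval (jqModC L) (c i) * coeffMap (Int.castRingHom L) (b i)) := by
  obtain ⟨ι, _, b, -, hb, hT⟩ := towerDegree_exists_tower N hN
  refine ⟨ι, inferInstance, b, fun L _ _ hNL => ?_⟩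
  obtain ⟨E, _, _, ⟨T⟩⟩ := hT L (towerDegree_fieldHyp L N hNL)
  have hinjx : Function.Injective T.ιx := (T.ιx : E →+* LaurentSeries L).injective
  have hx : ∀ (P : ι → L[X]), T.ιx (∑ i, aeval T.e0 (P i) * T.β i) =
      ∑ i, aeval (jqModC L) (P i) * coeffMap (Int.castRingHom L) (b i) := by
    intro P
    rw [map_sum]
    refine Finset.sum_congr rfl fun i _ => ?_
    rw [map_mul, ← Polynomial.aeval_algHom_apply, T.x_e0, jce_one_one, T.x_β]
  refine ⟨hb L, fun P hP => ?_, fun x hxm => ?_⟩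
  · refine T.indep P (hinjx ?_)
    rw [hx, hP, map_zero]
  · obtain ⟨z, hz⟩ := AlgHom.mem_fieldRange.mp (towerDegree_le_fieldRange T hxm)
    obtain ⟨d, hd, c, hc⟩ := T.span z
    refine ⟨d, hd, c, ?_⟩
    rw [← hx, ← hc, map_mul, ← Polynomial.aeval_algHom_apply, T.x_e0, jce_one_one, hz]

/-- scaling a finite family of polynomials over a valued field: primitive integral model. -/
theorem gs_scale {K : Type*} [Field K] (A : ValuationSubring K) {ι : Type*} [Fintype ι]
    (P : ι → K[X]) (hP : ∃ i, P i ≠ 0) :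
    ∃ (β : K) (P' : ι → (A : Type _)[X]), β ≠ 0 ∧ (∀ i, (P' i).map A.subtype = C β * P i) ∧
      ∃ i, (P' i).map (IsLocalRing.residue A) ≠ 0 := by
  classical
  obtain ⟨i₁, hi₁⟩ := hP
  set s : Finset (ι × ℕ) := Finset.univ.sigma (fun i => (P i).support) |>.image
    (fun x => (x.1, x.2)) with hs
  have hmem : ∀ i n, (i, n) ∈ s ↔ (P i).coeff n ≠ 0 := by
    intro i n
    rw [hs, Finset.mem_image]
    constructor
    · rintro ⟨⟨i', n'⟩, h, h'⟩
      simp only [Prod.mk.injEq] at h'
      obtain ⟨rfl, rfl⟩ := h'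
      simpa using h
    · intro h
      exact ⟨⟨i, n⟩, by simpa using h, rfl⟩
  have hne : s.Nonempty := by
    obtain ⟨n, hn⟩ : ∃ n, (P i₁).coeff n ≠ 0 := by
      by_contra hcon
      push Not at hcon
      exact hi₁ (Polynomial.ext (by simpa using hcon))
    exact ⟨(i₁, n), (hmem _ _).mpr hn⟩
  obtain ⟨⟨i₀, n₀⟩, h₀, hmax⟩ := s.exists_max_image
    (fun x => A.valuation ((P x.1).coeff x.2)) hne
  have hc0 : (P i₀).coeff n₀ ≠ 0 := (hmem _ _).mp h₀
  set β : K := ((P i₀).coeff n₀)⁻¹ with hβ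
  have hβ0 : β ≠ 0 := inv_ne_zero hc0
  have hint : ∀ i n, β * (P i).coeff n ∈ A := by
    intro i n
    by_cases h : (P i).coeff n = 0
    · rw [h, mul_zero]; exact zero_mem _
    · rw [← A.valuation_le_one_iff, map_mul, hβ, map_inv₀]
      have h1 := hmax (i, n) ((hmem _ _).mpr h)
      have h2 : A.valuation ((P i₀).coeff n₀) ≠ 0 := (A.valuation.ne_zero_iff).mpr hc0
      rw [inv_mul_le_iff₀ (zero_lt_iff.mpr h2), mul_one]
      exact h1
  have hlift : ∀ i, C β * P i ∈ Polynomial.lifts A.subtype := by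
    intro i
    rw [Polynomial.lifts_iff_coeff_lifts]
    intro n
    rw [Polynomial.coeff_C_mul]
    exact ⟨⟨_, hint i n⟩, rfl⟩
  choose P' hP'' using hlift
  have hP' : ∀ i, (P' i).map A.subtype = C β * P i := fun i => hP'' i
  refine ⟨β, P', hβ0, hP', i₀, fun h => ?_⟩
  have h1 : ((P' i₀).map (IsLocalRing.residue A)).coeff n₀ = 0 := by rw [h, coeff_zero]
  rw [Polynomial.coeff_map] at h1
  have h2 : ((P' i₀).coeff n₀ : K) = 1 := by
    have := congrArg (fun p => p.coeff n₀) (hP' i₀)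
    simp only [Polynomial.coeff_map, Polynomial.coeff_C_mul] at this
    rw [show (A.subtype ((P' i₀).coeff n₀) : K) = ((P' i₀).coeff n₀ : K) from rfl] at this
    rw [this, hβ, inv_mul_cancel₀ hc0]
  have h3 : (P' i₀).coeff n₀ = 1 := Subtype.ext h2
  rw [h3, map_one] at h1
  exact one_ne_zero h1

end Fermat.Agent.S18
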