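import Fermat.Agent.S18.Basic
import Fermat.Agent.S18.GaussAux
import Fermat.Prelude.Def_ModularCurve_ReductionModL

/-!
# S18, piece MG: the Gauss (`q`-expansion) valuation on `ℚ̄(X₀(N))` and its residue field
-/

set_option autoImplicit false
set_option linter.unusedSectionVars false
set_option linter.style.haveILetI false

namespace Fermat.Agent.S18

open Polynomial IntermediateField Fermat.Agent.S24 Fermat.Agent.S28 ModularCurve

abbrev kA (A : ValuationSubring Kb) : Type := IsLocalRing.ResidueField A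

set_option synthInstance.maxHeartbeats 400000 in
noncomputable instance instFieldFullCkA (A : ValuationSubring Kb) (N : ℕ) :
    Field ↥(modularFunctionFieldFullC (kA A) N) := inferInstance

set_option synthInstance.maxHeartbeats 400000 in
noncomputable instance instAlgebraFullCkA (A : ValuationSubring Kb) (N : ℕ) :
    Algebra (kA A) ↥(modularFunctionFieldFullC (kA A) N) := inferInstance

theorem isAlgClosed_kA (A : ValuationSubring Kb) : IsAlgClosed (kA A) := by
  apply IsAlgClosed.of_exists_root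
  intro p hp hirr
  obtain ⟨P, hPmap, hPdeg, hPmonic⟩ := Polynomial.lifts_and_degree_eq_and_monic
    ((Polynomial.mem_lifts p).mpr (Polynomial.map_surjective _ IsLocalRing.residue_surjective p)) hp
  have hdeg : (P.map A.subtype).degree ≠ 0 := by
    rw [Polynomial.degree_map_eq_of_injective A.subtype_injective, hPdeg]
    exact hirr.degree_pos.ne'
  obtain ⟨x, hx⟩ := IsAlgClosed.exists_root (P.map A.subtype) hdeg
  have hint : IsIntegral A x := ⟨P, hPmonic, by
    rw [← Polynomial.eval_map]; exact hx⟩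
  obtain ⟨y, hy⟩ := IsIntegrallyClosed.algebraMap_eq_of_integral hint
  refine ⟨IsLocalRing.residue A y, ?_⟩
  rw [← hPmap, Polynomial.eval_map, Polynomial.eval₂_hom]
  have : P.eval y = 0 := by
    apply A.subtype_injective
    rw [map_zero, ← Polynomial.eval₂_hom, ← Polynomial.eval_map]
    have : A.subtype y = x := hy
    rw [this]; exact hx
  rw [this, map_zero]

section

variable (A : ValuationSubring Kb) (N : ℕ) [NeZero N]

theorem gs_mem_FN_iff (x : LaurentSeries Kb) : x ∈ FN N ↔ x ∈ modularFunctionFieldFullC Kb N := by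
  show x ∈ modularFunctionFieldBar N ↔ _
  rw [modularFunctionFieldBar_eq]

/-- integral models: `Y = ∑ P_i(j) b_i` over `A`. -/
noncomputable def gsY {ι : Type} [Fintype ι] (b : ι → LaurentSeries ℤ) (P : ι → (A : Type)[X]) :
    LaurentSeries A :=
  ∑ i, aeval (jqModC A) (P i) * coeffMap (Int.castRingHom A) (b i)

theorem gsY_map {ι : Type} [Fintype ι] (b : ι → LaurentSeries ℤ) (P : ι → (A : Type)[X])
    {S : Type} [CommRing S] (φ : A →+* S) :
    coeffMap φ (gsY A b P) =
      ∑ i, aeval (jqModC S) ((P i).map φ) * coeffMap (Int.castRingHom S) (b i) := by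
  rw [gsY, map_sum]
  refine Finset.sum_congr rfl fun i _ => ?_
  rw [map_mul, coeffMap_aeval, coeffMap_jqModC, coeffMap_coeffMap_intCast]

theorem gs_aeval_mem (L : Type) [Field L] (P : L[X]) :
    aeval (jqModC L) P ∈ modularFunctionFieldFullC L N := by
  have := (aeval (jFullC L N) P).2
  rwa [coe_aeval_jFullC] at this

/-- **normal form** -/
theorem gs_normalForm (hN : (N : kA A) ≠ 0) (f : LaurentSeries Kb) (hf : f ∈ FN N) (hf0 : f ≠ 0) :
    ∃ (c : Kb) (Y₁ Y₂ : LaurentSeries A), c ≠ 0 ∧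
      coeffMap (IsLocalRing.residue A) Y₁ ≠ 0 ∧ coeffMap (IsLocalRing.residue A) Y₂ ≠ 0 ∧
      coeffMap (IsLocalRing.residue A) Y₁ ∈ modularFunctionFieldFullC (kA A) N ∧
      coeffMap (IsLocalRing.residue A) Y₂ ∈ modularFunctionFieldFullC (kA A) N ∧
      HahnSeries.C c * f * coeffMap A.subtype Y₂ = coeffMap A.subtype Y₁ := by
  haveI := isAlgClosed_kA A
  obtain ⟨ι, _, b, hfam⟩ := gs_family N (NeZero.ne N)
  obtain ⟨hbK, hindK, hspK⟩ := hfam Kb (Nat.cast_ne_zero.mpr (NeZero.ne N))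
  obtain ⟨hbk, hindk, hspk⟩ := hfam (kA A) hN
  obtain ⟨d, hd, c, hc⟩ := hspK f ((gs_mem_FN_iff N f).mp hf)
  have hdj : aeval (jqModC Kb) d ≠ 0 := fun h => hd (by
    apply aeval_jqModC_injective (R := Kb); rw [h, map_zero])
  have hc0 : ∃ i, c i ≠ 0 := by
    by_contra hcon
    push Not at hcon
    have : aeval (jqModC Kb) d * f = 0 := by
      rw [hc]; exact Finset.sum_eq_zero fun i _ => by rw [hcon i, map_zero, zero_mul]
    exact (mul_ne_zero hdj hf0) this
  obtain ⟨α, d', hα, hd', u₀, hd'0⟩ := gs_scale A (fun _ : Unit => d) ⟨(), hd⟩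
  obtain ⟨β, c', hβ, hc', i₀, hc'0⟩ := gs_scale A c hc0
  refine ⟨β * α⁻¹, gsY A b c', aeval (jqModC A) (d' ()), mul_ne_zero hβ (inv_ne_zero hα),
    ?_, ?_, ?_, ?_, ?_⟩
  · rw [gsY_map]
    intro h
    exact hc'0 (hindk _ h i₀)
  · rw [coeffMap_aeval, coeffMap_jqModC]
    intro h
    apply hd'0
    apply aeval_jqModC_injective (R := kA A); rw [h, map_zero]
  · rw [gsY_map]
    exact sum_mem fun i _ => mul_mem (gs_aeval_mem N _ _) (hbk i)
  · rw [coeffMap_aeval, coeffMap_jqModC]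
    exact gs_aeval_mem N _ _
  · rw [gsY_map, coeffMap_aeval, coeffMap_jqModC, hd' ()]
    simp only [hc', map_mul, aeval_C, Fermat.Agent.S28.algebraMap_eq_C]
    have : ∑ i, HahnSeries.C β * aeval (jqModC Kb) (c i) * coeffMap (Int.castRingHom Kb) (b i)
        = HahnSeries.C β * (aeval (jqModC Kb) d * f) := by
      rw [hc, Finset.mul_sum]
      exact Finset.sum_congr rfl fun i _ => mul_assoc _ _ _
    rw [this]
    have hαα : (HahnSeries.C α⁻¹ : LaurentSeries Kb) * HahnSeries.C α = 1 := by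
      rw [← map_mul, inv_mul_cancel₀ hα, map_one]
    linear_combination (HahnSeries.C β * f * aeval (jqModC Kb) d) * hαα

/-! ### the valuation ring -/

/-- `f = Y₁/Y₂` with `Y_i ∈ A((q))`, `Ȳ₂ ≠ 0`. -/
def gsMem (f : LaurentSeries Kb) : Prop :=
  ∃ Y₁ Y₂ : LaurentSeries A, coeffMap (IsLocalRing.residue A) Y₂ ≠ 0 ∧
    f * coeffMap A.subtype Y₂ = coeffMap A.subtype Y₁

variable {A}

theorem gsMem_of (Y : LaurentSeries A) : gsMem A (coeffMap A.subtype Y) :=
  ⟨Y, 1, by rw [map_one]; exact one_ne_zero, by rw [map_one, mul_one]⟩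

theorem gsMem.add {f g : LaurentSeries Kb} (hf : gsMem A f) (hg : gsMem A g) : gsMem A (f + g) := by
  obtain ⟨Y₁, Y₂, h0, h⟩ := hf
  obtain ⟨Z₁, Z₂, h0', h'⟩ := hg
  refine ⟨Y₁ * Z₂ + Z₁ * Y₂, Y₂ * Z₂, by rw [map_mul]; exact mul_ne_zero h0 h0', ?_⟩
  simp only [map_mul, map_add]
  rw [← h, ← h']; ring

theorem gsMem.mul {f g : LaurentSeries Kb} (hf : gsMem A f) (hg : gsMem A g) : gsMem A (f * g) := by
  obtain ⟨Y₁, Y₂, h0, h⟩ := hf
  obtain ⟨Z₁, Z₂, h0', h'⟩ := hg
  refine ⟨Y₁ * Z₁, Y₂ * Z₂, by rw [map_mul]; exact mul_ne_zero h0 h0', ?_⟩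
  simp only [map_mul]
  rw [← h, ← h']; ring

theorem gsMem.neg {f : LaurentSeries Kb} (hf : gsMem A f) : gsMem A (-f) := by
  obtain ⟨Y₁, Y₂, h0, h⟩ := hf
  exact ⟨-Y₁, Y₂, h0, by rw [map_neg, ← h]; ring⟩

theorem gsMem_zero : gsMem A 0 := by simpa using gsMem_of (A := A) 0

theorem gsMem_one : gsMem A 1 := by simpa using gsMem_of (A := A) 1

theorem gsMem_C {c : Kb} (hc : c ∈ A) : gsMem A (HahnSeries.C c) := by
  have := gsMem_of (A := A) (HahnSeries.C ⟨c, hc⟩)
  rwa [coeffMap_C] at this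

variable (A)

open Classical in
/-- the reduction of `f = Y₁/Y₂`. -/
noncomputable def gr (f : LaurentSeries Kb) : LaurentSeries (kA A) :=
  if h : gsMem A f then
    coeffMap (IsLocalRing.residue A) h.choose / coeffMap (IsLocalRing.residue A) h.choose_spec.choose
  else 0

variable {A}

theorem gr_mul_eq {f : LaurentSeries Kb} {Y₁ Y₂ : LaurentSeries A}
    (h0 : coeffMap (IsLocalRing.residue A) Y₂ ≠ 0)
    (h : f * coeffMap A.subtype Y₂ = coeffMap A.subtype Y₁) :
    gr A f * coeffMap (IsLocalRing.residue A) Y₂ = coeffMap (IsLocalRing.residue A) Y₁ := by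
  have hm : gsMem A f := ⟨Y₁, Y₂, h0, h⟩
  rw [gr, dif_pos hm]
  obtain ⟨hz0, hz⟩ := hm.choose_spec.choose_spec
  set Z₁ := hm.choose
  set Z₂ := hm.choose_spec.choose
  have key : Y₁ * Z₂ = Z₁ * Y₂ := by
    apply coeffMap_injective A.subtype A.subtype_injective
    rw [map_mul, map_mul, ← h, ← hz]; ring
  have key' := congrArg (coeffMap (IsLocalRing.residue A)) key
  rw [map_mul, map_mul] at key'
  rw [div_mul_eq_mul_div, div_eq_iff hz0, ← key']

theorem gr_of (Y : LaurentSeries A) :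
    gr A (coeffMap A.subtype Y) = coeffMap (IsLocalRing.residue A) Y := by
  have := gr_mul_eq (A := A) (f := coeffMap A.subtype Y) (Y₁ := Y) (Y₂ := 1)
    (by rw [map_one]; exact one_ne_zero) (by rw [map_one, mul_one])
  rwa [map_one, mul_one] at this

theorem gr_add {f g : LaurentSeries Kb} (hf : gsMem A f) (hg : gsMem A g) :
    gr A (f + g) = gr A f + gr A g := by
  obtain ⟨Y₁, Y₂, h0, h⟩ := hf
  obtain ⟨Z₁, Z₂, h0', h'⟩ := hg
  have h1 := gr_mul_eq h0 h
  have h2 := gr_mul_eq h0' h'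
  have h3 := gr_mul_eq (A := A) (f := f + g) (Y₁ := Y₁ * Z₂ + Z₁ * Y₂) (Y₂ := Y₂ * Z₂)
    (by rw [map_mul]; exact mul_ne_zero h0 h0')
    (by simp only [map_mul, map_add]; rw [← h, ← h']; ring)
  simp only [map_mul, map_add] at h3
  apply mul_right_cancel₀ (mul_ne_zero h0 h0')
  rw [h3, ← h1, ← h2]; ring

theorem gr_mul {f g : LaurentSeries Kb} (hf : gsMem A f) (hg : gsMem A g) :
    gr A (f * g) = gr A f * gr A g := by
  obtain ⟨Y₁, Y₂, h0, h⟩ := hf
  obtain ⟨Z₁, Z₂, h0', h'⟩ := hg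
  have h1 := gr_mul_eq h0 h
  have h2 := gr_mul_eq h0' h'
  have h3 := gr_mul_eq (A := A) (f := f * g) (Y₁ := Y₁ * Z₁) (Y₂ := Y₂ * Z₂)
    (by rw [map_mul]; exact mul_ne_zero h0 h0')
    (by simp only [map_mul]; rw [← h, ← h']; ring)
  simp only [map_mul] at h3
  apply mul_right_cancel₀ (mul_ne_zero h0 h0')
  rw [h3, ← h1, ← h2]; ring

theorem gr_zero : gr A 0 = 0 := by simpa using gr_of (A := A) 0

theorem gr_one : gr A 1 = 1 := by simpa using gr_of (A := A) 1

theorem gr_C {c : Kb} (hc : c ∈ A) :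
    gr A (HahnSeries.C c) = HahnSeries.C (IsLocalRing.residue A ⟨c, hc⟩) := by
  have := gr_of (A := A) (HahnSeries.C ⟨c, hc⟩)
  rwa [coeffMap_C, coeffMap_C] at this

/-- in the normal form of an element of the valuation ring the constant is integral. -/
theorem gs_inv_mem {f : LaurentSeries Kb} (hf : gsMem A f) {c : Kb} {Y₁ Y₂ : LaurentSeries A}
    (h1 : coeffMap (IsLocalRing.residue A) Y₁ ≠ 0)
    (h : HahnSeries.C c * f * coeffMap A.subtype Y₂ = coeffMap A.subtype Y₁) : c⁻¹ ∈ A := by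
  by_contra hcon
  have hc : c ∈ A := (A.mem_or_inv_mem c).resolve_right hcon
  have hres : IsLocalRing.residue A ⟨c, hc⟩ = 0 :=
    (valSubring_map_eq_zero_iff A (IsLocalRing.residue A) IsLocalRing.residue_surjective hc).mpr
      (Or.inr hcon)
  obtain ⟨Z₁, Z₂, hz0, hz⟩ := hf
  have key : HahnSeries.C (⟨c, hc⟩ : A) * Z₁ * Y₂ = Y₁ * Z₂ := by
    apply coeffMap_injective A.subtype A.subtype_injective
    simp only [map_mul, coeffMap_C]
    rw [← h, ← hz]
    show HahnSeries.C c * _ * _ = _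
    ring
  have key' := congrArg (coeffMap (IsLocalRing.residue A)) key
  simp only [map_mul, coeffMap_C, hres, map_zero, zero_mul] at key'
  exact mul_ne_zero h1 hz0 key'.symm

variable (A)

theorem gr_mem (hN : (N : kA A) ≠ 0) {f : LaurentSeries Kb} (hfF : f ∈ FN N) (hf : gsMem A f) :
    gr A f ∈ modularFunctionFieldFullC (kA A) N := by
  by_cases hf0 : f = 0
  · rw [hf0, gr_zero]; exact zero_mem _
  obtain ⟨c, Y₁, Y₂, hc, h1, h2, hm1, hm2, h⟩ := gs_normalForm A N hN f hfF hf0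
  have hci := gs_inv_mem hf h1 h
  have h' : f * coeffMap A.subtype Y₂ = coeffMap A.subtype (HahnSeries.C ⟨c⁻¹, hci⟩ * Y₁) := by
    rw [map_mul, coeffMap_C, ← h]
    show _ = HahnSeries.C c⁻¹ * _
    have hcc : (HahnSeries.C c⁻¹ : LaurentSeries Kb) * HahnSeries.C c = 1 := by
      rw [← map_mul, inv_mul_cancel₀ hc, map_one]
    linear_combination (-(f * coeffMap A.subtype Y₂)) * hcc
  have h3 := gr_mul_eq h2 h'
  rw [map_mul, coeffMap_C] at h3
  have : gr A f = HahnSeries.C (IsLocalRing.residue A ⟨c⁻¹, hci⟩) *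
      coeffMap (IsLocalRing.residue A) Y₁ / coeffMap (IsLocalRing.residue A) Y₂ := by
    rw [eq_div_iff h2, h3]
  rw [this]
  refine div_mem (mul_mem ?_ hm1) hm2
  rw [← Fermat.Agent.S28.algebraMap_eq_C]
  exact IntermediateField.algebraMap_mem _ _

/-- the Gauss valuation ring of `ℚ̄(X₀(N))`. -/
noncomputable def gsV (hN : (N : kA A) ≠ 0) : ValuationSubring (FN N) where
  carrier := {f | gsMem A (f : LaurentSeries Kb)}
  mul_mem' := fun ha hb => gsMem.mul ha hb
  one_mem' := gsMem_one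
  add_mem' := fun ha hb => gsMem.add ha hb
  zero_mem' := gsMem_zero
  neg_mem' := fun ha => gsMem.neg ha
  mem_or_inv_mem' := by
    intro f
    by_cases hf0 : f = 0
    · left; rw [hf0]; exact gsMem_zero
    have hf0' : (f : LaurentSeries Kb) ≠ 0 := fun h => hf0 (Subtype.ext h)
    obtain ⟨c, Y₁, Y₂, hc, h1, h2, -, -, h⟩ := gs_normalForm A N hN f f.2 hf0'
    rcases A.mem_or_inv_mem c with hcA | hcA
    · right
      refine ⟨HahnSeries.C ⟨c, hcA⟩ * Y₂, Y₁, h1, ?_⟩
      rw [map_mul, coeffMap_C, ← h]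
      show (f : LaurentSeries Kb)⁻¹ * _ = HahnSeries.C c * _
      field_simp
    · left
      refine ⟨HahnSeries.C ⟨c⁻¹, hcA⟩ * Y₁, Y₂, h2, ?_⟩
      rw [map_mul, coeffMap_C, ← h]
      show _ = HahnSeries.C c⁻¹ * _
      have hcc : (HahnSeries.C c⁻¹ : LaurentSeries Kb) * HahnSeries.C c = 1 := by
        rw [← map_mul, inv_mul_cancel₀ hc, map_one]
      linear_combination (-((f : LaurentSeries Kb) * coeffMap A.subtype Y₂)) * hcc

theorem mem_gsV (hN : (N : kA A) ≠ 0) (f : FN N) :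
    f ∈ gsV A N hN ↔ gsMem A (f : LaurentSeries Kb) := Iff.rfl

/-- the reduction map. -/
noncomputable def gsRed (hN : (N : kA A) ≠ 0) :
    gsV A N hN →+* modularFunctionFieldFullC (kA A) N where
  toFun f := ⟨gr A ((f : FN N) : LaurentSeries Kb), gr_mem A N hN (f : FN N).2 f.2⟩
  map_one' := Subtype.ext gr_one
  map_mul' f g := Subtype.ext (gr_mul f.2 g.2)
  map_zero' := Subtype.ext gr_zero
  map_add' f g := Subtype.ext (gr_add f.2 g.2)

theorem gsRed_surjective (hN : (N : kA A) ≠ 0) : Function.Surjective (gsRed A N hN) := by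
  haveI := isAlgClosed_kA A
  rintro ⟨g, hg⟩
  obtain ⟨ι, _, b, hfam⟩ := gs_family N (NeZero.ne N)
  obtain ⟨hbK, -, -⟩ := hfam Kb (Nat.cast_ne_zero.mpr (NeZero.ne N))
  obtain ⟨-, -, hspk⟩ := hfam (kA A) hN
  obtain ⟨d, hd, c, hc⟩ := hspk g hg
  obtain ⟨d', hd'⟩ := Polynomial.map_surjective _ (IsLocalRing.residue_surjective (R := A)) d
  choose c' hc' using fun i =>
    Polynomial.map_surjective _ (IsLocalRing.residue_surjective (R := A)) (c i)
  have h2 : coeffMap (IsLocalRing.residue A) (aeval (jqModC A) d') ≠ 0 := by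
    rw [coeffMap_aeval, coeffMap_jqModC, hd']
    intro h
    apply hd
    apply aeval_jqModC_injective (R := kA A); rw [h, map_zero]
  have h2' : coeffMap A.subtype (aeval (jqModC A) d') ≠ 0 := by
    intro h
    apply h2
    have : aeval (jqModC A) d' = 0 := by
      apply coeffMap_injective A.subtype A.subtype_injective
      rw [h, map_zero]
    rw [this, map_zero]
  have hmem : coeffMap A.subtype (gsY A b c') / coeffMap A.subtype (aeval (jqModC A) d') ∈ FN N := by
    rw [gs_mem_FN_iff]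
    refine div_mem ?_ ?_
    · rw [gsY_map]
      exact sum_mem fun i _ => mul_mem (gs_aeval_mem N _ _) (hbK i)
    · rw [coeffMap_aeval, coeffMap_jqModC]
      exact gs_aeval_mem N _ _
  have hrel : coeffMap A.subtype (gsY A b c') / coeffMap A.subtype (aeval (jqModC A) d') *
      coeffMap A.subtype (aeval (jqModC A) d') = coeffMap A.subtype (gsY A b c') :=
    div_mul_cancel₀ _ h2'
  refine ⟨⟨⟨_, hmem⟩, ⟨_, _, h2, hrel⟩⟩, Subtype.ext ?_⟩
  show gr A _ = g
  have h3 := gr_mul_eq h2 hrel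
  apply mul_right_cancel₀ h2
  rw [h3, gsY_map, coeffMap_aeval, coeffMap_jqModC, hd', mul_comm, hc]
  simp only [hc']

theorem gs_coe_algebraMap (c : Kb) :
    ((algebraMap Kb (FN N) c : FN N) : LaurentSeries Kb) = HahnSeries.C c := by
  rw [← Fermat.Agent.S28.algebraMap_eq_C]; rfl

/-- the Gauss reduction setting. -/
noncomputable def gaussSetting (hN : (N : kA A) ≠ 0) :
    RedSetting Kb (FN N) (kA A) (modularFunctionFieldFullC (kA A) N) where
  A := A
  V := gsV A N hN
  resA := IsLocalRing.residue A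
  red := gsRed A N hN
  resA_surj := IsLocalRing.residue_surjective
  red_surj := gsRed_surjective A N hN
  map_mem c hc := by
    rw [mem_gsV, gs_coe_algebraMap]; exact gsMem_C hc
  compat c hc := by
    apply Subtype.ext
    show gr A ((algebraMap Kb (FN N) c : FN N) : LaurentSeries Kb) = _
    rw [gs_coe_algebraMap, gr_C hc, ← Fermat.Agent.S28.algebraMap_eq_C]; rfl
  scale f hf0 := by
    have hf0' : (f : LaurentSeries Kb) ≠ 0 := fun h => hf0 (Subtype.ext h)
    obtain ⟨c, Y₁, Y₂, hc, h1, h2, -, -, h⟩ := gs_normalForm A N hN f f.2 hf0'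
    refine ⟨c, hc, ?_, ?_⟩
    · rw [mem_gsV]
      refine ⟨Y₁, Y₂, h2, ?_⟩
      rw [← h, MulMemClass.coe_mul, gs_coe_algebraMap]
    · rw [mem_gsV]
      refine ⟨Y₂, Y₁, h1, ?_⟩
      have hC : (HahnSeries.C c : LaurentSeries Kb) ≠ 0 := by
        rw [Ne, map_eq_zero_iff _ HahnSeries.C_injective]; exact hc
      rw [← h]
      show ((algebraMap Kb (FN N) c * f : FN N) : LaurentSeries Kb)⁻¹ * _ = _
      rw [MulMemClass.coe_mul, gs_coe_algebraMap]
      field_simp

end

/-- `S` is the reduction setting given by the `q`-expansion (Gauss) valuation. -/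
structure IsGauss (A : ValuationSubring Kb) (N : ℕ)
    (S : RedSetting Kb (FN N) (kA A) (modularFunctionFieldFullC (kA A) N)) : Prop where
  hA : S.A = A
  rc : ∀ (c : Kb) (hc : c ∈ A), S.rc c = IsLocalRing.residue A ⟨c, hc⟩
  mem_iff : ∀ f : FN N, f ∈ S.V ↔ ∃ Y₁ Y₂ : LaurentSeries A,
    coeffMap (IsLocalRing.residue A) Y₂ ≠ 0 ∧
      (f : LaurentSeries Kb) * coeffMap A.subtype Y₂ = coeffMap A.subtype Y₁
  rd_mul : ∀ (f : FN N) (Y₁ Y₂ : LaurentSeries A), coeffMap (IsLocalRing.residue A) Y₂ ≠ 0 →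
    (f : LaurentSeries Kb) * coeffMap A.subtype Y₂ = coeffMap A.subtype Y₁ →
    ((S.rd f : modularFunctionFieldFullC (kA A) N) : LaurentSeries (kA A)) *
      coeffMap (IsLocalRing.residue A) Y₂ = coeffMap (IsLocalRing.residue A) Y₁

theorem isGauss_gaussSetting (A : ValuationSubring Kb) (N : ℕ) [NeZero N] (hN : (N : kA A) ≠ 0) :
    IsGauss A N (gaussSetting A N hN) where
  hA := rfl
  rc c hc := (gaussSetting A N hN).rc_of_mem hc
  mem_iff _ := Iff.rfl
  rd_mul f Y₁ Y₂ h0 h := by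
    have hf : f ∈ (gaussSetting A N hN).V := ⟨Y₁, Y₂, h0, h⟩
    rw [(gaussSetting A N hN).rd_of_mem hf]
    exact gr_mul_eq h0 h

/-- **MG.** The Gauss setting exists if `N` is invertible in the residue field. -/
theorem exists_gaussSetting (A : ValuationSubring Kb) (N : ℕ) [NeZero N] (hN : (N : kA A) ≠ 0) :
    ∃ S : RedSetting Kb (FN N) (kA A) (modularFunctionFieldFullC (kA A) N), IsGauss A N S :=
  ⟨gaussSetting A N hN, isGauss_gaussSetting A N hN⟩

end Fermat.Agent.S18
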