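import Fermat.Agent.S18.PairDim
import Fermat.Agent.S24.Principal
import Fermat.Agent.S24.Count

/-!
# S18, piece RI: Riemann's inequality for the twisted spaces (characteristic zero, S24 `Place` API)
-/

set_option autoImplicit false

namespace Fermat.Agent.S18

open Polynomial IntermediateField Fermat.Agent.S24 AlgebraicCurve IsDedekindDomain

variable {K F : Type*} [Field K] [Field F] [Algebra K F]

namespace RI

/-- `L(D)` for an arbitrary function `D` on the places. -/
def LDiv (D : Place K F → ℤ) : Submodule K F where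
  carrier := {f | f = 0 ∨ ∀ v : Place K F, - D v ≤ v.ord f}
  add_mem' := by
    rintro f g hf hg
    by_cases hfg : f + g = 0
    · exact Or.inl hfg
    rcases hf with rfl | hf
    · rw [zero_add]; exact hg
    rcases hg with rfl | hg
    · rw [add_zero]; exact Or.inr hf
    exact Or.inr fun v => le_trans (le_min (hf v) (hg v)) (le_ord_add v hfg)
  zero_mem' := Or.inl rfl
  smul_mem' := by
    rintro c f hf
    rcases hf with rfl | hf
    · exact Or.inl (smul_zero c)
    by_cases hc : c = 0
    · exact Or.inl (by rw [hc, zero_smul])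
    by_cases hf0 : f = 0
    · exact Or.inl (by rw [hf0, smul_zero])
    refine Or.inr fun v => ?_
    rw [Algebra.smul_def, v.ord_mul (by simpa using hc) hf0, ord_algebraMap, zero_add]
    exact hf v

theorem mem_LDiv {D : Place K F → ℤ} {f : F} :
    f ∈ LDiv D ↔ f = 0 ∨ ∀ v : Place K F, - D v ≤ v.ord f := Iff.rfl

theorem LDiv_mono {D D' : Place K F → ℤ} (h : ∀ v, D' v ≤ D v) : LDiv D' ≤ LDiv D := by
  rintro f (rfl | hf)
  · exact Or.inl rfl
  · exact Or.inr fun v => by have := hf v; have := h v; omega

/-- **RI-a**: one place costs at most one dimension. -/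
theorem finrank_LDiv_le_succ [IsAlgClosed K] (hFF : IsFF K F) (D D' : Place K F → ℤ)
    (P : Place K F) (hD' : ∀ v, v ≠ P → D' v = D v) (hP : D' P = D P - 1)
    [FiniteDimensional K (LDiv D)] :
    Module.finrank K (LDiv D) ≤ Module.finrank K (LDiv D') + 1 := by
  have hle : LDiv D' ≤ LDiv D := LDiv_mono fun v => by
    by_cases hv : v = P
    · rw [hv, hP]; omega
    · rw [hD' v hv]
  have hfd : FiniteDimensional K (LDiv D') := Submodule.finiteDimensional_of_le hle
  by_cases h : LDiv D ≤ LDiv D'
  · have := LinearMap.finrank_le_finrank_of_injective (Submodule.inclusion_injective h)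
    omega
  obtain ⟨g, hgD, hgD'⟩ := SetLike.not_le_iff_exists.mp h
  have hg0 : g ≠ 0 := fun h0 => hgD' (Or.inl h0)
  have hg1 : ∀ v : Place K F, - D v ≤ v.ord g := hgD.resolve_left hg0
  have hgP : P.ord g = - D P := by
    by_contra hne
    apply hgD'
    refine Or.inr fun v => ?_
    by_cases hv : v = P
    · rw [hv, hP]; have := hg1 P; omega
    · rw [hD' v hv]; exact hg1 v
  have hsup : LDiv D ≤ LDiv D' ⊔ K ∙ g := by
    intro f hf
    by_cases hf0 : f = 0
    · rw [hf0]; exact zero_mem _
    have hf1 : ∀ v : Place K F, - D v ≤ v.ord f := hf.resolve_left hf0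
    have hfg : f / g ∈ P.toValuationSubring := by
      rw [← ord_nonneg_iff P (div_ne_zero hf0 hg0), div_eq_mul_inv,
        P.ord_mul hf0 (inv_ne_zero hg0), P.ord_inv, hgP]
      have := hf1 P
      omega
    obtain ⟨c, hc⟩ := hFF.exists_residue P hfg
    have hr : f - c • g ∈ LDiv D' := by
      have hrD : f - c • g ∈ LDiv D := sub_mem hf ((LDiv D).smul_mem c hgD)
      by_cases hr0 : f - c • g = 0
      · exact Or.inl hr0
      have hr1 : ∀ v : Place K F, - D v ≤ v.ord (f - c • g) := hrD.resolve_left hr0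
      refine Or.inr fun v => ?_
      by_cases hv : v = P
      · have hfac : f - c • g = g * (f / g - algebraMap K F c) := by
          rw [Algebra.smul_def]; field_simp
        have hne : f / g - algebraMap K F c ≠ 0 := by
          intro h0; rw [h0, mul_zero] at hfac; exact hr0 hfac
        have hpos : 0 < P.ord (f / g - algebraMap K F c) :=
          hc.resolve_left (fun h0 => hne (sub_eq_zero.mpr h0))
        rw [hv, hP, hfac, P.ord_mul hg0 hne, hgP]
        omega
      · rw [hD' v hv]; exact hr1 v
    have : f = (f - c • g) + c • g := by ring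
    rw [this]
    exact Submodule.add_mem_sup hr (Submodule.smul_mem _ c (Submodule.mem_span_singleton_self g))
  have h1 : Module.finrank K (LDiv D) ≤ Module.finrank K ↥(LDiv D' ⊔ K ∙ g) :=
    LinearMap.finrank_le_finrank_of_injective (Submodule.inclusion_injective hsup)
  have h2 := Submodule.finrank_add_le_finrank_add_finrank (LDiv D') (K ∙ g)
  rw [finrank_span_singleton hg0] at h2
  omega

/-- removing an effective divisor `G` costs at most `deg G` dimensions. -/
theorem finrank_LDiv_le_add [IsAlgClosed K] (hFF : IsFF K F) (G : Place K F →₀ ℕ) :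
    ∀ D : Place K F → ℤ, FiniteDimensional K (LDiv D) →
      Module.finrank K (LDiv D) ≤
        Module.finrank K (LDiv (fun v => D v - (G v : ℤ))) + G.sum (fun _ n => n) := by
  have hadd : ∀ f g : Place K F →₀ ℕ,
      (∀ D : Place K F → ℤ, FiniteDimensional K (LDiv D) → Module.finrank K (LDiv D) ≤
        Module.finrank K (LDiv (fun v => D v - (f v : ℤ))) + f.sum (fun _ n => n)) →
      (∀ D : Place K F → ℤ, FiniteDimensional K (LDiv D) → Module.finrank K (LDiv D) ≤
        Module.finrank K (LDiv (fun v => D v - (g v : ℤ))) + g.sum (fun _ n => n)) →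
      (∀ D : Place K F → ℤ, FiniteDimensional K (LDiv D) → Module.finrank K (LDiv D) ≤
        Module.finrank K (LDiv (fun v => D v - ((f + g) v : ℤ))) + (f + g).sum (fun _ n => n)) := by
    intro f g hf hg D hD
    have h1 := hf D hD
    have hle : LDiv (fun v => D v - (f v : ℤ)) ≤ LDiv D := LDiv_mono fun v => by
      have : (0 : ℤ) ≤ (f v : ℤ) := Int.natCast_nonneg _
      omega
    have hfd : FiniteDimensional K (LDiv (fun v => D v - (f v : ℤ))) :=
      Submodule.finiteDimensional_of_le hle
    have h2 := hg _ hfd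
    have e : (fun v => D v - ((f + g) v : ℤ)) = fun v => (D v - (f v : ℤ)) - (g v : ℤ) := by
      funext v
      rw [Finsupp.add_apply]
      push_cast
      ring
    rw [e, Finsupp.sum_add_index' (fun _ => rfl) (fun _ _ _ => rfl)]
    omega
  have hzero : ∀ D : Place K F → ℤ, FiniteDimensional K (LDiv D) → Module.finrank K (LDiv D) ≤
        Module.finrank K (LDiv (fun v => D v - ((0 : Place K F →₀ ℕ) v : ℤ))) +
          (0 : Place K F →₀ ℕ).sum (fun _ n => n) := by
    intro D _
    have e : (fun v => D v - ((0 : Place K F →₀ ℕ) v : ℤ)) = D := by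
      funext v; simp
    rw [e]
    exact Nat.le_add_right _ _
  refine Finsupp.induction_linear G hzero hadd ?_
  intro a b
  induction b with
  | zero => rw [Finsupp.single_zero]; exact hzero
  | succ b ih =>
    rw [Finsupp.single_add]
    refine hadd _ _ ih ?_
    intro D hD
    rw [Finsupp.sum_single_index rfl]
    refine finrank_LDiv_le_succ hFF D _ a (fun v hv => ?_) ?_
    · rw [Finsupp.single_eq_of_ne hv]; simp
    · rw [Finsupp.single_eq_same]; simp

/-- the same with `finsum`. -/
theorem finrank_LDiv_le [IsAlgClosed K] (hFF : IsFF K F) (D D' : Place K F → ℤ)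
    (hle : ∀ v, D' v ≤ D v) (hfin : (Function.support fun v => D v - D' v).Finite)
    [FiniteDimensional K (LDiv D)] :
    (Module.finrank K (LDiv D) : ℤ) ≤ Module.finrank K (LDiv D') + ∑ᶠ v, (D v - D' v) := by
  classical
  let G : Place K F →₀ ℕ := Finsupp.onFinset hfin.toFinset (fun v => (D v - D' v).toNat) (by
    intro v hv
    rw [Set.Finite.mem_toFinset, Function.mem_support]
    intro h0
    rw [h0] at hv
    exact hv rfl)
  have hG : ∀ v, (G v : ℤ) = D v - D' v := by
    intro v
    change (((D v - D' v).toNat : ℕ) : ℤ) = _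
    exact Int.toNat_of_nonneg (by have := hle v; omega)
  have h1 := finrank_LDiv_le_add hFF G D inferInstance
  have e : (fun v => D v - (G v : ℤ)) = D' := by
    funext v; rw [hG]; ring
  rw [e] at h1
  have h2 : ((G.sum fun _ n => n : ℕ) : ℤ) = ∑ᶠ v, (D v - D' v) := by
    rw [finsum_eq_sum_of_support_subset (s := G.support), Finsupp.sum]
    · push_cast
      exact Finset.sum_congr rfl fun v _ => hG v
    · intro v hv
      rw [Function.mem_support] at hv
      rw [Finset.mem_coe, Finsupp.mem_support_iff]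
      intro h0
      apply hv
      rw [← hG, h0]; rfl
  rw [← h2]
  exact_mod_cast h1

/-- an element which is regular wherever `y` is regular is integral over `K[y]`. -/
theorem mem_intRing_of_forall [CharZero K] {y : F} (hy : Transcendental K y)
    [FiniteDimensional K⟮y⟯ F] {z : F}
    (hz : ∀ v : Place K F, y ∈ v.toValuationSubring → z ∈ v.toValuationSubring) :
    z ∈ intRing K y := by
  have := isDedekindDomain_intRing (K := K) hy
  have := isFractionRing_intRing (K := K) hy
  have h := HeightOneSpectrum.mem_integers_of_valuation_le_one (R := intRing K y) F z (fun P => by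
    have h1 := hz (Place.ofHeightOneSpectrum (K := K) (F := F) P)
      (mem_toValuationSubring_ofHeightOneSpectrum P)
    rw [Place.ofHeightOneSpectrum_toValuationSubring, Valuation.mem_valuationSubring_iff] at h1
    exact h1)
  obtain ⟨b, hb⟩ := h
  rw [← hb]
  exact b.2

/-- the divisor `a (x)₀ + b (x)_∞`. -/
noncomputable def Dab (x : F) (a b : ℕ) : Place K F → ℤ :=
  fun v => a * max (v.ord x) 0 + b * max (-(v.ord x)) 0

theorem mem_Lsp_iff [CharZero K] {x : F} (hx : Transcendental K x) [FiniteDimensional K⟮x⟯ F]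
    (a b : ℕ) (h : F) : h ∈ Lsp K x a b ↔ h ∈ LDiv (Dab (K := K) x a b) := by
  have hx0 : x ≠ 0 := by
    rintro rfl
    exact hx isAlgebraic_zero
  have hxi : Transcendental K x⁻¹ := transcendental_inv hx
  have : FiniteDimensional K⟮x⁻¹⟯ F := by rw [adjoin_inv_eq]; infer_instance
  rw [mem_Lsp, mem_LDiv]
  by_cases hh : h = 0
  · simp only [hh, mul_zero, zero_mem, and_self, true_or]
  simp only [hh, false_or]
  constructor
  · rintro ⟨h1, h2⟩ v
    rcases le_or_gt 0 (v.ord x) with hv | hv
    · have hxv : x ∈ v.toValuationSubring := (ord_nonneg_iff v hx0).mp hv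
      have h3 := primes_intRing_le v hxv ⟨_, h1⟩
      rw [← ord_nonneg_iff v (mul_ne_zero (pow_ne_zero _ hx0) hh),
        v.ord_mul (pow_ne_zero _ hx0) hh, ord_pow] at h3
      simp only [Dab]
      rw [max_eq_left hv, max_eq_right (by omega)]
      linarith
    · have hxv : x⁻¹ ∈ v.toValuationSubring := by
        rw [← ord_nonneg_iff v (inv_ne_zero hx0), v.ord_inv]; omega
      have h3 := primes_intRing_le v hxv ⟨_, h2⟩
      rw [← ord_nonneg_iff v (mul_ne_zero (pow_ne_zero _ (inv_ne_zero hx0)) hh),
        v.ord_mul (pow_ne_zero _ (inv_ne_zero hx0)) hh, ord_pow, v.ord_inv] at h3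
      simp only [Dab]
      rw [max_eq_right hv.le, max_eq_left (by omega)]
      linarith
  · intro hv
    refine ⟨mem_intRing_of_forall hx fun v hxv => ?_, mem_intRing_of_forall hxi fun v hxv => ?_⟩
    · have h0 : 0 ≤ v.ord x := (ord_nonneg_iff v hx0).mpr hxv
      rw [← ord_nonneg_iff v (mul_ne_zero (pow_ne_zero _ hx0) hh),
        v.ord_mul (pow_ne_zero _ hx0) hh, ord_pow]
      have h3 := hv v
      simp only [Dab] at h3
      rw [max_eq_left h0, max_eq_right (by omega)] at h3
      linarith
    · have h0 : 0 ≤ v.ord x⁻¹ := (ord_nonneg_iff v (inv_ne_zero hx0)).mpr hxv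
      rw [v.ord_inv] at h0
      rw [← ord_nonneg_iff v (mul_ne_zero (pow_ne_zero _ (inv_ne_zero hx0)) hh),
        v.ord_mul (pow_ne_zero _ (inv_ne_zero hx0)) hh, ord_pow, v.ord_inv]
      have h3 := hv v
      simp only [Dab] at h3
      rw [max_eq_right (by omega), max_eq_left h0] at h3
      linarith

theorem Lsp_eq_LDiv [CharZero K] {x : F} (hx : Transcendental K x) [FiniteDimensional K⟮x⟯ F]
    (a b : ℕ) : Lsp K x a b = LDiv (Dab (K := K) x a b) :=
  Submodule.ext (mem_Lsp_iff hx a b)

theorem finsum_ord_eq_zero [IsAlgClosed K] [CharZero K] (hFF : IsFF K F) {f : F} (hf : f ≠ 0) :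
    ∑ᶠ v : Place K F, v.ord f = 0 := by
  classical
  let D : Divisor K F := Finsupp.onFinset (hFF.finite_ord_ne_zero hf).toFinset (fun v => v.ord f)
    (by intro v hv; rw [Set.Finite.mem_toFinset]; exact hv)
  have hD : ∀ v, D v = v.ord f := fun v => rfl
  have h0 := hFF.degree_eq_zero_of_principal hf D hD
  have hdeg : Divisor.degree D = ∑ v ∈ D.support, v.ord f := by
    simp only [Divisor.degree, Finsupp.liftAddHom_apply, Finsupp.sum, AddMonoidHom.coe_mulRight]
    refine Finset.sum_congr rfl fun v _ => ?_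
    rw [hFF.deg_eq_one v, hD v]
    simp
  rw [finsum_eq_sum_of_support_subset (s := D.support), ← hdeg, h0]
  intro v hv
  rw [Finset.mem_coe, Finsupp.mem_support_iff, hD]
  exact hv

theorem finsum_poles [IsAlgClosed K] [CharZero K] (hFF : IsFF K F) {x : F}
    (hx : Transcendental K x) :
    ∑ᶠ v : Place K F, max (-(v.ord x)) 0 = (Module.finrank K⟮x⟯ F : ℤ) := by
  have h1 := hFF.sum_ord_zerosOf (transcendental_inv hx)
  rw [adjoin_inv_eq, finsum_mem_def] at h1
  rw [← h1]
  refine finsum_congr fun v => ?_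
  by_cases hv : v ∈ zerosOf K x⁻¹
  · rw [Set.indicator_of_mem hv, v.ord_inv]
    have : 0 < v.ord x⁻¹ := hv
    rw [v.ord_inv] at this
    exact max_eq_left this.le
  · rw [Set.indicator_of_notMem hv]
    have : ¬ 0 < v.ord x⁻¹ := hv
    rw [v.ord_inv] at this
    exact max_eq_right (by omega)

theorem support_poles_finite [IsAlgClosed K] [CharZero K] (hFF : IsFF K F) {x : F} (hx0 : x ≠ 0) :
    (Function.support fun v : Place K F => max (-(v.ord x)) 0).Finite := by
  refine (hFF.finite_ord_ne_zero hx0).subset ?_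
  intro v hv
  rw [Function.mem_support] at hv
  intro h0
  apply hv
  rw [h0]; simp

end RI

open RI in
/-- **RI.** `div u = m E`.  For `n ≫ 0` the space `{f : u f^m ∈ L(mn, 0)} ⊇ L(E + n (x)₀)` has dimension
`≥ dim L(n,0)`.

Proof. `E(P) = ord_P u / m`, `deg E = 0` (S24 `IsFF.degree_eq_zero_of_principal`).
`X = {f : f = 0 ∨ ∀ P, ord_P f ≥ - E(P) - n max(ord_P x, 0)}`; for `f ∈ X`, `x^{mn} u f^m` has `ord ≥ 0` wherever `x` is regular and
`u f^m` has `ord ≥ 0` wherever `1/x` is regular, so they are integral (S24.Primes, `mem_integers_of_valuation_le_one`).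
Choose `p = ∏ (X - c_i)` (`d = deg p`) and `d'` with `E ≤ (p(x))₀ + d' (x)_∞`.  `f ↦ p(x) f` identifies
`L(n(x)₀ + (p(x))₀ + d'(x)_∞)` with `Lsp K x n (d + d')`, of dimension `dim Lsp K x n 0 + (d + d') μ` (LD, `n ≥ N₀`).
Passing from a divisor `D + P` to `D` costs at most one dimension (kernel of the functional "leading coefficient at `P`",
S24 `IsFF.exists_residue`), and `deg ((p(x))₀ + d'(x)_∞ - E) = (d + d') μ` (S24 `IsFF.sum_ord_zerosOf`). -/
theorem riemann_lower [IsAlgClosed K] [CharZero K] (hFF : IsFF K F) {x : F}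
    (hx : Transcendental K x) [FiniteDimensional K⟮x⟯ F] {u : F} (hu : u ≠ 0) {m : ℕ} (hm : 0 < m)
    (hord : ∀ P : Place K F, (m : ℤ) ∣ P.ord u) :
    ∃ n₀ : ℕ, ∀ n : ℕ, n₀ ≤ n → ∃ X : Submodule K F, FiniteDimensional K X ∧
      Module.finrank K (Lsp K x n 0) ≤ Module.finrank K X ∧
      ∀ f ∈ X, u * f ^ m ∈ Lsp K x (m * n) 0 := by
  classical
  have hx0 : x ≠ 0 := by
    rintro rfl
    exact hx isAlgebraic_zero
  have hxi : Transcendental K x⁻¹ := transcendental_inv hx
  have hfdi : FiniteDimensional K⟮x⁻¹⟯ F := by rw [adjoin_inv_eq]; infer_instance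
  set μ := Module.finrank K⟮x⟯ F with hμ
  -- the dimension formula
  obtain ⟨o, ho⟩ := exists_isIntBasis (k := K) hx
  obtain ⟨o', ho'⟩ : ∃ o' : Fin μ → F, IsIntBasis (K := K) x⁻¹ o' := by
    have h1 := exists_isIntBasis (k := K) hxi
    rwa [adjoin_inv_eq] at h1
  obtain ⟨a, s, G, c, hc, hdet, he⟩ := exists_transition hx o o' ho ho'
  obtain ⟨N₀, hN₀⟩ := finrank_Lsp hx o o' ho ho' G c hc s a hdet he
  -- `E = div u / m`
  choose E hE using hord
  -- numerator of `u`
  have := isDedekindDomain_intRing (K := K) hx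
  have := isFractionRing_intRing (K := K) hx
  obtain ⟨h₁, g₁, hg₁, hug⟩ := IsFractionRing.div_surjective (A := intRing K x) u
  have hg0 : (g₁ : F) ≠ 0 := by
    have := nonZeroDivisors.ne_zero hg₁
    simpa using this
  have hh0 : (h₁ : F) ≠ 0 := by
    intro h0
    apply hu
    rw [← hug]
    change (h₁ : F) / (g₁ : F) = 0
    rw [h0, zero_div]
  have hug' : u * (g₁ : F) = (h₁ : F) := by
    rw [← hug]
    change (h₁ : F) / (g₁ : F) * (g₁ : F) = (h₁ : F)
    field_simp
  -- the exponent at infinity
  have hpolesfin : (zerosOf K x⁻¹).Finite := hFF.zerosOf_finite (inv_ne_zero hx0)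
  let e : ℕ := ∑ v ∈ hpolesfin.toFinset, (E v - v.ord (h₁ : F)).toNat
  have he_le : ∀ v : Place K F, v.ord x < 0 → E v - v.ord (h₁ : F) ≤ e := by
    intro v hv
    have hmem : v ∈ hpolesfin.toFinset := by
      rw [Set.Finite.mem_toFinset]
      change 0 < v.ord x⁻¹
      rw [v.ord_inv]; omega
    have h1 : (E v - v.ord (h₁ : F)).toNat ≤ e :=
      Finset.single_le_sum (f := fun v : Place K F => (E v - v.ord (h₁ : F)).toNat)
        (fun _ _ => Nat.zero_le _) hmem
    have h2 := Int.self_le_toNat (E v - v.ord (h₁ : F))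
    omega
  let B : Place K F → ℤ := fun v => v.ord (h₁ : F) + e * max (-(v.ord x)) 0
  have hBE : ∀ v, E v ≤ B v := by
    intro v
    simp only [B]
    rcases le_or_gt 0 (v.ord x) with hv | hv
    · have hxv : x ∈ v.toValuationSubring := (ord_nonneg_iff v hx0).mp hv
      have h1 : 0 ≤ v.ord (h₁ : F) := (ord_nonneg_iff v hh0).mpr (primes_intRing_le v hxv h₁)
      have h2 : 0 ≤ v.ord (g₁ : F) := (ord_nonneg_iff v hg0).mpr (primes_intRing_le v hxv g₁)
      have h3 : v.ord u + v.ord (g₁ : F) = v.ord (h₁ : F) := by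
        rw [← v.ord_mul hu hg0, hug']
      rw [max_eq_right (by omega), mul_zero, add_zero]
      rcases le_or_gt (E v) 0 with h4 | h4
      · omega
      · have h5 : E v ≤ (m : ℤ) * E v := le_mul_of_one_le_left h4.le (by exact_mod_cast hm)
        rw [← hE v] at h5
        omega
    · rw [max_eq_left (by omega)]
      have h1 := he_le v hv
      have h2 : (e : ℤ) ≤ e * (-(v.ord x)) :=
        le_mul_of_one_le_right (Int.natCast_nonneg _) (by omega)
      omega
  refine ⟨N₀, fun n hn => ?_⟩
  let D : Place K F → ℤ := fun v => Dab (K := K) x n 0 v + B v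
  let D' : Place K F → ℤ := fun v => Dab (K := K) x n 0 v + E v
  -- `L(D) ≃ Lsp n e`
  have hmap : (LDiv D).map (LinearMap.mulLeft K (h₁ : F)) = Lsp K x n e := by
    rw [Lsp_eq_LDiv hx]
    have hDab : ∀ v : Place K F, Dab (K := K) x n e v = D v - v.ord (h₁ : F) := by
      intro v
      simp only [D, B, Dab]
      push_cast
      ring
    ext z
    rw [Submodule.mem_map]
    constructor
    · rintro ⟨f, hf, rfl⟩
      rw [LinearMap.mulLeft_apply]
      rcases hf with rfl | hf
      · exact Or.inl (mul_zero _)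
      by_cases hf0 : f = 0
      · exact Or.inl (by rw [hf0, mul_zero])
      refine Or.inr fun v => ?_
      rw [v.ord_mul hh0 hf0, hDab]
      have := hf v
      omega
    · intro hz
      refine ⟨(h₁ : F)⁻¹ * z, ?_, ?_⟩
      · rcases hz with rfl | hz
        · exact Or.inl (mul_zero _)
        by_cases hz0 : z = 0
        · exact Or.inl (by rw [hz0, mul_zero])
        refine Or.inr fun v => ?_
        rw [v.ord_mul (inv_ne_zero hh0) hz0, v.ord_inv]
        have := hz v
        rw [hDab] at this
        omega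
      · rw [LinearMap.mulLeft_apply, mul_inv_cancel_left₀ hh0]
  let eqv : LDiv D ≃ₗ[K] Lsp K x n e :=
    (Submodule.equivMapOfInjective (LinearMap.mulLeft K (h₁ : F)) (mul_right_injective₀ hh0)
      (LDiv D)).trans (LinearEquiv.ofEq _ _ hmap)
  obtain ⟨hfd1, hdim1⟩ := hN₀ n e (by omega)
  obtain ⟨hfd0, hdim0⟩ := hN₀ n 0 (by omega)
  have hfdD : FiniteDimensional K (LDiv D) := Module.Finite.equiv eqv.symm
  have hDD' : ∀ v, D' v ≤ D v := fun v => by
    simp only [D, D']
    have := hBE v
    omega
  have hfdD' : FiniteDimensional K (LDiv D') := Submodule.finiteDimensional_of_le (LDiv_mono hDD')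
  -- supports
  have hs1 : (Function.support fun v : Place K F => v.ord (h₁ : F)).Finite :=
    hFF.finite_ord_ne_zero hh0
  have hs2 : (Function.support fun v : Place K F => (e : ℤ) * max (-(v.ord x)) 0).Finite := by
    refine (support_poles_finite hFF hx0).subset ?_
    intro v hv
    rw [Function.mem_support] at hv ⊢
    intro h0
    apply hv
    rw [h0, mul_zero]
  have hs3 : (Function.support E).Finite := by
    refine (hFF.finite_ord_ne_zero hu).subset ?_
    intro v hv
    rw [Function.mem_support] at hv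
    change v.ord u ≠ 0
    rw [hE v]
    exact mul_ne_zero (by exact_mod_cast hm.ne') hv
  have hsumE : ∑ᶠ v, E v = 0 := by
    have h1 := finsum_ord_eq_zero hFF hu
    have h2 : ∑ᶠ v : Place K F, v.ord u = (m : ℤ) * ∑ᶠ v, E v := by
      rw [mul_finsum]
      exact finsum_congr hE
    rw [h2] at h1
    exact (mul_eq_zero.mp h1).resolve_left (by exact_mod_cast hm.ne')
  have hdiff : ∀ v, D v - D' v = (v.ord (h₁ : F) + (e : ℤ) * max (-(v.ord x)) 0) - E v := by
    intro v
    simp only [D, D', B]
    ring
  have hs12 : (Function.support fun v : Place K F =>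
      v.ord (h₁ : F) + (e : ℤ) * max (-(v.ord x)) 0).Finite :=
    (hs1.union hs2).subset (Function.support_add _ _)
  have hsum : ∑ᶠ v, (D v - D' v) = (e : ℤ) * μ := by
    rw [finsum_congr hdiff, finsum_sub_distrib hs12 hs3, finsum_add_distrib hs1 hs2,
      finsum_ord_eq_zero hFF hh0, hsumE, ← mul_finsum, finsum_poles hFF hx]
    ring
  have hfin : (Function.support fun v => D v - D' v).Finite := by
    have : (fun v => D v - D' v) = fun v =>
        (v.ord (h₁ : F) + (e : ℤ) * max (-(v.ord x)) 0) - E v := funext hdiff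
    rw [this]
    exact (hs12.union hs3).subset (Function.support_sub _ _)
  have hmain := finrank_LDiv_le hFF D D' hDD' hfin
  rw [hsum, eqv.finrank_eq] at hmain
  refine ⟨LDiv D', hfdD', ?_, ?_⟩
  · have h1 : μ * (n + e + 1) = μ * (n + 0 + 1) + e * μ := by ring
    have h2 : (Module.finrank K (Lsp K x n e) : ℤ) = Module.finrank K (Lsp K x n 0) + (e : ℤ) * μ := by
      have : Module.finrank K (Lsp K x n e) = Module.finrank K (Lsp K x n 0) + e * μ := by
        rw [← hμ] at hdim1 hdim0
        omega
      exact_mod_cast this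
    rw [h2] at hmain
    have : (Module.finrank K (Lsp K x n 0) : ℤ) ≤ Module.finrank K (LDiv D') := by linarith
    exact_mod_cast this
  · intro f hf
    rw [mem_Lsp_iff hx]
    rcases hf with rfl | hf
    · exact Or.inl (by rw [zero_pow hm.ne', mul_zero])
    by_cases hf0 : f = 0
    · exact Or.inl (by rw [hf0, zero_pow hm.ne', mul_zero])
    refine Or.inr fun v => ?_
    rw [v.ord_mul hu (pow_ne_zero _ hf0), ord_pow, hE v]
    have h1 := hf v
    simp only [D', Dab] at h1 ⊢
    push_cast at h1 ⊢
    have hm' : (0 : ℤ) ≤ m := Int.natCast_nonneg _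
    have h2 := mul_le_mul_of_nonneg_left h1 hm'
    linarith

end Fermat.Agent.S18
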