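import Fermat.Agent.S18.CoreDim
import Fermat.Agent.S18.GRC
import Fermat.Agent.S18.DimEq
import Fermat.Agent.S18.Riemann

/-!
# S18: the abstract Kummer lemma `RedSetting.KL`

Assembly of DR (`exists_orthobasis`), IR (`rd_mem_intRing`), GRC (`normalRed`), DE (`finrank_Lsp_eq`),
RI (`riemann_lower`) and `CoreDim.core_dim`.
-/

set_option autoImplicit false

namespace Fermat.Agent.S18

open Polynomial IntermediateField Fermat.Agent.S24 AlgebraicCurve Module

variable {K F k Fb : Type*} [Field K] [Field F] [Algebra K F] [Field k] [Field Fb] [Algebra k Fb]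
variable (S : RedSetting K F k Fb)

namespace CoreDim

/-- DimRed in the form used by `core_dim`. -/
theorem finrank_redSub {x : F} (hx : S.Coord x) (W : Submodule K F) (hW : FiniteDimensional K W) :
    finrank k (redSub S W) = finrank K W := by
  obtain ⟨w, hwW, hwV, hli, hspan⟩ := S.exists_orthobasis hx W
  have key : redSub S W = Submodule.span k (Set.range fun i => S.rd (w i)) := by
    apply le_antisymm
    · rintro _ ⟨h, hh, hV, rfl⟩
      obtain ⟨c, hc, rfl⟩ := hspan h hh hV
      have hmem : ∀ i ∈ Finset.univ, c i • w i ∈ S.V := by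
        intro i _
        rw [Algebra.smul_def]
        exact mul_mem (S.map_mem _ (hc i)) (hwV i)
      rw [S.rd_sum _ _ hmem]
      refine sum_mem fun i _ => ?_
      rw [Algebra.smul_def, S.rd_mul (S.map_mem _ (hc i)) (hwV i), S.rd_algebraMap (hc i),
        ← Algebra.smul_def]
      exact Submodule.smul_mem _ _ (Submodule.subset_span ⟨i, rfl⟩)
    · rw [Submodule.span_le]
      rintro _ ⟨i, rfl⟩
      exact ⟨w i, hwW i, hwV i, rfl⟩
  rw [key, finrank_span_eq_card hli, Fintype.card_fin]

/-- elements of `L(0,0)` are constants. -/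
theorem const_of_mem_Lsp {K F : Type*} [Field K] [Field F] [Algebra K F] [IsAlgClosed K] {x : F}
    (hfin : FiniteDimensional K (Lsp K x 0 0)) {h : F} (hh : h ∈ Lsp K x 0 0) :
    ∃ c : K, h = algebraMap K F c := by
  let B : Subalgebra K F :=
    { carrier := Lsp K x 0 0
      mul_mem' := fun {a b} ha hb => Lsp_mul (a := 0) (b := 0) (a' := 0) (b' := 0) ha hb
      add_mem' := fun {a b} ha hb => add_mem ha hb
      algebraMap_mem' := fun c => by
        have := (Lsp K x 0 0).smul_mem c (one_mem_Lsp (K := K) x 0 0)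
        rwa [Algebra.smul_def, mul_one] at this }
  have hB : B.toSubmodule = Lsp K x 0 0 := rfl
  have hint : IsIntegral K h := by
    refine IsIntegral.of_mem_of_fg B ?_ h hh
    rw [hB]
    exact (Submodule.fg_iff_finiteDimensional _).2 hfin
  obtain ⟨c, hc⟩ := hint.mem_range_algebraMap_of_minpoly_splits (K := K) (IsAlgClosed.splits _)
  exact ⟨c, hc.symm⟩

end CoreDim

open CoreDim in
/-- **The abstract Kummer lemma.**  `u ≡ 1 mod 𝔪_V`, `m ∣ ord_P u` for all places `P`, `m` invertible in `k`
`⟹` `u` is an `m`-th power. -/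
theorem RedSetting.KL [IsAlgClosed K] [CharZero K] [IsAlgClosed k] (hFF : IsFF K F) {x : F}
    (hx : S.Coord x) (H0 : S.BranchHyp x) (Hinf : S.BranchHyp x⁻¹) {m : ℕ} (hm : (m : k) ≠ 0)
    {u : F} (huV : u ∈ S.V) (hu1 : S.rd u = 1) (hord : ∀ P : Place K F, (m : ℤ) ∣ P.ord u) :
    ∃ w : F, w ^ m = u := by
  have hmk := hm
  have hm : 0 < m := by
    rcases Nat.eq_zero_or_pos m with rfl | h
    · exact absurd Nat.cast_zero hmk
    · exact h
  have hu : u ≠ 0 := by
    rintro rfl
    rw [S.rd_zero] at hu1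
    exact zero_ne_one hu1
  have hxi : S.Coord x⁻¹ := hx.inv
  have hrdi : S.rd x⁻¹ = (S.rd x)⁻¹ := hx.rd_inv
  have hx0 : S.rd x ≠ 0 := fun h => by
    have := hx.trans
    rw [h] at this
    exact this isAlgebraic_zero
  have hxt : Transcendental K x := S.transcendental_of_rd hx.mem hx.trans
  have hxit : Transcendental K x⁻¹ := S.transcendental_of_rd hxi.mem hxi.trans
  obtain ⟨N₀, hN₀⟩ := S.finrank_Lsp_eq hx (S.normalRed hFF hx H0) (S.normalRed hFF hxi Hinf)
  have fin : ∀ a b, FiniteDimensional K (Lsp K x a b) := by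
    intro a b
    have := (hN₀ (a + N₀) b (by omega)).1
    exact Submodule.finiteDimensional_of_le (Lsp_mono (Nat.le_add_right a N₀) le_rfl)
  have finb : ∀ a b, FiniteDimensional k (Lsp k (S.rd x) a b) := by
    intro a b
    have := (hN₀ (a + N₀) b (by omega)).2.1
    exact Submodule.finiteDimensional_of_le (Lsp_mono (Nat.le_add_right a N₀) le_rfl)
  have := hx.fin
  have := hxi.fin
  obtain ⟨n₁, hn₁⟩ := riemann_lower hFF hxt hu hm hord
  obtain ⟨n₂, hn₂⟩ := riemann_lower hFF hxit hu hm hord
  obtain ⟨h, hh0, c, hc⟩ := core_dim S hx.mem hx0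
    (fun h hh hV => S.rd_mem_intRing hx hV hh)
    (fun h hh hV => by
      have := S.rd_mem_intRing hxi hV hh
      rwa [hrdi] at this)
    (finrank_redSub S hx)
    (fun h hh => const_of_mem_Lsp (fin 0 0) hh)
    (fun h hh => const_of_mem_Lsp (finb 0 0) hh)
    fin finb
    ⟨N₀, fun n hn => ⟨(hN₀ 0 n (by omega)).2.2.le, (hN₀ n 0 (by omega)).2.2.le⟩⟩
    hm hmk hu huV hu1
    ⟨max n₁ n₂, fun n hn => by
      have hfX : ∀ a b, FiniteDimensional K (Xsp K x u m hm a b) := by
        intro a b
        have := fin (m * a) (m * b)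
        exact Xsp_finite hu
      constructor
      · obtain ⟨X, _, hX1, hX2⟩ := hn₂ n (le_trans (le_max_right _ _) hn)
        rw [Lsp_inv] at hX1
        refine le_trans hX1 ?_
        have := hfX 0 n
        apply Submodule.finrank_mono
        intro f hf
        have := hX2 f hf
        rw [Lsp_inv] at this
        rw [mem_Xsp, Nat.mul_zero]
        exact this
      · obtain ⟨X, _, hX1, hX2⟩ := hn₁ n (le_trans (le_max_left _ _) hn)
        refine le_trans hX1 ?_
        have := hfX n 0
        apply Submodule.finrank_mono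
        intro f hf
        have := hX2 f hf
        rw [mem_Xsp, Nat.mul_zero]
        exact this⟩
  obtain ⟨d, hd⟩ := IsAlgClosed.exists_pow_nat_eq c hm
  refine ⟨algebraMap K F d * h⁻¹, ?_⟩
  rw [mul_pow, ← map_pow, hd, ← hc, inv_pow, mul_assoc, mul_inv_cancel₀ (pow_ne_zero _ hh0), mul_one]

end Fermat.Agent.S18
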