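import Fermat.Agent.S18.Setting

/-!
# S18, piece PD: the dimension formula for lattice pairs on `P¹` (proof file)
-/

set_option autoImplicit false

namespace Fermat.Agent.S18.PD

open Polynomial Matrix Module

variable {k : Type*} [Field k]

/-! ### Lemma A: `dim k[X]^μ / k[X]^μ H = deg det H` -/

theorem vecMulLinear_injective {μ : ℕ} (H : Matrix (Fin μ) (Fin μ) k[X]) (hH : H.det ≠ 0) :
    Function.Injective H.vecMulLinear := by
  rw [injective_iff_map_eq_zero]
  intro v hv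
  exact Matrix.eq_zero_of_vecMul_eq_zero hH hv

theorem det_vecMulLinear {μ : ℕ} (H : Matrix (Fin μ) (Fin μ) k[X]) :
    LinearMap.det H.vecMulLinear = H.det := by
  have : H.vecMulLinear = Matrix.toLin' Hᵀ := by
    ext v i
    simp [Matrix.toLin'_apply]
  rw [this, LinearMap.det_toLin', Matrix.det_transpose]

theorem finrank_quot {μ : ℕ} (H : Matrix (Fin μ) (Fin μ) k[X]) (hH : H.det ≠ 0) :
    FiniteDimensional k ((Fin μ → k[X]) ⧸ LinearMap.range H.vecMulLinear) ∧
    Module.finrank k ((Fin μ → k[X]) ⧸ LinearMap.range H.vecMulLinear) = H.det.natDegree := by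
  classical
  set f : (Fin μ → k[X]) →ₗ[k[X]] (Fin μ → k[X]) := H.vecMulLinear with hf
  have hinj : Function.Injective f := vecMulLinear_injective H hH
  set N := LinearMap.range f with hN
  let e : (Fin μ → k[X]) ≃ₗ[k[X]] N := LinearEquiv.ofInjective f hinj
  let b := Pi.basisFun k[X] (Fin μ)
  have h : Module.finrank k[X] N = Module.finrank k[X] (Fin μ → k[X]) := e.symm.finrank_eq
  let a := Submodule.smithNormalFormCoeffs b h
  let b' := Submodule.smithNormalFormTopBasis b h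
  let ab := Submodule.smithNormalFormBotBasis b h
  have ab_eq := Submodule.smithNormalFormBotBasis_def b h
  have ha0 : ∀ i, a i ≠ 0 := Submodule.smithNormalFormCoeffs_ne_zero b h
  let e' : (Fin μ → k[X]) ≃ₗ[k[X]] N := b'.equiv ab (Equiv.refl _)
  let f' : (Fin μ → k[X]) →ₗ[k[X]] (Fin μ → k[X]) := N.subtype.comp (e' : _ →ₗ[k[X]] N)
  have hassoc : Associated (LinearMap.det (N.subtype ∘ₗ (e : _ →ₗ[k[X]] N))) (LinearMap.det f') :=
    LinearMap.associated_det_comp_equiv N.subtype e e'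
  have hfe : N.subtype ∘ₗ (e : _ →ₗ[k[X]] N) = f := by
    ext v i
    rfl
  rw [hfe, hf, det_vecMulLinear] at hassoc
  have ha : ∀ i, f' (b' i) = a i • b' i := by
    intro i
    change ((b'.equiv ab (Equiv.refl _) (b' i) : N) : Fin μ → k[X]) = _
    rw [b'.equiv_apply, Equiv.refl_apply]
    exact ab_eq i
  have hdet' : LinearMap.det f' = ∏ i, a i := by
    rw [← LinearMap.det_toMatrix b', ← Matrix.det_diagonal]
    congr 1
    ext i j
    rw [LinearMap.toMatrix_apply, ha, map_smul, Basis.repr_self, Finsupp.smul_single,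
      smul_eq_mul, mul_one]
    by_cases hij : i = j
    · rw [hij, Matrix.diagonal_apply_eq, Finsupp.single_eq_same]
    · rw [Matrix.diagonal_apply_ne _ hij, Finsupp.single_eq_of_ne hij]
  have hfin : ∀ i, FiniteDimensional k (k[X] ⧸ Ideal.span ({a i} : Set k[X])) := fun i =>
    PowerBasis.finite <| AdjoinRoot.powerBasis <| ha0 i
  have hfr : ∀ i, Module.finrank k (k[X] ⧸ Ideal.span ({a i} : Set k[X])) = (a i).natDegree :=
    fun i => (AdjoinRoot.powerBasis <| ha0 i).finrank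
  refine ⟨?_, ?_⟩
  · exact Module.Finite.equiv (Submodule.quotientEquivDirectSum k b h).symm
  · rw [natDegree_eq_of_degree_eq (degree_eq_degree_of_associated hassoc), hdet',
      natDegree_prod _ _ fun i _ => ha0 i, Submodule.finrank_quotient_eq_sum k b h]
    exact Finset.sum_congr rfl fun i _ => hfr i

/-! ### Lemma B: truncation -/

/-- inclusion of the vectors of polynomials of degree `≤ D`. -/
noncomputable def incl (k : Type*) [Field k] (μ D : ℕ) :
    (Fin μ → degreeLT k (D + 1)) →ₗ[k] (Fin μ → k[X]) :=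
  LinearMap.pi fun i => (degreeLT k (D + 1)).subtype ∘ₗ LinearMap.proj i

theorem incl_apply {μ D : ℕ} (v : Fin μ → degreeLT k (D + 1)) (i : Fin μ) :
    incl k μ D v i = (v i : k[X]) := rfl

theorem incl_injective (μ D : ℕ) : Function.Injective (incl k μ D) := by
  intro v w h
  funext i
  exact Subtype.ext (congrFun h i)

theorem exists_incl_eq {μ D : ℕ} (v : Fin μ → k[X]) (hv : ∀ i, (v i).natDegree ≤ D) :
    ∃ u, incl k μ D u = v := by
  refine ⟨fun i => ⟨v i, ?_⟩, rfl⟩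
  rw [degreeLT_succ_eq_degreeLE, mem_degreeLE]
  exact natDegree_le_iff_degree_le.mp (hv i)

theorem natDegree_incl_le {μ D : ℕ} (u : Fin μ → degreeLT k (D + 1)) (i : Fin μ) :
    (incl k μ D u i).natDegree ≤ D := by
  have key : ∀ p : k[X], p ∈ degreeLT k (D + 1) → p.natDegree ≤ D := by
    intro p hp
    rw [degreeLT_succ_eq_degreeLE, mem_degreeLE] at hp
    exact natDegree_le_iff_degree_le.mpr hp
  exact key _ (u i).2

theorem finrank_dom (μ D : ℕ) : finrank k (Fin μ → degreeLT k (D + 1)) = μ * (D + 1) := by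
  have h1 : finrank k (degreeLT k (D + 1)) = D + 1 := by
    rw [(degreeLTEquiv k (D + 1)).finrank_eq]
    simp
  have : FiniteDimensional k (degreeLT k (D + 1)) :=
    Module.Finite.equiv (degreeLTEquiv k (D + 1)).symm
  rw [Module.finrank_pi_fintype]
  simp [h1]

instance (μ D : ℕ) : FiniteDimensional k (Fin μ → degreeLT k (D + 1)) := by
  have : FiniteDimensional k (degreeLT k (D + 1)) :=
    Module.Finite.equiv (degreeLTEquiv k (D + 1)).symm
  infer_instance

theorem finrank_ker_add {μ : ℕ} {Q : Type*} [AddCommGroup Q] [Module k Q] [FiniteDimensional k Q]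
    (π : (Fin μ → k[X]) →ₗ[k] Q) (hπ : Function.Surjective π) :
    ∃ D₀ : ℕ, ∀ D, D₀ ≤ D →
      finrank k (LinearMap.ker (π ∘ₗ incl k μ D)) + finrank k Q = μ * (D + 1) := by
  let bQ := Module.finBasis k Q
  choose l hl using fun i => hπ (bQ i)
  refine ⟨Finset.univ.sup fun i => Finset.univ.sup fun j => (l i j).natDegree, fun D hD => ?_⟩
  have hsurj : LinearMap.range (π ∘ₗ incl k μ D) = ⊤ := by
    rw [eq_top_iff, ← bQ.span_eq, Submodule.span_le]
    rintro _ ⟨i, rfl⟩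
    obtain ⟨u, hu⟩ := exists_incl_eq (D := D) (l i) (fun j => by
      refine le_trans ?_ hD
      refine le_trans ?_ (Finset.le_sup (f := fun i => Finset.univ.sup fun j => (l i j).natDegree)
        (Finset.mem_univ i))
      exact Finset.le_sup (f := fun j => (l i j).natDegree) (Finset.mem_univ j))
    exact ⟨u, by simp [hu, hl]⟩
  have := LinearMap.finrank_range_add_finrank_ker (π ∘ₗ incl k μ D)
  rw [hsurj, finrank_top, finrank_dom] at this
  omega

/-! ### Transfer to `E` -/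

variable {E : Type*} [Field E] [Algebra k E]

theorem aeval_reflect {x : E} (hx0 : x ≠ 0) (T : ℕ) (p : k[X]) (hp : p.natDegree ≤ T) :
    aeval x (reflect T p) = x ^ T * aeval x⁻¹ p := by
  let _ := invertibleOfNonzero (inv_ne_zero hx0)
  have h := eval₂_reflect_mul_pow (algebraMap k E) x⁻¹ T p hp
  rw [invOf_eq_inv, inv_inv] at h
  rw [aeval_def, aeval_def, ← h, inv_pow]
  field_simp

theorem polyIndep_inv {x : E} (hx0 : x ≠ 0) {μ : ℕ} (e' : Fin μ → E) (hind : PolyIndep k x e') :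
    PolyIndep k x⁻¹ e' := by
  intro w hw
  set T := Finset.univ.sup fun j => (w j).natDegree with hTdef
  have hT : ∀ j, (w j).natDegree ≤ T := fun j =>
    Finset.le_sup (f := fun j => (w j).natDegree) (Finset.mem_univ j)
  have := hind (fun j => reflect T (w j)) (by
    have : ∀ j, aeval x (reflect T (w j)) * e' j = x ^ T * (aeval x⁻¹ (w j) * e' j) := fun j => by
      rw [aeval_reflect hx0 T _ (hT j), mul_assoc]
    simp_rw [this, ← Finset.mul_sum, hw, mul_zero])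
  funext j
  have hj := congrFun this j
  simpa using hj

theorem sum_aeval_vecMul {y : E} {μ : ℕ} (e' : Fin μ → E) (G : Matrix (Fin μ) (Fin μ) k[X])
    (v : Fin μ → k[X]) :
    ∑ j, aeval y ((v ᵥ* G) j) * e' j = ∑ i, aeval y (v i) * ∑ j, aeval y (G i j) * e' j := by
  simp_rw [Matrix.vecMul, dotProduct, map_sum, map_mul, Finset.sum_mul, Finset.mul_sum]
  rw [Finset.sum_comm]
  simp_rw [mul_assoc]

theorem sum_e {x : E} {μ : ℕ} (e e' : Fin μ → E) (G : Matrix (Fin μ) (Fin μ) k[X]) (a : ℕ)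
    (he : ∀ i, e i = x ^ a * ∑ j, aeval x⁻¹ (G i j) * e' j) (v : Fin μ → k[X]) :
    ∑ i, aeval x⁻¹ (v i) * e i = x ^ a * ∑ j, aeval x⁻¹ ((v ᵥ* G) j) * e' j := by
  rw [sum_aeval_vecMul, Finset.mul_sum]
  refine Finset.sum_congr rfl fun i _ => ?_
  rw [he i]; ring

theorem mem_of_exists {x : E} (hx0 : x ≠ 0) {μ : ℕ} (e e' : Fin μ → E)
    (G : Matrix (Fin μ) (Fin μ) k[X]) (c : k) (s a : ℕ) (hdet : G.det = C c * X ^ s)
    (he : ∀ i, e i = x ^ a * ∑ j, aeval x⁻¹ (G i j) * e' j)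
    {N D : ℕ} (hND : N + s = D + a) (v w : Fin μ → k[X])
    (hv : ∀ i, (v i).natDegree ≤ D) (hw : w ᵥ* G.adjugate = v) :
    x ^ D * ∑ i, aeval x⁻¹ (v i) * e i ∈
      polySpan k x e ⊓ (polySpan k x⁻¹ e').comap (LinearMap.mulLeft k (x⁻¹ ^ N)) := by
  refine ⟨⟨fun i => reflect D (v i), ?_⟩, ?_⟩
  · rw [Finset.mul_sum]
    refine Finset.sum_congr rfl fun i _ => ?_
    rw [aeval_reflect hx0 D _ (hv i), mul_assoc]
  · change x⁻¹ ^ N * (x ^ D * ∑ i, aeval x⁻¹ (v i) * e i) ∈ polySpan k x⁻¹ e'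
    refine ⟨fun j => C c * w j, ?_⟩
    have hvG : v ᵥ* G = fun j => C c * X ^ s * w j := by
      rw [← hw, Matrix.vecMul_vecMul, Matrix.adjugate_mul, hdet, Matrix.vecMul_smul,
        Matrix.vecMul_one]
      rfl
    rw [sum_e e e' G a he, hvG]
    simp only [map_mul, aeval_C, aeval_X, map_pow]
    have h1 : x⁻¹ ^ N * (x ^ D * (x ^ a * x⁻¹ ^ s)) = 1 := by
      calc x⁻¹ ^ N * (x ^ D * (x ^ a * x⁻¹ ^ s)) = x⁻¹ ^ (N + s) * x ^ (D + a) := by ring
        _ = 1 := by rw [hND, ← mul_pow, inv_mul_cancel₀ hx0, one_pow]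
    have h2 : ∀ j, algebraMap k E c * x⁻¹ ^ s * aeval x⁻¹ (w j) * e' j
        = x⁻¹ ^ s * (algebraMap k E c * aeval x⁻¹ (w j) * e' j) := fun j => by ring
    simp_rw [h2, ← Finset.mul_sum]
    rw [← mul_assoc (x ^ a), ← mul_assoc (x ^ D), ← mul_assoc (x⁻¹ ^ N), h1, one_mul]

theorem exists_of_mem {x : E} (hx0 : x ≠ 0) {μ : ℕ} (e e' : Fin μ → E) (hind : PolyIndep k x e')
    (G : Matrix (Fin μ) (Fin μ) k[X]) (c : k) (hc : c ≠ 0) (s a : ℕ) (hdet : G.det = C c * X ^ s)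
    (he : ∀ i, e i = x ^ a * ∑ j, aeval x⁻¹ (G i j) * e' j)
    {N D : ℕ} (hND : N + s = D + a) (h : E)
    (hh : h ∈ polySpan k x e ⊓ (polySpan k x⁻¹ e').comap (LinearMap.mulLeft k (x⁻¹ ^ N))) :
    ∃ v w : Fin μ → k[X], (∀ i, (v i).natDegree ≤ D) ∧ w ᵥ* G.adjugate = v ∧
      h = x ^ D * ∑ i, aeval x⁻¹ (v i) * e i := by
  obtain ⟨⟨p, hp⟩, q, hq⟩ := hh
  replace hq : x⁻¹ ^ N * h = ∑ j, aeval x⁻¹ (q j) * e' j := hq
  set T := max D (Finset.univ.sup fun i => (p i).natDegree) with hTdef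
  have hTD : D ≤ T := le_max_left _ _
  have hT : ∀ i, (p i).natDegree ≤ T := fun i =>
    le_trans (Finset.le_sup (f := fun i => (p i).natDegree) (Finset.mem_univ i)) (le_max_right _ _)
  set pt : Fin μ → k[X] := fun i => reflect T (p i) with hptdef
  have hpt : ∀ i, aeval x⁻¹ (pt i) = x⁻¹ ^ T * aeval x (p i) := fun i => by
    have := aeval_reflect (inv_ne_zero hx0) T (p i) (hT i)
    rwa [inv_inv] at this
  have h1 : x⁻¹ ^ T * h = x ^ a * ∑ j, aeval x⁻¹ ((pt ᵥ* G) j) * e' j := by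
    rw [← sum_e e e' G a he, hp, Finset.mul_sum]
    exact Finset.sum_congr rfl fun i _ => by rw [hpt, mul_assoc]
  have h1' : ∑ j, aeval x⁻¹ ((pt ᵥ* G) j) * e' j = x⁻¹ ^ a * (x⁻¹ ^ T * h) := by
    rw [h1, ← mul_assoc, ← mul_pow, inv_mul_cancel₀ hx0, one_pow, one_mul]
  have h2 : ∑ j, aeval x⁻¹ (X ^ (T + a) * q j - X ^ N * (pt ᵥ* G) j) * e' j = 0 := by
    simp only [map_sub, map_mul, map_pow, aeval_X, sub_mul, Finset.sum_sub_distrib, mul_assoc,
      ← Finset.mul_sum]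
    rw [← hq, h1']
    ring
  have h3 := polyIndep_inv hx0 e' hind _ h2
  have h4 : ∀ j, X ^ (T + a) * q j = X ^ N * (pt ᵥ* G) j := fun j =>
    sub_eq_zero.mp (congrFun h3 j)
  have h5 : (X ^ (T + a) : k[X]) • q = (X ^ N : k[X]) • (pt ᵥ* G) := funext h4
  have h6 : (X ^ (T + a) : k[X]) • (q ᵥ* G.adjugate) = (X ^ N * (C c * X ^ s) : k[X]) • pt := by
    rw [← Matrix.smul_vecMul, h5, Matrix.smul_vecMul, Matrix.vecMul_vecMul, Matrix.mul_adjugate,
      hdet, Matrix.vecMul_smul, Matrix.vecMul_one, smul_smul]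
  have h7 : ∀ i, X ^ (T - D) * (C c⁻¹ * (q ᵥ* G.adjugate) i) = pt i := by
    intro i
    have h := congrFun h6 i
    simp only [Pi.smul_apply, smul_eq_mul] at h
    have h8 : (X : k[X]) ^ (D + a) * (X ^ (T - D) * (q ᵥ* G.adjugate) i)
        = X ^ (D + a) * (C c * pt i) := by
      calc (X : k[X]) ^ (D + a) * (X ^ (T - D) * (q ᵥ* G.adjugate) i)
          = X ^ (D + (T - D) + a) * (q ᵥ* G.adjugate) i := by ring
        _ = X ^ (T + a) * (q ᵥ* G.adjugate) i := by rw [Nat.add_sub_cancel' hTD]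
        _ = X ^ (N + s) * (C c * pt i) := by rw [h]; ring
        _ = _ := by rw [hND]
    have h9 := mul_left_cancel₀ (pow_ne_zero _ X_ne_zero) h8
    calc X ^ (T - D) * (C c⁻¹ * (q ᵥ* G.adjugate) i)
        = C c⁻¹ * (X ^ (T - D) * (q ᵥ* G.adjugate) i) := by ring
      _ = (C c⁻¹ * C c) * pt i := by rw [h9]; ring
      _ = pt i := by rw [← C_mul, inv_mul_cancel₀ hc, C_1, one_mul]
  refine ⟨fun i => C c⁻¹ * (q ᵥ* G.adjugate) i, (C c⁻¹ : k[X]) • q, ?_, ?_, ?_⟩
  · intro i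
    change (C c⁻¹ * (q ᵥ* G.adjugate) i).natDegree ≤ D
    by_cases hv0 : C c⁻¹ * (q ᵥ* G.adjugate) i = 0
    · rw [hv0]; simp
    · have h10 : (pt i).natDegree ≤ T := by
        refine le_trans natDegree_reflect_le ?_
        exact max_le le_rfl (hT i)
      rw [← h7 i, natDegree_X_pow_mul _ hv0] at h10
      omega
  · rw [Matrix.smul_vecMul]
    rfl
  · rw [hp, Finset.mul_sum]
    refine Finset.sum_congr rfl fun i _ => ?_
    have h11 : x⁻¹ ^ (T - D) * aeval x⁻¹ (C c⁻¹ * (q ᵥ* G.adjugate) i)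
        = x⁻¹ ^ T * aeval x (p i) := by
      rw [← hpt, ← h7 i, map_mul (aeval x⁻¹) (X ^ (T - D)), map_pow, aeval_X]
    have h12 : x ^ D * aeval x⁻¹ (C c⁻¹ * (q ᵥ* G.adjugate) i) = aeval x (p i) := by
      have h13 : x ^ T * x⁻¹ ^ (T - D) = x ^ D := by
        conv_lhs => rw [← Nat.add_sub_cancel' hTD, pow_add]
        rw [Nat.add_sub_cancel_left, mul_assoc, ← mul_pow, mul_inv_cancel₀ hx0, one_pow, mul_one]
      rw [← h13, mul_assoc, h11, ← mul_assoc, ← mul_pow, mul_inv_cancel₀ hx0, one_pow, one_mul]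
    rw [← mul_assoc, h12]

/-- the map `v ↦ x^D ∑ v_i(1/x) e_i`. -/
noncomputable def Psi (x : E) {μ : ℕ} (e : Fin μ → E) (D : ℕ) : (Fin μ → k[X]) →ₗ[k] E where
  toFun v := x ^ D * ∑ i, aeval x⁻¹ (v i) * e i
  map_add' v w := by simp [add_mul, Finset.sum_add_distrib, mul_add]
  map_smul' r v := by
    simp only [Pi.smul_apply, map_smul, RingHom.id_apply, smul_mul_assoc, ← Finset.smul_sum,
      mul_smul_comm]

theorem Psi_apply (x : E) {μ : ℕ} (e : Fin μ → E) (D : ℕ) (v : Fin μ → k[X]) :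
    Psi x e D v = x ^ D * ∑ i, aeval x⁻¹ (v i) * e i := rfl

theorem Psi_injective {x : E} (hx0 : x ≠ 0) {μ : ℕ} (e e' : Fin μ → E) (hind : PolyIndep k x e')
    (G : Matrix (Fin μ) (Fin μ) k[X]) (hG : G.det ≠ 0) (a : ℕ)
    (he : ∀ i, e i = x ^ a * ∑ j, aeval x⁻¹ (G i j) * e' j) (D : ℕ) :
    Function.Injective (Psi (k := k) x e D) := by
  rw [injective_iff_map_eq_zero]
  intro v hv
  rw [Psi_apply, sum_e e e' G a he] at hv
  have h1 : ∑ j, aeval x⁻¹ ((v ᵥ* G) j) * e' j = 0 := by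
    rcases mul_eq_zero.mp hv with h | h
    · exact absurd h (pow_ne_zero _ hx0)
    · rcases mul_eq_zero.mp h with h | h
      · exact absurd h (pow_ne_zero _ hx0)
      · exact h
  have h2 := polyIndep_inv hx0 e' hind _ h1
  exact Matrix.eq_zero_of_vecMul_eq_zero hG h2

theorem pairDim_aux {x : E} (hx0 : x ≠ 0) {μ : ℕ} (e e' : Fin μ → E) (hind : PolyIndep k x e')
    (G : Matrix (Fin μ) (Fin μ) k[X]) (c : k) (hc : c ≠ 0) (s a : ℕ) (hdet : G.det = C c * X ^ s)
    (he : ∀ i, e i = x ^ a * ∑ j, aeval x⁻¹ (G i j) * e' j) :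
    ∃ N₀ : ℕ, ∀ N : ℕ, N₀ ≤ N →
      FiniteDimensional k
        ↥(polySpan k x e ⊓ (polySpan k x⁻¹ e').comap (LinearMap.mulLeft k (x⁻¹ ^ N))) ∧
      Module.finrank k
        ↥(polySpan k x e ⊓ (polySpan k x⁻¹ e').comap (LinearMap.mulLeft k (x⁻¹ ^ N))) + a * μ
        = μ * (N + 1) + s := by
  have hG0 : G.det ≠ 0 := by
    rw [hdet]
    exact mul_ne_zero (C_ne_zero.mpr hc) (pow_ne_zero _ X_ne_zero)
  have hHdet : G.adjugate.det = (C c * X ^ s) ^ (μ - 1) := by
    rw [Matrix.det_adjugate, hdet, Fintype.card_fin]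
  have hH0 : G.adjugate.det ≠ 0 := by
    rw [hHdet, ← hdet]
    exact pow_ne_zero _ hG0
  obtain ⟨hfin, hfr⟩ := finrank_quot G.adjugate hH0
  rw [hHdet, natDegree_pow, natDegree_C_mul_X_pow s c hc] at hfr
  set L := LinearMap.range G.adjugate.vecMulLinear with hL
  let π : (Fin μ → k[X]) →ₗ[k] ((Fin μ → k[X]) ⧸ L) := L.mkQ.restrictScalars k
  have hπ : Function.Surjective π := L.mkQ_surjective
  obtain ⟨D₀, hD₀⟩ := finrank_ker_add π hπ
  refine ⟨D₀ + a, fun N hN => ?_⟩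
  obtain ⟨D, hND⟩ : ∃ D, N + s = D + a := ⟨N + s - a, by omega⟩
  have hD : D₀ ≤ D := by omega
  have hinj : Function.Injective (Psi (k := k) x e D ∘ₗ incl k μ D) :=
    (Psi_injective hx0 e e' hind G hG0 a he D).comp (incl_injective μ D)
  have hmap : polySpan k x e ⊓ (polySpan k x⁻¹ e').comap (LinearMap.mulLeft k (x⁻¹ ^ N))
      = (LinearMap.ker (π ∘ₗ incl k μ D)).map (Psi (k := k) x e D ∘ₗ incl k μ D) := by
    ext h
    constructor
    · intro hh
      obtain ⟨v, w, hv, hw, rfl⟩ := exists_of_mem hx0 e e' hind G c hc s a hdet he hND h hh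
      obtain ⟨u, hu⟩ := exists_incl_eq v hv
      refine ⟨u, ?_, ?_⟩
      · change L.mkQ (incl k μ D u) = 0
        rw [hu, Submodule.mkQ_apply, Submodule.Quotient.mk_eq_zero]
        exact ⟨w, hw⟩
      · change Psi x e D (incl k μ D u) = _
        rw [hu, Psi_apply]
    · rintro ⟨u, hu, rfl⟩
      replace hu : L.mkQ (incl k μ D u) = 0 := hu
      rw [Submodule.mkQ_apply, Submodule.Quotient.mk_eq_zero] at hu
      obtain ⟨w, hw⟩ := hu
      exact mem_of_exists hx0 e e' G c s a hdet he hND _ w (natDegree_incl_le u) hw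
  rw [hmap]
  have hfr2 := (Submodule.equivMapOfInjective _ hinj (LinearMap.ker (π ∘ₗ incl k μ D))).finrank_eq
  refine ⟨inferInstance, ?_⟩
  rw [← hfr2]
  have h1 := hD₀ D hD
  rw [hfr] at h1
  rcases Nat.eq_zero_or_pos μ with rfl | hμ
  · have hs : s = 0 := by
      have h2 : (1 : k[X]) = C c * X ^ s := by rw [← hdet]; simp
      have h3 := congrArg natDegree h2
      rw [natDegree_C_mul_X_pow s c hc, natDegree_one] at h3
      exact h3.symm
    subst hs
    simpa using h1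
  · obtain ⟨m, rfl⟩ : ∃ m, μ = m + 1 := ⟨μ - 1, by omega⟩
    rw [Nat.add_sub_cancel] at h1
    have h2 : (m + 1) * (D + 1) + a * (m + 1) = (m + 1) * (N + 1) + (m + 1) * s := by
      calc (m + 1) * (D + 1) + a * (m + 1) = (m + 1) * (D + a + 1) := by ring
        _ = (m + 1) * (N + s + 1) := by rw [hND]
        _ = _ := by ring
    have h3 : (m + 1) * s = m * s + s := by ring
    omega

end Fermat.Agent.S18.PD
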