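import Fermat.Agent.S18.PairDimIB

set_option autoImplicit false

namespace Fermat.Agent.S18

open Polynomial IntermediateField Fermat.Agent.S24 Matrix

variable {k E : Type*} [Field k] [Field E] [Algebra k E]

theorem tr_aeval_reflect {x : E} (hx0 : x ≠ 0) (p : k[X]) {D : ℕ} (hD : p.natDegree ≤ D) :
    aeval x⁻¹ (reflect D p) * x ^ D = aeval x p := by
  let _ := invertibleOfNonzero hx0
  have := eval₂_reflect_mul_pow (algebraMap k E) x D p hD
  rw [invOf_eq_inv] at this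
  exact this

theorem tr_aeval_reflect' {x : E} (hx0 : x ≠ 0) (p : k[X]) {D : ℕ} (hD : p.natDegree ≤ D) :
    aeval x⁻¹ (reflect D p) = x⁻¹ ^ D * aeval x p := by
  rw [← tr_aeval_reflect hx0 p hD, inv_pow]
  field_simp

theorem tr_scale_mem {x : E} (hx0 : x ≠ 0) {h : E} (hh : h ∈ intRing k x) :
    ∃ a : ℕ, x⁻¹ ^ a * h ∈ intRing k x⁻¹ := by
  obtain ⟨P, hPm, hP⟩ := hh
  choose p hp using fun j => ib_mem_polyRing_iff.1 (P.coeff j).2
  obtain ⟨n, hn⟩ : ∃ n, n = P.natDegree := ⟨_, rfl⟩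
  obtain ⟨a, ha⟩ : ∃ a : ℕ, ∀ j ∈ Finset.range (n + 1), (p j).natDegree ≤ a :=
    ⟨(Finset.range (n + 1)).sup fun j => (p j).natDegree, fun j hj =>
      Finset.le_sup (f := fun j => (p j).natDegree) hj⟩
  refine ⟨a, ?_⟩
  have hmem : ∀ q : k[X], aeval x⁻¹ q ∈ polyRing k x⁻¹ := fun q => ib_mem_polyRing_iff.2 ⟨q, rfl⟩
  let c : ℕ → polyRing k x⁻¹ := fun j => ⟨aeval x⁻¹ (reflect (a * (n - j)) (p j)), hmem _⟩
  refine ⟨X ^ n + ∑ j ∈ Finset.range n, C (c j) * X ^ j, ?_, ?_⟩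
  · apply monic_X_pow_add
    refine (degree_sum_le _ _).trans_lt ?_
    rw [Finset.sup_lt_iff (by exact WithBot.bot_lt_coe n)]
    intro j hj
    refine (degree_C_mul_X_pow_le _ _).trans_lt ?_
    exact_mod_cast Finset.mem_range.1 hj
  · rw [eval₂_eq_sum_range, ← hn, Finset.sum_range_succ] at hP
    have h1 : (algebraMap (polyRing k x) E) (P.coeff n) = 1 := by
      rw [hn, hPm.coeff_natDegree, map_one]
    rw [h1, one_mul] at hP
    simp only [eval₂_add, eval₂_pow, eval₂_X, eval₂_finsetSum, eval₂_mul, eval₂_C]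
    have h2 : ∀ j ∈ Finset.range n, algebraMap (polyRing k x⁻¹) E (c j) * (x⁻¹ ^ a * h) ^ j =
        x⁻¹ ^ (a * n) * (algebraMap (polyRing k x) E (P.coeff j) * h ^ j) := by
      intro j hj
      have hj' := Finset.mem_range.1 hj
      have h3 : (p j).natDegree ≤ a * (n - j) := by
        refine (ha j (Finset.mem_range.2 (by omega))).trans ?_
        exact Nat.le_mul_of_pos_right a (by omega)
      change aeval x⁻¹ (reflect (a * (n - j)) (p j)) * _ = _ * ((P.coeff j : E) * _)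
      rw [tr_aeval_reflect' hx0 _ h3, hp j, mul_pow, ← pow_mul]
      have h4 : a * n = a * (n - j) + a * j := by
        rw [← Nat.mul_add]; congr 1; omega
      rw [h4, pow_add]
      ring
    rw [Finset.sum_congr rfl h2, ← Finset.mul_sum, mul_pow, ← pow_mul, ← mul_add, add_comm, hP,
      mul_zero]

theorem tr_polyIndep_inv {x : E} (hx0 : x ≠ 0) {ι : Type*} [Fintype ι] {e : ι → E}
    (he : PolyIndep k x⁻¹ e) : PolyIndep k x e := by
  intro p hp
  obtain ⟨D, hD⟩ : ∃ D : ℕ, ∀ i, (p i).natDegree ≤ D :=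
    ⟨Finset.univ.sup fun i => (p i).natDegree, fun i =>
      Finset.le_sup (f := fun i => (p i).natDegree) (Finset.mem_univ i)⟩
  have h1 : ∑ i, aeval x⁻¹ (reflect D (p i)) * e i = 0 := by
    have : ∑ i, aeval x⁻¹ (reflect D (p i)) * e i = x⁻¹ ^ D * ∑ i, aeval x (p i) * e i := by
      rw [Finset.mul_sum]
      refine Finset.sum_congr rfl fun i _ => ?_
      rw [tr_aeval_reflect' hx0 _ (hD i), mul_assoc]
    rw [this, hp, mul_zero]
  have h2 := he _ h1
  funext i
  exact reflect_eq_zero_iff.1 (congrFun h2 i)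

/-- common exponent + coordinates. -/
theorem tr_exists_matrix {x : E} (hx0 : x ≠ 0) {μ : ℕ} (o o' : Fin μ → E)
    (ho : IsIntBasis (K := k) x o) (ho' : IsIntBasis (K := k) x⁻¹ o') :
    ∃ (a : ℕ) (G : Matrix (Fin μ) (Fin μ) k[X]),
      ∀ i, x⁻¹ ^ a * o i = ∑ j, aeval x⁻¹ (G i j) * o' j := by
  classical
  have h1 : ∀ i, o i ∈ intRing k x := fun i => (ho.2 _).2 (nc_self_mem i)
  choose a ha using fun i => tr_scale_mem hx0 (h1 i)
  have h2 : ∀ i, x⁻¹ ^ (Finset.univ.sup a) * o i ∈ polySpan k x⁻¹ o' := by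
    intro i
    have h3 : a i ≤ Finset.univ.sup a := Finset.le_sup (Finset.mem_univ i)
    have h4 := nc_aeval_mul_mem (X ^ (Finset.univ.sup a - a i)) ((ho'.2 _).1 (ha i))
    rw [map_pow, aeval_X, ← mul_assoc, ← pow_add, Nat.sub_add_cancel h3] at h4
    exact h4
  choose G hG using h2
  exact ⟨_, Matrix.of G, hG⟩

theorem tr_exists_transition {x : E} (hx : Transcendental k x) {μ : ℕ} (o o' : Fin μ → E)
    (ho : IsIntBasis (K := k) x o) (ho' : IsIntBasis (K := k) x⁻¹ o') :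
    ∃ (a s : ℕ) (G : Matrix (Fin μ) (Fin μ) k[X]) (c : k), c ≠ 0 ∧ G.det = C c * X ^ s ∧
      ∀ i, o i = x ^ a * ∑ j, aeval x⁻¹ (G i j) * o' j := by
  classical
  have hx0 : x ≠ 0 := by
    rintro rfl
    exact hx (isAlgebraic_zero)
  have hy0 : x⁻¹ ≠ 0 := inv_ne_zero hx0
  obtain ⟨a, G, hG⟩ := tr_exists_matrix hx0 o o' ho ho'
  have ho2 : IsIntBasis (K := k) x⁻¹⁻¹ o := by rw [inv_inv]; exact ho
  obtain ⟨a', H, hH⟩ := tr_exists_matrix hy0 o' o ho' ho2
  rw [inv_inv] at hH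
  obtain ⟨D, hD⟩ : ∃ D : ℕ, ∀ j l, (H j l).natDegree ≤ D :=
    ⟨Finset.univ.sup fun j => Finset.univ.sup fun l => (H j l).natDegree, fun j l =>
      (Finset.le_sup (f := fun l => (H j l).natDegree) (Finset.mem_univ l)).trans
      (Finset.le_sup (f := fun j => Finset.univ.sup fun l => (H j l).natDegree) (Finset.mem_univ j))⟩
  let Ht : Matrix (Fin μ) (Fin μ) k[X] := Matrix.of fun j l => reflect D (H j l)
  have hmat : (X : k[X]) ^ a' • (Ht * G) = (X : k[X]) ^ (a + D) • (1 : Matrix (Fin μ) (Fin μ) k[X]) := by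
    ext1 j
    have h1 : ∑ m, aeval x⁻¹ (((X : k[X]) ^ a' • (Ht * G)) j m -
        ((X : k[X]) ^ (a + D) • (1 : Matrix (Fin μ) (Fin μ) k[X])) j m) * o' m = 0 := by
      simp only [map_sub, sub_mul, Finset.sum_sub_distrib, sub_eq_zero]
      have hL : ∑ m, aeval x⁻¹ (((X : k[X]) ^ a' • (Ht * G)) j m) * o' m = x⁻¹ ^ (a + D) * o' j := by
        calc ∑ m, aeval x⁻¹ (((X : k[X]) ^ a' • (Ht * G)) j m) * o' m
            = x⁻¹ ^ a' * ∑ l, aeval x⁻¹ (Ht j l) * ∑ m, aeval x⁻¹ (G l m) * o' m := by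
              simp only [Matrix.smul_apply, Matrix.mul_apply, smul_eq_mul, map_mul, map_pow, aeval_X,
                map_sum, Finset.mul_sum, Finset.sum_mul]
              rw [Finset.sum_comm]
              refine Finset.sum_congr rfl fun l _ => Finset.sum_congr rfl fun m _ => ?_
              ring
          _ = x⁻¹ ^ a' * ∑ l, (x⁻¹ ^ D * aeval x (H j l)) * (x⁻¹ ^ a * o l) := by
              congr 1
              refine Finset.sum_congr rfl fun l _ => ?_
              rw [← hG l]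
              congr 1
              exact tr_aeval_reflect' hx0 _ (hD j l)
          _ = x⁻¹ ^ a' * (x⁻¹ ^ (a + D) * ∑ l, aeval x (H j l) * o l) := by
              congr 1
              rw [Finset.mul_sum]
              refine Finset.sum_congr rfl fun l _ => ?_
              rw [pow_add]; ring
          _ = x⁻¹ ^ (a + D) * o' j := by
              rw [← hH j, inv_pow x a']
              field_simp
      rw [hL]
      simp only [Matrix.smul_apply, Matrix.one_apply, smul_eq_mul, mul_ite, mul_one, mul_zero,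
        apply_ite (aeval x⁻¹), map_zero, ite_mul, zero_mul, Finset.sum_ite_eq, Finset.mem_univ,
        if_true, map_pow, aeval_X]
    have h2 := ho'.1 _ h1
    intro m
    exact sub_eq_zero.1 (congrFun h2 m)
  have hdet := congrArg Matrix.det hmat
  rw [Matrix.det_smul, Matrix.det_smul, Matrix.det_mul, Matrix.det_one, mul_one, ← pow_mul,
    ← pow_mul] at hdet
  have hdvd : G.det ∣ (X : k[X]) ^ ((a + D) * Fintype.card (Fin μ)) := by
    rw [← hdet]
    exact ⟨X ^ (a' * Fintype.card (Fin μ)) * Ht.det, by ring⟩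
  obtain ⟨s, -, hs⟩ := (dvd_prime_pow prime_X _).1 hdvd
  obtain ⟨u, hu⟩ := hs.symm
  obtain ⟨c, hc, hcu⟩ := Polynomial.isUnit_iff.1 u.isUnit
  refine ⟨a, s, G, c, hc.ne_zero, ?_, ?_⟩
  · rw [← hu, ← hcu, mul_comm]
  · intro i
    rw [← hG i, inv_pow]
    field_simp

/-- LD from the conclusion of PD. -/
theorem ld_finrank_Lsp {x : E} (hx0 : x ≠ 0) {μ : ℕ} (o o' : Fin μ → E)
    (ho : IsIntBasis (K := k) x o) (ho' : IsIntBasis (K := k) x⁻¹ o') (s a : ℕ)
    (hPD : ∃ N₀ : ℕ, ∀ N : ℕ, N₀ ≤ N →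
      FiniteDimensional k
        ↥(polySpan k x o ⊓ (polySpan k x⁻¹ o').comap (LinearMap.mulLeft k (x⁻¹ ^ N))) ∧
      Module.finrank k
        ↥(polySpan k x o ⊓ (polySpan k x⁻¹ o').comap (LinearMap.mulLeft k (x⁻¹ ^ N))) + a * μ
        = μ * (N + 1) + s) :
    ∃ N₀ : ℕ, ∀ a' b' : ℕ, N₀ ≤ a' + b' →
      FiniteDimensional k (Lsp k x a' b') ∧
      Module.finrank k (Lsp k x a' b') + a * μ = μ * (a' + b' + 1) + s := by
  obtain ⟨N₀, hN₀⟩ := hPD
  refine ⟨N₀, fun a' b' hab => ?_⟩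
  obtain ⟨h1, h2⟩ := hN₀ (a' + b') hab
  have hinj : Function.Injective (LinearMap.mulLeft k (x ^ a')) := by
    intro u v huv
    exact mul_left_cancel₀ (pow_ne_zero _ hx0) huv
  have hmap : (Lsp k x a' b').map (LinearMap.mulLeft k (x ^ a')) =
      polySpan k x o ⊓ (polySpan k x⁻¹ o').comap (LinearMap.mulLeft k (x⁻¹ ^ (a' + b'))) := by
    ext g
    simp only [Submodule.mem_map, Submodule.mem_inf, Submodule.mem_comap, LinearMap.mulLeft_apply,
      mem_Lsp, ← ho.2, ← ho'.2]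
    constructor
    · rintro ⟨h, ⟨hh1, hh2⟩, rfl⟩
      refine ⟨hh1, ?_⟩
      have : x⁻¹ ^ (a' + b') * (x ^ a' * h) = x⁻¹ ^ b' * h := by
        rw [pow_add, inv_pow x a']
        field_simp
      rw [this]
      exact hh2
    · rintro ⟨hg1, hg2⟩
      refine ⟨x⁻¹ ^ a' * g, ⟨?_, ?_⟩, ?_⟩
      · have : x ^ a' * (x⁻¹ ^ a' * g) = g := by
          rw [inv_pow x a']
          field_simp
        rw [this]
        exact hg1
      · rw [← mul_assoc, ← pow_add, add_comm]
        exact hg2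
      · rw [inv_pow x a']
        field_simp
  let f := Submodule.equivMapOfInjective _ hinj (Lsp k x a' b')
  rw [← hmap] at h1 h2
  refine ⟨Module.Finite.equiv f.symm, ?_⟩
  rw [f.finrank_eq]
  exact h2

end Fermat.Agent.S18
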