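import Fermat.Agent.S18.TameDisc
import Fermat.Agent.S18.PairDimAux
import Fermat.Agent.S18.PairDimTR

/-!
# S18, pieces PD (dimension formula for lattice pairs on `P¹`), TR (transition matrices), LD (`dim L(a,b)`)
Any field `k`; no Birkhoff factorisation needed.
-/

set_option autoImplicit false

namespace Fermat.Agent.S18

open Polynomial IntermediateField Fermat.Agent.S24 Matrix

variable {k E : Type*} [Field k] [Field E] [Algebra k E]

/-- **PD.** `M_∞ = ∑ k[1/x] e'_j`, `M₀ = ∑ k[x] e_i` with `x^{-a} e = G(1/x) e'`, `det G = c X^s`.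
Then `dim (M₀ ∩ x^N M_∞) = μ (N+1) + s - a μ` for `N ≫ 0`.

Proof. Put `M' = ∑ k[1/x] e_i`.  `x^{-a} M' ⊆ M_∞` and (adjugate) `x^{-a'} M_∞ ⊆ M'` for `a' = s - a` or so;
`dim M_∞ / x^{-a} M' = natDegree (det G) = s` (Smith normal form / `Ideal.quotientEquivPiSpan`-style, or
induction by elementary operations).  For `N - a ≥ max(-1, …)`:
`M₀ ∩ x^N M_∞ → x^N M_∞ / x^{N-a} M'` is onto (Laurent polynomials: `x^{n} k[1/x] ⊆ k[x] + x^{N-a} k[1/x]`)
with kernel `M₀ ∩ x^{N-a} M' = ⊕ k[x]_{≤ N-a} e_i` of dimension `μ (N-a+1)`. -/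
theorem pairDim {x : E} (hx0 : x ≠ 0) {μ : ℕ} (e e' : Fin μ → E) (hind : PolyIndep k x e')
    (G : Matrix (Fin μ) (Fin μ) k[X]) (c : k) (hc : c ≠ 0) (s a : ℕ) (hdet : G.det = C c * X ^ s)
    (he : ∀ i, e i = x ^ a * ∑ j, aeval x⁻¹ (G i j) * e' j) :
    ∃ N₀ : ℕ, ∀ N : ℕ, N₀ ≤ N →
      FiniteDimensional k
        ↥(polySpan k x e ⊓ (polySpan k x⁻¹ e').comap (LinearMap.mulLeft k (x⁻¹ ^ N))) ∧
      Module.finrank k
        ↥(polySpan k x e ⊓ (polySpan k x⁻¹ e').comap (LinearMap.mulLeft k (x⁻¹ ^ N))) + a * μ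
        = μ * (N + 1) + s :=
  PD.pairDim_aux hx0 e e' hind G c hc s a hdet he

/-- **TR.** Transition matrix between integral bases of `O₀` and `O_∞`.
Proof: `o_i / x^a` is integral over `k[1/x]` for `a ≫ 0` (divide an integral equation), this gives `G`;
symmetrically `x^{a'} … o'_j = ∑ H_{ji}(x) o_i`; so `det G(y) · det H(1/y) = y^{…}`, and a polynomial in `y`
times a polynomial in `1/y` which is a monomial forces `det G = c y^s`. -/
theorem exists_transition {x : E} (hx : Transcendental k x) {μ : ℕ} (o o' : Fin μ → E)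
    (ho : IsIntBasis (K := k) x o) (ho' : IsIntBasis (K := k) x⁻¹ o') :
    ∃ (a s : ℕ) (G : Matrix (Fin μ) (Fin μ) k[X]) (c : k), c ≠ 0 ∧ G.det = C c * X ^ s ∧
      ∀ i, o i = x ^ a * ∑ j, aeval x⁻¹ (G i j) * o' j :=
  tr_exists_transition hx o o' ho ho'

/-- **LD.** `dim L(a',b')` from the transition data (`L(a',b') = x^{-a'} (O₀ ∩ x^{a'+b'} O_∞)`). -/
theorem finrank_Lsp {x : E} (hx : Transcendental k x) {μ : ℕ} (o o' : Fin μ → E)
    (ho : IsIntBasis (K := k) x o) (ho' : IsIntBasis (K := k) x⁻¹ o')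
    (G : Matrix (Fin μ) (Fin μ) k[X]) (c : k) (hc : c ≠ 0) (s a : ℕ) (hdet : G.det = C c * X ^ s)
    (he : ∀ i, o i = x ^ a * ∑ j, aeval x⁻¹ (G i j) * o' j) :
    ∃ N₀ : ℕ, ∀ a' b' : ℕ, N₀ ≤ a' + b' →
      FiniteDimensional k (Lsp k x a' b') ∧
      Module.finrank k (Lsp k x a' b') + a * μ = μ * (a' + b' + 1) + s := by
  have hx0 : x ≠ 0 := by
    rintro rfl
    exact hx isAlgebraic_zero
  exact ld_finrank_Lsp hx0 o o' ho ho' s a
    (pairDim hx0 o o' (tr_polyIndep_inv hx0 ho'.1) G c hc s a hdet he)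

/-- **IB.** Existence of an integral basis (separable case). -/
theorem exists_isIntBasis {x : E} (hx : Transcendental k x) [FiniteDimensional k⟮x⟯ E]
    [Algebra.IsSeparable k⟮x⟯ E] :
    ∃ o : Fin (Module.finrank k⟮x⟯ E) → E, IsIntBasis (K := k) x o :=
  ib_exists_isIntBasis hx

/-- **IB'.** the discriminant polynomial of a family of integral elements exists; it is nonzero for a
`k(x)`-basis in the separable case. -/
theorem exists_isDiscPoly {x : E} (hx : Transcendental k x) [FiniteDimensional k⟮x⟯ E] {μ : ℕ}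
    (e : Fin μ → E) (he : ∀ i, e i ∈ intRing k x) : ∃ Δ : k[X], IsDiscPoly x e Δ :=
  ib_exists_isDiscPoly hx e he

theorem isDiscPoly_ne_zero {x : E} (hx : Transcendental k x) [FiniteDimensional k⟮x⟯ E]
    [Algebra.IsSeparable k⟮x⟯ E] {μ : ℕ} (hμ : Module.finrank k⟮x⟯ E = μ)
    (e : Fin μ → E) (he : PolyIndep k x e) {Δ : k[X]} (hΔ : IsDiscPoly x e Δ) : Δ ≠ 0 :=
  ib_isDiscPoly_ne_zero hμ e he hΔ

/-- base change formula for discriminant polynomials. -/
theorem isDiscPoly_of_matrix {x : E} (hx : Transcendental k x) [FiniteDimensional k⟮x⟯ E] {μ : ℕ}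
    (e e' : Fin μ → E) (G : Matrix (Fin μ) (Fin μ) k[X])
    (hG : ∀ i, e i = ∑ j, aeval x (G i j) * e' j) {Δ' : k[X]} (hΔ' : IsDiscPoly x e' Δ') :
    IsDiscPoly x e (G.det ^ 2 * Δ') :=
  ib_isDiscPoly_of_matrix e e' G hG hΔ'

end Fermat.Agent.S18
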