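import Fermat.Agent.S18.Basic

/-!
# S18, piece PR: reduction of polynomials over an algebraically closed valued field
-/

set_option autoImplicit false

namespace Fermat.Agent.S18

open Polynomial

variable {K F k Fb : Type*} [Field K] [Field F] [Algebra K F] [Field k] [Field Fb] [Algebra k Fb]
variable (S : RedSetting K F k Fb)

namespace RedSetting

theorem pr_rp_one : S.rp 1 = 1 := by
  rw [← C_1, S.rp_C, S.rc_one, C_1]

theorem pr_coeff_one_mem (n : ℕ) : (1 : K[X]).coeff n ∈ S.A := by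
  rw [coeff_one]
  split_ifs
  · exact one_mem _
  · exact zero_mem _

theorem pr_coeff_X_sub_C_mem {b : K} (hb : b ∈ S.A) (n : ℕ) : (X - C b : K[X]).coeff n ∈ S.A := by
  rw [coeff_sub, coeff_X, coeff_C]
  refine sub_mem ?_ ?_
  · split_ifs
    · exact one_mem _
    · exact zero_mem _
  · split_ifs
    · exact hb
    · exact zero_mem _

theorem pr_rp_X_sub_C {b : K} (hb : b ∈ S.A) : S.rp (X - C b) = X - C (S.rc b) := by
  ext n
  rw [coeff_rp, coeff_sub, coeff_sub, coeff_X, coeff_X, coeff_C, coeff_C, S.rc_sub]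
  · congr 1
    · split_ifs
      · exact S.rc_one
      · exact S.rc_zero
    · split_ifs
      · rfl
      · exact S.rc_zero
  · split_ifs
    · exact one_mem _
    · exact zero_mem _
  · split_ifs
    · exact hb
    · exact zero_mem _

/-- product of linear factors with roots outside `A`. -/
theorem prod_X_sub_C_of_not_mem (t : Multiset K) (ht : ∀ b ∈ t, b ∉ S.A) :
    ∃ (c₁ : K) (I : K[X]), c₁ ≠ 0 ∧ (t.map (X - C ·)).prod = C c₁ * I ∧
      (∀ n, I.coeff n ∈ S.A) ∧ S.rp I = 1 := by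
  induction t using Multiset.induction_on with
  | empty => exact ⟨1, 1, one_ne_zero, by simp, S.pr_coeff_one_mem, S.pr_rp_one⟩
  | cons b t ih =>
    obtain ⟨c₁, I, hc₁, hI, hIA, hI1⟩ := ih (fun b' hb' => ht b' (Multiset.mem_cons_of_mem hb'))
    have hb : b ∉ S.A := ht b (Multiset.mem_cons_self b t)
    have hb0 : b ≠ 0 := by
      rintro rfl
      exact hb (zero_mem _)
    have hbinv : b⁻¹ ∈ S.A := (S.A.mem_or_inv_mem b).resolve_left hb
    have hrc : S.rc b⁻¹ = 0 := (S.rc_eq_zero_iff hbinv).mpr (Or.inr (by rwa [inv_inv]))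
    have hJ : ∀ n, (1 - C b⁻¹ * X : K[X]).coeff n ∈ S.A := by
      intro n
      rw [coeff_sub, coeff_C_mul, coeff_X]
      refine sub_mem (S.pr_coeff_one_mem n) (mul_mem hbinv ?_)
      split_ifs
      · exact one_mem _
      · exact zero_mem _
    have hJ1 : S.rp (1 - C b⁻¹ * X) = 1 := by
      ext n
      rw [coeff_rp, coeff_sub, coeff_C_mul, S.rc_sub (S.pr_coeff_one_mem n), S.rc_mul hbinv, hrc,
        zero_mul, sub_zero, ← coeff_rp, S.pr_rp_one]
      · rw [coeff_X]
        split_ifs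
        · exact one_mem _
        · exact zero_mem _
      · refine mul_mem hbinv ?_
        rw [coeff_X]
        split_ifs
        · exact one_mem _
        · exact zero_mem _
    refine ⟨-b * c₁, (1 - C b⁻¹ * X) * I, mul_ne_zero (neg_ne_zero.mpr hb0) hc₁, ?_,
      (S.rp_mul hJ hIA).1, ?_⟩
    · rw [Multiset.map_cons, Multiset.prod_cons, hI]
      have : (X - C b : K[X]) = C (-b) * (1 - C b⁻¹ * X) := by
        rw [mul_sub, mul_one, ← mul_assoc, ← C_mul, neg_mul, mul_inv_cancel₀ hb0]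
        simp only [C_neg, C_1, neg_mul, one_mul]
        ring
      rw [this, C_mul]
      ring
    · rw [(S.rp_mul hJ hIA).2, hJ1, hI1, one_mul]

/-- product of linear factors with roots in `A`. -/
theorem prod_X_sub_C_of_mem (s : Multiset K) (hs : ∀ b ∈ s, b ∈ S.A) :
    (∀ n, ((s.map (X - C ·)).prod : K[X]).coeff n ∈ S.A) ∧
      S.rp (s.map (X - C ·)).prod = ((s.map S.rc).map (X - C ·)).prod := by
  induction s using Multiset.induction_on with
  | empty => exact ⟨by simpa using S.pr_coeff_one_mem, by simpa using S.pr_rp_one⟩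
  | cons b s ih =>
    obtain ⟨h1, h2⟩ := ih (fun b' hb' => hs b' (Multiset.mem_cons_of_mem hb'))
    have hb : b ∈ S.A := hs b (Multiset.mem_cons_self b s)
    rw [Multiset.map_cons, Multiset.prod_cons, Multiset.map_cons, Multiset.map_cons,
      Multiset.prod_cons]
    refine ⟨(S.rp_mul (S.pr_coeff_X_sub_C_mem hb) h1).1, ?_⟩
    rw [(S.rp_mul (S.pr_coeff_X_sub_C_mem hb) h1).2, S.pr_rp_X_sub_C hb, h2]

open Classical in
/-- the factorisation of a nonzero polynomial over an algebraically closed valued field. -/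
theorem exists_factorisation [IsAlgClosed K] {P : K[X]} (hP : P ≠ 0) :
    ∃ (c : K) (I : K[X]), c ≠ 0 ∧
      P = C c * (((P.roots.filter (· ∈ S.A)).map (X - C ·)).prod * I) ∧
      (∀ n, I.coeff n ∈ S.A) ∧ S.rp I = 1 := by
  obtain ⟨c₁, I, hc₁, hI, hIA, hI1⟩ := S.prod_X_sub_C_of_not_mem (P.roots.filter (¬ · ∈ S.A))
    (fun b hb => (Multiset.mem_filter.mp hb).2)
  refine ⟨P.leadingCoeff * c₁, I, mul_ne_zero (leadingCoeff_ne_zero.mpr hP) hc₁, ?_, hIA, hI1⟩
  conv_lhs => rw [(IsAlgClosed.splits P).eq_prod_roots,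
    ← Multiset.filter_add_not (· ∈ S.A) P.roots, Multiset.map_add, Multiset.prod_add, hI]
  rw [C_mul]
  ring

/-- **PR1.** A nonzero polynomial without roots in `A` is a constant times a polynomial `≡ 1 mod 𝔪`.
(`P = c ∏ (X - β_i) = c' ∏ (1 - X/β_i)`, `1/β_i ∈ 𝔪`.) -/
theorem exists_eq_C_mul_of_no_root [IsAlgClosed K] {P : K[X]} (hP : P ≠ 0)
    (h : ∀ c ∈ S.A, P.eval c ≠ 0) :
    ∃ (c₁ : K) (I : K[X]), c₁ ≠ 0 ∧ P = C c₁ * I ∧ (∀ n, I.coeff n ∈ S.A) ∧ S.rp I = 1 := by
  classical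
  obtain ⟨c, I, hc, hPI, hIA, hI1⟩ := S.exists_factorisation hP
  have hempty : P.roots.filter (· ∈ S.A) = 0 := by
    rw [Multiset.filter_eq_nil]
    intro b hb hbA
    exact h b hbA ((mem_roots hP).mp hb)
  rw [hempty] at hPI
  exact ⟨c, I, hc, by simpa using hPI, hIA, hI1⟩

/-- **PR2.** Root multiplicities under reduction: if `b₀` is the only root of `P` in its residue disc then
`mult_{b̄₀}(P̄) ≤ mult_{b₀}(P)` (in fact equality).
(`P = c ∏_{β ∈ A} (X - β) ∏_{β ∉ A} (1 - X/β)`, `c` a unit because `P̄ ≠ 0`.) -/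
theorem rootMultiplicity_rp_le [IsAlgClosed K] {P : K[X]} (hP : ∀ n, P.coeff n ∈ S.A)
    (hP0 : S.rp P ≠ 0) {b₀ : K} (hb₀ : b₀ ∈ S.A)
    (h : ∀ b ∈ S.A, S.rc b = S.rc b₀ → b ≠ b₀ → P.eval b ≠ 0) :
    (S.rp P).rootMultiplicity (S.rc b₀) ≤ P.rootMultiplicity b₀ := by
  classical
  have hPne : P ≠ 0 := by
    rintro rfl
    apply hP0
    ext n
    rw [coeff_rp, coeff_zero, coeff_zero, S.rc_zero]
  obtain ⟨c, I, hc, hPI, hIA, hI1⟩ := S.exists_factorisation hPne
  set s := P.roots.filter (· ∈ S.A) with hs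
  obtain ⟨hsA, hsrp⟩ := S.prod_X_sub_C_of_mem s (fun b hb => (Multiset.mem_filter.mp hb).2)
  set Q : K[X] := (s.map (X - C ·)).prod * I with hQ
  have hQA : ∀ n, Q.coeff n ∈ S.A := (S.rp_mul hsA hIA).1
  have hQrp : S.rp Q = ((s.map S.rc).map (X - C ·)).prod := by
    rw [hQ, (S.rp_mul hsA hIA).2, hI1, mul_one, hsrp]
  have hQmonic : (S.rp Q).Monic := by
    rw [hQrp]
    exact monic_multiset_prod_of_monic _ _ (fun b _ => monic_X_sub_C b)
  -- `c ∈ A`
  have hcA : c ∈ S.A := by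
    have h1 : S.rc (Q.coeff (S.rp Q).natDegree) = 1 := by
      rw [← coeff_rp]
      exact hQmonic
    have h2 := S.rc_inv (c := Q.coeff (S.rp Q).natDegree) (by rw [h1]; exact one_ne_zero)
    have h3 : Q.coeff (S.rp Q).natDegree ≠ 0 := by
      intro h0
      rw [h0, S.rc_zero] at h1
      exact zero_ne_one h1
    have h4 : c = P.coeff (S.rp Q).natDegree * (Q.coeff (S.rp Q).natDegree)⁻¹ := by
      rw [hPI, coeff_C_mul, mul_assoc, mul_inv_cancel₀ h3, mul_one]
    rw [h4]
    exact mul_mem (hP _) h2.1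
  have hCA : ∀ n, (C c : K[X]).coeff n ∈ S.A := by
    intro n
    rw [coeff_C]
    split_ifs
    · exact hcA
    · exact zero_mem _
  have hPrp : S.rp P = C (S.rc c) * S.rp Q := by
    conv_lhs => rw [hPI]
    rw [(S.rp_mul hCA hQA).2, S.rp_C]
  have hrc : S.rc c ≠ 0 := by
    intro h0
    apply hP0
    rw [hPrp, h0, C_0, zero_mul]
  rw [← count_roots, ← count_roots, hPrp, roots_C_mul _ hrc, hQrp, roots_multiset_prod_X_sub_C,
    Multiset.count_map, Multiset.count_eq_card_filter_eq, hs, Multiset.filter_filter]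
  refine Multiset.card_le_card ?_
  have hcongr : P.roots.filter (fun a => S.rc b₀ = S.rc a ∧ a ∈ S.A) =
      P.roots.filter (fun a => (S.rc b₀ = S.rc a ∧ a ∈ S.A) ∧ (b₀ = a)) := by
    refine Multiset.filter_congr ?_
    intro a ha
    constructor
    · rintro ⟨h1, h2⟩
      refine ⟨⟨h1, h2⟩, ?_⟩
      by_contra hne
      exact h a h2 h1.symm (fun h' => hne h'.symm) ((mem_roots hPne).mp ha)
    · rintro ⟨h1, _⟩
      exact h1
  rw [hcongr, ← Multiset.filter_filter]
  exact Multiset.filter_le _ _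

end RedSetting

end Fermat.Agent.S18
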