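import Fermat.Agent.S18.DimRed
import Fermat.Agent.S18.PairDim
import Fermat.Agent.S18.PolyRed

/-!
# S18, pieces OR1, OR2, OR3, NR: reduction of the maximal order `O₀`
-/

set_option autoImplicit false

namespace Fermat.Agent.S18

open Polynomial IntermediateField Fermat.Agent.S24 Matrix

section general

variable {K F : Type*} [Field K] [Field F] [Algebra K F]

theorem or_aeval_mem_intRing (x : F) (p : K[X]) : aeval x p ∈ intRing K x := by
  have h : aeval x p ∈ polyRing K x := by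
    rw [polyRing, Algebra.adjoin_singleton_eq_range_aeval]
    exact ⟨p, rfl⟩
  exact Subalgebra.algebraMap_mem (intRing K x) (⟨aeval x p, h⟩ : polyRing K x)

open scoped IntermediateField.algebraAdjoinAdjoin in
theorem or_exists_aeval_mul_mem_intRing (x : F) [FiniteDimensional K⟮x⟯ F] (f : F) :
    ∃ q : K[X], aeval x q ≠ 0 ∧ aeval x q * f ∈ intRing K x := by
  have h1 : IsAlgebraic K⟮x⟯ f := Algebra.IsAlgebraic.isAlgebraic f
  have h2 : IsAlgebraic (polyRing K x) f :=
    (IsFractionRing.isAlgebraic_iff (polyRing K x) K⟮x⟯ F).mpr h1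
  obtain ⟨y, hy, hint⟩ := h2.exists_integral_multiple
  have hy' : (y : F) ∈ Algebra.adjoin K {x} := y.2
  rw [Algebra.adjoin_singleton_eq_range_aeval] at hy'
  obtain ⟨q, hq⟩ := hy'
  have hq' : aeval x q = (y : F) := hq
  refine ⟨q, ?_, ?_⟩
  · rw [hq']
    intro h
    exact hy (Subtype.ext h)
  · rw [hq']
    exact hint


theorem or_trace_eq {L E : Type*} [Field L] [Field E] [Algebra L E] {μ : ℕ}
    (B : Module.Basis (Fin μ) L E) (h : E) (M : Matrix (Fin μ) (Fin μ) L)
    (hM : ∀ j, h * B j = ∑ i, M i j • B i) : Algebra.trace L E h = ∑ i, M i i := by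
  rw [Algebra.trace_eq_matrix_trace B h, Matrix.trace]
  refine Finset.sum_congr rfl fun i _ => ?_
  rw [Matrix.diag_apply, Algebra.leftMulMatrix_eq_repr_mul, hM i, B.repr_sum_self]

/-- trace from polynomial relations. -/
theorem or_trace_of_rel {k E : Type*} [Field k] [Field E] [Algebra k E] {x : E} {μ : ℕ}
    [FiniteDimensional k⟮x⟯ E] (hμ : Module.finrank k⟮x⟯ E = μ) (e : Fin μ → E)
    (hind : PolyIndep k x e) (h : E) (q : Fin μ → k[X]) (p : Fin μ → Fin μ → k[X])
    (hq : ∀ j, aeval x (q j) ≠ 0)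
    (hrel : ∀ j, aeval x (q j) * (h * e j) = ∑ i, aeval x (p j i) * e i) :
    algebraMap k⟮x⟯ E (Algebra.trace k⟮x⟯ E h) = ∑ i, aeval x (p i i) / aeval x (q i) := by
  have hli := nc_linearIndependent e hind
  have hμ0 : 0 < μ := hμ ▸ Module.finrank_pos
  have : Nonempty (Fin μ) := ⟨⟨0, hμ0⟩⟩
  set B : Module.Basis (Fin μ) k⟮x⟯ E :=
    basisOfLinearIndependentOfCardEqFinrank hli (by rw [Fintype.card_fin, hμ]) with hBdef
  have hB : ⇑B = e := coe_basisOfLinearIndependentOfCardEqFinrank _ _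
  have hq' : ∀ j, ncι x (q j) ≠ 0 := by
    intro j h0
    apply hq j
    rw [← ncι_algebraMap, h0, map_zero]
  rw [or_trace_eq B h (fun i j => ncι x (p j i) / ncι x (q j)), map_sum]
  · refine Finset.sum_congr rfl fun i _ => ?_
    rw [map_div₀, ncι_algebraMap, ncι_algebraMap]
  · intro j
    rw [hB]
    have h1 : h * e j = (aeval x (q j))⁻¹ * ∑ i, aeval x (p j i) * e i := by
      rw [← hrel j, ← mul_assoc, inv_mul_cancel₀ (hq j), one_mul]
    rw [h1, Finset.mul_sum]
    refine Finset.sum_congr rfl fun i _ => ?_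
    rw [Algebra.smul_def, map_div₀, ncι_algebraMap, ncι_algebraMap]
    field_simp


end general

variable {K F k Fb : Type*} [Field K] [Field F] [Algebra K F] [Field k] [Field Fb] [Algebra k Fb]
variable (S : RedSetting K F k Fb)

namespace RedSetting

/-- `b` lifts a `k[x̄]`-basis of `B̄₀ = red(O₀ ∩ V)`. -/
structure IsRedBasis (x : F) {μ : ℕ} (b : Fin μ → F) : Prop where
  int : ∀ i, b i ∈ intRing K x
  mem : ∀ i, b i ∈ S.V
  indep : PolyIndep k (S.rd x) (fun i => S.rd (b i))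
  span : ∀ h ∈ intRing K x, h ∈ S.V → S.rd h ∈ polySpan k (S.rd x) (fun i => S.rd (b i))

/-- every element of `Fb` has a nonzero `k[x̄]`-multiple in `red(O₀ ∩ V)`. -/
theorem or_exists_mul_rd {x : F} (hx : S.Coord x) (fb : Fb) :
    ∃ d : k[X], d ≠ 0 ∧ ∃ h ∈ intRing K x, h ∈ S.V ∧ S.rd h = aeval (S.rd x) d * fb := by
  have := hx.fin
  obtain ⟨f, hfV, hf⟩ := S.exists_rd_eq fb
  obtain ⟨q, hq, hqf⟩ := or_exists_aeval_mul_mem_intRing (K := K) x f
  have hq0 : q ≠ 0 := by
    rintro rfl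
    simp at hq
  obtain ⟨c, hc, hcA, hcrp⟩ := S.exists_scale_poly hq0
  refine ⟨S.rp (C c * q), hcrp, aeval x (C c * q) * f, ?_, ?_, ?_⟩
  · rw [map_mul, mul_assoc]
    exact mul_mem (or_aeval_mem_intRing x (C c)) hqf
  · exact mul_mem (S.aeval_mem hx.mem hcA) hfV
  · rw [S.rd_mul (S.aeval_mem hx.mem hcA) hfV, S.rd_aeval hx.mem hcA, hf]

/-- coordinates (w.r.t. an integral basis `ob` of `Ō₀`) of `red(O₀ ∩ V)`. -/
def orMod (x : F) (hx : x ∈ S.V) {μ : ℕ} (ob : Fin μ → Fb) : Submodule k[X] (Fin μ → k[X]) where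
  carrier := {p | ∃ h ∈ intRing K x, h ∈ S.V ∧ S.rd h = ∑ i, aeval (S.rd x) (p i) * ob i}
  add_mem' := by
    rintro p q ⟨h, h1, h2, h3⟩ ⟨h', h1', h2', h3'⟩
    refine ⟨h + h', add_mem h1 h1', add_mem h2 h2', ?_⟩
    rw [S.rd_add h2 h2', h3, h3', ← Finset.sum_add_distrib]
    refine Finset.sum_congr rfl fun i _ => ?_
    rw [Pi.add_apply, map_add, add_mul]
  zero_mem' := ⟨0, zero_mem _, zero_mem _, by simp⟩
  smul_mem' := by
    rintro q p ⟨h, h1, h2, h3⟩
    obtain ⟨q', hq'A, hq', -⟩ := S.exists_rp_eq q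
    refine ⟨aeval x q' * h, mul_mem (or_aeval_mem_intRing x q') h1,
      mul_mem (S.aeval_mem hx hq'A) h2, ?_⟩
    rw [S.rd_mul (S.aeval_mem hx hq'A) h2, S.rd_aeval hx hq'A, hq', h3, Finset.mul_sum]
    refine Finset.sum_congr rfl fun i _ => ?_
    rw [Pi.smul_apply, smul_eq_mul, map_mul, mul_assoc]

/-- **OR1.** Existence.  `B̄₀ ⊆ Ō₀` (IR) is a `k[x̄]`-submodule of a free module of rank `μ` (IB), hence free;
its rank is `μ` because for every `f ∈ V` some `q(x) f`, `q` of Gauss norm one, is integral over `K[x]`. -/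
theorem exists_isRedBasis {x : F} (hx : S.Coord x) :
    ∃ b : Fin (Module.finrank K⟮x⟯ F) → F, S.IsRedBasis x b := by
  classical
  have := hx.finb
  have := hx.sep
  set μ := Module.finrank K⟮x⟯ F with hμ
  obtain ⟨ob, hob⟩ : ∃ o : Fin μ → Fb, IsIntBasis (K := k) (S.rd x) o := by
    rw [hμ, hx.finrank_eq]
    exact exists_isIntBasis hx.trans
  set N := S.orMod x hx.mem ob with hN
  obtain ⟨n, ⟨B⟩⟩ := N.nonempty_basis_of_pid (Pi.basisFun k[X] (Fin μ))
  have hn : n = μ := by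
    have h1 : Module.finrank k[X] N = n := by
      rw [Module.finrank_eq_card_basis B, Fintype.card_fin]
    apply le_antisymm
    · rw [← h1]
      exact (Submodule.finrank_le N).trans (by rw [Module.finrank_fin_fun])
    · choose d hd0 hd using fun i => S.or_exists_mul_rd hx (ob i)
      have hmem : ∀ i, (Pi.single i (d i) : Fin μ → k[X]) ∈ N := by
        intro i
        obtain ⟨h, h1, h2, h3⟩ := hd i
        refine ⟨h, h1, h2, ?_⟩
        rw [h3, Finset.sum_eq_single i]
        · rw [Pi.single_eq_same]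
        · intro j _ hj
          rw [Pi.single_eq_of_ne hj, map_zero, zero_mul]
        · intro h; exact absurd (Finset.mem_univ i) h
      have hli : LinearIndependent k[X] (fun i => (⟨Pi.single i (d i), hmem i⟩ : N)) := by
        rw [Fintype.linearIndependent_iff]
        intro c hc i
        have h2 := congrArg (fun v : N => (v : Fin μ → k[X]) i) hc
        simp only [Submodule.coe_sum, Submodule.coe_smul, Finset.sum_apply, Pi.smul_apply,
          smul_eq_mul, Submodule.coe_zero, Pi.zero_apply] at h2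
        rw [Finset.sum_eq_single i] at h2
        · rw [Pi.single_eq_same] at h2
          exact (mul_eq_zero.mp h2).resolve_right (hd0 i)
        · intro j _ hj
          rw [Pi.single_eq_of_ne hj.symm, mul_zero]
        · intro h; exact absurd (Finset.mem_univ i) h
      have := hli.fintype_card_le_finrank
      rwa [Fintype.card_fin, h1] at this
  subst hn
  -- lift the basis
  have hB : ∀ t, ∃ h ∈ intRing K x, h ∈ S.V ∧
      S.rd h = ∑ i, aeval (S.rd x) ((B t : Fin μ → k[X]) i) * ob i := fun t => (B t).2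
  choose b hb1 hb2 hb3 using hB
  refine ⟨b, hb1, hb2, ?_, ?_⟩
  · intro p hp
    simp only [hb3] at hp
    have h1 : ∑ i, aeval (S.rd x) (∑ t, p t * (B t : Fin μ → k[X]) i) * ob i = 0 := by
      rw [← hp]
      simp only [map_sum, map_mul, Finset.sum_mul, Finset.mul_sum]
      rw [Finset.sum_comm]
      refine Finset.sum_congr rfl fun t _ => Finset.sum_congr rfl fun i _ => ?_
      ring
    have h2 := hob.1 _ h1
    have h3 : ∑ t, p t • B t = 0 := by
      apply Subtype.ext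
      funext i
      have := congrFun h2 i
      simpa using this
    have h4 := Fintype.linearIndependent_iff.mp B.linearIndependent p h3
    exact funext h4
  · intro h h1 h2
    have h3 : S.rd h ∈ intRing k (S.rd x) := S.rd_mem_intRing hx h2 h1
    obtain ⟨p, hp⟩ := (hob.2 _).mp h3
    have hpN : p ∈ N := ⟨h, h1, h2, hp⟩
    refine ⟨fun t => B.repr ⟨p, hpN⟩ t, ?_⟩
    have h4 : (⟨p, hpN⟩ : N) = ∑ t, B.repr ⟨p, hpN⟩ t • B t := (B.sum_repr _).symm
    have h5 : ∀ i, p i = ∑ t, B.repr ⟨p, hpN⟩ t * (B t : Fin μ → k[X]) i := by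
      intro i
      have := congrArg (fun v : N => (v : Fin μ → k[X]) i) h4
      simp only [Submodule.coe_sum, Submodule.coe_smul, Finset.sum_apply, Pi.smul_apply,
        smul_eq_mul] at this
      exact this
    rw [hp]
    simp only [hb3, Finset.mul_sum]
    rw [Finset.sum_comm]
    refine Finset.sum_congr rfl fun i _ => ?_
    rw [h5 i, map_sum, Finset.sum_mul]
    refine Finset.sum_congr rfl fun t _ => ?_
    rw [map_mul]
    ring


variable {S}

theorem or_sub_mem {x : F} (hx : S.Coord x) {c : K} (hc : c ∈ S.A) :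
    x - algebraMap K F c ∈ S.V := sub_mem hx.mem (S.map_mem c hc)

theorem or_rd_sub {x : F} (hx : S.Coord x) {c : K} (hc : c ∈ S.A) :
    S.rd (x - algebraMap K F c) = S.rd x - algebraMap k Fb (S.rc c) := by
  rw [S.rd_sub hx.mem (S.map_mem c hc), S.rd_algebraMap hc]

theorem or_rd_sub_ne_zero {x : F} (hx : S.Coord x) {c : K} (hc : c ∈ S.A) :
    S.rd (x - algebraMap K F c) ≠ 0 := by
  rw [or_rd_sub hx hc]
  intro h
  apply hx.trans
  rw [sub_eq_zero] at h
  rw [h]
  exact isAlgebraic_algebraMap _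

/-- division by `x - c` stays in `V`. -/
theorem or_mem_of_mul_mem {x : F} (hx : S.Coord x) {c : K} (hc : c ∈ S.A) {h r : F}
    (hr : r ∈ S.V) (e : r = (x - algebraMap K F c) * h) : h ∈ S.V := by
  have h1 := S.inv_mem_of_rd_ne_zero (or_rd_sub_ne_zero hx hc)
  have h0 : x - algebraMap K F c ≠ 0 := by
    intro h0
    apply or_rd_sub_ne_zero hx hc
    rw [h0, S.rd_zero]
  have : h = (x - algebraMap K F c)⁻¹ * r := by
    rw [e, ← mul_assoc, inv_mul_cancel₀ h0, one_mul]
  rw [this]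
  exact mul_mem h1 hr

theorem or_sum_algebraMap_mem {μ : ℕ} {b : Fin μ → F} (hb : ∀ i, b i ∈ S.V) {a : Fin μ → K}
    (ha : ∀ i, a i ∈ S.A) : ∑ i, algebraMap K F (a i) * b i ∈ S.V :=
  sum_mem fun i _ => mul_mem (S.map_mem _ (ha i)) (hb i)

theorem or_rd_sum_algebraMap {μ : ℕ} {b : Fin μ → F} (hb : ∀ i, b i ∈ S.V) {a : Fin μ → K}
    (ha : ∀ i, a i ∈ S.A) : S.rd (∑ i, algebraMap K F (a i) * b i) =
      ∑ i, algebraMap k Fb (S.rc (a i)) * S.rd (b i) := by
  rw [S.rd_sum _ _ fun i _ => mul_mem (S.map_mem _ (ha i)) (hb i)]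
  refine Finset.sum_congr rfl fun i _ => ?_
  rw [S.rd_mul (S.map_mem _ (ha i)) (hb i), S.rd_algebraMap (ha i)]

variable (S)

/-- **OR2.** The index polynomial of `∑ K[x] b_i` in `O₀` has no root in `A`.
Proof: `a G(c) = 0`, `a ≠ 0` scaled into `A^μ` with a unit entry; `∑ a_i b_i = (x - c) h`, `h ∈ O₀`; `x - c` is a unit
of `V`, so `h ∈ V` and `h̄ = ∑ q̄_i(x̄) b̄_i`; compare: `ā_i = (X - c̄) q̄_i`, so `ā = 0`. -/
theorem det_eval_ne_zero {x : F} (hx : S.Coord x) {μ : ℕ} (b o : Fin μ → F)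
    (hb : S.IsRedBasis x b) (ho : IsIntBasis (K := K) x o)
    (G : Matrix (Fin μ) (Fin μ) K[X]) (hG : ∀ i, b i = ∑ j, aeval x (G i j) * o j)
    {c : K} (hc : c ∈ S.A) : G.det.eval c ≠ 0 := by
  classical
  intro hdet
  have hdet' : (G.map (Polynomial.eval c)).det = 0 := by
    have := (RingHom.map_det (Polynomial.evalRingHom c) G)
    rw [Polynomial.coe_evalRingHom, hdet] at this
    rw [this]
    rfl
  obtain ⟨a₀, ha₀, ha₀G⟩ := Matrix.exists_vecMul_eq_zero_iff.mpr hdet'
  obtain ⟨t, ht, htA, i₀, hi₀⟩ := S.exists_scale_family a₀ ha₀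
  set a : Fin μ → K := fun i => t * a₀ i with ha
  have haG : ∀ j, ∑ i, a i * (G i j).eval c = 0 := by
    intro j
    have := congrFun ha₀G j
    simp only [Matrix.vecMul, dotProduct, Matrix.map_apply, Pi.zero_apply] at this
    simp only [ha, mul_assoc, ← Finset.mul_sum, this, mul_zero]
  -- the polynomials `P_j = ∑ a_i G_ij` vanish at `c`
  have hP : ∀ j, ∃ Q : K[X], ∑ i, C (a i) * G i j = (X - C c) * Q := by
    intro j
    have : (X - C c) ∣ ∑ i, C (a i) * G i j := by
      rw [Polynomial.dvd_iff_isRoot, IsRoot.def, Polynomial.eval_finsetSum]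
      simpa using haG j
    exact this
  choose Q hQ using hP
  set h : F := ∑ j, aeval x (Q j) * o j with hh
  have hint : h ∈ intRing K x := (ho.2 h).mpr ⟨Q, rfl⟩
  have hsum : ∑ i, algebraMap K F (a i) * b i = (x - algebraMap K F c) * h := by
    have h1 : ∑ i, algebraMap K F (a i) * b i = ∑ j, aeval x (∑ i, C (a i) * G i j) * o j := by
      simp only [map_sum, map_mul, aeval_C, Finset.sum_mul]
      rw [Finset.sum_comm]
      refine Finset.sum_congr rfl fun i _ => ?_
      rw [hG i, Finset.mul_sum]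
      refine Finset.sum_congr rfl fun j _ => ?_
      ring
    rw [h1, hh, Finset.mul_sum]
    refine Finset.sum_congr rfl fun j _ => ?_
    rw [hQ j, map_mul, map_sub, aeval_X, aeval_C]
    ring
  have hrV : ∑ i, algebraMap K F (a i) * b i ∈ S.V := or_sum_algebraMap_mem hb.mem htA
  have hV : h ∈ S.V := or_mem_of_mul_mem hx hc hrV hsum
  obtain ⟨q, hq⟩ := hb.span h hint hV
  have h2 := congrArg S.rd hsum
  rw [or_rd_sum_algebraMap hb.mem htA, S.rd_mul (or_sub_mem hx hc) hV, or_rd_sub hx hc, hq] at h2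
  have h3 : ∑ i, aeval (S.rd x) (C (S.rc (a i)) - (X - C (S.rc c)) * q i) * S.rd (b i) = 0 := by
    have e1 : ∀ i, aeval (S.rd x) (C (S.rc (a i)) - (X - C (S.rc c)) * q i) * S.rd (b i) =
        algebraMap k Fb (S.rc (a i)) * S.rd (b i) -
          (S.rd x - algebraMap k Fb (S.rc c)) * (aeval (S.rd x) (q i) * S.rd (b i)) := by
      intro i
      simp only [map_sub, map_mul, aeval_C, aeval_X]
      ring
    simp only [e1, Finset.sum_sub_distrib]
    rw [h2, Finset.mul_sum, sub_self]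
  have h4 : C (S.rc (a i₀)) - (X - C (S.rc c)) * q i₀ = 0 := congrFun (hb.indep _ h3) i₀
  have h5 := congrArg (Polynomial.eval (S.rc c)) h4
  simp at h5
  exact hi₀ h5

/-- nilpotency modulo `(x - c) O₀` only depends on the class modulo `(x - c) O₀`. -/
theorem _root_.Fermat.Agent.S18.or_pow_eq_of_add {x : F} {d y t r : F} {n : ℕ}
    (hd : d ∈ intRing K x) (hy : y ∈ intRing K x)
    (ht : t ∈ intRing K x) (hr : r ∈ intRing K x) (h : y ^ n = d * r) :
    ∃ u ∈ intRing K x, (y + d * t) ^ n = d * u := by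
  obtain ⟨w, hw⟩ := sub_dvd_pow_sub_pow
    ((⟨y, hy⟩ : intRing K x) + ⟨d, hd⟩ * ⟨t, ht⟩) (⟨y, hy⟩ : intRing K x) n
  have hw' := congrArg (Subtype.val) hw
  have e : (y + d * t) ^ n - y ^ n = (y + d * t - y) * (w : F) := hw'
  refine ⟨r + t * w, add_mem hr (mul_mem ht w.2), ?_⟩
  have : (y + d * t) ^ n = y ^ n + (y + d * t - y) * (w : F) := by rw [← e]; ring
  rw [this, h]
  ring

/-- **NR (nilpotents reduce to nilpotents).**
Proof: `N' = {a' : a' G(b₀) ∈ N}` (`≅ N`); for `a' ∈ N'`, `∑ a'_i b_i ≡ ∑ (a'G(b₀))_j o_j mod (x-b₀)O₀` is nilpotent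
mod `(x-b₀)O₀`.  Echelon basis `w` of `N'` (LA2), `N_k` = span of the reductions (`dim = dim N'`).  For
`a' ∈ N' ∩ A^μ`: `r = ∑ a'_i b_i ∈ O₀ ∩ V`, `r^n = (x-b₀) h`, `h ∈ O₀ ∩ V` (`x - b₀` is a unit of `V`), reduce and use
`IsRedBasis.span`. -/
theorem exists_nilFam_rd {x : F} (hx : S.Coord x) {μ : ℕ} (b o : Fin μ → F)
    (hb : S.IsRedBasis x b) (ho : IsIntBasis (K := K) x o)
    (G : Matrix (Fin μ) (Fin μ) K[X]) (hG : ∀ i, b i = ∑ j, aeval x (G i j) * o j)
    {b₀ : K} (hb₀ : b₀ ∈ S.A) (N : Submodule K (Fin μ → K)) (hN : NilFam x b₀ o N) :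
    ∃ Nk : Submodule k (Fin μ → k), NilFam (S.rd x) (S.rc b₀) (fun i => S.rd (b i)) Nk ∧
      Module.finrank K N ≤ Module.finrank k Nk := by
  classical
  set G₀ : Matrix (Fin μ) (Fin μ) K := G.map (Polynomial.eval b₀) with hG₀
  have hdet : G₀.det ≠ 0 := by
    have h1 := S.det_eval_ne_zero hx b o hb ho G hG hb₀
    have := (RingHom.map_det (Polynomial.evalRingHom b₀) G)
    rw [Polynomial.coe_evalRingHom] at this
    rw [this] at h1
    exact h1
  -- the map `a' ↦ a' G(b₀)`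
  have hinj : Function.Injective (Matrix.vecMulLinear G₀) := by
    rw [← LinearMap.ker_eq_bot, LinearMap.ker_eq_bot']
    intro v hv
    by_contra hv0
    exact hdet (Matrix.exists_vecMul_eq_zero_iff.mp ⟨v, hv0, hv⟩)
  let e : (Fin μ → K) ≃ₗ[K] (Fin μ → K) := LinearEquiv.ofInjectiveEndo _ hinj
  have he : ∀ v, e v = v ᵥ* G₀ := fun v => rfl
  set N' : Submodule K (Fin μ → K) := N.map (e.symm : (Fin μ → K) →ₗ[K] (Fin μ → K)) with hN'
  have hfin : Module.finrank K N' = Module.finrank K N := LinearEquiv.finrank_map_eq e.symm N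
  have hmem : ∀ v, v ∈ N' → v ᵥ* G₀ ∈ N := by
    intro v hv
    rw [hN', Submodule.mem_map_equiv, LinearEquiv.symm_symm] at hv
    exact hv
  have hxint : x - algebraMap K F b₀ ∈ intRing K x := by
    have := or_aeval_mem_intRing (K := K) x (X - C b₀)
    simpa using this
  have hoint : ∀ p : Fin μ → K[X], ∑ j, aeval x (p j) * o j ∈ intRing K x :=
    fun p => (ho.2 _).mpr ⟨p, rfl⟩
  -- elements of `N'` give nilpotents
  have hnil : ∀ v ∈ N', ∃ n : ℕ, ∃ u ∈ intRing K x,
      (∑ i, algebraMap K F (v i) * b i) ^ n = (x - algebraMap K F b₀) * u := by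
    intro v hv
    obtain ⟨n, r, hr, hrn⟩ := hN _ (hmem v hv)
    have hP : ∀ j, ∃ Q : K[X], ∑ i, C (v i) * G i j = C ((v ᵥ* G₀) j) + (X - C b₀) * Q := by
      intro j
      have : (X - C b₀) ∣ ∑ i, C (v i) * G i j - C ((v ᵥ* G₀) j) := by
        rw [Polynomial.dvd_iff_isRoot, IsRoot.def, eval_sub, Polynomial.eval_finsetSum, eval_C,
          sub_eq_zero]
        simp [Matrix.vecMul, dotProduct, hG₀]
      obtain ⟨Q, hQ⟩ := this
      exact ⟨Q, by rw [← hQ]; ring⟩
    choose Q hQ using hP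
    have h1 : ∑ i, algebraMap K F (v i) * b i = ∑ j, aeval x (∑ i, C (v i) * G i j) * o j := by
      simp only [map_sum, map_mul, aeval_C, Finset.sum_mul]
      rw [Finset.sum_comm]
      refine Finset.sum_congr rfl fun i _ => ?_
      rw [hG i, Finset.mul_sum]
      refine Finset.sum_congr rfl fun j _ => ?_
      ring
    have h2 : ∑ i, algebraMap K F (v i) * b i =
        ∑ j, algebraMap K F ((v ᵥ* G₀) j) * o j +
          (x - algebraMap K F b₀) * ∑ j, aeval x (Q j) * o j := by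
      rw [h1, Finset.mul_sum, ← Finset.sum_add_distrib]
      refine Finset.sum_congr rfl fun j _ => ?_
      rw [hQ j, map_add, map_mul, map_sub, aeval_X, aeval_C, aeval_C]
      ring
    have hy : ∑ j, algebraMap K F ((v ᵥ* G₀) j) * o j ∈ intRing K x := by
      have := hoint (fun j => C ((v ᵥ* G₀) j))
      simpa using this
    obtain ⟨u, hu, hun⟩ := or_pow_eq_of_add hxint hy (hoint Q) ((ho.2 r).mpr hr) hrn
    exact ⟨n, u, hu, by rw [h2, hun]⟩
  obtain ⟨d, w, σ, hwσ, hwA, hspan⟩ := exists_echelon_basis S.A N'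
  let wb : Fin d → Fin μ → k := fun i j => S.rc (w i j)
  have hwbσ : ∀ i i', wb i (σ i') = if i = i' then 1 else 0 := by
    intro i i'
    simp only [wb, hwσ]
    split_ifs
    · exact S.rc_one
    · exact S.rc_zero
  have hli : LinearIndependent k wb := by
    rw [Fintype.linearIndependent_iff]
    intro c hc i'
    have := congrFun hc (σ i')
    simpa [hwbσ] using this
  refine ⟨Submodule.span k (Set.range wb), ?_, ?_⟩
  · intro ab hab
    obtain ⟨cb, rfl⟩ := (Submodule.mem_span_range_iff_exists_fun k).mp hab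
    choose c hcA hc using fun i => S.exists_rc_eq (cb i)
    set v : Fin μ → K := ∑ i, c i • w i with hv
    have hvN : v ∈ N' := by
      rw [← hspan]
      exact Submodule.sum_mem _ fun i _ => Submodule.smul_mem _ _ (Submodule.subset_span ⟨i, rfl⟩)
    have hvj : ∀ j, v j = ∑ i, c i * w i j := by
      intro j; simp [hv]
    have hvA : ∀ j, v j ∈ S.A := by
      intro j
      rw [hvj]
      exact sum_mem fun i _ => mul_mem (hcA i) (hwA i j)
    have hvrc : ∀ j, S.rc (v j) = (∑ i, cb i • wb i) j := by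
      intro j
      rw [hvj, S.rc_sum _ _ fun i _ => mul_mem (hcA i) (hwA i j)]
      simp only [Finset.sum_apply, Pi.smul_apply, smul_eq_mul, wb]
      refine Finset.sum_congr rfl fun i _ => ?_
      rw [S.rc_mul (hcA i) (hwA i j), hc i]
    obtain ⟨n, u, hu, hun⟩ := hnil v hvN
    have hrV : ∑ i, algebraMap K F (v i) * b i ∈ S.V := or_sum_algebraMap_mem hb.mem hvA
    have huV : u ∈ S.V := or_mem_of_mul_mem hx hb₀ (pow_mem hrV n) hun
    refine ⟨n, S.rd u, hb.span u hu huV, ?_⟩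
    have h3 := congrArg S.rd hun
    rw [S.rd_pow hrV, or_rd_sum_algebraMap hb.mem hvA, S.rd_mul (or_sub_mem hx hb₀) huV,
      or_rd_sub hx hb₀] at h3
    rw [← h3]
    congr 1
    refine Finset.sum_congr rfl fun j _ => ?_
    rw [hvrc j]
  · rw [finrank_span_eq_card hli, Fintype.card_fin, ← hfin, ← hspan]
    exact (finrank_range_le_card w).trans (by rw [Fintype.card_fin])


/-- the trace commutes with reduction. -/
theorem or_rd_trace {x : F} (hx : S.Coord x) {μ : ℕ} (hμ : Module.finrank K⟮x⟯ F = μ)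
    (b : Fin μ → F) (hbV : ∀ i, b i ∈ S.V) (hind : PolyIndep k (S.rd x) (fun i => S.rd (b i)))
    {h : F} (hV : h ∈ S.V) :
    algebraMap K⟮x⟯ F (Algebra.trace K⟮x⟯ F h) ∈ S.V ∧
      S.rd (algebraMap K⟮x⟯ F (Algebra.trace K⟮x⟯ F h)) =
        algebraMap k⟮S.rd x⟯ Fb (Algebra.trace k⟮S.rd x⟯ Fb (S.rd h)) := by
  have := hx.fin
  have := hx.finb
  subst hμ
  have hindK : PolyIndep K x b := S.polyIndep_of_rd hx.mem b hbV hind
  -- relations
  have hrel : ∀ j, ∃ (q : K[X]) (p : Fin (Module.finrank K⟮x⟯ F) → K[X]),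
      (∀ n, q.coeff n ∈ S.A) ∧ S.rp q ≠ 0 ∧
      aeval x q * (h * b j) = ∑ i, aeval x (p i) * b i := by
    intro j
    obtain ⟨q, p, hq, hqp⟩ := S.exists_mul_eq_sum hx b hbV hind (h * b j)
    obtain ⟨c, hc, hcA, hcrp⟩ := S.exists_scale_poly hq
    refine ⟨C c * q, fun i => C c * p i, hcA, hcrp, ?_⟩
    simp only [map_mul, mul_assoc]
    rw [hqp, Finset.mul_sum]
  choose q p hqA hqrp hqp using hrel
  have hpA : ∀ j i n, (p j i).coeff n ∈ S.A := by
    intro j
    apply S.coeff_mem_of_sum_mem hx.mem b hbV hind (p j)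
    rw [← hqp j]
    exact mul_mem (S.aeval_mem hx.mem (hqA j)) (mul_mem hV (hbV j))
  have hqb : ∀ j, aeval (S.rd x) (S.rp (q j)) ≠ 0 := by
    intro j h0
    exact hqrp j ((transcendental_iff.mp hx.trans) _ h0)
  have hqrd : ∀ j, S.rd (aeval x (q j)) = aeval (S.rd x) (S.rp (q j)) :=
    fun j => S.rd_aeval hx.mem (hqA j)
  have hq0 : ∀ j, aeval x (q j) ≠ 0 := by
    intro j h0
    apply hqb j
    rw [← hqrd, h0, S.rd_zero]
  have hrelb : ∀ j, aeval (S.rd x) (S.rp (q j)) * (S.rd h * S.rd (b j)) =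
      ∑ i, aeval (S.rd x) (S.rp (p j i)) * S.rd (b i) := by
    intro j
    rw [← (S.rd_sum_aeval hx.mem b hbV (p j) (hpA j)).2, ← hqp j,
      S.rd_mul (S.aeval_mem hx.mem (hqA j)) (mul_mem hV (hbV j)), S.rd_mul hV (hbV j), hqrd]
  rw [or_trace_of_rel rfl b hindK h q p hq0 hqp,
    or_trace_of_rel hx.finrank_eq.symm (fun i => S.rd (b i)) hind (S.rd h)
      (fun j => S.rp (q j)) (fun j i => S.rp (p j i)) hqb hrelb]
  have hterm : ∀ i, aeval x (p i i) / aeval x (q i) ∈ S.V ∧
      S.rd (aeval x (p i i) / aeval x (q i)) =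
        aeval (S.rd x) (S.rp (p i i)) / aeval (S.rd x) (S.rp (q i)) := by
    intro i
    have h1 : S.rd (aeval x (q i)) ≠ 0 := by rw [hqrd]; exact hqb i
    have h2 := S.inv_mem_of_rd_ne_zero h1
    have h3 := S.aeval_mem hx.mem (hpA i i)
    rw [div_eq_mul_inv, div_eq_mul_inv]
    refine ⟨mul_mem h3 h2, ?_⟩
    rw [S.rd_mul h3 h2, S.rd_inv h1, hqrd, S.rd_aeval hx.mem (hpA i i)]
  refine ⟨sum_mem fun i _ => (hterm i).1, ?_⟩
  rw [S.rd_sum _ _ fun i _ => (hterm i).1]
  exact Finset.sum_congr rfl fun i _ => (hterm i).2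


/-- **OR3.** The discriminant polynomial of `b` has coefficients in `A` and reduces to the discriminant
polynomial of `b̄`.
Proof: `b` is a `K(x)`-basis of `F`, `b̄` a `k(x̄)`-basis of `Fb`.  For `h ∈ V` the matrix of multiplication by `h`
w.r.t. `b` has entries in `K(x) ∩ V` (OF1 after clearing denominators) and reduces to the matrix of `h̄` w.r.t. `b̄`;
so `rd (Tr h) = Tr (rd h)` (`Algebra.trace_eq_matrix_trace`); `det` commutes with `rd`;
`coeff_mem_of_aeval_mem`, `rd_aeval`. -/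
theorem isDiscPoly_rp {x : F} (hx : S.Coord x) {μ : ℕ} (hμ : Module.finrank K⟮x⟯ F = μ)
    (b : Fin μ → F) (hb : S.IsRedBasis x b) {Δ : K[X]} (hΔ : IsDiscPoly x b Δ) :
    (∀ n, Δ.coeff n ∈ S.A) ∧ IsDiscPoly (S.rd x) (fun i => S.rd (b i)) (S.rp Δ) := by
  classical
  have htr := fun i j => S.or_rd_trace hx hμ b hb.mem hb.indep (mul_mem (hb.mem i) (hb.mem j))
  let T : Matrix (Fin μ) (Fin μ) S.V :=
    fun i j => ⟨algebraMap K⟮x⟯ F (Algebra.trace K⟮x⟯ F (b i * b j)), (htr i j).1⟩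
  have h1 : algebraMap K⟮x⟯ F (Algebra.discr K⟮x⟯ b) = S.V.subtype T.det := by
    rw [Algebra.discr_def, RingHom.map_det, RingHom.map_det]
    congr 1
  have h2 : algebraMap k⟮S.rd x⟯ Fb (Algebra.discr k⟮S.rd x⟯ (fun i => S.rd (b i))) =
      S.red T.det := by
    rw [Algebra.discr_def, RingHom.map_det, RingHom.map_det]
    congr 1
    ext i j
    simp only [RingHom.mapMatrix_apply, Matrix.map_apply, Algebra.traceMatrix_apply,
      Algebra.traceForm_apply]
    rw [← S.rd_mul (hb.mem i) (hb.mem j), ← (htr i j).2, S.rd_of_mem (htr i j).1]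
  have hmem : aeval x Δ ∈ S.V := by
    rw [hΔ, h1]
    exact T.det.2
  have hA := S.coeff_mem_of_aeval_mem hx.mem hx.trans hmem
  refine ⟨hA, ?_⟩
  unfold IsDiscPoly
  rw [← S.rd_aeval hx.mem hA, h2, S.rd_of_mem hmem]
  congr 1
  apply Subtype.ext
  change aeval x Δ = S.V.subtype T.det
  rw [← h1, hΔ]

end RedSetting

end Fermat.Agent.S18
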