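import Fermat.Agent.S18.TameDisc

set_option autoImplicit false

namespace Fermat.Agent.S18

open Polynomial IntermediateField Fermat.Agent.S24 Matrix
open scoped IntermediateField.algebraAdjoinAdjoin

variable {k E : Type*} [Field k] [Field E] [Algebra k E]

theorem ib_isPrincipalIdealRing_polyRing {x : E} (hx : Transcendental k x) :
    IsPrincipalIdealRing (polyRing k x) :=
  IsPrincipalIdealRing.of_surjective (Polynomial.algEquivOfTranscendental k x hx).toRingEquiv.toRingHom
    (Polynomial.algEquivOfTranscendental k x hx).surjective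

theorem ib_mem_polyRing_iff {x : E} {z : E} : z ∈ polyRing k x ↔ ∃ p : k[X], aeval x p = z := by
  rw [polyRing, Algebra.adjoin_singleton_eq_range_aeval]
  rfl

theorem ib_exists_isIntBasis {x : E} (hx : Transcendental k x) [FiniteDimensional k⟮x⟯ E]
    [Algebra.IsSeparable k⟮x⟯ E] :
    ∃ o : Fin (Module.finrank k⟮x⟯ E) → E, IsIntBasis (K := k) x o := by
  have := ib_isPrincipalIdealRing_polyRing hx
  have hfin : Module.Finite (polyRing k x) (intRing k x) :=
    IsIntegralClosure.finite (polyRing k x) k⟮x⟯ E (intRing k x)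
  have hfree : Module.Free (polyRing k x) (intRing k x) :=
    IsIntegralClosure.module_free (polyRing k x) k⟮x⟯ E (intRing k x)
  have hrank : Module.finrank (polyRing k x) (intRing k x) = Module.finrank k⟮x⟯ E :=
    IsIntegralClosure.rank (polyRing k x) k⟮x⟯ E (intRing k x)
  let b := Module.finBasisOfFinrankEq (polyRing k x) (intRing k x) hrank
  have hmem : ∀ p : k[X], aeval x p ∈ polyRing k x := fun p => ib_mem_polyRing_iff.2 ⟨p, rfl⟩
  have key : ∀ p : Fin (Module.finrank k⟮x⟯ E) → k[X],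
      ∑ i, aeval x (p i) * (b i : E) =
        ((∑ i, (⟨aeval x (p i), hmem _⟩ : polyRing k x) • b i : intRing k x) : E) := by
    intro p
    rw [AddSubmonoidClass.coe_finsetSum]
    rfl
  refine ⟨fun i => (b i : E), ?_, ?_⟩
  · intro p hp
    rw [key p] at hp
    have h0 : (∑ i, (⟨aeval x (p i), hmem _⟩ : polyRing k x) • b i : intRing k x) = 0 :=
      Subtype.ext hp
    have h1 := Fintype.linearIndependent_iff.1 b.linearIndependent _ h0
    funext i
    have h2 := congrArg Subtype.val (h1 i)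
    exact (transcendental_iff_injective.1 hx) (by simpa using h2)
  · intro h
    constructor
    · intro hh
      have h1 := b.sum_repr ⟨h, hh⟩
      choose p hp using fun i => ib_mem_polyRing_iff.1 (b.repr ⟨h, hh⟩ i).2
      refine ⟨p, ?_⟩
      rw [key p]
      have : (fun i => (⟨aeval x (p i), hmem _⟩ : polyRing k x)) = fun i => b.repr ⟨h, hh⟩ i := by
        funext i
        exact Subtype.ext (hp i)
      have h2 : (∑ i, (⟨aeval x (p i), hmem _⟩ : polyRing k x) • b i : intRing k x) = ⟨h, hh⟩ := by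
        rw [← h1]
        exact Finset.sum_congr rfl fun i _ => by rw [congrFun this i]
      rw [h2]
    · rintro ⟨p, rfl⟩
      rw [key p]
      exact Subtype.prop _

theorem ib_exists_isDiscPoly {x : E} (hx : Transcendental k x) [FiniteDimensional k⟮x⟯ E] {μ : ℕ}
    (e : Fin μ → E) (he : ∀ i, e i ∈ intRing k x) : ∃ Δ : k[X], IsDiscPoly x e Δ := by
  have := ib_isPrincipalIdealRing_polyRing hx
  have h1 : IsIntegral (polyRing k x) (Algebra.discr k⟮x⟯ e) := Algebra.discr_isIntegral k⟮x⟯ he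
  obtain ⟨y, hy⟩ := IsIntegrallyClosed.isIntegral_iff.1 h1
  obtain ⟨p, hp⟩ := ib_mem_polyRing_iff.1 y.2
  refine ⟨p, ?_⟩
  rw [IsDiscPoly, hp, ← hy]
  rfl

theorem ib_isDiscPoly_ne_zero {x : E} [FiniteDimensional k⟮x⟯ E]
    [Algebra.IsSeparable k⟮x⟯ E] {μ : ℕ} (hμ : Module.finrank k⟮x⟯ E = μ)
    (e : Fin μ → E) (he : PolyIndep k x e) {Δ : k[X]} (hΔ : IsDiscPoly x e Δ) : Δ ≠ 0 := by
  rintro rfl
  have hli := nc_linearIndependent e he
  have hμ0 : 0 < μ := hμ ▸ Module.finrank_pos
  have : Nonempty (Fin μ) := ⟨⟨0, hμ0⟩⟩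
  let b : Module.Basis (Fin μ) k⟮x⟯ E :=
    basisOfLinearIndependentOfCardEqFinrank hli (by rw [Fintype.card_fin, hμ])
  have hb : ⇑b = e := coe_basisOfLinearIndependentOfCardEqFinrank _ _
  have h1 := Algebra.discr_not_zero_of_basis k⟮x⟯ b
  rw [hb] at h1
  rw [IsDiscPoly, map_zero] at hΔ
  exact h1 ((map_eq_zero _).1 hΔ.symm)

theorem ib_isDiscPoly_of_matrix {x : E} {μ : ℕ}
    (e e' : Fin μ → E) (G : Matrix (Fin μ) (Fin μ) k[X])
    (hG : ∀ i, e i = ∑ j, aeval x (G i j) * e' j) {Δ' : k[X]} (hΔ' : IsDiscPoly x e' Δ') :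
    IsDiscPoly x e (G.det ^ 2 * Δ') := by
  have h1 : e = ((G.map (ncι x)).map (algebraMap k⟮x⟯ E)) *ᵥ e' := by
    funext i
    rw [hG i]
    simp only [Matrix.mulVec, dotProduct, Matrix.map_apply, ncι_algebraMap]
  rw [IsDiscPoly] at hΔ' ⊢
  rw [h1, Algebra.discr_of_matrix_mulVec, map_mul, map_mul, map_pow, map_pow, hΔ']
  congr 2
  have : (G.map (ncι x)).det = ncι x G.det := by
    rw [AlgHom.map_det]
    rfl
  rw [this, ncι_algebraMap]

end Fermat.Agent.S18
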