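import Mathlib

/-!
# S18, piece TD, auxiliary: a matrix in characteristic zero all of whose power traces vanish is nilpotent
-/

set_option autoImplicit false

namespace Fermat.Agent.S18

open Polynomial

theorem td_trace_aeval {K V : Type*} [Field K] [AddCommGroup V] [Module K V]
    (f : Module.End K V) (h : ∀ n : ℕ, 0 < n → LinearMap.trace K V (f ^ n) = 0) (P : K[X]) :
    LinearMap.trace K V (aeval f P) = P.coeff 0 * LinearMap.trace K V 1 := by
  induction P using Polynomial.induction_on' with
  | add p q hp hq => rw [map_add, map_add, hp, hq, coeff_add, add_mul]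
  | monomial n a =>
    rw [aeval_monomial, ← Algebra.smul_def, map_smul, smul_eq_mul, coeff_monomial]
    rcases Nat.eq_zero_or_pos n with rfl | hn
    · simp
    · rw [h n hn, if_neg (by omega)]; simp

theorem td_isNilpotent_of_trace {K V : Type*} [Field K] [CharZero K] [AddCommGroup V] [Module K V]
    [FiniteDimensional K V] (f : Module.End K V)
    (h : ∀ n : ℕ, 0 < n → LinearMap.trace K V (f ^ n) = 0) : IsNilpotent f := by
  have hχ0 : f.charpoly ≠ 0 := f.charpoly_monic.ne_zero
  obtain ⟨g, hg, hgX⟩ := exists_eq_pow_rootMultiplicity_mul_and_not_dvd f.charpoly hχ0 0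
  set r := rootMultiplicity 0 f.charpoly with hr
  rw [C_0, sub_zero] at hg hgX
  have hcop : IsCoprime (X ^ r : K[X]) g :=
    IsCoprime.pow_left ((irreducible_X (R := K)).coprime_iff_not_dvd.2 hgX)
  obtain ⟨a, b, hab⟩ := hcop
  have hCH : aeval f f.charpoly = 0 := f.aeval_self_charpoly
  rcases Nat.eq_zero_or_pos r with hr0 | hrpos
  · -- `f` is invertible: the space is zero
    have h1 := td_trace_aeval f h f.charpoly
    rw [hCH, map_zero] at h1
    have hc0 : f.charpoly.coeff 0 ≠ 0 := by
      rw [hg, hr0, pow_zero, one_mul]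
      intro h0
      exact hgX (X_dvd_iff.2 h0)
    have h2 : LinearMap.trace K V 1 = 0 := by
      rcases mul_eq_zero.1 h1.symm with h | h
      · exact absurd h hc0
      · exact h
    rw [LinearMap.trace_one] at h2
    have h3 : Module.finrank K V = 0 := by exact_mod_cast h2
    have : Subsingleton V := Module.finrank_zero_iff.1 h3
    exact ⟨1, by ext v; exact Subsingleton.elim _ _⟩
  · set e : Module.End K V := aeval f (a * X ^ r) with he
    have hsum : e + aeval f (b * g) = 1 := by
      rw [he, ← map_add, hab, map_one]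
    have hprod : e * aeval f (b * g) = 0 := by
      rw [he, ← map_mul]
      have : a * X ^ r * (b * g) = a * b * f.charpoly := by rw [hg]; ring
      rw [this, map_mul, hCH, mul_zero]
    have hidem : IsIdempotentElem e := by
      have : e * e = e * (e + aeval f (b * g)) := by rw [mul_add, hprod, add_zero]
      rw [IsIdempotentElem, this, hsum, mul_one]
    have htr : LinearMap.trace K V e = 0 := by
      rw [he, td_trace_aeval f h]
      have : (a * X ^ r).coeff 0 = 0 := by
        rw [coeff_mul_X_pow', if_neg (by omega)]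
      rw [this, zero_mul]
    have he0 : e = 0 := LinearMap.IsIdempotentElem.eq_zero_of_trace_eq_zero hidem htr
    rw [he0, zero_add] at hsum
    refine ⟨r, ?_⟩
    have : f ^ r = aeval f (X ^ r : K[X]) * aeval f (b * g) := by
      rw [hsum, mul_one, map_pow, aeval_X]
    rw [this, ← map_mul]
    have : X ^ r * (b * g) = b * f.charpoly := by rw [hg]; ring
    rw [this, map_mul, hCH, mul_zero]

theorem td_matrix_isNilpotent_of_trace {K : Type*} [Field K] [CharZero K] {n : ℕ}
    (M : Matrix (Fin n) (Fin n) K) (h : ∀ m : ℕ, 0 < m → (M ^ m).trace = 0) : IsNilpotent M := by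
  have h1 : IsNilpotent (Matrix.toLin' M) := by
    apply td_isNilpotent_of_trace
    intro m hm
    rw [← Matrix.toLin'_pow, Matrix.trace_toLin'_eq, h m hm]
  obtain ⟨m, hm⟩ := h1
  refine ⟨m, ?_⟩
  rw [← Matrix.toLin'_pow] at hm
  exact Matrix.toLin'.injective (by rw [hm, map_zero])

end Fermat.Agent.S18
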