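import Fermat.Agent.S18.NormCrit
import Fermat.Agent.S18.TameDiscAux
import Fermat.Agent.S24.Primes

/-!
# S18, piece TD, part A: trace-zero ideals are nil modulo `x - c`; the key integrality lemma
-/

set_option autoImplicit false

namespace Fermat.Agent.S18

open Polynomial IntermediateField Fermat.Agent.S24 Matrix

variable {K F : Type*} [Field K] [Field F] [Algebra K F]

section

variable {x : F} {μ : ℕ} {b : Module.Basis (Fin μ) K⟮x⟯ F}

/-- `w` pairs the order into `(x - c) K[x]` under the trace form. -/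
def TrZero (b : Module.Basis (Fin μ) K⟮x⟯ F) (c : K) (w : F) : Prop :=
  ∀ g ∈ polySpan K x b, ∃ q : K[X], Algebra.trace K⟮x⟯ F (w * g) = ncι x ((X - C c) * q)

theorem td_pow_mem (hmul : ∀ i j, b i * b j ∈ polySpan K x b) (h1 : (1 : F) ∈ polySpan K x b)
    {y : F} (hy : y ∈ polySpan K x b) (n : ℕ) : y ^ n ∈ polySpan K x b := by
  induction n with
  | zero => simpa using h1
  | succ n ih => rw [pow_succ]; exact nc_mul_mem hmul ih hy

theorem IsMat.mul_basis {u : F} {M : Matrix (Fin μ) (Fin μ) K[X]} (h : IsMat b u M) (j : Fin μ) :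
    u * b j = ∑ i, aeval x (M i j) * b i := by
  unfold IsMat at h
  rw [← b.sum_repr (u * b j)]
  refine Finset.sum_congr rfl fun i _ => ?_
  rw [← Algebra.leftMulMatrix_eq_repr_mul, h, Matrix.map_apply, ncι_smul]

theorem td_claimA [CharZero K] (hx : Transcendental K x)
    (hmul : ∀ i j, b i * b j ∈ polySpan K x b) (h1 : (1 : F) ∈ polySpan K x b) (c : K)
    {y : F} (hy : y ∈ polySpan K x b) (htr : TrZero b c y) :
    ∃ m : ℕ, ∃ r ∈ polySpan K x b, y ^ m = (x - algebraMap K F c) * r := by
  classical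
  obtain ⟨M, hM⟩ := nc_exists_mat hmul hy
  have hpow : ∀ n : ℕ, (M.map (Polynomial.eval c)) ^ n = (M ^ n).map (Polynomial.eval c) :=
    fun n => ((Polynomial.evalRingHom c).mapMatrix.map_pow M n).symm
  have htr0 : ∀ n : ℕ, 0 < n → ((M.map (Polynomial.eval c)) ^ n).trace = 0 := by
    intro n hn
    obtain ⟨k, rfl⟩ : ∃ k, n = k + 1 := ⟨n - 1, by omega⟩
    obtain ⟨q, hq⟩ := htr _ (td_pow_mem hmul h1 hy k)
    rw [← pow_succ', (hM.pow (k + 1)).trace] at hq
    have h2 := ncι_injective hx hq
    rw [hpow]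
    have h5 : ((M ^ (k + 1)).map (Polynomial.eval c)).trace = (M ^ (k + 1)).trace.eval c := by
      rw [Matrix.trace, Matrix.trace, Polynomial.eval_finsetSum]
      rfl
    rw [h5, h2]
    simp
  obtain ⟨m, hm⟩ := td_matrix_isNilpotent_of_trace _ htr0
  rw [hpow] at hm
  have hdvd : ∀ i j, (X - C c) ∣ (M ^ m) i j := by
    intro i j
    rw [Polynomial.dvd_iff_isRoot, Polynomial.IsRoot.def]
    exact congrFun (congrFun hm i) j
  choose M' hM' using hdvd
  obtain ⟨a, ha⟩ := h1
  refine ⟨m, ∑ j, aeval x (a j) * ∑ i, aeval x (M' i j) * b i, ?_, ?_⟩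
  · exact Submodule.sum_mem _ fun j _ => nc_aeval_mul_mem _ ⟨fun i => M' i j, rfl⟩
  · calc y ^ m = y ^ m * 1 := (mul_one _).symm
      _ = ∑ j, aeval x (a j) * (y ^ m * b j) := by
          rw [ha, Finset.mul_sum]
          exact Finset.sum_congr rfl fun j _ => by ring
      _ = _ := by
          rw [Finset.mul_sum]
          refine Finset.sum_congr rfl fun j _ => ?_
          rw [(hM.pow m).mul_basis j]
          have : ∑ i, aeval x ((M ^ m) i j) * b i
              = (x - algebraMap K F c) * ∑ i, aeval x (M' i j) * b i := by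
            rw [Finset.mul_sum]
            refine Finset.sum_congr rfl fun i _ => ?_
            rw [hM' i j]
            simp [mul_assoc]
          rw [this]
          ring

theorem TrZero.add {c : K} {w w' : F} (h : TrZero b c w) (h' : TrZero b c w') :
    TrZero b c (w + w') := by
  intro g hg
  obtain ⟨q, hq⟩ := h g hg
  obtain ⟨q', hq'⟩ := h' g hg
  exact ⟨q + q', by rw [add_mul, map_add, hq, hq', ← map_add, mul_add]⟩

theorem TrZero.sub {c : K} {w w' : F} (h : TrZero b c w) (h' : TrZero b c w') :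
    TrZero b c (w - w') := by
  intro g hg
  obtain ⟨q, hq⟩ := h g hg
  obtain ⟨q', hq'⟩ := h' g hg
  exact ⟨q - q', by rw [sub_mul, map_sub, hq, hq', ← map_sub, mul_sub]⟩

theorem TrZero.zero {c : K} : TrZero b c 0 := by
  intro g _
  exact ⟨0, by simp⟩

theorem TrZero.aeval_mul {c : K} {w : F} (h : TrZero b c w) (p : K[X]) :
    TrZero b c (aeval x p * w) := by
  intro g hg
  obtain ⟨q, hq⟩ := h g hg
  refine ⟨p * q, ?_⟩
  rw [mul_assoc, ← ncι_smul, map_smul, hq, smul_eq_mul, ← map_mul]
  congr 1
  ring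

theorem td_trZero_mul (hmul : ∀ i j, b i * b j ∈ polySpan K x b) (c : K) {r : F}
    (hr : r ∈ polySpan K x b) : TrZero b c ((x - algebraMap K F c) * r) := by
  intro g hg
  obtain ⟨M, hM⟩ := nc_exists_mat hmul (nc_mul_mem hmul hr hg)
  refine ⟨M.trace, ?_⟩
  have : (x - algebraMap K F c) * r * g = ncι x (X - C c) • (r * g) := by
    rw [ncι_smul]; simp [mul_assoc]
  rw [this, map_smul, hM.trace, smul_eq_mul, map_mul]

theorem td_rootMultiplicity_pow {p : K[X]} (hp : p ≠ 0) (c : K) (n : ℕ) :
    (p ^ n).rootMultiplicity c = n * p.rootMultiplicity c := by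
  induction n with
  | zero => simp
  | succ n ih =>
    rw [pow_succ, Polynomial.rootMultiplicity_mul (mul_ne_zero (pow_ne_zero _ hp) hp), ih]
    ring

open scoped IntermediateField.algebraAdjoinAdjoin in
theorem td_key [CharZero K] (hx : Transcendental K x) [FiniteDimensional K⟮x⟯ F]
    (hO : ∀ h : F, h ∈ intRing K x ↔ h ∈ polySpan K x b) (c : K)
    {w : F} (htr : TrZero b c w) (t : ℕ)
    (ht : (x - algebraMap K F c) ^ t * w ∈ polySpan K x b) : w ∈ polySpan K x b := by
  classical
  have hmul : ∀ i j, b i * b j ∈ polySpan K x b := fun i j =>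
    (hO _).1 (mul_mem ((hO _).2 (nc_self_mem i)) ((hO _).2 (nc_self_mem j)))
  have h1 : (1 : F) ∈ polySpan K x b := (hO _).1 (one_mem _)
  have hπmem : x - algebraMap K F c ∈ intRing K x := by
    rw [hO]
    have := nc_aeval_mul_mem (k := K) (x := x) (e := b) (X - C c) h1
    simpa using this
  have hπ0 : x - algebraMap K F c ≠ 0 := by
    intro h0
    apply hx
    rw [sub_eq_zero] at h0
    rw [h0]
    exact isAlgebraic_algebraMap c
  have := isPrincipalIdealRing_polyRing hx
  have := isDedekindDomain_intRing hx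
  have := finite_intRing hx
  set π' : intRing K x := ⟨x - algebraMap K F c, hπmem⟩ with hπ'
  set I : Ideal (intRing K x) := Ideal.span {π'} with hI
  set J : Ideal (intRing K x) := I.radical with hJ
  obtain ⟨n₀, hn₀⟩ := Ideal.exists_radical_pow_le_of_fg I (IsNoetherian.noetherian _)
  -- membership in `J` from the trace condition
  have hJmem : ∀ (y : F) (hy : y ∈ intRing K x), TrZero b c y → (⟨y, hy⟩ : intRing K x) ∈ J := by
    intro y hy hytr
    obtain ⟨m, r, hr, hm⟩ := td_claimA hx hmul h1 c ((hO _).1 hy) hytr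
    refine ⟨m, ?_⟩
    rw [hI, Ideal.mem_span_singleton]
    refine ⟨⟨r, (hO _).2 hr⟩, ?_⟩
    apply Subtype.ext
    exact hm
  have hP : ∀ i : ℕ, ∀ h : intRing K x, h ∈ J ^ (n₀ * t - i) → w * (h : F) ∈ intRing K x := by
    intro i
    induction i with
    | zero =>
      intro h hh
      rw [Nat.sub_zero, pow_mul] at hh
      have h2 : h ∈ I ^ t := Ideal.pow_right_mono hn₀ t hh
      rw [hI, Ideal.span_singleton_pow, Ideal.mem_span_singleton] at h2
      obtain ⟨h', rfl⟩ := h2
      have : w * ((π' ^ t * h' : intRing K x) : F)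
          = ((x - algebraMap K F c) ^ t * w) * (h' : F) := by
        push_cast
        rw [hπ']
        ring
      rw [this]
      exact mul_mem ((hO _).2 ht) h'.2
    | succ i ih =>
      intro h hh
      by_cases hi : n₀ * t - i = 0
      · exact ih h (by rw [hi]; rw [show n₀ * t - (i + 1) = 0 by omega] at hh; exact hh)
      obtain ⟨k, hk⟩ : ∃ k, n₀ * t - i = k + 1 := ⟨n₀ * t - i - 1, by omega⟩
      have hk' : n₀ * t - (i + 1) = k := by omega
      rw [hk'] at hh
      rw [hk] at ih
      set u : F := w * (h : F) with hu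
      have hstep : ∀ g : intRing K x, g ∈ J → ∃ hg : u * (g : F) ∈ intRing K x,
          (⟨u * (g : F), hg⟩ : intRing K x) ∈ J := by
        intro g hg
        have hmem : u * (g : F) ∈ intRing K x := by
          have := ih (h * g) (by rw [pow_succ]; exact Ideal.mul_mem_mul hh hg)
          rw [hu, mul_assoc]
          exact this
        refine ⟨hmem, hJmem _ hmem ?_⟩
        intro g' hg'
        have : u * (g : F) * g' = w * ((h : F) * (g : F) * g') := by rw [hu]; ring
        rw [this]
        exact htr _ ((hO _).1 (mul_mem (mul_mem h.2 g.2) ((hO _).2 hg')))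
      set N : Submodule (polyRing K x) F :=
        (J.restrictScalars (polyRing K x)).map ((intRing K x).val.toLinearMap) with hN
      have hNbot : N ≠ ⊥ := by
        intro hbot
        have : (x - algebraMap K F c) ∈ N :=
          ⟨π', Ideal.le_radical (Ideal.mem_span_singleton_self π'), rfl⟩
        rw [hbot, Submodule.mem_bot] at this
        exact hπ0 this
      have hNfg : N.FG := (IsNoetherian.noetherian _).map _
      refine isIntegral_of_smul_mem_submodule N hNbot hNfg u ?_
      rintro _ ⟨g, hg, rfl⟩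
      obtain ⟨hg1, hg2⟩ := hstep g hg
      exact ⟨⟨u * (g : F), hg1⟩, hg2, rfl⟩
  have := hP (n₀ * t) 1 (by rw [Nat.sub_self, pow_zero, Ideal.one_eq_top]; trivial)
  rw [← hO]
  simpa using this

end

end Fermat.Agent.S18
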