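import Fermat.Agent.S18.NormCrit
import Fermat.Agent.S18.TameDiscA

/-!
# S18, piece TD: in characteristic zero the discriminant of the maximal order is tame
-/

set_option autoImplicit false

namespace Fermat.Agent.S18

open Polynomial IntermediateField Fermat.Agent.S24 Matrix

variable {K F : Type*} [Field K] [Field F] [Algebra K F]

/-- `o` is a `K[x]`-basis of the integral closure `O₀` of `K[x]` in `F`. -/
def IsIntBasis {μ : ℕ} (x : F) (o : Fin μ → F) : Prop :=
  PolyIndep K x o ∧ ∀ h : F, h ∈ intRing K x ↔ h ∈ polySpan K x o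

/-- **TD (tame discriminant bound).** `char K = 0`, `o` a `K[x]`-basis of `O₀`.  Then
`v_c(disc O₀) ≤ dim nil(O₀/(x-c))`.

Proof. `J = {h ∈ O₀ : h^n ∈ (x-c)O₀}`, `N` = coordinates of `J ∩ ∑ K o_i`, `ν = dim N`.  Write
`Δ = (X-c)^α p₀`, `p₀(c) ≠ 0`, `Γ` = Gram matrix, `o^∨ = Γ⁻¹ o` the dual basis,
`𝔠 = ∑ O₀ (x-c) p₀(x) o^∨_i` (an `O₀`-module with `Tr 𝔠 ⊆ (x-c)K[x]`, `(x-c)^{α-1} 𝔠 ⊆ O₀`, `J^μ ⊆ (x-c)O₀`).
Let `i` be minimal with `𝔠 J^i ⊆ O₀`.  An ideal `𝔟 ⊆ O₀` with `Tr 𝔟 ⊆ (x-c)` lies in `J` (for `y ∈ 𝔟` all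
`Tr y^n ≡ 0`, so multiplication by `y` on `O₀/(x-c)` is nilpotent: char 0, Newton).  So `𝔠J^i ⊆ J`; if `i ≥ 1`
then `𝔠J^{i-1} ⊆ (J : J) = O₀` (`isIntegral_of_smul_mem_submodule`), contradiction.  Hence `𝔠 ⊆ J`:
`Q = (X-c) p₀ Γ⁻¹ ∈ Mat(K[X])` has all rows of `Q(c)` in `N`, `rank Q(c) ≤ ν`, so by LA1
`(X-c)^{μ-ν} ∣ det Q = ((X-c)p₀)^μ / Δ`, i.e. `α ≤ ν`. -/
theorem tameDisc [CharZero K] {x : F} (hx : Transcendental K x) [FiniteDimensional K⟮x⟯ F] {μ : ℕ}
    (hμ : Module.finrank K⟮x⟯ F = μ) (o : Fin μ → F) (ho : IsIntBasis (K := K) x o)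
    (Δ : K[X]) (hΔ : IsDiscPoly x o Δ) (c : K) :
    ∃ N : Submodule K (Fin μ → K), NilFam x c o N ∧ Δ.rootMultiplicity c ≤ Module.finrank K N := by
  classical
  obtain ⟨hind, hOo⟩ := ho
  have hli := nc_linearIndependent o hind
  have hμ0 : 0 < μ := hμ ▸ Module.finrank_pos
  have : Nonempty (Fin μ) := ⟨⟨0, hμ0⟩⟩
  set b : Module.Basis (Fin μ) K⟮x⟯ F :=
    basisOfLinearIndependentOfCardEqFinrank hli (by rw [Fintype.card_fin, hμ]) with hbdef
  have hb : ⇑b = o := coe_basisOfLinearIndependentOfCardEqFinrank _ _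
  have hO : ∀ h : F, h ∈ intRing K x ↔ h ∈ polySpan K x b := by rw [hb]; exact hOo
  have hindb : PolyIndep K x b := by rw [hb]; exact hind
  have hmul : ∀ i j, b i * b j ∈ polySpan K x b := fun i j =>
    (hO _).1 (mul_mem ((hO _).2 (nc_self_mem i)) ((hO _).2 (nc_self_mem j)))
  have h1 : (1 : F) ∈ polySpan K x b := (hO _).1 (one_mem _)
  -- the space `N`
  let N : Submodule K (Fin μ → K) :=
    { carrier := {a | TrZero b c (∑ i, algebraMap K F (a i) * b i)}
      add_mem' := by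
        intro a a' ha ha'
        have : ∑ i, algebraMap K F ((a + a') i) * b i
            = ∑ i, algebraMap K F (a i) * b i + ∑ i, algebraMap K F (a' i) * b i := by
          simp [add_mul, Finset.sum_add_distrib]
        rw [Set.mem_ofPred_eq, this]
        exact TrZero.add ha ha'
      zero_mem' := by
        have : ∑ i, algebraMap K F ((0 : Fin μ → K) i) * b i = 0 := by simp
        rw [Set.mem_ofPred_eq, this]
        exact TrZero.zero
      smul_mem' := by
        intro l a ha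
        have : ∑ i, algebraMap K F ((l • a) i) * b i
            = aeval x (C l) * ∑ i, algebraMap K F (a i) * b i := by
          simp [Finset.mul_sum, mul_assoc]
        rw [Set.mem_ofPred_eq, this]
        exact TrZero.aeval_mul ha _ }
  have hNmem : ∀ a, a ∈ N ↔ TrZero b c (∑ i, algebraMap K F (a i) * b i) := fun _ => Iff.rfl
  refine ⟨N, ?_, ?_⟩
  · intro a ha
    rw [← hb]
    refine td_claimA hx hmul h1 c ⟨fun i => C (a i), by simp⟩ ha
  -- the Gram matrix
  choose Mb hMb using fun i => nc_exists_mat hmul (nc_self_mem (k := K) (x := x) (e := b) i)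
  set Γ : Matrix (Fin μ) (Fin μ) K[X] := Matrix.of fun i j => (Mb i * Mb j).trace with hΓ
  have hΓtr : ∀ i j, Algebra.trace K⟮x⟯ F (b i * b j) = ncι x (Γ i j) :=
    fun i j => ((hMb i).mul (hMb j)).trace
  have hdisc' : Algebra.discr K⟮x⟯ o = ncι x Γ.det := by
    rw [Algebra.discr_def, ← hb]
    have : Algebra.traceMatrix K⟮x⟯ b = Γ.map (ncι x) := by
      ext i j
      rw [Algebra.traceMatrix_apply, Algebra.traceForm_apply, hΓtr]
      rfl
    rw [this]
    exact ((ncι x).toRingHom.map_det Γ).symm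
  have hdisc : Δ = Γ.det := by
    apply ncι_injective hx
    apply (algebraMap K⟮x⟯ F).injective
    rw [ncι_algebraMap, hΔ, hdisc']
  have : CharZero K⟮x⟯ := charZero_of_injective_algebraMap (algebraMap K K⟮x⟯).injective
  have hΔ0 : Δ ≠ 0 := by
    intro h0
    have h2 := Algebra.discr_not_zero_of_basis K⟮x⟯ b
    rw [hb, hdisc', ← hdisc, h0, map_zero] at h2
    exact h2 rfl
  rcases Nat.eq_zero_or_pos (Δ.rootMultiplicity c) with hα0 | hαpos
  · rw [hα0]; exact Nat.zero_le _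
  obtain ⟨α', hα'⟩ : ∃ α', Δ.rootMultiplicity c = α' + 1 := ⟨_, (Nat.succ_pred_eq_of_pos hαpos).symm⟩
  obtain ⟨p₀, hp₀⟩ := Polynomial.pow_rootMultiplicity_dvd Δ c
  rw [hα'] at hp₀
  set A : Matrix (Fin μ) (Fin μ) K[X] := Γ.adjugate with hA
  have hAΓ : A * Γ = Δ • (1 : Matrix (Fin μ) (Fin μ) K[X]) := by
    rw [hA, Matrix.adjugate_mul, hdisc]
  set yv : Fin μ → F := fun i => ∑ j, aeval x (A i j) * b j with hyv
  have hytr : ∀ (i : Fin μ) (p : Fin μ → K[X]),
      Algebra.trace K⟮x⟯ F (yv i * ∑ l, aeval x (p l) * b l) = ncι x (Δ * p i) := by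
    intro i p
    have e1 : yv i * ∑ l, aeval x (p l) * b l
        = ∑ j, ∑ l, ncι x (A i j * p l) • (b j * b l) := by
      rw [hyv, Finset.sum_mul_sum]
      refine Finset.sum_congr rfl fun j _ => Finset.sum_congr rfl fun l _ => ?_
      rw [ncι_smul, map_mul]; ring
    rw [e1, map_sum]
    simp only [map_sum, map_smul, hΓtr, smul_eq_mul, ← map_mul]
    simp only [← map_sum]
    congr 1
    have e2 : ∀ l, ∑ j, A i j * Γ j l = (Δ • (1 : Matrix (Fin μ) (Fin μ) K[X])) i l := by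
      intro l
      rw [← hAΓ, Matrix.mul_apply]
    rw [Finset.sum_comm]
    calc ∑ l, ∑ j, A i j * p l * Γ j l = ∑ l, (∑ j, A i j * Γ j l) * p l := by
          refine Finset.sum_congr rfl fun l _ => ?_
          rw [Finset.sum_mul]
          exact Finset.sum_congr rfl fun j _ => by ring
      _ = Δ * p i := by
          simp only [e2, Matrix.smul_apply, Matrix.one_apply, smul_eq_mul]
          simp
  set ρ : K⟮x⟯ := ncι x ((X - C c) ^ α') with hρ
  have hρ0 : ρ ≠ 0 := by
    rw [hρ, Ne, ← map_zero (ncι (k := K) x)]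
    intro h
    exact pow_ne_zero _ (X_sub_C_ne_zero c) (ncι_injective hx h)
  set wv : Fin μ → F := fun i => ρ⁻¹ • yv i with hwv
  have hwtr : ∀ i, TrZero b c (wv i) := by
    rintro i _ ⟨p, rfl⟩
    refine ⟨p₀ * p i, ?_⟩
    rw [hwv]
    simp only
    rw [smul_mul_assoc, map_smul, hytr, smul_eq_mul, inv_mul_eq_iff_eq_mul₀ hρ0, hρ, ← map_mul]
    congr 1
    rw [hp₀]; ring
  have hρw : ∀ i, (x - algebraMap K F c) ^ α' * wv i = yv i := by
    intro i
    have : (x - algebraMap K F c) ^ α' = aeval x ((X - C c) ^ α') := by simp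
    rw [this, ← ncι_smul, hwv]
    simp only
    rw [smul_smul, ← hρ, mul_inv_cancel₀ hρ0, one_smul]
  have hwO : ∀ i, wv i ∈ polySpan K x b := by
    intro i
    refine td_key hx hO c (hwtr i) α' ?_
    rw [hρw]
    exact ⟨A i, rfl⟩
  choose Q hQ using hwO
  have hAQ : A = (X - C c) ^ α' • (Matrix.of Q) := by
    ext1 i
    have h0 : ∑ j, aeval x (A i j - (X - C c) ^ α' * Q i j) * b j = 0 := by
      have e1 : ∑ j, aeval x (A i j - (X - C c) ^ α' * Q i j) * b j
          = yv i - (x - algebraMap K F c) ^ α' * wv i := by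
        rw [hQ i, hyv, Finset.mul_sum, ← Finset.sum_sub_distrib]
        refine Finset.sum_congr rfl fun j _ => ?_
        simp only [map_sub, map_mul, map_pow, aeval_X, aeval_C]
        ring
      rw [e1, hρw, sub_self]
    have := hindb _ h0
    intro j
    have h2 := congrFun this j
    simp only [Pi.zero_apply, sub_eq_zero] at h2
    rw [h2]
    rfl
  -- the rows of `Q(c)` lie in `N`
  set Qc : Matrix (Fin μ) (Fin μ) K := (Matrix.of Q).map (Polynomial.eval c) with hQc
  have hrow : ∀ i, Qc i ∈ N := by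
    intro i
    rw [hNmem]
    choose R hR using fun j => X_sub_C_dvd_sub_C_eval (a := c) (p := Q i j)
    have e1 : ∑ j, algebraMap K F (Qc i j) * b j
        = wv i - (x - algebraMap K F c) * ∑ j, aeval x (R j) * b j := by
      rw [hQ i, Finset.mul_sum, ← Finset.sum_sub_distrib]
      refine Finset.sum_congr rfl fun j _ => ?_
      have h3 : Q i j = C ((Q i j).eval c) + (X - C c) * R j := by rw [← hR j]; ring
      have h4 : aeval x (Q i j) = algebraMap K F ((Q i j).eval c)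
          + (x - algebraMap K F c) * aeval x (R j) := by
        conv_lhs => rw [h3]
        simp
      rw [h4]
      have h5 : Qc i j = (Q i j).eval c := rfl
      rw [h5]
      ring
    rw [e1]
    exact (hwtr i).sub (td_trZero_mul hmul c ⟨R, rfl⟩)
  have hrank : Qc.rank ≤ Module.finrank K N := by
    rw [← Matrix.rank_transpose]
    have h4 : Qcᵀ.rank = Module.finrank K (LinearMap.range Qcᵀ.mulVecLin) := rfl
    rw [h4]
    apply Submodule.finrank_mono
    rintro _ ⟨v, rfl⟩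
    rw [Matrix.mulVecLin_apply, Matrix.mulVec_transpose, Matrix.vecMul_eq_sum]
    exact Submodule.sum_mem _ fun i _ => Submodule.smul_mem _ _ (hrow i)
  have hνμ : Module.finrank K N ≤ μ := by
    have := Submodule.finrank_le N
    simpa using this
  have hd := pow_dvd_det_of_rank_add_le (Matrix.of Q) c (μ - Module.finrank K N) (by
    rw [← hQc]; omega)
  have hdetA : A.det = Δ ^ (μ - 1) := by
    rw [hA, Matrix.det_adjugate, Fintype.card_fin, hdisc]
  have hdetA' : A.det = ((X - C c) ^ α') ^ μ * (Matrix.of Q).det := by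
    rw [hAQ, Matrix.det_smul, Fintype.card_fin]
  have hdvd : (X - C c) ^ (α' * μ + (μ - Module.finrank K N)) ∣ Δ ^ (μ - 1) := by
    rw [← hdetA, hdetA', pow_add, ← pow_mul]
    exact mul_dvd_mul_left _ hd
  have hle := (Polynomial.le_rootMultiplicity_iff (pow_ne_zero _ hΔ0)).2 hdvd
  rw [td_rootMultiplicity_pow hΔ0, hα'] at hle
  rw [hα']
  obtain ⟨μ', rfl⟩ : ∃ μ', μ = μ' + 1 := ⟨μ - 1, by omega⟩
  have e3 : α' * (μ' + 1) = α' * μ' + α' := by ring
  have e4 : (μ' + 1 - 1) * (α' + 1) = α' * μ' + μ' := by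
    rw [Nat.add_sub_cancel]; ring
  rw [e3, e4] at hle
  omega

end Fermat.Agent.S18
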